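import Fermat.Agent.MCurve.FuncField
import Mathlib.RingTheory.Valuation.LocalSubring
import Mathlib.Algebra.Order.Monoid.Canonical.Defs

/-!
Every nontrivial valuation ring of a one-variable function field is a place; functions without
zeros and poles are constant. Any characteristic, no separability.
-/

noncomputable section

namespace Fermat.Agent.MCurve

open AlgebraicCurve IntermediateField

variable {K F : Type*} [Field K] [Field F] [Algebra K F] [IsAlgClosed K]

/-- A valuation with values in the integral powers of one element gives a place. -/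
theorem isPrincipalIdealRing_of_valuation {A : ValuationSubring F}
    (r : F → ℤ) (hr : ∀ a b : A, a ≠ 0 → b ≠ 0 → r a ≤ r b → a ∣ b) (hr0 : ∀ a : A, a ≠ 0 → 0 ≤ r a) :
    IsPrincipalIdealRing A := by
  classical
  refine ⟨fun I => ?_⟩
  by_cases hI : I = ⊥
  · exact ⟨0, by rw [hI, Submodule.span_zero_singleton]⟩
  obtain ⟨b, hb, hb0⟩ := Submodule.exists_mem_ne_zero_of_ne_bot hI
  have hex : ∃ n : ℕ, ∃ a ∈ I, a ≠ 0 ∧ (r (a : A)).toNat = n := ⟨_, b, hb, hb0, rfl⟩
  obtain ⟨a, ha, ha0, han⟩ := Nat.find_spec hex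
  refine ⟨a, le_antisymm (fun x hx => ?_) ((Submodule.span_singleton_le_iff_mem _ _).mpr ha)⟩
  rcases eq_or_ne x 0 with rfl | hx0
  · exact zero_mem _
  rw [Ideal.submodule_span_eq, Ideal.mem_span_singleton]
  refine hr a x ha0 hx0 ?_
  have h1 : Nat.find hex ≤ (r (x : A)).toNat := Nat.find_le ⟨x, hx, hx0, rfl⟩
  have h2 := hr0 a ha0
  have h3 := hr0 x hx0
  rw [← han] at h1
  omega

theorem exists_place_valuationSubring {x : F} (h : IsFinOver K x) {A : ValuationSubring F}
    (hK : ∀ a : K, algebraMap K F a ∈ A) (hA : A ≠ ⊤) :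
    ∃ v : Place K F, v.toValuationSubring = A := by
  classical
  haveI := h.finite
  have hint : Algebra.IsAlgebraic K⟮x⟯ F := Algebra.IsAlgebraic.of_finite _ _
  -- the value of some nonzero element of `K(x)` is `< 1`
  obtain ⟨t, ht, ht0, htA⟩ : ∃ t : F, t ∈ K⟮x⟯ ∧ t ≠ 0 ∧ A.valuation t < 1 := by
    by_contra hcon
    push Not at hcon
    have hone : ∀ s : F, s ∈ K⟮x⟯ → s ≠ 0 → A.valuation s = 1 := fun s hs hs0 => by
      refine le_antisymm ?_ (hcon s hs hs0)
      have h2 := hcon s⁻¹ (inv_mem hs) (inv_ne_zero hs0)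
      rw [map_inv₀] at h2
      exact (one_le_inv₀ (zero_lt_iff.mpr ((Valuation.ne_zero_iff _).mpr hs0))).mp h2
    refine hA (SetLike.ext fun y => iff_of_true ?_ trivial)
    have hsub : ∀ s : K⟮x⟯, (s : F) ∈ A := fun s => by
      rcases eq_or_ne (s : F) 0 with h0 | h0
      · rw [h0]; exact zero_mem A
      · exact (A.valuation_le_one_iff _).mp (hone _ s.2 h0).le
    letI : Algebra K⟮x⟯ A :=
      ((algebraMap K⟮x⟯ F).codRestrict A.toSubring hsub).toAlgebra
    haveI : IsScalarTower K⟮x⟯ A F := IsScalarTower.of_algebraMap_eq fun _ => rfl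
    have hy : IsIntegral A y := ((hint.isAlgebraic y).isIntegral).tower_top
    obtain ⟨z, hz⟩ := IsIntegrallyClosed.isIntegral_iff.mp hy
    exact hz ▸ z.2
  -- the values on `K(x)` are powers of one value
  obtain ⟨γ, hγ0, hγ1, hγ⟩ : ∃ γ : A.ValueGroup, γ ≠ 0 ∧ γ < 1 ∧
      ∀ s : F, s ∈ K⟮x⟯ → s ≠ 0 → ∃ i : ℤ, A.valuation s = γ ^ i := by
    obtain ⟨u, hu, hu1, hulin⟩ : ∃ u : F, u ∈ K⟮x⟯ ∧ A.valuation u < 1 ∧ u ≠ 0 ∧
        ∀ p : Polynomial K, p ≠ 0 → ∃ i : ℤ, A.valuation (Polynomial.aeval x p) = A.valuation u ^ i := by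
      have hKv : ∀ a : K, a ≠ 0 → A.valuation (algebraMap K F a) = 1 := fun a ha => by
        refine le_antisymm ((A.valuation_le_one_iff _).mpr (hK a)) ?_
        have h2 := (A.valuation_le_one_iff _).mpr (hK a⁻¹)
        rw [map_inv₀, map_inv₀] at h2
        exact (inv_le_one₀ (zero_lt_iff.mpr ((Valuation.ne_zero_iff _).mpr
          ((map_ne_zero _).mpr ha)))).mp h2
      have hlin : ∀ (u : F), u ≠ 0 → (∀ b : K, ∃ i : ℤ, A.valuation (x - algebraMap K F b) = A.valuation u ^ i) →
          ∀ p : Polynomial K, p ≠ 0 →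
            ∃ i : ℤ, A.valuation (Polynomial.aeval x p) = A.valuation u ^ i := by
        intro u hu0 hu p
        induction hn : p.natDegree using Nat.strong_induction_on generalizing p with
        | _ n ih =>
          intro hp
          by_cases hd : p.natDegree = 0
          · refine ⟨0, ?_⟩
            obtain ⟨a, rfl⟩ := Polynomial.natDegree_eq_zero.mp hd
            rw [Polynomial.aeval_C, zpow_zero, hKv a (by simpa using hp)]
          · obtain ⟨b, hb⟩ := IsAlgClosed.exists_root p (by
              intro h0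
              exact hd (Polynomial.natDegree_eq_zero_iff_degree_le_zero.mpr h0.le))
            obtain ⟨q, rfl⟩ := Polynomial.dvd_iff_isRoot.mpr hb
            have hq : q ≠ 0 := fun h0 => hp (by rw [h0, mul_zero])
            obtain ⟨i, hi⟩ := hu b
            obtain ⟨k, hk⟩ := ih q.natDegree (by
              rw [← hn, Polynomial.natDegree_mul (Polynomial.X_sub_C_ne_zero b) hq,
                Polynomial.natDegree_X_sub_C]; omega) q rfl hq
            refine ⟨i + k, ?_⟩
            rw [zpow_add₀ ((Valuation.ne_zero_iff _).mpr hu0), ← hi, ← hk, map_mul, map_mul]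
            simp
      by_cases hx : A.valuation x ≤ 1
      · obtain ⟨c, hc⟩ : ∃ c : K, A.valuation (x - algebraMap K F c) < 1 := by
          by_contra hcon
          push Not at hcon
          have h1 : ∀ b : K, A.valuation (x - algebraMap K F b) = 1 := fun b =>
            le_antisymm ((A.valuation_le_one_iff _).mpr
              (sub_mem ((A.valuation_le_one_iff _).mp hx) (hK b))) (hcon b)
          obtain ⟨p, q, hpq⟩ := (mem_adjoin_simple_iff _ _).mp ht
          have key : ∀ p : Polynomial K, p ≠ 0 → A.valuation (Polynomial.aeval x p) = 1 := by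
            intro p hp
            obtain ⟨i, hi⟩ := hlin 1 one_ne_zero (fun b => ⟨0, by rw [zpow_zero, h1 b]⟩) p hp
            rw [hi, map_one, one_zpow]
          have hp0 : p ≠ 0 := fun h0 => ht0 (by rw [hpq, h0, map_zero, zero_div])
          have hq0 : q ≠ 0 := fun h0 => ht0 (by rw [hpq, h0, map_zero, div_zero])
          rw [hpq, map_div₀, key p hp0, key q hq0, div_one] at htA
          exact lt_irrefl _ htA
        have hne : x - algebraMap K F c ≠ 0 := fun h0 =>
          h.transcendental (sub_eq_zero.mp h0 ▸ isAlgebraic_algebraMap c)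
        refine ⟨x - algebraMap K F c, sub_mem (mem_adjoin_simple_self K x) (IntermediateField.algebraMap_mem _ c), hc,
          hne, hlin _ hne fun b => ?_⟩
        rcases eq_or_ne b c with rfl | hbc
        · exact ⟨1, (zpow_one _).symm⟩
        · refine ⟨0, ?_⟩
          rw [zpow_zero, show x - algebraMap K F b =
            algebraMap K F (c - b) + (x - algebraMap K F c) by rw [map_sub]; ring,
            Valuation.map_add_eq_of_lt_left _ (by rw [hKv _ (sub_ne_zero.mpr hbc.symm)]; exact hc),
            hKv _ (sub_ne_zero.mpr hbc.symm)]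
      · have hx0 : x ≠ 0 := fun h0 => hx (by rw [h0, map_zero]; exact zero_le)
        refine ⟨x⁻¹, inv_mem (mem_adjoin_simple_self K x), ?_, inv_ne_zero hx0,
          hlin _ (inv_ne_zero hx0) fun b => ⟨-1, ?_⟩⟩
        · rw [map_inv₀]; exact inv_lt_one_of_one_lt₀ (not_le.mp hx)
        · rw [map_inv₀, zpow_neg_one, inv_inv, sub_eq_add_neg,
            Valuation.map_add_eq_of_lt_left _ ?_]
          rw [Valuation.map_neg]
          exact ((A.valuation_le_one_iff _).mpr (hK b)).trans_lt (not_le.mp hx)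
    refine ⟨A.valuation u, (Valuation.ne_zero_iff _).mpr hulin.1, hu1, fun s hs hs0 => ?_⟩
    obtain ⟨p, q, hpq⟩ := (mem_adjoin_simple_iff _ _).mp hs
    have hp0 : p ≠ 0 := fun h0 => hs0 (by rw [hpq, h0, map_zero, zero_div])
    have hq0 : q ≠ 0 := fun h0 => hs0 (by rw [hpq, h0, map_zero, div_zero])
    obtain ⟨i, hi⟩ := hulin.2 p hp0
    obtain ⟨k, hk⟩ := hulin.2 q hq0
    exact ⟨i - k, by rw [hpq, map_div₀, hi, hk, zpow_sub₀ ((Valuation.ne_zero_iff _).mpr hulin.1)]⟩
  -- a bounded power of every value is such a power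
  set n := Module.finrank K⟮x⟯ F
  have hpow : ∀ y : F, y ≠ 0 → ∃ i : ℤ, A.valuation y ^ (n.factorial) = γ ^ i := by
    intro y hy
    set m := minpoly K⟮x⟯ y with hm
    have hyint : IsIntegral K⟮x⟯ y := (hint.isAlgebraic y).isIntegral
    have hsum : ∑ i ∈ Finset.range (m.natDegree + 1), (m.coeff i : F) * y ^ i = 0 := by
      have := minpoly.aeval K⟮x⟯ y
      rwa [Polynomial.aeval_eq_sum_range] at this
    obtain ⟨a, b, hab, hbn, hv⟩ : ∃ a b : ℕ, a < b ∧ b ≤ m.natDegree ∧
        A.valuation ((m.coeff a : F) * y ^ a) = A.valuation ((m.coeff b : F) * y ^ b) ∧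
        m.coeff a ≠ 0 := by
      obtain ⟨a, ha, hamax⟩ := Finset.exists_max_image (Finset.range (m.natDegree + 1))
        (fun i => A.valuation ((m.coeff i : F) * y ^ i)) ⟨0, by simp⟩
      have ha0 : A.valuation ((m.coeff a : F) * y ^ a) ≠ 0 := fun h0 => by
        have := hamax m.natDegree (by simp)
        rw [h0, (minpoly.monic hyint).coeff_natDegree, nonpos_iff_eq_zero] at this
        simp [hy] at this
      have hca : m.coeff a ≠ 0 := fun h0 => ha0 (by rw [h0]; simp)
      by_contra hcon
      push Not at hcon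
      refine ha0 ?_
      have hne : ∀ i ∈ (Finset.range (m.natDegree + 1)).erase a,
          A.valuation ((m.coeff i : F) * y ^ i) < A.valuation ((m.coeff a : F) * y ^ a) := by
        intro i hi
        refine lt_of_le_of_ne (hamax i (Finset.mem_of_mem_erase hi)) fun heq => ?_
        rw [Finset.mem_erase, Finset.mem_range, Nat.lt_succ_iff] at hi
        rcases lt_or_gt_of_ne hi.1 with hlt | hlt
        · have hci : m.coeff i ≠ 0 := fun h0 => ha0 (by rw [← heq, h0]; simp)
          exact hci (hcon i a hlt (Nat.lt_succ_iff.mp (Finset.mem_range.mp ha)) heq)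
        · exact hca (hcon a i hlt hi.2 heq.symm)
      rw [← Finset.add_sum_erase _ _ ha, add_eq_zero_iff_eq_neg] at hsum
      have hlt := Valuation.map_sum_lt A.valuation ha0 hne
      rw [← Valuation.map_neg A.valuation (∑ i ∈ _, _), ← hsum] at hlt
      exact absurd hlt (lt_irrefl _)
    obtain ⟨hv, hca⟩ := hv
    have hcb : m.coeff b ≠ 0 := fun h0 => by
      rw [h0, map_mul A.valuation] at hv
      simp [hca, hy] at hv
    obtain ⟨i, hi⟩ := hγ (m.coeff a : F) (m.coeff a).2 (by simpa using hca)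
    obtain ⟨k, hk⟩ := hγ (m.coeff b : F) (m.coeff b).2 (by simpa using hcb)
    rw [map_mul, map_mul, map_pow, map_pow, hi, hk, ← Nat.sub_add_cancel hab.le, pow_add,
      ← mul_assoc] at hv
    have hv' : A.valuation y ^ (b - a) = γ ^ (i - k) := by
      rw [zpow_sub₀ hγ0, eq_div_iff (zpow_ne_zero _ hγ0), mul_comm]
      exact (mul_right_cancel₀ (pow_ne_zero _ ((Valuation.ne_zero_iff _).mpr hy)) hv).symm
    have hbn' : b - a ≤ n := le_trans (Nat.sub_le _ _) (hbn.trans (minpoly.natDegree_le y))
    obtain ⟨c, hc⟩ := Nat.dvd_factorial (show 0 < b - a by omega) hbn'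
    exact ⟨(i - k) * c, by rw [hc, pow_mul, hv', zpow_mul, zpow_natCast]⟩
  choose! r hr using hpow
  refine ⟨⟨A, hK, hA, isPrincipalIdealRing_of_valuation r (fun a b ha hb hab => ?_) (fun a ha => ?_)⟩,
    rfl⟩
  · have ha' : (a : F) ≠ 0 := by simpa using ha
    have hb' : (b : F) ≠ 0 := by simpa using hb
    have hle : A.valuation (b : F) ≤ A.valuation (a : F) := by
      refine (pow_le_pow_iff_left₀ zero_le zero_le n.factorial_ne_zero).mp ?_
      rw [hr _ ha', hr _ hb']
      exact (zpow_le_zpow_iff_right_of_lt_one₀ (zero_lt_iff.mpr hγ0) hγ1).mpr hab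
    obtain ⟨c, hc⟩ := (A.valuation_le_iff _ _).mp hle
    exact ⟨c, Subtype.ext (by push_cast; rw [mul_comm, hc])⟩
  · have ha' : (a : F) ≠ 0 := by simpa using ha
    refine (zpow_le_zpow_iff_right_of_lt_one₀ (zero_lt_iff.mpr hγ0) hγ1).mp ?_
    rw [← hr _ ha', zpow_zero]
    exact pow_le_one₀ zero_le ((A.valuation_le_one_iff _).mpr a.2)

theorem exists_ord_ne_zero {x : F} (h : IsFinOver K x) {f : F} (hf : Transcendental K f) :
    ∃ v : Place K F, v.ord f ≠ 0 := by
  have hf0 : f ≠ 0 := fun h0 => hf (h0 ▸ isAlgebraic_zero)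
  have hnot : f ∉ (⨅ V : {V : ValuationSubring F // Set.range (algebraMap K F) ⊆ V.toSubring},
      V.1.toSubring) := by
    rw [iInf_valuationSubring_superset]
    intro hint
    refine hf (IsIntegral.isAlgebraic ?_)
    have hle : Subring.closure (Set.range (algebraMap K F)) ≤ (algebraMap K F).range :=
      Subring.closure_le.mpr (RingHom.coe_range _).ge
    obtain ⟨P, hP, hPf⟩ := hint
    have hl : P.map (Subring.closure (Set.range (algebraMap K F))).subtype ∈
        Polynomial.lifts (algebraMap K F) := (Polynomial.lifts_iff_coeff_lifts _).mpr fun i => by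
      rw [Polynomial.coeff_map]; exact hle (P.coeff i).2
    obtain ⟨Q, hQ, -, hQm⟩ := Polynomial.lifts_and_natDegree_eq_and_monic hl (hP.map _)
    refine ⟨Q, hQm, ?_⟩
    rw [Polynomial.eval₂_eq_eval_map, hQ, Polynomial.eval_map]
    exact hPf
  rw [Subring.mem_iInf, not_forall] at hnot
  obtain ⟨⟨V, hV⟩, hVf⟩ := hnot
  obtain ⟨v, hv⟩ := exists_place_valuationSubring h (A := V) (fun a => hV ⟨a, rfl⟩)
    (fun htop => hVf (show f ∈ V from htop.symm ▸ ValuationSubring.mem_top f))
  exact ⟨v, fun h0 => hVf ((hv ▸ (mem_iff_ord_nonneg v hf0).mpr h0.ge :))⟩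

/-- A function without zeros and poles is constant. -/
theorem exists_const_of_ord_eq_zero {x : F} (h : IsFinOver K x) {f : F} (hf0 : f ≠ 0)
    (hf : ∀ v : Place K F, v.ord f = 0) : ∃ a : K, a ≠ 0 ∧ algebraMap K F a = f := by
  by_cases halg : IsAlgebraic K f
  · haveI : FiniteDimensional K K⟮f⟯ := adjoin.finiteDimensional halg.isIntegral
    obtain ⟨a, ha'⟩ := (IsAlgClosed.algebraMap_bijective_of_isIntegral (k := K) (K := K⟮f⟯)).surjective
      ⟨f, mem_adjoin_simple_self K f⟩
    have ha : algebraMap K F a = f := congrArg Subtype.val ha'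
    exact ⟨a, fun h0 => hf0 (by rw [← ha, h0, map_zero]), ha⟩
  · obtain ⟨v, hv⟩ := exists_ord_ne_zero h halg
    exact absurd (hf v) hv

end Fermat.Agent.MCurve
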