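import Fermat.Prelude.Def_AlgebraicCurve_IsCurveOver
import Mathlib.FieldTheory.IsAlgClosed.Basic
import Mathlib.RingTheory.Valuation.ValuationSubring

/-!
Basic facts about places of a function field in the sense of the prelude.
-/

noncomputable section

namespace Fermat.Agent.MCurve

open AlgebraicCurve IsLocalRing

variable {K F : Type*} [Field K] [Field F] [Algebra K F] (v : Place K F)

theorem ord_nonneg_of_mem' {f : F} (hf : f ∈ v.toValuationSubring) : 0 ≤ v.ord f := by
  rcases eq_or_ne f 0 with rfl | hf0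
  · simp
  obtain ⟨π, hπ⟩ := IsDiscreteValuationRing.exists_irreducible v.toValuationSubring
  obtain ⟨n, u, hu⟩ :=
    IsDiscreteValuationRing.eq_unit_mul_pow_irreducible
      (x := (⟨f, hf⟩ : v.toValuationSubring)) (by simpa [Subtype.ext_iff] using hf0) hπ
  have hcoe : f = ((u : v.toValuationSubring) : F) * ((π : F) ^ (n : ℤ)) := by
    have h := congrArg (Subtype.val) hu
    push_cast at h
    rw [zpow_natCast]
    exact h
  rw [hcoe, v.ord_unit_smul_zpow u hπ (n : ℤ)]
  exact Int.natCast_nonneg n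

theorem mem_iff_ord_nonneg {f : F} (hf : f ≠ 0) :
    f ∈ v.toValuationSubring ↔ 0 ≤ v.ord f := by
  refine ⟨ord_nonneg_of_mem' v, fun h => ?_⟩
  obtain ⟨π, hπ⟩ := IsDiscreteValuationRing.exists_irreducible v.toValuationSubring
  obtain ⟨u, hu⟩ := v.exists_unit_mul_zpow hf hπ
  rw [hu, show v.ord f = (((v.ord f).toNat : ℕ) : ℤ) from (Int.toNat_of_nonneg h).symm,
    zpow_natCast]
  exact mul_mem (u : v.toValuationSubring).2 (pow_mem (π : v.toValuationSubring).2 _)

theorem exists_ord_eq_one : ∃ π : F, π ≠ 0 ∧ v.ord π = 1 := by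
  obtain ⟨π, hπ⟩ := IsDiscreteValuationRing.exists_irreducible v.toValuationSubring
  exact ⟨π, by simpa using hπ.ne_zero, v.ord_coe_irreducible hπ⟩

theorem ord_pow (f : F) (n : ℕ) : v.ord (f ^ n) = n * v.ord f := by
  have := v.ord_zpow f n
  simpa using this

theorem ord_neg (f : F) : v.ord (-f) = v.ord f := by
  show -(WithZero.log (v.adicValuation (-f))) = _
  rw [Valuation.map_neg]; rfl

theorem ord_algebraMap (a : K) : v.ord (algebraMap K F a) = 0 := by
  rcases eq_or_ne a 0 with rfl | ha
  · simp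
  have h1 := ord_nonneg_of_mem' v (v.algebraMap_mem' a)
  have h2 := ord_nonneg_of_mem' v (v.algebraMap_mem' a⁻¹)
  rw [map_inv₀, v.ord_inv] at h2
  omega

theorem ord_smul_const {a : K} (ha : a ≠ 0) (f : F) : v.ord (a • f) = v.ord f := by
  rcases eq_or_ne f 0 with rfl | hf
  · simp
  rw [Algebra.smul_def, v.ord_mul (by simpa using ha) hf, ord_algebraMap, zero_add]

theorem ord_add_le {f g : F} (hf : f ≠ 0) (hg : g ≠ 0) (hfg : f + g ≠ 0) :
    min (v.ord f) (v.ord g) ≤ v.ord (f + g) := by
  wlog h : v.ord f ≤ v.ord g generalizing f g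
  · rw [min_comm, add_comm f g]
    exact this hg hf (by rwa [add_comm]) (le_of_not_ge h)
  rw [min_eq_left h]
  have hm : f⁻¹ * g ∈ v.toValuationSubring :=
    (mem_iff_ord_nonneg v (mul_ne_zero (inv_ne_zero hf) hg)).mpr
      (by rw [v.ord_mul (inv_ne_zero hf) hg, v.ord_inv]; omega)
  have h1 : 1 + f⁻¹ * g ∈ v.toValuationSubring := add_mem (one_mem _) hm
  have h2 := ord_nonneg_of_mem' v h1
  have h3 : f + g = f * (1 + f⁻¹ * g) := by field_simp
  rw [h3, v.ord_mul hf (by intro h0; exact hfg (by rw [h3, h0, mul_zero]))]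
  omega

theorem ord_add_eq {f g : F} (hf : f ≠ 0) (hg : g ≠ 0) (h : v.ord f < v.ord g) :
    v.ord (f + g) = v.ord f := by
  have hfg : f + g ≠ 0 := fun h0 => by
    rw [eq_neg_of_add_eq_zero_left h0, ord_neg] at h
    exact lt_irrefl _ h
  have h1 := ord_add_le v hf hg hfg
  have h2 := ord_add_le v hfg (neg_ne_zero.mpr hg) (by simpa using hf)
  rw [add_neg_cancel_right, ord_neg] at h2
  omega

/-- A proper valuation ring containing the ring of a place is equal to it. -/
theorem toValuationSubring_eq_of_le {A : ValuationSubring F}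
    (h : v.toValuationSubring ≤ A) (hA : A ≠ ⊤) : v.toValuationSubring = A := by
  refine le_antisymm h fun y hy => ?_
  by_contra hyv
  have hy0 : y ≠ 0 := fun h0 => hyv (h0 ▸ zero_mem _)
  have hneg : v.ord y < 0 := by
    by_contra hc
    exact hyv ((mem_iff_ord_nonneg v hy0).mpr (not_lt.mp hc))
  refine hA (SetLike.ext fun z => ⟨fun _ => ValuationSubring.mem_top z, fun _ => ?_⟩)
  rcases eq_or_ne z 0 with rfl | hz
  · exact zero_mem _
  obtain ⟨k, hk⟩ : ∃ k : ℕ, 0 ≤ v.ord z - k * v.ord y := ⟨(v.ord z).natAbs, by nlinarith [abs_nonneg (v.ord z), neg_abs_le (v.ord z), Int.natCast_natAbs (v.ord z)]⟩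
  have hk' : z * (y ^ k)⁻¹ ∈ v.toValuationSubring :=
    (mem_iff_ord_nonneg v (mul_ne_zero hz (inv_ne_zero (pow_ne_zero k hy0)))).mpr
      (by rw [v.ord_mul hz (inv_ne_zero (pow_ne_zero k hy0)), v.ord_inv, ord_pow]; omega)
  have := mul_mem (h hk') (pow_mem hy k)
  rwa [mul_assoc, inv_mul_cancel₀ (pow_ne_zero k hy0), mul_one] at this

/-- A place contained in another one is equal to it. -/
theorem place_eq_of_le {v w : Place K F}
    (h : v.toValuationSubring ≤ w.toValuationSubring) : v = w :=
  Place.ext (toValuationSubring_eq_of_le v h w.ne_top')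

/-- Recognise the order function of a place. -/
theorem ord_eq_of (w : F → ℤ) (hmul : ∀ {f g : F}, f ≠ 0 → g ≠ 0 → w (f * g) = w f + w g)
    (hmem : ∀ {f : F}, f ≠ 0 → (f ∈ v.toValuationSubring ↔ 0 ≤ w f))
    (hsurj : ∃ f : F, f ≠ 0 ∧ w f = 1) {f : F} (hf : f ≠ 0) : v.ord f = w f := by
  have hw1 : w 1 = 0 := by
    have := hmul (one_ne_zero (α := F)) one_ne_zero
    rw [one_mul] at this; omega
  have hpow : ∀ {g : F}, g ≠ 0 → ∀ n : ℕ, w (g ^ n) = n * w g := by
    intro g hg n
    induction n with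
    | zero => simp [hw1]
    | succ n ih => rw [pow_succ, hmul (pow_ne_zero n hg) hg, ih]; push_cast; ring
  have hzpow : ∀ {g : F}, g ≠ 0 → ∀ n : ℤ, w (g ^ n) = n * w g := by
    intro g hg n
    obtain ⟨m, rfl | rfl⟩ := Int.eq_nat_or_neg n
    · simpa using hpow hg m
    · have := hmul (pow_ne_zero m hg) (inv_ne_zero (pow_ne_zero m hg))
      rw [mul_inv_cancel₀ (pow_ne_zero m hg), hw1, hpow hg] at this
      rw [zpow_neg, zpow_natCast]; linarith
  obtain ⟨π, hπ0, hπ⟩ := exists_ord_eq_one v
  have hzero : ∀ {u : F}, u ≠ 0 → v.ord u = 0 → w u = 0 := by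
    intro u hu h0
    have h1 := (hmem hu).mp ((mem_iff_ord_nonneg v hu).mpr h0.ge)
    have h2 := (hmem (inv_ne_zero hu)).mp
      ((mem_iff_ord_nonneg v (inv_ne_zero hu)).mpr (by rw [v.ord_inv]; omega))
    have := hmul hu (inv_ne_zero hu)
    rw [mul_inv_cancel₀ hu, hw1] at this; omega
  have hkey : ∀ {g : F}, g ≠ 0 → w g = v.ord g * w π := by
    intro g hg
    have hne : g * (π ^ v.ord g)⁻¹ ≠ 0 := mul_ne_zero hg (inv_ne_zero (zpow_ne_zero _ hπ0))
    have h0 : v.ord (g * (π ^ v.ord g)⁻¹) = 0 := by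
      rw [v.ord_mul hg (inv_ne_zero (zpow_ne_zero _ hπ0)), v.ord_inv, v.ord_zpow, hπ]; ring
    have := hmul hne (zpow_ne_zero (v.ord g) hπ0)
    rw [inv_mul_cancel_right₀ (zpow_ne_zero _ hπ0), hzero hne h0, hzpow hπ0] at this
    linarith
  have hpos : 0 ≤ w π := (hmem hπ0).mp ((mem_iff_ord_nonneg v hπ0).mpr (by omega))
  obtain ⟨e, he0, he⟩ := hsurj
  have hu : IsUnit (w π) := isUnit_of_dvd_one ⟨v.ord e, by rw [mul_comm, ← hkey he0, he]⟩
  have : w π = 1 := by rcases Int.isUnit_iff.mp hu with h | h <;> omega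
  rw [hkey hf, this, mul_one]

section Value

theorem exists_value [IsAlgClosed K] [Module.Finite K v.ResidueField] {f : F}
    (hf : f ∈ v.toValuationSubring) :
    ∃ a : K, f = algebraMap K F a ∨ 0 < v.ord (f - algebraMap K F a) := by
  obtain ⟨a, ha⟩ := (IsAlgClosed.algebraMap_bijective_of_isIntegral
    (k := K) (K := v.ResidueField)).surjective (IsLocalRing.residue _ ⟨f, hf⟩)
  refine ⟨a, ?_⟩
  by_cases h : f = algebraMap K F a
  · exact Or.inl h
  refine Or.inr ?_
  have hne : f - algebraMap K F a ≠ 0 := sub_ne_zero.mpr h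
  have hm : f - algebraMap K F a ∈ v.toValuationSubring := sub_mem hf (v.algebraMap_mem' a)
  refine lt_of_le_of_ne (ord_nonneg_of_mem' v hm) fun h0 => ?_
  have hinv : (f - algebraMap K F a)⁻¹ ∈ v.toValuationSubring :=
    (mem_iff_ord_nonneg v (inv_ne_zero hne)).mpr (by rw [v.ord_inv]; omega)
  have hunit : IsUnit (⟨f, hf⟩ - algebraMap K v.toValuationSubring a) :=
    .of_mul_eq_one ⟨_, hinv⟩ (Subtype.ext (mul_inv_cancel₀ hne))
  have := hunit.map (IsLocalRing.residue v.toValuationSubring)
  rw [map_sub, ← ha, show IsLocalRing.residue _ (algebraMap K v.toValuationSubring a) =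
    algebraMap K v.ResidueField a from rfl, sub_self] at this
  exact not_isUnit_zero this

end Value

section Transport

variable {F' : Type*} [Field F'] [Algebra K F'] (e : F ≃ₐ[K] F')

/-- Transport of a place along an isomorphism of function fields. -/
def placeMap (v : Place K F) : Place K F' where
  toValuationSubring := v.toValuationSubring.comap (e.symm : F' →+* F)
  algebraMap_mem' a := by
    show e.symm (algebraMap K F' a) ∈ v.toValuationSubring
    rw [e.symm.commutes]; exact v.algebraMap_mem' a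
  ne_top' h := v.ne_top' <| SetLike.ext fun x => ⟨fun _ => ValuationSubring.mem_top x, fun _ => by
    have : e x ∈ v.toValuationSubring.comap (e.symm : F' →+* F) := h ▸ ValuationSubring.mem_top _
    simpa using ValuationSubring.mem_comap.mp this⟩
  isPrincipalIdealRing' := by
    let φ : v.toValuationSubring →+* v.toValuationSubring.comap (e.symm : F' →+* F) :=
      { toFun := fun x => ⟨e x, ValuationSubring.mem_comap.mpr (by simp)⟩
        map_one' := Subtype.ext (map_one e)
        map_mul' := fun _ _ => Subtype.ext (map_mul e _ _)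
        map_zero' := Subtype.ext (map_zero e)
        map_add' := fun _ _ => Subtype.ext (map_add e _ _) }
    refine IsPrincipalIdealRing.of_surjective φ fun y => ⟨⟨e.symm y, y.2⟩, Subtype.ext ?_⟩
    exact e.apply_symm_apply y

theorem mem_placeMap {f : F'} :
    f ∈ (placeMap e v).toValuationSubring ↔ e.symm f ∈ v.toValuationSubring := Iff.rfl

theorem ord_placeMap (f : F) : (placeMap e v).ord (e f) = v.ord f := by
  rcases eq_or_ne f 0 with rfl | hf
  · simp
  have := ord_eq_of (placeMap e v) (fun g => v.ord (e.symm g))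
    (fun {a b} ha hb => by rw [map_mul, v.ord_mul (by simpa using ha) (by simpa using hb)])
    (fun {a} ha => by rw [mem_placeMap, mem_iff_ord_nonneg v (by simpa using ha)])
    (by obtain ⟨π, h0, h⟩ := exists_ord_eq_one v; exact ⟨e π, by simpa using h0, by simpa⟩)
    (f := e f) (by simpa using hf)
  simpa using this

/-- Places of isomorphic function fields correspond. -/
def placeEquiv : Place K F ≃ Place K F' where
  toFun := placeMap e
  invFun := placeMap e.symm
  left_inv v := Place.ext (SetLike.ext fun x => by simp [mem_placeMap])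
  right_inv v := Place.ext (SetLike.ext fun x => by simp [mem_placeMap])

theorem ord_placeEquiv (f : F) : (placeEquiv e v).ord (e f) = v.ord f := ord_placeMap v e f

end Transport

end Fermat.Agent.MCurve
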