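import Fermat.Agent.MCurve.QExp
import Fermat.Prelude.Def_ModularCurve_X0ModL
import Mathlib.NumberTheory.ModularForms.LevelOne.DimensionFormula
import Mathlib.NumberTheory.ModularForms.Discriminant
import Mathlib.Analysis.Complex.LocallyUniformLimit

/-!
The analytic `j`-function and its `q`-expansion, identified with the formal series `ModularCurve.jq`.
-/

noncomputable section

namespace Fermat.Agent.MCurve

open Complex Filter Function Topology
open scoped Real PowerSeries.WithPiTopology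

local notation "𝕢" => Function.Periodic.qParam
local notation "ℍ" => UpperHalfPlane

/-- The `j`-function. -/
def jFn (τ : ℍ) : ℂ := ModularForm.E₄ τ ^ 3 / ModularForm.discriminant τ

/-- Taylor series give `q`-expansions. -/
theorem QExp.of_differentiableOn {h : ℝ} (hh : 0 < h) {G : ℂ → ℂ}
    (hG : DifferentiableOn ℂ G (Metric.ball 0 1)) :
    QExp h (fun τ : ℍ => G (𝕢 h (τ : ℂ)))
      (PowerSeries.mk fun n => (n.factorial : ℂ)⁻¹ * iteratedDeriv n G 0) := fun τ => by
  have hq : 𝕢 h (τ : ℂ) ∈ Metric.ball (0 : ℂ) 1 := by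
    rw [Metric.mem_ball, dist_zero_right]
    exact Periodic.norm_qParam_lt_one hh τ.im_pos
  have := Complex.hasSum_taylorSeries_on_ball hG hq
  refine this.congr_fun fun n => ?_
  simp only [PowerSeries.coeff_mk, smul_eq_mul, sub_zero]
  ring

section Product

/-- The infinite product `∏ (1 - q ^ (n + 1))`. -/
def etaFn (q : ℂ) : ℂ := ∏' n : ℕ, (1 - q ^ (n + 1))

theorem iteratedDeriv_eval (P : Polynomial ℂ) (n : ℕ) :
    iteratedDeriv n (fun q => P.eval q) = fun q => ((Polynomial.derivative)^[n] P).eval q := by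
  induction n with
  | zero => simp
  | succ n ih =>
    rw [iteratedDeriv_succ, ih]
    funext q
    rw [Polynomial.deriv, Function.iterate_succ_apply']

theorem tendsto_etaPoly_deriv (n : ℕ) :
    TendstoLocallyUniformlyOn (fun (s : Finset ℕ) => iteratedDeriv n
      (fun q : ℂ => (∏ i ∈ s, (1 - Polynomial.X ^ (i + 1) : Polynomial ℂ)).eval q))
      (iteratedDeriv n etaFn) atTop (Metric.ball (0 : ℂ) 1) := by
  induction n with
  | zero =>
    have := ModularForm.multipliableLocallyUniformlyOn_one_sub_pow.hasProdLocallyUniformlyOn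
    rw [hasProdLocallyUniformlyOn_iff_tendstoLocallyUniformlyOn] at this
    simp only [iteratedDeriv_zero, Polynomial.eval_prod, Polynomial.eval_sub, Polynomial.eval_one,
      Polynomial.eval_pow, Polynomial.eval_X]
    exact this
  | succ n ih =>
    have hd : ∀ᶠ s in (atTop : Filter (Finset ℕ)), DifferentiableOn ℂ (iteratedDeriv n
        (fun q : ℂ => (∏ i ∈ s, (1 - Polynomial.X ^ (i + 1) : Polynomial ℂ)).eval q))
        (Metric.ball 0 1) := .of_forall fun s => by
      rw [iteratedDeriv_eval]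
      exact (Polynomial.differentiable _).differentiableOn
    have := ih.deriv hd Metric.isOpen_ball
    simpa [Function.comp_def, iteratedDeriv_succ] using this

theorem coeff_etaProd_eq (n : ℕ) :
    ((PowerSeries.coeff n ModularCurve.etaProd : ℤ) : ℂ) =
      (n.factorial : ℂ)⁻¹ * iteratedDeriv n etaFn 0 := by
  have hprod := (PowerSeries.WithPiTopology.multipliable_one_sub_X_pow ℤ).hasProd
  have h1 := (PowerSeries.WithPiTopology.tendsto_iff_coeff_tendsto ℤ _ _ _).mp hprod n
  rw [nhds_discrete, tendsto_pure] at h1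
  have hmap : ∀ s : Finset ℕ,
      ((∏ i ∈ s, (1 - Polynomial.X ^ (i + 1) : Polynomial ℂ)).coeff n) =
        ((PowerSeries.coeff n (∏ i ∈ s, (1 - PowerSeries.X ^ (i + 1) : PowerSeries ℤ)) : ℤ) : ℂ) := by
    intro s
    rw [← Polynomial.coeff_coe,
      show ((∏ i ∈ s, (1 - Polynomial.X ^ (i + 1) : Polynomial ℂ) : Polynomial ℂ) : PowerSeries ℂ) =
        PowerSeries.map (Int.castRingHom ℂ) (∏ i ∈ s, (1 - PowerSeries.X ^ (i + 1))) from ?_,
      PowerSeries.coeff_map]
    · rfl
    · rw [map_prod, ← Polynomial.coeToPowerSeries.ringHom_apply, map_prod]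
      simp
  have h2 : Tendsto (fun s : Finset ℕ =>
      iteratedDeriv n (fun q : ℂ => (∏ i ∈ s, (1 - Polynomial.X ^ (i + 1) : Polynomial ℂ)).eval q) 0)
      atTop (𝓝 (iteratedDeriv n etaFn 0)) :=
    (tendsto_etaPoly_deriv n).tendsto_at (Metric.mem_ball_self one_pos)
  have h3 : Tendsto (fun s : Finset ℕ =>
      iteratedDeriv n (fun q : ℂ => (∏ i ∈ s, (1 - Polynomial.X ^ (i + 1) : Polynomial ℂ)).eval q) 0)
      atTop (𝓝 ((n.factorial : ℂ) * ((PowerSeries.coeff n ModularCurve.etaProd : ℤ) : ℂ))) := by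
    refine tendsto_const_nhds.congr' ?_
    filter_upwards [h1] with s hs
    rw [iteratedDeriv_eval]
    show _ = ((Polynomial.derivative)^[n] _).eval 0
    rw [← Polynomial.coeff_zero_eq_eval_zero, Polynomial.coeff_iterate_derivative, zero_add,
      Nat.descFactorial_self, nsmul_eq_mul, hmap, hs]
    rfl
  rw [tendsto_nhds_unique h2 h3, ← mul_assoc,
    inv_mul_cancel₀ (by exact_mod_cast n.factorial_ne_zero), one_mul]

theorem qExp_etaFn :
    QExp 1 (fun τ : ℍ => etaFn (𝕢 1 (τ : ℂ)))
      (ModularCurve.etaProd.map (Int.castRingHom ℂ)) := by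
  have := QExp.of_differentiableOn (h := 1) one_pos
    ModularForm.differentiableOn_tprod_one_sub_pow
  rw [show ModularCurve.etaProd.map (Int.castRingHom ℂ) =
    PowerSeries.mk fun n => (n.factorial : ℂ)⁻¹ * iteratedDeriv n etaFn 0 from ?_]
  · exact this
  ext n
  rw [PowerSeries.coeff_map, PowerSeries.coeff_mk]
  exact coeff_etaProd_eq n

theorem discriminant_eq_qParam_mul (τ : ℍ) :
    ModularForm.discriminant τ = 𝕢 1 (τ : ℂ) * etaFn (𝕢 1 (τ : ℂ)) ^ 24 := by
  have hq : ‖𝕢 1 (τ : ℂ)‖ < 1 := Periodic.norm_qParam_lt_one one_pos τ.im_pos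
  rw [ModularForm.discriminant_eq_q_prod, etaFn, ← (ModularForm.multipliable_one_sub_pow hq).tprod_pow]

theorem etaFn_ne_zero (τ : ℍ) : etaFn (𝕢 1 (τ : ℂ)) ≠ 0 := fun h0 => by
  have := discriminant_eq_qParam_mul τ
  rw [h0] at this
  exact ModularForm.discriminant_ne_zero τ (by simpa using this)

end Product

theorem qExp_E₄ :
    QExp 1 (⇑ModularForm.E₄) (ModularCurve.eisenstein4.map (Int.castRingHom ℂ)) := fun τ => by
  have h := ModularForm.hasSum_qExpansion ModularForm.E₄ one_pos
    one_mem_strictPeriods_SL τ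
  refine h.congr_fun fun m => ?_
  rw [PowerSeries.coeff_map,
    EisensteinSeries.E_qExpansion_coeff (by norm_num) (by decide) m]
  congr 1
  simp only [ModularCurve.eisenstein4, PowerSeries.coeff_mk]
  by_cases hm : m = 0
  · simp [hm]
  · have hb : bernoulli 4 = -1 / 30 := by
      rw [bernoulli_eq_bernoulli'_of_ne_one (by decide), bernoulli'_four]
    simp only [hm, if_false, hb, ArithmeticFunction.sigma_apply]
    push_cast
    rw [map_mul, map_sum]
    simp only [map_ofNat, map_pow, map_natCast]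
    norm_num

theorem qExp_etaInv :
    QExp 1 (fun τ : ℍ => (etaFn (𝕢 1 (τ : ℂ)) ^ 24)⁻¹)
      (ModularCurve.dedekindEtaUnitInv.map (Int.castRingHom ℂ)) := by
  have hG : DifferentiableOn ℂ (fun q => (if etaFn q = 0 then 0 else (etaFn q ^ 24)⁻¹))
      (Metric.ball 0 1) := by
    have hne : ∀ q ∈ Metric.ball (0 : ℂ) 1, etaFn q ≠ 0 := by
      intro q hq
      rw [Metric.mem_ball, dist_zero_right] at hq
      rcases eq_or_ne q 0 with rfl | hq0
      · simp [etaFn]
      · have := etaFn_ne_zero ⟨_, Periodic.im_invQParam_pos_of_norm_lt_one one_pos hq hq0⟩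
        rwa [Periodic.qParam_right_inv one_ne_zero hq0] at this
    refine ((ModularForm.differentiableOn_tprod_one_sub_pow.fun_pow 24).inv fun q hq =>
      pow_ne_zero _ (hne q hq)).congr fun q hq => ?_
    rw [if_neg (hne q hq)]
    rfl
  have hI := QExp.of_differentiableOn (h := 1) one_pos hG
  set s := PowerSeries.mk (fun n => (n.factorial : ℂ)⁻¹ *
    iteratedDeriv n (fun q => (if etaFn q = 0 then 0 else (etaFn q ^ 24)⁻¹)) 0)
  have hI' : QExp 1 (fun τ : ℍ => (etaFn (𝕢 1 (τ : ℂ)) ^ 24)⁻¹) s :=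
    hI.congr fun τ => if_neg (etaFn_ne_zero τ)
  have hone : ModularCurve.dedekindEtaUnit.map (Int.castRingHom ℂ) * s = 1 := by
    refine QExp.unique (h := 1) one_pos ?_ (QExp.one (h := 1))
    have := (qExp_etaFn.pow 24).mul hI'
    rw [show ModularCurve.dedekindEtaUnit = ModularCurve.etaProd ^ 24 from rfl, map_pow]
    refine this.congr fun τ => ?_
    simp only [Pi.mul_apply, Pi.pow_apply, Pi.one_apply]
    exact mul_inv_cancel₀ (pow_ne_zero _ (etaFn_ne_zero τ))
  have hs : s = ModularCurve.dedekindEtaUnitInv.map (Int.castRingHom ℂ) := by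
    have h2 : ModularCurve.dedekindEtaUnit.map (Int.castRingHom ℂ) *
        ModularCurve.dedekindEtaUnitInv.map (Int.castRingHom ℂ) = 1 := by
      rw [← map_mul, ModularCurve.dedekindEtaUnit_mul_inv, map_one]
    exact (left_inv_eq_right_inv (mul_comm _ s ▸ hone) h2)
  exact hs ▸ hI'

theorem qExp_qParam_mul_jFn :
    QExp 1 (fun τ : ℍ => 𝕢 1 (τ : ℂ) * jFn τ) (ModularCurve.jNum.map (Int.castRingHom ℂ)) := by
  have h3 := (qExp_E₄.pow 3).mul qExp_etaInv
  rw [ModularCurve.jNum, map_mul, map_pow]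
  refine h3.congr fun τ => ?_
  simp only [Pi.mul_apply, Pi.pow_apply, jFn, discriminant_eq_qParam_mul τ]
  field_simp [Periodic.qParam_ne_zero, etaFn_ne_zero τ]

/-- The Laurent expansion of `j`. -/
theorem lExp_jFn : LExp 1 jFn (ModularCurve.jqModC ℂ) := by
  refine ⟨1, _, qExp_qParam_mul_jFn.congr fun τ => by rw [pow_one], ?_⟩
  simp [ModularCurve.jqModC]

theorem jFn_ne_const : ∀ c : ℂ, jFn ≠ fun _ => c := fun c h => by
  have := LExp.unique one_pos lExp_jFn (h.symm ▸ LExp.C (h := 1) c)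
  have h1 := congrArg (fun s : LaurentSeries ℂ => s.coeff (-1)) this
  simp [ModularCurve.coeff_jqModC_neg_one, HahnSeries.coeff_single_of_ne] at h1

theorem mdifferentiable_jFn : MDifferentiable (modelWithCornersSelf ℂ ℂ) (modelWithCornersSelf ℂ ℂ) jFn := by
  rw [UpperHalfPlane.mdifferentiable_iff]
  have h4 := UpperHalfPlane.mdifferentiable_iff.mp (ModularFormClass.holo ModularForm.E₄)
  have hd := UpperHalfPlane.mdifferentiable_iff.mp (CuspFormClass.holo CuspForm.discriminant)
  exact (h4.pow 3).div hd fun z _ => ModularForm.discriminant_ne_zero _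

theorem jFn_smul (γ : Matrix.SpecialLinearGroup (Fin 2) ℤ) (τ : ℍ) : jFn (γ • τ) = jFn τ := by
  have h4 := SlashInvariantForm.slash_action_eqn'' ModularForm.E₄
    (show Matrix.SpecialLinearGroup.mapGL ℝ γ ∈ (Matrix.SpecialLinearGroup.mapGL ℝ).range from ⟨γ, rfl⟩) τ
  have hd := SlashInvariantForm.slash_action_eqn'' CuspForm.discriminant
    (show Matrix.SpecialLinearGroup.mapGL ℝ γ ∈ (Matrix.SpecialLinearGroup.mapGL ℝ).range from ⟨γ, rfl⟩) τ
  have h4' : ModularForm.E₄ (γ • τ) = UpperHalfPlane.denom γ (τ : ℂ) ^ (4 : ℤ) * ModularForm.E₄ τ := h4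
  have hd' : ModularForm.discriminant (γ • τ) =
      UpperHalfPlane.denom γ (τ : ℂ) ^ (12 : ℤ) * ModularForm.discriminant τ := hd
  unfold jFn
  rw [h4', hd', mul_pow, ← zpow_natCast (UpperHalfPlane.denom _ _ ^ (4 : ℤ)) 3, ← zpow_mul]
  exact mul_div_mul_left _ _ (zpow_ne_zero _ (UpperHalfPlane.denom_ne_zero _ _))

end Fermat.Agent.MCurve
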