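import Fermat.Prelude.Def_GaloisRep_Flat
import Mathlib.RingTheory.PowerSeries.Ideal
import Mathlib.RingTheory.LaurentSeries
import Mathlib.RingTheory.Polynomial.UniqueFactorization
import Mathlib.FieldTheory.Minpoly.IsIntegrallyClosed
import Mathlib.RingTheory.Polynomial.ScaleRoots
import Fermat.Prelude.Def_ModularCurve_LaurentCoeff

/-!
Integrality lemmas over `ℤ_(ℓ)`: two denominators, and integral elements of `ℚ((q))`.
-/

noncomputable section

namespace Fermat.Agent.MCurve

section RatLocalized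

variable (ℓ : ℕ)

instance isPrincipalIdealRing_ratLocalizedAt [Fact ℓ.Prime] :
    IsPrincipalIdealRing (GaloisRep.ratLocalizedAt ℓ) := by
  refine ⟨fun I => ?_⟩
  obtain ⟨g, hg⟩ := (IsPrincipalIdealRing.principal
    (I.comap (Int.castRingHom (GaloisRep.ratLocalizedAt ℓ)))).principal
  refine ⟨(g : GaloisRep.ratLocalizedAt ℓ), le_antisymm (fun x hx => ?_) ?_⟩
  · rw [Ideal.submodule_span_eq, Ideal.mem_span_singleton']
    have hnum : ((x : ℚ).num : GaloisRep.ratLocalizedAt ℓ) =
        x * ((x : ℚ).den : GaloisRep.ratLocalizedAt ℓ) := Subtype.ext (by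
      push_cast; exact (Rat.mul_den_eq_num (x : ℚ)).symm)
    have hmem : (x : ℚ).num ∈ I.comap (Int.castRingHom (GaloisRep.ratLocalizedAt ℓ)) := by
      rw [Ideal.mem_comap]
      show ((x : ℚ).num : GaloisRep.ratLocalizedAt ℓ) ∈ I
      rw [hnum]
      exact I.mul_mem_right _ hx
    rw [hg, Ideal.submodule_span_eq, Ideal.mem_span_singleton'] at hmem
    obtain ⟨c, hc⟩ := hmem
    refine ⟨⟨(c : ℚ) / (x : ℚ).den, ?_⟩, Subtype.ext ?_⟩
    · show ((c : ℚ) / (x : ℚ).den).den.Coprime ℓ
      refine Nat.Coprime.coprime_dvd_left ?_ (x.2 : (x : ℚ).den.Coprime ℓ)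
      have h := Rat.den_dvd c ((x : ℚ).den : ℤ)
      rw [Rat.divInt_eq_div, Int.cast_natCast] at h
      exact Int.natCast_dvd_natCast.mp h
    · show (c : ℚ) / (x : ℚ).den * ((g : GaloisRep.ratLocalizedAt ℓ) : ℚ) = (x : ℚ)
      push_cast
      rw [div_mul_eq_mul_div, div_eq_iff (Nat.cast_ne_zero.mpr (x : ℚ).den_nz),
        Rat.mul_den_eq_num, ← hc]
      push_cast
      rfl
  · rw [Ideal.submodule_span_eq, Ideal.span_le, Set.singleton_subset_iff]
    have : g ∈ I.comap (Int.castRingHom (GaloisRep.ratLocalizedAt ℓ)) := by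
      rw [hg]; exact Submodule.mem_span_singleton_self g
    exact this

theorem ratLocalizedAt_cases [Fact ℓ.Prime] (x : GaloisRep.ratLocalizedAt ℓ) :
    IsUnit x ∨ ∃ y, x = (ℓ : GaloisRep.ratLocalizedAt ℓ) * y := by
  by_cases h : (ℓ : ℤ) ∣ (x : ℚ).num
  · obtain ⟨m, hm⟩ := h
    refine Or.inr ⟨⟨(m : ℚ) / (x : ℚ).den, ?_⟩, Subtype.ext ?_⟩
    · show ((m : ℚ) / (x : ℚ).den).den.Coprime ℓ
      refine Nat.Coprime.coprime_dvd_left ?_ (x.2 : (x : ℚ).den.Coprime ℓ)
      have h := Rat.den_dvd m ((x : ℚ).den : ℤ)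
      rw [Rat.divInt_eq_div, Int.cast_natCast] at h
      exact Int.natCast_dvd_natCast.mp h
    · show (x : ℚ) = ((ℓ : GaloisRep.ratLocalizedAt ℓ) : ℚ) * ((m : ℚ) / (x : ℚ).den)
      push_cast
      rw [← mul_div_assoc, show (ℓ : ℚ) * m = ((x : ℚ).num : ℚ) by rw [hm]; push_cast; ring,
        Rat.num_div_den]
  · refine Or.inl ?_
    have hne : (x : ℚ) ≠ 0 := fun h0 => h (by rw [h0]; simp)
    have hinv : (x : ℚ)⁻¹.den.Coprime ℓ := by
      have hd : (x : ℚ)⁻¹.den ∣ (x : ℚ).num.natAbs := (Rat.den_inv_of_ne_zero hne).dvd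
      refine Nat.Coprime.coprime_dvd_left hd ?_
      rw [Nat.coprime_comm, (Fact.out : ℓ.Prime).coprime_iff_not_dvd]
      exact fun h2 => h (Int.natCast_dvd.mpr h2)
    exact .of_mul_eq_one ⟨(x : ℚ)⁻¹, hinv⟩ (Subtype.ext (mul_inv_cancel₀ hne))

theorem prime_natCast_ratLocalizedAt [Fact ℓ.Prime] :
    Prime ((ℓ : ℕ) : GaloisRep.ratLocalizedAt ℓ) := by
  have hnu : ¬ IsUnit ((ℓ : ℕ) : GaloisRep.ratLocalizedAt ℓ) := by
    intro hu
    obtain ⟨y, hy⟩ := hu.exists_right_inv
    have hy' : (ℓ : ℚ) * (y : ℚ) = 1 := by exact_mod_cast congrArg Subtype.val hy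
    have hyv : (y : ℚ) = (ℓ : ℚ)⁻¹ := eq_inv_of_mul_eq_one_right hy'
    have h : (y : ℚ).den.Coprime ℓ := y.2
    rw [hyv, Rat.inv_natCast_den_of_pos (Fact.out : ℓ.Prime).pos, Nat.coprime_self] at h
    exact (Fact.out : ℓ.Prime).ne_one h
  refine ⟨fun h0 => ?_, hnu, fun a b hab => ?_⟩
  · have h1 : (ℓ : ℚ) = 0 := by exact_mod_cast congrArg Subtype.val h0
    exact (Fact.out : ℓ.Prime).ne_zero (by exact_mod_cast h1)
  · rcases ratLocalizedAt_cases ℓ a with ha | ⟨c, hc⟩
    · rcases ratLocalizedAt_cases ℓ b with hb | ⟨d, hd⟩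
      · exact absurd (isUnit_of_dvd_unit hab (ha.mul hb)) hnu
      · exact Or.inr ⟨d, hd⟩
    · exact Or.inl ⟨c, hc⟩

end RatLocalized

section TwoDenominators

variable {R F : Type*} [CommRing R] [IsDomain R] [IsIntegrallyClosed R] [Field F]

/-- An element with two coprime denominators is integral. -/
theorem isIntegralElem_of_two (ψ : R →+* F) (hψ : Function.Injective ψ) {π e : R} (hπ : Prime π)
    (he : ¬ π ∣ e) {y : F} (h1 : ψ.IsIntegralElem (ψ π * y)) (h2 : ψ.IsIntegralElem (ψ e * y)) :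
    ψ.IsIntegralElem y := by
  let Φ : FractionRing R →+* F := IsFractionRing.lift hψ
  letI : Algebra (FractionRing R) F := Φ.toAlgebra
  letI : Algebra R F := ψ.toAlgebra
  haveI : IsScalarTower R (FractionRing R) F :=
    IsScalarTower.of_algebraMap_eq fun r => (IsFractionRing.lift_algebraMap hψ r).symm
  have halg : ∀ r : R, algebraMap (FractionRing R) F (algebraMap R (FractionRing R) r) = ψ r :=
    fun r => (IsScalarTower.algebraMap_apply R (FractionRing R) F r).symm
  have hint : ∀ {a : R}, a ≠ 0 → ψ.IsIntegralElem (ψ a * y) →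
      IsIntegral (FractionRing R) y ∧
      ∀ i ≤ (minpoly (FractionRing R) y).natDegree, ∃ u : R,
        (minpoly (FractionRing R) y).coeff i *
          algebraMap R (FractionRing R) (a ^ ((minpoly (FractionRing R) y).natDegree - i)) =
            algebraMap R (FractionRing R) u := by
    intro a ha hia
    have hia' : IsIntegral R (ψ a * y) := hia
    set a' : FractionRing R := algebraMap R (FractionRing R) a with ha'
    have ha0 : a' ≠ 0 := (map_ne_zero_iff _ (IsFractionRing.injective R _)).mpr ha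
    have hyint : IsIntegral (FractionRing R) y := by
      have h3 : IsIntegral (FractionRing R) (algebraMap (FractionRing R) F a'⁻¹ * (ψ a * y)) :=
        isIntegral_algebraMap.mul hia'.tower_top
      rwa [ha', map_inv₀, halg, inv_mul_cancel_left₀ ((map_ne_zero_iff _ hψ).mpr ha)] at h3
    refine ⟨hyint, fun i hi => ?_⟩
    set m := minpoly (FractionRing R) y with hm
    have hscale : minpoly (FractionRing R) (ψ a * y) = m.scaleRoots a' := by
      refine (minpoly.unique _ _ ((Polynomial.monic_scaleRoots_iff _).mpr (minpoly.monic hyint)) ?_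
        fun q hq hq0 => ?_).symm
      · rw [← halg]
        exact Polynomial.scaleRoots_aeval_eq_zero (minpoly.aeval _ _)
      · have hq' : Polynomial.aeval y (q.scaleRoots a'⁻¹) = 0 := by
          have := Polynomial.scaleRoots_aeval_eq_zero (r := a'⁻¹) hq0
          rwa [map_inv₀, halg, inv_mul_cancel_left₀ ((map_ne_zero_iff _ hψ).mpr ha)] at this
        rw [Polynomial.degree_scaleRoots, ← Polynomial.degree_scaleRoots q (s := a'⁻¹)]
        exact minpoly.min _ _ ((Polynomial.monic_scaleRoots_iff _).mpr hq) hq'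
    refine ⟨(minpoly R (ψ a * y)).coeff i, ?_⟩
    have h := congrArg (fun p : Polynomial (FractionRing R) => p.coeff i)
      (hscale.symm.trans (minpoly.isIntegrallyClosed_eq_field_fractions' (FractionRing R) hia'))
    simp only [Polynomial.coeff_scaleRoots, Polynomial.coeff_map] at h
    rw [← h, map_pow]
  have hπ0 : π ≠ 0 := hπ.ne_zero
  have he0 : e ≠ 0 := fun h => he (h ▸ dvd_zero π)
  obtain ⟨hy, hcπ⟩ := hint hπ0 h1
  obtain ⟨-, hce⟩ := hint he0 h2
  set m := minpoly (FractionRing R) y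
  have hcoef : ∀ i, ∃ r : R, algebraMap R (FractionRing R) r = m.coeff i := by
    intro i
    by_cases hi : i ≤ m.natDegree
    swap
    · exact ⟨0, by rw [map_zero, Polynomial.coeff_eq_zero_of_natDegree_lt (not_le.mp hi)]⟩
    obtain ⟨u, hu⟩ := hcπ i hi
    obtain ⟨v, hv⟩ := hce i hi
    set s := m.natDegree - i
    have huv : u * e ^ s = v * π ^ s := IsFractionRing.injective R (FractionRing R) (by
      rw [map_mul, map_mul, ← hu, ← hv]; ring)
    obtain ⟨r, hr⟩ : π ^ s ∣ u :=
      Prime.pow_dvd_of_dvd_mul_right hπ s (fun h => he (hπ.dvd_of_dvd_pow h))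
        (Dvd.intro_left v huv.symm)
    refine ⟨r, mul_right_cancel₀ (pow_ne_zero s ((map_ne_zero_iff _
      (IsFractionRing.injective R (FractionRing R))).mpr hπ0)) ?_⟩
    rw [← map_pow, hu, hr, map_mul, mul_comm]
  obtain ⟨p, hp, -, hpm⟩ := Polynomial.lifts_and_natDegree_eq_and_monic
    ((Polynomial.lifts_iff_coeff_lifts m).mpr fun i => hcoef i) (minpoly.monic hy)
  refine ⟨p, hpm, ?_⟩
  have := minpoly.aeval (FractionRing R) y
  rw [show minpoly (FractionRing R) y = p.map (algebraMap R (FractionRing R)) from hp.symm,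
    Polynomial.aeval_map_algebraMap] at this
  exact this

end TwoDenominators

section Series

variable {R : Type*} [CommRing R] [IsDomain R] [IsPrincipalIdealRing R] {L : Type*} [Field L]

instance isIntegrallyClosed_laurentSeries : IsIntegrallyClosed (LaurentSeries R) :=
  isIntegrallyClosed_of_isLocalization (R := PowerSeries R) (LaurentSeries R)
    (Submonoid.powers (PowerSeries.X : PowerSeries R))
    (powers_le_nonZeroDivisors_of_noZeroDivisors PowerSeries.X_ne_zero)

/-- An integral element of the fraction field of `R((q))` lies in `R((q))`. -/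
theorem exists_series_of_integral {f : R →+* L} (hf : Function.Injective f) {x : LaurentSeries L}
    {w d : LaurentSeries R} (hd : d ≠ 0)
    (hx : ModularCurve.coeffMap f d * x = ModularCurve.coeffMap f w)
    (hint : (ModularCurve.coeffMap f).IsIntegralElem x) :
    ∃ t : LaurentSeries R, ModularCurve.coeffMap f t = x := by
  have hinj : Function.Injective (ModularCurve.coeffMap f) := fun a b h =>
    HahnSeries.ext (funext fun k => hf (congrArg (fun s : LaurentSeries L => s.coeff k) h))
  let Φ : FractionRing (LaurentSeries R) →+* LaurentSeries L := IsFractionRing.lift hinj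
  have hΦ : ∀ t, Φ (algebraMap (LaurentSeries R) (FractionRing (LaurentSeries R)) t) =
      ModularCurve.coeffMap f t := fun t => IsFractionRing.lift_algebraMap hinj t
  set r := algebraMap (LaurentSeries R) (FractionRing (LaurentSeries R)) w /
    algebraMap (LaurentSeries R) (FractionRing (LaurentSeries R)) d
  have hr : Φ r = x := by
    rw [map_div₀, hΦ, hΦ, div_eq_iff ((map_ne_zero_iff _ hinj).mpr hd), ← hx, mul_comm]
  obtain ⟨p, hp, hpx⟩ := hint
  have hri : IsIntegral (LaurentSeries R) r := by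
    refine ⟨p, hp, Φ.injective ?_⟩
    rw [Polynomial.hom_eval₂, map_zero, hr,
      show Φ.comp (algebraMap (LaurentSeries R) (FractionRing (LaurentSeries R))) =
        ModularCurve.coeffMap f from RingHom.ext hΦ]
    exact hpx
  obtain ⟨t, ht⟩ := IsIntegrallyClosed.algebraMap_eq_of_integral hri
  exact ⟨t, by rw [← hr, ← ht, hΦ]⟩

end Series

end Fermat.Agent.MCurve
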