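import Fermat.Agent.MCurve.GenField
import Fermat.Agent.GalRep.Model.BaseField
import Fermat.Prelude.Def_ModularCurve_ReductionModL

/-!
The kernel of reduction on prime-to-`ℓ` torsion of `J₀(N)`: reduction to the lifting of `m`-th
roots of functions congruent to an `m`-th power.
-/

noncomputable section

namespace Fermat.Agent.MCurve

open ModularCurve AlgebraicCurve IsLocalRing

local notation "Q̄" => AlgebraicClosure ℚ

section Base

variable {ℓ : ℕ} (A : ValuationSubring Q̄) (N : ℕ)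

theorem algebraMap_mem_place [Fact ℓ.Prime] (hA : A.LiesOverPrime ℓ)
    (r : ↥(GaloisRep.ratLocalizedAt ℓ)) : algebraMap ℚ Q̄ (r : ℚ) ∈ A := by
  have hden : ((r : ℚ).den : Q̄)⁻¹ ∈ A := by
    rcases A.mem_or_inv_mem (((r : ℚ).den : Q̄)⁻¹) with h | h
    · exact h
    rw [inv_inv] at h
    obtain ⟨u, v, huv⟩ : IsCoprime ((r : ℚ).den : ℤ) (ℓ : ℤ) :=
      Int.isCoprime_iff_nat_coprime.mpr r.2
    have hlt := Fermat.Agent.GalRep.Model.val_natCast_lt_one A hA
    rw [← A.valuation_le_one_iff, map_inv₀]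
    refine le_of_eq ?_
    rw [inv_eq_one]
    refine le_antisymm ((A.valuation_le_one_iff _).mpr h) (not_lt.mp fun hd => ?_)
    have h1 := congrArg (fun z : ℤ => A.valuation (z : Q̄)) huv
    simp only [Int.cast_add, Int.cast_mul, Int.cast_natCast, Int.cast_one, map_one] at h1
    refine absurd h1 (ne_of_lt ((A.valuation.map_add _ _).trans_lt (max_lt ?_ ?_)))
    all_goals rw [map_mul]
    · exact mul_lt_one_of_nonneg_of_lt_one_right
        ((A.valuation_le_one_iff _).mpr (intCast_mem A u)) zero_le hd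
    · exact mul_lt_one_of_nonneg_of_lt_one_right
        ((A.valuation_le_one_iff _).mpr (intCast_mem A v)) zero_le hlt
  rw [show algebraMap ℚ Q̄ (r : ℚ) = ((r : ℚ).num : Q̄) * ((r : ℚ).den : Q̄)⁻¹ by
    conv_lhs => rw [← Rat.num_div_den (r : ℚ)]
    rw [map_div₀, map_intCast, map_natCast, div_eq_mul_inv]]
  exact mul_mem (intCast_mem A _) hden

/-- `ℤ_(ℓ) → A`. -/
def oToA [Fact ℓ.Prime] (hA : A.LiesOverPrime ℓ) : ↥(GaloisRep.ratLocalizedAt ℓ) →+* A :=
  ((algebraMap ℚ Q̄).comp (GaloisRep.ratLocalizedAt ℓ).subtype).codRestrict A.toSubring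
    (algebraMap_mem_place A hA)

/-- The series coefficients of `A` in `Q̄`. -/
abbrev subA : A →+* Q̄ := A.subtype

variable [NeZero N] [Fact ℓ.Prime] (hA : A.LiesOverPrime ℓ) (hℓN : ¬ ℓ ∣ N)
include hA hℓN

theorem hint_bar (x : LaurentSeries Q̄) (hx : x ∈ divisorExpansionsC Q̄ N) :
    (evJq Q̄).toRingHom.IsIntegralElem x :=
  isIntegral_gen Q̄ N ℓ hℓN ((subA A).comp (oToA A hA)) hx

theorem hint_red (x : LaurentSeries (ResidueField A))
    (hx : x ∈ divisorExpansionsC (ResidueField A) N) :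
    (evJq (ResidueField A)).toRingHom.IsIntegralElem x :=
  isIntegral_gen _ N ℓ hℓN ((residue A).comp (oToA A hA)) hx

end Base

section Series

variable (A : ValuationSubring Q̄) (N : ℕ) [NeZero N]

theorem coeffMap_subA_injective : Function.Injective (coeffMap (subA A)) := fun _ _ h =>
  HahnSeries.ext (funext fun i =>
    Subtype.ext (congrArg (fun s : LaurentSeries Q̄ => s.coeff i) h))

/-- A polynomial in `j` over `A`, as a series. -/
def aJ : Polynomial A →+* LaurentSeries A := Polynomial.eval₂RingHom HahnSeries.C (jqModC A)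

theorem coeffMap_aJ {K : Type*} [Field K] (f : A →+* K) (P : Polynomial A) :
    coeffMap f (aJ A P) = evJq K (P.map f) := by
  rw [aJ, Polynomial.coe_eval₂RingHom, Polynomial.hom_eval₂, evJq, Polynomial.aeval_def,
    Polynomial.eval₂_map, MCurve.coeffMap_jqModC]
  congr 1
  refine RingHom.ext fun r => ?_
  rw [RingHom.comp_apply, RingHom.comp_apply, algebraMap_laurentSeries_eq_single]
  exact coeffMap_single f 0 r

theorem exists_primitive {p : Polynomial Q̄} (hp : p ≠ 0) :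
    ∃ (c : Q̄) (P : Polynomial A), c ≠ 0 ∧ P.map (subA A) = Polynomial.C c * p ∧
      P.map (residue A) ≠ 0 := by
  obtain ⟨i, hi, hmax⟩ := Finset.exists_max_image p.support (fun i => A.valuation (p.coeff i))
    (Polynomial.support_nonempty.mpr hp)
  have hi0 : p.coeff i ≠ 0 := Polynomial.mem_support_iff.mp hi
  have hle : ∀ k, (p.coeff i)⁻¹ * p.coeff k ∈ A := fun k => by
    by_cases hk : k ∈ p.support
    · rw [← A.valuation_le_one_iff, map_mul, map_inv₀]
      exact inv_mul_le_one_of_le₀ (hmax k hk) zero_le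
    · rw [Polynomial.notMem_support_iff.mp hk, mul_zero]; exact zero_mem A
  obtain ⟨P, hP⟩ : ∃ P : Polynomial A, P.map (subA A) = Polynomial.C (p.coeff i)⁻¹ * p :=
    (Polynomial.lifts_iff_coeff_lifts _).mpr fun k =>
      ⟨⟨(p.coeff i)⁻¹ * p.coeff k, hle k⟩, (Polynomial.coeff_C_mul p).symm⟩
  refine ⟨_, P, inv_ne_zero hi0, hP, fun h0 => ?_⟩
  have h1 : P.coeff i = 1 := Subtype.val_injective (by
    have := congrArg (fun r : Polynomial Q̄ => r.coeff i) hP
    simpa [Polynomial.coeff_map, hi0] using this)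
  have h2 := congrArg (fun r : Polynomial (ResidueField A) => r.coeff i) h0
  simp [Polynomial.coeff_map, h1] at h2

theorem evJq_map_residue_ne_zero {P : Polynomial A} (hP : P.map (residue A) ≠ 0) :
    coeffMap (residue A) (aJ A P) ≠ 0 := by
  rw [coeffMap_aJ]
  exact (map_ne_zero_iff _ (evJq_injective _)).mpr hP

theorem exists_lift_genAlg {x : LaurentSeries (ResidueField A)}
    (hx : x ∈ genAlg (ResidueField A) N) :
    ∃ y : LaurentSeries A, coeffMap (subA A) y ∈ genAlg Q̄ N ∧ coeffMap (residue A) y = x := by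
  induction hx using Algebra.adjoin_induction with
  | mem y hy =>
    obtain ⟨d, hd0, hd, rfl⟩ := hy
    refine ⟨qExpand A d (jqModC A), ?_, ?_⟩
    · rw [qExpand_coeffMap, MCurve.coeffMap_jqModC]
      exact Algebra.subset_adjoin (mem_divisorExpansionsC Q̄ N hd)
    · rw [qExpand_coeffMap, MCurve.coeffMap_jqModC]
  | algebraMap a =>
    obtain ⟨b, rfl⟩ := residue_surjective a
    refine ⟨HahnSeries.single 0 b, ?_, ?_⟩
    · rw [coeffMap_single, ← algebraMap_laurentSeries_eq_single]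
      exact Subalgebra.algebraMap_mem _ _
    · rw [coeffMap_single, ← algebraMap_laurentSeries_eq_single]
  | add y z _ _ hy hz =>
    obtain ⟨a, ha, rfl⟩ := hy
    obtain ⟨b, hb, rfl⟩ := hz
    exact ⟨a + b, by rw [map_add]; exact add_mem ha hb, map_add _ _ _⟩
  | mul y z _ _ hy hz =>
    obtain ⟨a, ha, rfl⟩ := hy
    obtain ⟨b, hb, rfl⟩ := hz
    exact ⟨a * b, by rw [map_mul]; exact mul_mem ha hb, map_mul _ _ _⟩

variable {A N}

/-- An integral series in the field is holomorphic after multiplication by a polynomial in `j`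
which is nonzero modulo the place. -/
theorem exists_clear {ℓ : ℕ} [Fact ℓ.Prime] (hA : A.LiesOverPrime ℓ) (hℓN : ¬ ℓ ∣ N)
    {y : LaurentSeries A} (hy : coeffMap (subA A) y ∈ modularFunctionFieldBar N) :
    ∃ P : Polynomial A, P.map (residue A) ≠ 0 ∧ coeffMap (subA A) (y * aJ A P) ∈ genAlg Q̄ N := by
  rw [show modularFunctionFieldBar N = modularFunctionFieldFullC Q̄ N from
    laurentBaseChange_full Q̄ N] at hy
  obtain ⟨a, ha, p, hp, hya⟩ := exists_denominator (hint_bar A N hA hℓN) hy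
  obtain ⟨c, P, hc, hP, hP0⟩ := exists_primitive A hp
  refine ⟨P, hP0, ?_⟩
  rw [map_mul, coeffMap_aJ, hP, map_mul, mul_left_comm, hya]
  exact mul_mem (evJq_mem Q̄ N _) ha

end Series

/-- Lifting of `m`-th roots: a holomorphic integral function with all orders divisible by `m`,
congruent to the `m`-th power of a holomorphic integral function which is not zero modulo the
place, is a constant times an `m`-th power. -/
def RootLifts (A : ValuationSubring Q̄) (N m : ℕ) : Prop :=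
  ∀ (f v : LaurentSeries A) (hf : coeffMap (subA A) f ∈ modularFunctionFieldBar N),
    coeffMap (subA A) f ∈ genAlg Q̄ N → coeffMap (subA A) v ∈ genAlg Q̄ N →
    coeffMap (residue A) v ≠ 0 → coeffMap (residue A) f = coeffMap (residue A) v ^ m →
    (∀ P : Place Q̄ (modularFunctionFieldBar N),
      (m : ℤ) ∣ P.ord (⟨_, hf⟩ : modularFunctionFieldBar N)) →
    ∃ (c : Q̄) (h : modularFunctionFieldBar N), c ≠ 0 ∧
      algebraMap Q̄ _ c * h ^ m = ⟨_, hf⟩

section Main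

variable {ℓ : ℕ} [Fact ℓ.Prime] {A : ValuationSubring Q̄} {N : ℕ} [NeZero N]

theorem genAlg_le_bar {y : LaurentSeries Q̄} (hy : y ∈ genAlg Q̄ N) :
    y ∈ modularFunctionFieldBar N := by
  rw [show modularFunctionFieldBar N = modularFunctionFieldFullC Q̄ N from
    laurentBaseChange_full Q̄ N]
  exact genAlg_le_full Q̄ N hy

theorem genAlgK_le_full {y : LaurentSeries (ResidueField A)}
    (hy : y ∈ genAlg (ResidueField A) N) : y ∈ modularFunctionFieldFullC (ResidueField A) N :=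
  genAlg_le_full _ N hy

set_option maxHeartbeats 1000000 in
set_option synthInstance.maxHeartbeats 200000 in
theorem eq_zero_of_rootLifts (hℓN : ¬ ℓ ∣ N) (hA : A.LiesOverPrime ℓ)
    (h : ReductionInputsModL A N) {m : ℕ} (hm : ¬ ℓ ∣ m) (hroot : RootLifts A N m)
    (z : JZero N) (hmz : m • z = 0) (hz : reductionModL A N z = 0) : z = 0 := by
  classical
  letI : Algebra Q̄ ℂ := Fermat.Agent.GalRep.qbarToC.toAlgebra
  haveI : IsAlgClosed (ResidueField A) := Fermat.Agent.GalRep.Model.residue_isAlgClosed A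
  have hm0 : m ≠ 0 := fun h0 => hm (h0 ▸ dvd_zero ℓ)
  let E := modularFunctionFieldBar N
  let Ek := modularFunctionFieldFullC (ResidueField A) N
  let rr : Place Q̄ E → Place (ResidueField A) Ek := placeReductionModL h
  have hr' : IsPlaceReductionModL A N rr := isPlaceReductionModL_placeReductionModL h
  obtain ⟨-, hgen⟩ := h.choose_spec
  obtain ⟨⟨DD, hD⟩, rfl⟩ := Pic0.mk_surjective z
  -- `m DD` is principal
  obtain ⟨f, hf0, hf⟩ : Divisor.IsPrincipal (m • DD : Divisor Q̄ E) := by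
    have : m • (⟨DD, hD⟩ : Divisor.degZero (K := Q̄) (F := E)) ∈
        (Divisor.principal (K := Q̄) (F := E)).addSubgroupOf _ := by
      rw [← QuotientAddGroup.eq_zero_iff, QuotientAddGroup.mk_nsmul]
      exact hmz
    simpa [AddSubgroup.mem_addSubgroupOf, Divisor.mem_principal] using this
  -- the reduction of `DD` is principal
  obtain ⟨g, hg0, hg⟩ : Divisor.IsPrincipal (Finsupp.mapDomain rr DD) := by
    rw [reductionModL_mk h] at hz
    have := (QuotientAddGroup.eq_zero_iff _).mp hz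
    simpa [AddSubgroup.mem_addSubgroupOf, Divisor.mem_principal] using this
  -- two integral functions
  have key : ∀ DD' ∈ AddSubgroup.closure (integralPrincipalDivisors A (residue A) N),
      ∃ (y₁ y₂ : LaurentSeries A) (h₁ : coeffMap A.subtype y₁ ∈ E)
        (h₂ : coeffMap A.subtype y₂ ∈ E), coeffMap (residue A) y₁ ∈ Ek ∧
        coeffMap (residue A) y₂ ∈ Ek ∧ coeffMap (residue A) y₁ ≠ 0 ∧
        coeffMap (residue A) y₂ ≠ 0 ∧
        ∀ P, DD' P = P.ord (⟨_, h₁⟩ : E) - P.ord (⟨_, h₂⟩ : E) := by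
    have hone : coeffMap (subA A) 1 ∈ E := by rw [map_one]; exact one_mem _
    have hone' : coeffMap (residue A) (1 : LaurentSeries A) ∈ Ek := by
      rw [map_one]; exact one_mem _
    have hone0 : coeffMap (residue A) (1 : LaurentSeries A) ≠ 0 := by simp
    intro DD' hD'
    induction hD' using AddSubgroup.closure_induction with
    | mem X hX =>
      obtain ⟨y, hy, hyk, hy0, hXy⟩ := hX
      refine ⟨y, 1, hy, hone, hyk, hone', hy0, hone0, fun P => ?_⟩
      rw [hXy P, show (⟨coeffMap (subA A) 1, hone⟩ : E) = 1 from Subtype.ext (map_one _),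
        Place.ord_one, sub_zero]
    | zero => exact ⟨1, 1, hone, hone, hone', hone', hone0, hone0, fun P => by simp⟩
    | add X Y _ _ hX hY =>
      obtain ⟨a₁, a₂, ha₁, ha₂, hk₁, hk₂, hn₁, hn₂, hXP⟩ := hX
      obtain ⟨b₁, b₂, hb₁, hb₂, hl₁, hl₂, hp₁, hp₂, hYP⟩ := hY
      have hne : ∀ {y : LaurentSeries A} (hy : coeffMap A.subtype y ∈ E),
          coeffMap (residue A) y ≠ 0 → (⟨_, hy⟩ : E) ≠ 0 := fun {y} hy hy0 h0 => hy0 (by
        rw [coeffMap_subA_injective A ((congrArg Subtype.val h0).trans (map_zero _).symm),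
          map_zero])
      refine ⟨a₁ * b₁, a₂ * b₂, by rw [map_mul]; exact mul_mem ha₁ hb₁,
        by rw [map_mul]; exact mul_mem ha₂ hb₂, by rw [map_mul]; exact mul_mem hk₁ hl₁,
        by rw [map_mul]; exact mul_mem hk₂ hl₂, by rw [map_mul]; exact mul_ne_zero hn₁ hp₁,
        by rw [map_mul]; exact mul_ne_zero hn₂ hp₂, fun P => ?_⟩
      rw [Finsupp.add_apply, hXP, hYP,
        show (⟨coeffMap A.subtype (a₁ * b₁), _⟩ : E) = ⟨_, ha₁⟩ * ⟨_, hb₁⟩ from
          Subtype.ext (map_mul _ _ _),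
        show (⟨coeffMap A.subtype (a₂ * b₂), _⟩ : E) = ⟨_, ha₂⟩ * ⟨_, hb₂⟩ from
          Subtype.ext (map_mul _ _ _),
        P.ord_mul (hne ha₁ hn₁) (hne hb₁ hp₁), P.ord_mul (hne ha₂ hn₂) (hne hb₂ hp₂)]
      ring
    | neg X _ hX =>
      obtain ⟨a₁, a₂, ha₁, ha₂, hk₁, hk₂, hn₁, hn₂, hXP⟩ := hX
      exact ⟨a₂, a₁, ha₂, ha₁, hk₂, hk₁, hn₂, hn₁, fun P => by
        rw [Finsupp.neg_apply, hXP]; ring⟩
  obtain ⟨y₁, y₂, h₁, h₂, hk₁, hk₂, hn₁, hn₂, hmD⟩ :=
    key _ (hgen (Divisor.mem_principal.mpr ⟨f, hf0, hf⟩))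
  -- the reductions
  have hfin : IsFinOver Q̄ (jBar N Q̄) := (bar_isFinOver_and_finrank N Q̄).1
  haveI := hfin.hasPrincipalDivisors
  have hne : ∀ {y : LaurentSeries A} (hy : coeffMap A.subtype y ∈ E),
      coeffMap (residue A) y ≠ 0 → (⟨_, hy⟩ : E) ≠ 0 := fun {y} hy hy0 h0 => hy0 (by
    rw [coeffMap_subA_injective A ((congrArg Subtype.val h0).trans (map_zero _).symm), map_zero])
  have hred : ∀ (y : LaurentSeries A) (hy : coeffMap A.subtype y ∈ E)
      (hyk : coeffMap (residue A) y ∈ Ek), coeffMap (residue A) y ≠ 0 →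
      ∃ DD' : Divisor Q̄ E, (∀ P, DD' P = P.ord (⟨_, hy⟩ : E)) ∧
        ∀ Q, Finsupp.mapDomain rr DD' Q = Q.ord (⟨_, hyk⟩ : Ek) := fun y hy hyk hy0 => by
    obtain ⟨DD', hD', -⟩ :=
      HasPrincipalDivisors.exists_divisor (K := Q̄) (⟨_, hy⟩ : E) (hne hy hy0)
    exact ⟨DD', hD', hr'.2 y hy hyk hy0 DD' hD'⟩
  obtain ⟨D₁, hD₁, hD₁'⟩ := hred y₁ h₁ hk₁ hn₁
  obtain ⟨D₂, hD₂, hD₂'⟩ := hred y₂ h₂ hk₂ hn₂
  have hmD' : m • DD = D₁ - D₂ := Finsupp.ext fun P => by
    rw [Finsupp.sub_apply, hD₁, hD₂]; exact hmD P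
  have hkfin : IsFinOver (ResidueField A) (jFullC (ResidueField A) N) :=
    isFinOver_jFullC (hint_red A N hA hℓN)
  obtain ⟨e, he0, he⟩ := exists_const_of_ord_eq_zero hkfin
    (f := (⟨_, hk₁⟩ : Ek) / ((⟨_, hk₂⟩ : Ek) * g ^ m))
    (div_ne_zero (fun h0 => hn₁ (congrArg Subtype.val h0))
      (mul_ne_zero (fun h0 => hn₂ (congrArg Subtype.val h0)) (pow_ne_zero _ hg0)))
    (fun Q => by
      have hm' := congrArg (fun X => Finsupp.mapDomain rr X Q) hmD'
      simp only [Finsupp.mapDomain_smul, Finsupp.mapDomain_sub, Finsupp.smul_apply,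
        Finsupp.sub_apply, hD₁', hD₂', hg] at hm'
      have hne₁ : (⟨_, hk₁⟩ : Ek) ≠ 0 := fun h0 => hn₁ (congrArg Subtype.val h0)
      have hne₂ : (⟨_, hk₂⟩ : Ek) ≠ 0 := fun h0 => hn₂ (congrArg Subtype.val h0)
      rw [div_eq_mul_inv, Q.ord_mul hne₁ (inv_ne_zero (mul_ne_zero hne₂ (pow_ne_zero _ hg0))),
        Q.ord_inv, Q.ord_mul hne₂ (pow_ne_zero _ hg0), ord_pow]
      rw [nsmul_eq_mul] at hm'
      linarith)
  obtain ⟨e', he'⟩ := IsAlgClosed.exists_pow_nat_eq e (Nat.pos_of_ne_zero hm0)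
  have hy12 : coeffMap (residue A) y₁ = coeffMap (residue A) y₂ *
      ((algebraMap (ResidueField A) Ek e' * g : Ek) : LaurentSeries (ResidueField A)) ^ m := by
    rw [eq_div_iff (mul_ne_zero (fun h0 => hn₂ (congrArg Subtype.val h0)) (pow_ne_zero _ hg0))]
      at he
    have := congrArg Subtype.val (show (⟨_, hk₁⟩ : Ek) =
      ⟨_, hk₂⟩ * (algebraMap (ResidueField A) Ek e' * g) ^ m by
        rw [← he, mul_pow, ← map_pow, he']; ring)
    exact this
  -- lift the root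
  obtain ⟨a, ha, p, hp, hga⟩ := exists_denominator (hint_red A N hA hℓN)
    (algebraMap (ResidueField A) Ek e' * g).2
  obtain ⟨g₁, hg₁, hg₁'⟩ := exists_lift_genAlg A N ha
  obtain ⟨g₂, hg₂, hg₂'⟩ := exists_lift_genAlg A N (evJq_mem (ResidueField A) N p)
  set G : LaurentSeries (ResidueField A) :=
    ((algebraMap (ResidueField A) Ek e' * g : Ek) : LaurentSeries (ResidueField A))
  have hg₂0 : coeffMap (residue A) g₂ ≠ 0 := by
    rw [hg₂']; exact (map_ne_zero_iff _ (evJq_injective _)).mpr hp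
  have hG0 : G ≠ 0 := by
    intro h0
    rw [h0, zero_pow hm0, mul_zero] at hy12
    exact hn₁ hy12
  have hf₁ : coeffMap (subA A) (y₁ * y₂ ^ (m - 1) * g₂ ^ m) ∈ E := by
    simp only [map_mul, map_pow]
    exact mul_mem (mul_mem h₁ (pow_mem h₂ _)) (pow_mem (genAlg_le_bar hg₂) _)
  have hv : coeffMap (subA A) (y₂ * g₁) ∈ E := by
    rw [map_mul]; exact mul_mem h₂ (genAlg_le_bar hg₁)
  obtain ⟨P₁, hP₁, hc₁⟩ := exists_clear hA hℓN hf₁
  obtain ⟨P₂, hP₂, hc₂⟩ := exists_clear hA hℓN hv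
  set Pj : LaurentSeries A := aJ A P₁ * aJ A P₂ with hPj
  have hPjgen : ∀ P : Polynomial A, coeffMap (subA A) (aJ A P) ∈ genAlg Q̄ N := fun P => by
    rw [coeffMap_aJ]; exact evJq_mem Q̄ N _
  have hPj0 : coeffMap (residue A) Pj ≠ 0 := by
    rw [hPj, map_mul]
    exact mul_ne_zero (evJq_map_residue_ne_zero A hP₁) (evJq_map_residue_ne_zero A hP₂)
  set F₁ : LaurentSeries A := y₁ * y₂ ^ (m - 1) * g₂ ^ m * Pj ^ m with hF₁
  set V : LaurentSeries A := y₂ * g₁ * Pj with hV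
  have hF₁gen : coeffMap (subA A) F₁ ∈ genAlg Q̄ N := by
    have : F₁ = y₁ * y₂ ^ (m - 1) * g₂ ^ m * aJ A P₁ *
        (aJ A P₁ ^ (m - 1) * aJ A P₂ ^ m) := by
      rw [hF₁, hPj, mul_pow, ← mul_pow_sub_one hm0 (aJ A P₁)]
      ring
    rw [this, map_mul]
    exact mul_mem hc₁ (by
      rw [map_mul, map_pow, map_pow]
      exact mul_mem (pow_mem (hPjgen _) _) (pow_mem (hPjgen _) _))
  have hVgen : coeffMap (subA A) V ∈ genAlg Q̄ N := by
    rw [show V = y₂ * g₁ * aJ A P₂ * aJ A P₁ by rw [hV, hPj]; ring, map_mul]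
    exact mul_mem hc₂ (hPjgen _)
  have hga' : coeffMap (residue A) g₁ = G * coeffMap (residue A) g₂ := by
    rw [hg₁', hg₂', hga]
  have hV0 : coeffMap (residue A) V ≠ 0 := by
    rw [hV, map_mul, map_mul, hga']
    exact mul_ne_zero (mul_ne_zero hn₂ (mul_ne_zero hG0 hg₂0)) hPj0
  have hcong : coeffMap (residue A) F₁ = coeffMap (residue A) V ^ m := by
    simp only [hF₁, hV, map_mul, map_pow, hy12, hga', mul_pow]
    rw [show m = (m - 1) + 1 by omega, pow_succ (coeffMap (residue A) y₂)]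
    simp only [Nat.add_sub_cancel]
    ring
  have hPjE : coeffMap (subA A) Pj ∈ E := by
    rw [hPj, map_mul]; exact mul_mem (genAlg_le_bar (hPjgen _)) (genAlg_le_bar (hPjgen _))
  set Y₁ : E := ⟨_, h₁⟩
  set Y₂ : E := ⟨_, h₂⟩
  set G₂ : E := ⟨_, genAlg_le_bar hg₂⟩
  set J₀ : E := ⟨_, hPjE⟩
  have hY₁ : Y₁ ≠ 0 := hne h₁ hn₁
  have hY₂ : Y₂ ≠ 0 := hne h₂ hn₂
  have hG₂ : G₂ ≠ 0 := hne _ hg₂0
  have hJ₀ : J₀ ≠ 0 := hne hPjE hPj0
  have hFE : (⟨coeffMap (subA A) F₁, genAlg_le_bar hF₁gen⟩ : E) =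
      Y₁ / Y₂ * (Y₂ * G₂ * J₀) ^ m := by
    rw [mul_pow, mul_pow, show Y₁ / Y₂ * (Y₂ ^ m * G₂ ^ m * J₀ ^ m) =
      Y₁ * Y₂ ^ (m - 1) * G₂ ^ m * J₀ ^ m by
        rw [← mul_pow_sub_one hm0 Y₂]
        field_simp]
    apply Subtype.ext
    show coeffMap (subA A) (y₁ * y₂ ^ (m - 1) * g₂ ^ m * Pj ^ m) = _
    rw [map_mul, map_mul, map_mul, map_pow, map_pow, map_pow]
    rfl
  have hordY : ∀ P : Place Q̄ E, P.ord (Y₁ / Y₂) = m * DD P := fun P => by
    rw [div_eq_mul_inv, P.ord_mul hY₁ (inv_ne_zero hY₂), P.ord_inv, ← sub_eq_add_neg,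
      ← hmD P, Finsupp.smul_apply, nsmul_eq_mul]
  obtain ⟨c, H, hc, hH⟩ := hroot F₁ V (genAlg_le_bar hF₁gen) hF₁gen hVgen hV0 hcong fun P => by
    rw [hFE, P.ord_mul (div_ne_zero hY₁ hY₂) (pow_ne_zero _ (mul_ne_zero (mul_ne_zero hY₂ hG₂) hJ₀)),
      ord_pow, hordY]
    exact dvd_add (dvd_mul_right _ _) (dvd_mul_right _ _)
  have hH0 : H ≠ 0 := fun h0 => by
    rw [h0, zero_pow hm0, mul_zero, hFE] at hH
    exact mul_ne_zero (div_ne_zero hY₁ hY₂)
      (pow_ne_zero _ (mul_ne_zero (mul_ne_zero hY₂ hG₂) hJ₀)) hH.symm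
  refine (QuotientAddGroup.eq_zero_iff _).mpr ?_
  rw [AddSubgroup.mem_addSubgroupOf]
  refine Divisor.mem_principal.mpr
    ⟨H / (Y₂ * G₂ * J₀), div_ne_zero hH0 (mul_ne_zero (mul_ne_zero hY₂ hG₂) hJ₀), fun P => ?_⟩
  have h3 := congrArg P.ord hH
  rw [hFE, P.ord_mul ((map_ne_zero _).mpr hc) (pow_ne_zero _ hH0), ord_algebraMap, ord_pow,
    P.ord_mul (div_ne_zero hY₁ hY₂) (pow_ne_zero _ (mul_ne_zero (mul_ne_zero hY₂ hG₂) hJ₀)),
    ord_pow, hordY, zero_add] at h3
  rw [div_eq_mul_inv, P.ord_mul hH0 (inv_ne_zero (mul_ne_zero (mul_ne_zero hY₂ hG₂) hJ₀)),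
    P.ord_inv]
  have hmz' : (m : ℤ) ≠ 0 := Int.natCast_ne_zero.mpr hm0
  show DD P = _
  refine mul_left_cancel₀ hmz' ?_
  linarith

end Main

end Fermat.Agent.MCurve
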