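import Fermat.Agent.MCurve.Orbit
import Mathlib.Algebra.Polynomial.Div
import Mathlib.RingTheory.Localization.FractionRing
import Mathlib.GroupTheory.GroupAction.Quotient

/-!
Fibres of `x` on a Galois extension of `K(x)`: conjugacy, ramification, places from order functions.
-/

noncomputable section

namespace Fermat.Agent.MCurve

open AlgebraicCurve IntermediateField
open scoped Pointwise

variable {K L : Type*} [Field K] [Field L] [Algebra K L]

theorem ord_aeval_of_pos (v : Place K L) {x : L} {c : K}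
    (hc : 0 < v.ord (x - algebraMap K L c)) {p : Polynomial K} (hp : p ≠ 0) :
    Polynomial.aeval x p ≠ 0 ∧
      v.ord (Polynomial.aeval x p) = p.rootMultiplicity c * v.ord (x - algebraMap K L c) := by
  set t := x - algebraMap K L c with ht
  have ht0 : t ≠ 0 := fun h => by simp [h] at hc
  have hxmem : x ∈ v.toValuationSubring := by
    have h1 : t ∈ v.toValuationSubring := (mem_iff_ord_nonneg v ht0).mpr hc.le
    have h2 := add_mem h1 (v.algebraMap_mem' c)
    rwa [ht, sub_add_cancel] at h2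
  have haev : ∀ q : Polynomial K, Polynomial.aeval x q ∈ v.toValuationSubring := by
    intro q
    induction q using Polynomial.induction_on' with
    | add a b ha hb => rw [map_add]; exact add_mem ha hb
    | monomial n a =>
      rw [Polynomial.aeval_monomial]
      exact mul_mem (v.algebraMap_mem' a) (pow_mem hxmem n)
  obtain ⟨r, hr, hr'⟩ := Polynomial.exists_eq_pow_rootMultiplicity_mul_and_not_dvd p hp c
  have hrc : r.eval c ≠ 0 := fun h => hr' (Polynomial.dvd_iff_isRoot.mpr h)
  obtain ⟨s, hs⟩ := Polynomial.X_sub_C_dvd_sub_C_eval (p := r) (a := c)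
  have hs' : Polynomial.aeval x r = algebraMap K L (r.eval c) + t * Polynomial.aeval x s := by
    have := congrArg (Polynomial.aeval x) hs
    rw [map_sub, Polynomial.aeval_C, map_mul, map_sub, Polynomial.aeval_X, Polynomial.aeval_C] at this
    rw [ht, ← this]; ring
  have hc0 : algebraMap K L (r.eval c) ≠ 0 := by simpa using hrc
  have h0 : Polynomial.aeval x r ≠ 0 ∧ v.ord (Polynomial.aeval x r) = 0 := by
    rcases eq_or_ne (Polynomial.aeval x s) 0 with hs0 | hs0
    · rw [hs', hs0, mul_zero, add_zero]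
      exact ⟨hc0, ord_algebraMap v _⟩
    · have hlt : v.ord (algebraMap K L (r.eval c)) < v.ord (t * Polynomial.aeval x s) := by
        rw [ord_algebraMap, v.ord_mul ht0 hs0]
        have := ord_nonneg_of_mem' v (haev s)
        omega
      refine ⟨fun h => ?_, ?_⟩
      · rw [hs', add_eq_zero_iff_eq_neg] at h
        rw [h, ord_neg] at hlt
        exact lt_irrefl _ hlt
      · rw [hs', ord_add_eq v hc0 (mul_ne_zero ht0 hs0) hlt, ord_algebraMap]
  set m := p.rootMultiplicity c with hm
  have hev : Polynomial.aeval x p = t ^ m * Polynomial.aeval x r := by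
    conv_lhs => rw [hr]
    rw [map_mul, map_pow, map_sub, Polynomial.aeval_X, Polynomial.aeval_C, ← ht]
  rw [hev]
  exact ⟨mul_ne_zero (pow_ne_zero _ ht0) h0.1,
    by rw [v.ord_mul (pow_ne_zero _ ht0) h0.1, h0.2, add_zero, ord_pow]⟩

theorem mem_iff_of_adjoin {v v' : Place K L} {x : L} {c : K}
    (hv : 0 < v.ord (x - algebraMap K L c)) (hv' : 0 < v'.ord (x - algebraMap K L c))
    {f : L} (hf : f ∈ K⟮x⟯) : f ∈ v.toValuationSubring ↔ f ∈ v'.toValuationSubring := by
  obtain ⟨p, q, rfl⟩ := (mem_adjoin_simple_iff _ _).mp hf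
  rcases eq_or_ne p 0 with rfl | hp
  · simp [zero_mem]
  rcases eq_or_ne q 0 with rfl | hq
  · simp [zero_mem]
  obtain ⟨hp1, hp2⟩ := ord_aeval_of_pos v hv hp
  obtain ⟨hq1, hq2⟩ := ord_aeval_of_pos v hv hq
  obtain ⟨-, hp3⟩ := ord_aeval_of_pos v' hv' hp
  obtain ⟨-, hq3⟩ := ord_aeval_of_pos v' hv' hq
  rw [mem_iff_ord_nonneg v (div_ne_zero hp1 hq1), mem_iff_ord_nonneg v' (div_ne_zero hp1 hq1),
    div_eq_mul_inv, v.ord_mul hp1 (inv_ne_zero hq1), v'.ord_mul hp1 (inv_ne_zero hq1), v.ord_inv,
    v'.ord_inv, hp2, hq2, hp3, hq3, ← sub_eq_add_neg, ← sub_eq_add_neg, ← sub_mul, ← sub_mul]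
  exact ⟨fun h => mul_nonneg (nonneg_of_mul_nonneg_left h hv) hv'.le,
    fun h => mul_nonneg (nonneg_of_mul_nonneg_left h hv') hv.le⟩

variable [IsAlgClosed K] [CharZero K]

/-- On a Galois extension of `K(x)` the places over `x = c` are conjugate, and the ramification
index is the order of the decomposition group. -/
theorem IsFinOver.galois_fibre {x : L} (h : IsFinOver K x) (G : Subgroup (L ≃ₐ[K] L)) [Finite G]
    (hG : IntermediateField.fixedField G = K⟮x⟯) (c : K) (P : Place K L)
    (hP : 0 < P.ord (x - algebraMap K L c)) :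
    (∀ P' : Place K L, 0 < P'.ord (x - algebraMap K L c) → ∃ g ∈ G, g • P = P') ∧
      (Nat.card (MulAction.stabilizer G P) : ℤ) = P.ord (x - algebraMap K L c) := by
  classical
  have hxfix : ∀ g ∈ G, g x = x := fun g hg =>
    (mem_fixedField_iff G x).mp (hG.symm ▸ mem_adjoin_simple_self K x) g hg
  have hconj : ∀ P' : Place K L, 0 < P'.ord (x - algebraMap K L c) → ∃ g ∈ G, g • P = P' :=
    fun P' hP' => exists_smul_eq_of_fixed h G hxfix P P' fun f hf =>
      mem_iff_of_adjoin hP hP' (hG ▸ (mem_fixedField_iff G f).mpr hf)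
  have hord : ∀ g : G, (g • P).ord (x - algebraMap K L c) = P.ord (x - algebraMap K L c) := by
    rintro ⟨g, hg⟩
    show (g • P).ord _ = _
    rw [ord_smul_place, map_sub, AlgEquiv.commutes, hxfix g⁻¹ (inv_mem hg)]
  obtain ⟨T, hT, hsum⟩ := h.exists_zeros c
  have horb : MulAction.orbit G P = (T : Set (Place K L)) := by
    ext P'
    rw [Finset.mem_coe, hT]
    constructor
    · rintro ⟨g, rfl⟩
      rw [show ((fun m : G => m • P) g).ord (x - algebraMap K L c) = _ from hord g]
      exact hP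
    · intro hP'
      obtain ⟨g, hg, rfl⟩ := hconj P' hP'
      exact ⟨⟨g, hg⟩, rfl⟩
  have hcard : Nat.card (MulAction.orbit G P) * Nat.card (MulAction.stabilizer G P) = Nat.card G := by
    rw [← Nat.card_congr (MulAction.orbitEquivQuotientStabilizer G P).symm, mul_comm]
    exact Subgroup.card_mul_index _
  have hn : Module.finrank K⟮x⟯ L = Nat.card G := by
    haveI := Fintype.ofFinite G
    rw [← hG, Nat.card_eq_fintype_card]
    exact FixedPoints.finrank_eq_card G L
  have hsum' : (T.card : ℤ) * P.ord (x - algebraMap K L c) = (Nat.card G : ℤ) := by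
    rw [← hn, ← hsum, ← nsmul_eq_mul, ← Finset.sum_const]
    refine Finset.sum_congr rfl fun v hv => ?_
    obtain ⟨g, hg, rfl⟩ := hconj v ((hT v).mp hv)
    exact (hord ⟨g, hg⟩).symm
  refine ⟨hconj, ?_⟩
  rw [horb, Nat.card_coe_set_eq, Set.ncard_coe_finset] at hcard
  have hT0 : T.card ≠ 0 := fun h0 => by
    have : P ∈ T := (hT P).mpr hP
    simp [Finset.card_eq_zero.mp h0] at this
  have hcard' : (T.card : ℤ) * (Nat.card (MulAction.stabilizer G P) : ℤ) = (Nat.card G : ℤ) := by
    exact_mod_cast hcard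
  exact mul_left_cancel₀ (by exact_mod_cast hT0) (hcard'.trans hsum'.symm)

omit [IsAlgClosed K] [CharZero K] in
theorem exists_frac_ne_zero {R : Type*} [CommRing R] [IsDomain R] [Algebra R L] [IsFractionRing R L]
    {f : L} (hf : f ≠ 0) : ∃ a b : R, a ≠ 0 ∧ b ≠ 0 ∧ f = algebraMap R L a / algebraMap R L b := by
  obtain ⟨a, b, hb, rfl⟩ := IsFractionRing.div_surjective (A := R) f
  exact ⟨a, b, fun h0 => hf (by simp [h0]), nonZeroDivisors.ne_zero hb, rfl⟩

/-- A place from an order function on a ring with fraction field `L`. -/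
theorem IsFinOver.exists_place_of_order {x : L} (h : IsFinOver K x) {R : Type*} [CommRing R]
    [IsDomain R] [Algebra K R] [Algebra R L] [IsScalarTower K R L] [IsFractionRing R L] (w : R → ℤ)
    (hmul : ∀ {a b : R}, a ≠ 0 → b ≠ 0 → w (a * b) = w a + w b)
    (hadd : ∀ {a b : R}, a ≠ 0 → b ≠ 0 → a + b ≠ 0 → min (w a) (w b) ≤ w (a + b))
    (hK : ∀ k : K, k ≠ 0 → w (algebraMap K R k) = 0) (hne : ∃ a : R, a ≠ 0 ∧ w a ≠ 0) :
    ∃ P : Place K L,
      (∀ a b : R, a ≠ 0 → b ≠ 0 →
        (algebraMap R L a / algebraMap R L b ∈ P.toValuationSubring ↔ w b ≤ w a)) ∧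
      ∃ k : ℤ, 0 < k ∧ ∀ a : R, a ≠ 0 → w a = P.ord (algebraMap R L a) * k := by
  classical
  have hinj := IsFractionRing.injective R L
  have hne' : ∀ {a : R}, a ≠ 0 → algebraMap R L a ≠ 0 := fun ha => (map_ne_zero_iff _ hinj).mpr ha
  let W : L → ℤ := fun f =>
    if hf : f ≠ 0 then w (exists_frac_ne_zero (R := R) hf).choose -
      w (exists_frac_ne_zero (R := R) hf).choose_spec.choose else 0
  have hW : ∀ {a b : R}, a ≠ 0 → b ≠ 0 → W (algebraMap R L a / algebraMap R L b) = w a - w b := by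
    intro a b ha hb
    have hf : algebraMap R L a / algebraMap R L b ≠ 0 := div_ne_zero (hne' ha) (hne' hb)
    simp only [W, dif_pos hf]
    set a' := (exists_frac_ne_zero (R := R) hf).choose
    set b' := (exists_frac_ne_zero (R := R) hf).choose_spec.choose
    obtain ⟨ha', hb', he⟩ := (exists_frac_ne_zero (R := R) hf).choose_spec.choose_spec
    rw [div_eq_div_iff (hne' hb) (hne' hb'), ← map_mul, ← map_mul] at he
    have h1 := congrArg w (hinj he)
    rw [hmul ha hb', hmul ha' hb] at h1
    linarith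
  have hWmul : ∀ {f g : L}, f ≠ 0 → g ≠ 0 → W (f * g) = W f + W g := by
    intro f g hf hg
    obtain ⟨a, b, ha, hb, rfl⟩ := exists_frac_ne_zero (R := R) hf
    obtain ⟨c, d, hc, hd, rfl⟩ := exists_frac_ne_zero (R := R) hg
    rw [div_mul_div_comm, ← map_mul, ← map_mul, hW (mul_ne_zero ha hc) (mul_ne_zero hb hd),
      hW ha hb, hW hc hd, hmul ha hc, hmul hb hd]
    ring
  have hWK : ∀ k : K, k ≠ 0 → W (algebraMap K L k) = 0 := by
    intro k hk
    have hk' : algebraMap K R k ≠ 0 := fun h0 => hk <| (algebraMap K L).injective (by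
      rw [IsScalarTower.algebraMap_apply K R L, h0, map_zero, map_zero])
    have h1 : (1 : R) ≠ 0 := one_ne_zero
    rw [IsScalarTower.algebraMap_apply K R L, ← div_one (algebraMap R L _),
      ← map_one (algebraMap R L), hW hk' h1, hK k hk, ← map_one (algebraMap K R),
      hK 1 one_ne_zero, sub_zero]
  have hW1 : W 1 = 0 := by simpa using hWK 1 one_ne_zero
  have hWinv : ∀ {f : L}, f ≠ 0 → W f⁻¹ = -W f := fun {f} hf => by
    have := hWmul hf (inv_ne_zero hf)
    rw [mul_inv_cancel₀ hf, hW1] at this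
    linarith
  have hWadd : ∀ {f g : L}, f ≠ 0 → g ≠ 0 → f + g ≠ 0 → min (W f) (W g) ≤ W (f + g) := by
    intro f g hf hg hfg
    obtain ⟨a, b, ha, hb, rfl⟩ := exists_frac_ne_zero (R := R) hf
    obtain ⟨c, d, hc, hd, rfl⟩ := exists_frac_ne_zero (R := R) hg
    rw [div_add_div _ _ (hne' hb) (hne' hd), ← map_mul, ← map_mul, ← map_add, ← map_mul] at hfg ⊢
    have hn : a * d + b * c ≠ 0 := fun h0 => hfg (by simp [h0])
    rw [hW hn (mul_ne_zero hb hd), hW ha hb, hW hc hd, hmul hb hd]
    have := hadd (mul_ne_zero ha hd) (mul_ne_zero hb hc) hn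
    rw [hmul ha hd, hmul hb hc] at this
    omega
  let A : ValuationSubring L :=
    { carrier := {f | f = 0 ∨ 0 ≤ W f}
      zero_mem' := Or.inl rfl
      one_mem' := Or.inr hW1.ge
      mul_mem' := by
        intro f g hf hg
        rcases eq_or_ne f 0 with rfl | hf0
        · exact Or.inl (zero_mul g)
        rcases eq_or_ne g 0 with rfl | hg0
        · exact Or.inl (mul_zero f)
        refine Or.inr ?_
        rw [hWmul hf0 hg0]
        exact add_nonneg (hf.resolve_left hf0) (hg.resolve_left hg0)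
      add_mem' := by
        intro f g hf hg
        rcases eq_or_ne f 0 with rfl | hf0
        · simpa using hg
        rcases eq_or_ne g 0 with rfl | hg0
        · simpa using hf
        rcases eq_or_ne (f + g) 0 with hfg | hfg
        · exact Or.inl hfg
        exact Or.inr ((le_min (hf.resolve_left hf0) (hg.resolve_left hg0)).trans (hWadd hf0 hg0 hfg))
      neg_mem' := by
        intro f hf
        rcases eq_or_ne f 0 with rfl | hf0
        · exact Or.inl neg_zero
        refine Or.inr ?_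
        have hm : W (algebraMap K L (-1)) = 0 := hWK (-1) (neg_ne_zero.mpr one_ne_zero)
        rw [show -f = algebraMap K L (-1) * f by simp, hWmul (by simp) hf0, hm, zero_add]
        exact hf.resolve_left hf0
      mem_or_inv_mem' := by
        intro f
        rcases eq_or_ne f 0 with rfl | hf0
        · exact Or.inl (Or.inl rfl)
        rcases le_or_gt 0 (W f) with hw | hw
        · exact Or.inl (Or.inr hw)
        · exact Or.inr (Or.inr (by rw [hWinv hf0]; omega)) }
  have hA : ∀ {f : L}, f ≠ 0 → (f ∈ A ↔ 0 ≤ W f) := fun {f} hf =>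
    ⟨fun hm => (show f = 0 ∨ 0 ≤ W f from hm).resolve_left hf, fun hm => Or.inr hm⟩
  have hAK : ∀ k : K, algebraMap K L k ∈ A := fun k => by
    rcases eq_or_ne k 0 with rfl | hk
    · rw [map_zero]; exact zero_mem A
    · exact (hA (by simpa using hk)).mpr (hWK k hk).ge
  have hWa : ∀ {a : R}, a ≠ 0 → W (algebraMap R L a) = w a := fun {a} ha => by
    rw [← div_one (algebraMap R L a), ← map_one (algebraMap R L), hW ha one_ne_zero,
      ← map_one (algebraMap K R), hK 1 one_ne_zero, sub_zero]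
  have hAtop : A ≠ ⊤ := by
    obtain ⟨a, ha, hwa⟩ := hne
    intro htop
    have h1 := (hA (hne' ha)).mp (htop ▸ ValuationSubring.mem_top _)
    have h2 := (hA (inv_ne_zero (hne' ha))).mp (htop ▸ ValuationSubring.mem_top _)
    rw [hWinv (hne' ha)] at h2
    rw [hWa ha] at h1 h2
    omega
  obtain ⟨P, hP⟩ := h.exists_place hAK hAtop
  refine ⟨P, fun a b ha hb => ?_, ?_⟩
  · rw [hP, hA (div_ne_zero (hne' ha) (hne' hb)), hW ha hb, sub_nonneg]
  obtain ⟨π, hπ0, hπ⟩ := exists_ord_eq_one P
  have hzero : ∀ {u : L}, u ≠ 0 → P.ord u = 0 → W u = 0 := by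
    intro u hu h0
    have h1 := (mem_iff_ord_nonneg P hu).mpr h0.ge
    have h2 := (mem_iff_ord_nonneg P (inv_ne_zero hu)).mpr (by rw [P.ord_inv]; omega)
    rw [hP, hA hu] at h1
    rw [hP, hA (inv_ne_zero hu), hWinv hu] at h2
    omega
  have hWzpow : ∀ n : ℤ, W (π ^ n) = n * W π := by
    have hnat : ∀ n : ℕ, W (π ^ n) = n * W π := by
      intro n
      induction n with
      | zero => simp [hW1]
      | succ n ih => rw [pow_succ, hWmul (pow_ne_zero n hπ0) hπ0, ih]; push_cast; ring
    intro n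
    obtain ⟨m, rfl | rfl⟩ := Int.eq_nat_or_neg n
    · simpa using hnat m
    · rw [zpow_neg, zpow_natCast, hWinv (pow_ne_zero m hπ0), hnat, neg_mul]
  have hkey : ∀ {a : R}, a ≠ 0 → w a = P.ord (algebraMap R L a) * W π := by
    intro a ha
    set n := P.ord (algebraMap R L a)
    have hu : algebraMap R L a * (π ^ n)⁻¹ ≠ 0 :=
      mul_ne_zero (hne' ha) (inv_ne_zero (zpow_ne_zero _ hπ0))
    have h0 : P.ord (algebraMap R L a * (π ^ n)⁻¹) = 0 := by
      rw [P.ord_mul (hne' ha) (inv_ne_zero (zpow_ne_zero _ hπ0)), P.ord_inv, P.ord_zpow, hπ]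
      ring
    have := hzero hu h0
    rw [hWmul (hne' ha) (inv_ne_zero (zpow_ne_zero _ hπ0)), hWinv (zpow_ne_zero _ hπ0),
      hWzpow, hWa ha] at this
    linarith
  have hπA : 0 ≤ W π := (hA hπ0).mp (hP ▸ (mem_iff_ord_nonneg P hπ0).mpr (by omega))
  refine ⟨W π, lt_of_le_of_ne hπA fun h0 => ?_, fun a ha => hkey ha⟩
  obtain ⟨a, ha, hwa⟩ := hne
  exact hwa (by rw [hkey ha, ← h0, mul_zero])

end Fermat.Agent.MCurve
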