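import Fermat.Agent.MCurve.RedLift
import Fermat.Agent.MCurve.PlaceFibre
import Fermat.Agent.GalRep.KummerIntegral
import Fermat.Agent.GalRep.KummerAut

/-!
Lifting of roots from exact injectivity of reduction on Kummer classes.
-/

noncomputable section

namespace Fermat.Agent.MCurve

open ModularCurve AlgebraicCurve IsLocalRing CongruenceSubgroup
open Fermat.Agent.GalRep (modFuns jMF jNMF HasQSeries IsModFun seriesToC qbarToC biEval expand twist
  conjugate node modPoly serAlg localAlg qser idx)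
open scoped MatrixGroups Manifold

local notation "Q̄" => AlgebraicClosure ℚ
local notation "ℍ" => UpperHalfPlane

/-- Exact injectivity of reduction on Kummer classes at `ℓ`, with exponent prime to `ℓ`. -/
def KummerExact (N ℓ : ℕ) : Prop :=
  ∀ (n : ℕ) [NeZero n], ¬ ℓ ∣ n →
    ∀ A : ValuationSubring Q̄, A.LiesOverPrime ℓ →
    ∀ (χ : GalRep.ParHom N (ZMod n)) (h v : ℍ → ℂ) (hq vq : LaurentSeries Q̄),
      GalRep.IsKummerRep N n χ h → HasQSeries 1 h (seriesToC hq) →
      IsModFun (Gamma0 N) v → HasQSeries 1 v (seriesToC vq) →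
      GalRep.SeriesIntegral A (hq ^ n) → GalRep.SeriesIntegral A vq →
      (∃ m, vq.coeff m ∉ A.nonunits) → GalRep.SeriesCongr A (hq ^ n) (vq ^ n) → χ = 0

variable {N : ℕ} [NeZero N]

theorem Gamma0_le_of_dvd {d : ℕ} (hd : d ∣ N) : Gamma0 N ≤ Gamma0 d := fun γ hγ => by
  rw [Gamma0_mem, ← map_intCast (Int.castRingHom (ZMod d))] at *
  rw [ZMod.intCast_zmod_eq_zero_iff_dvd] at hγ
  simpa [ZMod.intCast_zmod_eq_zero_iff_dvd] using (Int.natCast_dvd_natCast.mpr hd).trans hγ

theorem seriesToC_eq_coeffMap (f : LaurentSeries Q̄) : seriesToC f = coeffMap qbarToC f := rfl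

theorem qExpand_eq_expand {K : Type*} [Field K] (d : ℕ) [NeZero d] (f : LaurentSeries K) :
    qExpand K d f = expand d (NeZero.ne d) f := by
  ext k
  by_cases hk : (d : ℤ) ∣ k
  · obtain ⟨i, rfl⟩ := hk
    rw [qExpand_coeff_mul, GalRep.expand_coeff_mul]
  · rw [qExpand_coeff_of_not_dvd d _ hk, GalRep.expand_coeff_of_not_dvd _ _ _ _ hk]

theorem seriesToC_gen (d : ℕ) [NeZero d] :
    seriesToC (qExpand Q̄ d (jqModC Q̄)) = expand d (NeZero.ne d) GalRep.jq := by
  rw [seriesToC_eq_coeffMap, qExpand_coeffMap, MCurve.coeffMap_jqModC, qExpand_eq_expand,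
    GalRep.jq_eq_jqModC]

theorem exists_toMod {y : LaurentSeries Q̄} (hy : y ∈ genAlg Q̄ N) :
    ∃ Φ : modFuns (Gamma0 N), HasQSeries 1 (Φ : ℍ → ℂ) (seriesToC y) := by
  induction hy using Algebra.adjoin_induction with
  | mem y hy =>
    obtain ⟨d, hd0, hd, rfl⟩ := hy
    exact ⟨⟨GalRep.jNFun d, GalRep.modFuns_anti (Gamma0_le_of_dvd hd) (GalRep.isModFun_jNFun d)⟩,
      seriesToC_gen d ▸ GalRep.hasQSeries_jNFun d⟩
  | algebraMap a =>
    refine ⟨algebraMap ℂ _ (qbarToC a), ?_⟩
    rw [seriesToC_eq_coeffMap, algebraMap_laurentSeries_eq_single, coeffMap_single]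
    exact HasQSeries.const 1 (qbarToC a)
  | add y z _ _ hy hz =>
    obtain ⟨a, ha⟩ := hy
    obtain ⟨b, hb⟩ := hz
    exact ⟨a + b, by rw [seriesToC_eq_coeffMap, map_add]; exact ha.add hb⟩
  | mul y z _ _ hy hz =>
    obtain ⟨a, ha⟩ := hy
    obtain ⟨b, hb⟩ := hz
    exact ⟨a * b, by rw [seriesToC_eq_coeffMap, map_mul]; exact ha.mul hb⟩

theorem modFun_ext {Φ Ψ : modFuns (Gamma0 N)} {s : LaurentSeries ℂ}
    (h₁ : HasQSeries 1 (Φ : ℍ → ℂ) s) (h₂ : HasQSeries 1 (Ψ : ℍ → ℂ) s) : Φ = Ψ :=
  Subtype.ext (GalRep.eq_of_hasQSeries Φ.2.holo Ψ.2.holo h₁ h₂)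

variable (N)

/-- Polynomials in the `j (q ^ d)` inside the function field. -/
abbrev barAlg : Subalgebra Q̄ (modularFunctionFieldBar N) :=
  (genAlg Q̄ N).comap (modularFunctionFieldBar N).val

/-- The holomorphic modular function attached to a polynomial in the `j (q ^ d)`. -/
def toMod : barAlg N →+* modFuns (Gamma0 N) where
  toFun y := (exists_toMod (N := N) y.2).choose
  map_one' := modFun_ext (exists_toMod (N := N) (1 : barAlg N).2).choose_spec (by
    rw [seriesToC_eq_coeffMap]; simp only [OneMemClass.coe_one, map_one]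
    exact HasQSeries.one 1)
  map_mul' x y := modFun_ext (exists_toMod (N := N) (x * y).2).choose_spec (by
    show HasQSeries 1 _ (coeffMap qbarToC (((x : modularFunctionFieldBar N) : LaurentSeries Q̄) *
      ((y : modularFunctionFieldBar N) : LaurentSeries Q̄)))
    simp only [map_mul]
    exact (exists_toMod (N := N) x.2).choose_spec.mul (exists_toMod (N := N) y.2).choose_spec)
  map_zero' := modFun_ext (exists_toMod (N := N) (0 : barAlg N).2).choose_spec (by
    rw [seriesToC_eq_coeffMap]; simp only [ZeroMemClass.coe_zero, map_zero]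
    exact HasQSeries.zero 1)
  map_add' x y := modFun_ext (exists_toMod (N := N) (x + y).2).choose_spec (by
    show HasQSeries 1 _ (coeffMap qbarToC (((x : modularFunctionFieldBar N) : LaurentSeries Q̄) +
      ((y : modularFunctionFieldBar N) : LaurentSeries Q̄)))
    simp only [map_add]
    exact (exists_toMod (N := N) x.2).choose_spec.add (exists_toMod (N := N) y.2).choose_spec)

theorem hasQSeries_toMod (y : barAlg N) :
    HasQSeries 1 (toMod N y : ℍ → ℂ)
      (seriesToC (((y : modularFunctionFieldBar N)) : LaurentSeries Q̄)) :=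
  (exists_toMod (N := N) y.2).choose_spec

theorem toMod_injective : Function.Injective (toMod N) := by
  rw [injective_iff_map_eq_zero]
  intro y hy
  have h := hasQSeries_toMod N y
  rw [hy] at h
  exact Subtype.ext (Subtype.ext (GalRep.seriesToC_injective
    ((h.eq_zero one_pos).trans (map_zero (coeffMap qbarToC)).symm)))

theorem toMod_algebraMap (c : Q̄) :
    toMod N (algebraMap Q̄ _ c) = algebraMap ℂ _ (qbarToC c) :=
  modFun_ext (hasQSeries_toMod N _) (by
    show HasQSeries 1 _ (coeffMap qbarToC (algebraMap Q̄ (LaurentSeries Q̄) c))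
    rw [algebraMap_laurentSeries_eq_single, coeffMap_single]
    exact HasQSeries.const 1 _)

theorem isFractionRing_barAlg {ℓ : ℕ} [Fact ℓ.Prime] {A : ValuationSubring Q̄}
    (hA : A.LiesOverPrime ℓ) (hℓN : ¬ ℓ ∣ N) :
    IsFractionRing (barAlg N) (modularFunctionFieldBar N) := by
  haveI : FaithfulSMul (barAlg N) (modularFunctionFieldBar N) :=
    (faithfulSMul_iff_algebraMap_injective _ _).mpr Subtype.val_injective
  refine IsFractionRing.of_field _ _ fun z => ?_
  obtain ⟨a, ha, p, hp, hza⟩ := exists_denominator (hint_bar A N hA hℓN)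
    (show (z : LaurentSeries Q̄) ∈ modularFunctionFieldFullC Q̄ N from
      laurentBaseChange_full Q̄ N ▸ z.2)
  refine ⟨⟨⟨a, genAlg_le_bar ha⟩, ha⟩, ⟨⟨evJq Q̄ p, genAlg_le_bar (evJq_mem Q̄ N p)⟩,
    evJq_mem Q̄ N p⟩, ?_⟩
  apply Subtype.ext
  show (z : LaurentSeries Q̄) = a / evJq Q̄ p
  rw [eq_div_iff ((map_ne_zero_iff _ (evJq_injective Q̄)).mpr hp), hza]

theorem conjugate_injective (q : Period.Coset N) : Function.Injective (conjugate (N := N) q) := by
  intro F G h
  refine Subtype.ext (funext fun τ => ?_)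
  obtain ⟨g, rfl⟩ := QuotientGroup.mk_surjective q
  have := congrFun (congrArg Subtype.val h) (g • τ)
  rwa [GalRep.conjugate_mk, GalRep.conjugate_mk, inv_smul_smul] at this

/-- Orders under an embedding into series are divisible as orders at places are. -/
theorem dvd_order {ℓ : ℕ} [Fact ℓ.Prime] {A : ValuationSubring Q̄} (hA : A.LiesOverPrime ℓ)
    (hℓN : ¬ ℓ ∣ N) (ψ : barAlg N →+* LaurentSeries ℂ) (hψ : Function.Injective ψ)
    (hconst : ∀ c : Q̄, c ≠ 0 → (ψ (algebraMap Q̄ _ c)).order = 0)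
    {m : ℕ} {x₀ : barAlg N} (hx₀ : x₀ ≠ 0)
    (hdvd : ∀ P : Place Q̄ (modularFunctionFieldBar N),
      (m : ℤ) ∣ P.ord (x₀ : modularFunctionFieldBar N)) :
    ∃ d : ℤ, (ψ x₀).order = m * d ∧
      ∀ ζ : ℂˣ, (∀ r, twist ζ (ψ r) = ψ r) → ζ ^ d = 1 := by
  haveI := isFractionRing_barAlg N hA hℓN
  by_cases hne : ∀ a : barAlg N, a ≠ 0 → (ψ a).order = 0
  · exact ⟨0, by rw [hne x₀ hx₀, mul_zero], fun ζ _ => zpow_zero ζ⟩
  push Not at hne
  letI : Algebra Q̄ ℂ := qbarToC.toAlgebra
  obtain ⟨P, -, k, hk, hw⟩ := (bar_isFinOver_and_finrank N Q̄).1.exists_place_of_order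
    (R := barAlg N) (fun a => (ψ a).order)
    (fun {a b} ha hb => by
      rw [map_mul, HahnSeries.order_mul ((map_ne_zero_iff _ hψ).mpr ha)
        ((map_ne_zero_iff _ hψ).mpr hb)])
    (fun {a b} _ _ hab => by
      rw [map_add]
      exact HahnSeries.min_order_le_order_add (by rw [← map_add]; exact (map_ne_zero_iff _ hψ).mpr hab))
    hconst hne
  obtain ⟨t, ht⟩ := hdvd P
  refine ⟨k * t, ?_, fun ζ hζ => ?_⟩
  · rw [hw x₀ hx₀, show algebraMap (barAlg N) (modularFunctionFieldBar N) x₀ =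
      (x₀ : modularFunctionFieldBar N) from rfl, ht]
    ring
  · obtain ⟨π, hπ0, hπ⟩ := exists_ord_eq_one P
    obtain ⟨a, b, ha, hb, hab⟩ := exists_frac_ne_zero (R := barAlg N) hπ0
    have hk' : k = (ψ a).order - (ψ b).order := by
      rw [hw a ha, hw b hb, ← sub_mul]
      rw [hab, div_eq_mul_inv, P.ord_mul ((map_ne_zero_iff _ (IsFractionRing.injective _ _)).mpr ha)
        (inv_ne_zero ((map_ne_zero_iff _ (IsFractionRing.injective _ _)).mpr hb)), P.ord_inv,
        ← sub_eq_add_neg] at hπ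
      rw [hπ, one_mul]
    rw [zpow_mul, hk', zpow_sub, GalRep.zpow_eq_one_of_twist ((map_ne_zero_iff _ hψ).mpr ha) (hζ a),
      GalRep.zpow_eq_one_of_twist ((map_ne_zero_iff _ hψ).mpr hb) (hζ b)]
    simp

/-- Multiplication form of the interpolation identity under an embedding. -/
theorem embed_interp {K : Type*} [CommRing K] [Algebra ℂ K]
    (φ : modFuns (Gamma N) →ₐ[ℂ] K) (q : Period.Coset N) {Φ : modFuns (Gamma0 N)}
    {G : Polynomial (Polynomial ℂ)}
    (hG : Φ * biEval (jMF (Gamma0 N)) (jNMF N) (Polynomial.derivative (modPoly N)) =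
      biEval (jMF (Gamma0 N)) (jNMF N) G) :
    biEval (φ (jMF (Gamma N))) (φ (node q)) G = φ (conjugate q Φ) *
      biEval (φ (jMF (Gamma N))) (φ (node q)) (Polynomial.derivative (modPoly N)) := by
  rw [← GalRep.map_biEval, ← GalRep.map_biEval, ← GalRep.conjugate_biEval, ← GalRep.conjugate_biEval,
    ← hG, map_mul, map_mul]

set_option maxHeartbeats 1000000 in
theorem crit_of_dvd {ℓ : ℕ} [Fact ℓ.Prime] {A : ValuationSubring Q̄} (hA : A.LiesOverPrime ℓ)
    (hℓN : ¬ ℓ ∣ N) {m : ℕ} {x₀ : barAlg N} (hx₀ : x₀ ≠ 0)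
    (hdvd : ∀ P : Place Q̄ (modularFunctionFieldBar N),
      (m : ℤ) ∣ P.ord (x₀ : modularFunctionFieldBar N))
    {G : Polynomial (Polynomial ℂ)}
    (hG : toMod N x₀ * biEval (jMF (Gamma0 N)) (jNMF N) (Polynomial.derivative (modPoly N)) =
      biEval (jMF (Gamma0 N)) (jNMF N) G) : GalRep.Crit N m G := by
  refine ⟨fun c r hr => ?_, fun r hr => ?_⟩
  · obtain ⟨τ, rfl⟩ := GalRep.jFun_surjective c
    obtain ⟨φ', hφ', h0, -, hd, hj⟩ := GalRep.exists_jCoord N τ
    have hinj := GalRep.localAlg_injective (N := N) hφ' h0 hd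
    rw [← hj] at hr ⊢
    obtain ⟨q, rfl⟩ := (GalRep.biEval_modPoly_eq_zero_iff (localAlg N hφ' h0) r).mp hr
    set φ := localAlg N hφ' h0
    let ψ : barAlg N →+* LaurentSeries ℂ :=
      ((HahnSeries.ofPowerSeries ℤ ℂ).comp (φ.comp (conjugate q)).toRingHom).comp (toMod N)
    have hψ : Function.Injective ψ := fun a b h => toMod_injective N
      (conjugate_injective N q (hinj (HahnSeries.ofPowerSeries_injective h)))
    obtain ⟨d, hdo, -⟩ := dvd_order N hA hℓN ψ hψ (fun a ha => by
      show (HahnSeries.ofPowerSeries ℤ ℂ (φ (conjugate q (toMod N (algebraMap Q̄ _ a))))).order = 0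
      rw [toMod_algebraMap, AlgHom.commutes, AlgHom.commutes, PowerSeries.algebraMap_apply]
      simpa using HahnSeries.order_single (Γ := ℤ) (a := 0) ((map_ne_zero qbarToC).mpr ha)) hx₀ hdvd
    rw [embed_interp N φ q hG, PowerSeries.order_mul, add_comm]
    have hne : φ (conjugate q (toMod N x₀)) ≠ 0 := fun h =>
      hx₀ (toMod_injective N (conjugate_injective N q (hinj
        (h.trans ((congrArg φ (map_zero (conjugate q))).trans (map_zero φ)).symm)) |>.trans
          (map_zero (toMod N)).symm))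
    obtain ⟨o, ho⟩ := ENat.ne_top_iff_exists.mp
      ((not_congr PowerSeries.order_eq_top).mpr hne)
    have ho' : ((o : ℕ) : ℤ) = m * d := by
      rw [← hdo]
      show _ = (HahnSeries.ofPowerSeries ℤ ℂ (φ (conjugate q (toMod N x₀)))).order
      have h1 : PowerSeries.coeff o (φ (conjugate q (toMod N x₀))) ≠ 0 :=
        (PowerSeries.order_eq_nat.mp ho.symm).1
      refine (le_antisymm ?_ (HahnSeries.order_le_of_coeff_ne_zero (g := (o : ℤ))
        (by rw [HahnSeries.ofPowerSeries_apply_coeff]; exact h1))).symm.symm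
      by_contra hlt
      push Not at hlt
      have hc := HahnSeries.coeff_order_eq_zero.not.mpr
        ((map_ne_zero_iff _ (HahnSeries.ofPowerSeries_injective (Γ := ℤ) (R := ℂ))).mpr hne)
      rcases lt_or_ge (HahnSeries.ofPowerSeries ℤ ℂ (φ (conjugate q (toMod N x₀)))).order 0
        with hneg | hpos
      · exact hc (ModularCurve.ofPowerSeries_coeff_of_neg _ hneg)
      · obtain ⟨i, hi⟩ := Int.eq_ofNat_of_zero_le hpos
        rw [hi, HahnSeries.ofPowerSeries_apply_coeff] at hc
        exact hc ((PowerSeries.order_eq_nat.mp ho.symm).2 i (by omega))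
    by_cases hm : m = 0
    · refine ⟨0, ?_⟩
      subst hm
      simp only [Nat.cast_zero, zero_mul] at ho'
      rw [← ho, show o = 0 by exact_mod_cast ho']
    refine ⟨d.toNat, ?_⟩
    rw [← ho]
    congr 1
    have hd0 : 0 ≤ d := by
      have : (0 : ℤ) ≤ (m : ℤ) * d := ho' ▸ Int.natCast_nonneg o
      exact nonneg_of_mul_nonneg_right this (by exact_mod_cast Nat.pos_of_ne_zero hm)
    have : (o : ℤ) = ((m * d.toNat : ℕ) : ℤ) := by
      push_cast; rw [Int.toNat_of_nonneg hd0]; exact ho'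
    exact_mod_cast this
  · have hj : GalRep.jqN N = serAlg N (jMF (Gamma N)) := rfl
    rw [hj] at hr ⊢
    obtain ⟨q, rfl⟩ := (GalRep.biEval_modPoly_eq_zero_iff (serAlg N) r).mp hr
    let ψ : barAlg N →+* LaurentSeries ℂ :=
      (((serAlg N).comp (conjugate q)).toRingHom).comp (toMod N)
    have hψ : Function.Injective ψ := fun a b h => toMod_injective N
      (conjugate_injective N q (GalRep.serAlg_injective N h))
    obtain ⟨d, hdo, htw⟩ := dvd_order N hA hℓN ψ hψ (fun a ha => by
      show (serAlg N (conjugate q (toMod N (algebraMap Q̄ _ a)))).order = 0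
      rw [toMod_algebraMap, AlgHom.commutes, AlgHom.commutes, HahnSeries.algebraMap_apply']
      simpa using HahnSeries.order_single (Γ := ℤ) (a := 0) ((map_ne_zero qbarToC).mpr ha)) hx₀ hdvd
    have hne : serAlg N (conjugate q (toMod N x₀)) ≠ 0 := (map_ne_zero_iff _ hψ).mpr hx₀
    have hden : biEval (serAlg N (jMF (Gamma N))) (serAlg N (node q))
        (Polynomial.derivative (modPoly N)) ≠ 0 := GalRep.den_series_ne_zero q
    rw [embed_interp N (serAlg N) q hG]
    refine ⟨mul_ne_zero hne hden, d, ?_, fun ζ hζ hfix => htw ζ fun y => ?_⟩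
    · rw [HahnSeries.order_mul hne hden, add_comm]
      exact congrArg _ hdo
    · have hfj : twist ζ (serAlg N (jMF (Gamma N))) = serAlg N (jMF (Gamma N)) := by
        rw [← hj, GalRep.jqN_eq]
        ext k
        rw [GalRep.twist_coeff]
        by_cases hk : (N : ℤ) ∣ k
        · obtain ⟨i, rfl⟩ := hk
          rw [zpow_mul, zpow_natCast, hζ, one_zpow, Units.val_one, mul_one]
        · rw [GalRep.expand_coeff_of_not_dvd _ _ _ _ hk, zero_mul]
      obtain ⟨H, -, hH⟩ := GalRep.exists_interp (toMod N y)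
      show twist ζ (serAlg N (conjugate q (toMod N y))) = serAlg N (conjugate q (toMod N y))
      have h1 := embed_interp N (serAlg N) q hH
      have hbi : ∀ P, twist ζ (biEval (serAlg N (jMF (Gamma N))) (serAlg N (node q)) P) =
          biEval (serAlg N (jMF (Gamma N))) (serAlg N (node q)) P := by
        intro P
        simp only [GalRep.biEval, Polynomial.coe_eval₂RingHom]
        rw [Polynomial.hom_eval₂, hfix]
        refine congrArg (fun f => Polynomial.eval₂ f (serAlg N (node q)) P)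
          (Polynomial.ringHom_ext (fun a => ?_) ?_)
        · simp only [RingHom.coe_comp, Function.comp_apply, AlgHom.toRingHom_eq_coe, RingHom.coe_coe,
            Polynomial.aeval_C, HahnSeries.algebraMap_apply']
          ext k
          rw [GalRep.twist_coeff]
          by_cases hk : k = 0 <;> simp [hk]
        · simpa using hfj
      have h2 := congrArg (twist ζ) h1
      rw [map_mul, hbi, hbi, h1] at h2
      exact (mul_right_cancel₀ hden h2).symm

variable {N}

theorem lmap_fix_seriesToC {σ : ℂ ≃+* ℂ} (hσ : ∀ y, σ (qbarToC y) = qbarToC y)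
    (f : LaurentSeries Q̄) : GalRep.lmap σ.toRingHom (seriesToC f) = seriesToC f := by
  ext m; exact hσ _

theorem mem_bar_of_isModFun {φ : ℍ → ℂ} (hφ : IsModFun (Gamma0 N) φ) {g : LaurentSeries Q̄}
    (hg : HasQSeries 1 φ (seriesToC g)) : g ∈ modularFunctionFieldBar N := by
  obtain ⟨G, hdeg, hG⟩ := GalRep.exists_interp (⟨φ, hφ⟩ : modFuns (Gamma0 N))
  obtain ⟨GA, hGA⟩ := GalRep.exists_lift_of_fixed fun σ hσ =>
    GalRep.gmap_num_eq σ (φ := ⟨φ, hφ⟩) hg (lmap_fix_seriesToC hσ g) hdeg hG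
  obtain ⟨DA, hDA⟩ := GalRep.exists_lift_of_fixed fun σ _ =>
    GalRep.gmap_derivative_modPoly (N := N) σ
  have hj : HasQSeries 1 ((jNMF N : modFuns (Gamma0 N)) : ℍ → ℂ) (expand N (NeZero.ne N) GalRep.jq) :=
    GalRep.hasQSeries_jNFun N
  set J : LaurentSeries Q̄ := jqModC Q̄
  set JN : LaurentSeries Q̄ := qExpand Q̄ N (jqModC Q̄)
  have hJ : seriesToC J = GalRep.jq := by
    rw [seriesToC_eq_coeffMap, MCurve.coeffMap_jqModC, GalRep.jq_eq_jqModC]
  have hval : ∀ P : Polynomial (Polynomial Q̄), seriesToC (GalRep.lEval J JN P) =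
      biEval GalRep.jq (expand N (NeZero.ne N) GalRep.jq) (P.map (Polynomial.mapRingHom qbarToC)) :=
    fun P => by
    rw [GalRep.seriesToC_eq_lmap, GalRep.lmap_lEval, GalRep.lEval_eq_biEval,
      ← GalRep.seriesToC_eq_lmap, ← GalRep.seriesToC_eq_lmap, hJ, seriesToC_gen]
  have hmem : ∀ P : Polynomial (Polynomial Q̄), GalRep.lEval J JN P ∈ modularFunctionFieldBar N := by
    intro P
    have := GalRep.lEval_mem (R := Q̄) (modularFunctionFieldBar N).toSubfield.toSubring
      (s := J) (r := JN)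
      (by simpa [qExpand_one_apply] using
        genAlg_le_bar (N := N) (Algebra.subset_adjoin (mem_divisorExpansionsC Q̄ N (one_dvd N))))
      (genAlg_le_bar (Algebra.subset_adjoin (mem_divisorExpansionsC Q̄ N dvd_rfl))) P 1
      (fun i j => by
        rw [one_mul]
        have := (modularFunctionFieldBar N).algebraMap_mem ((P.coeff i).coeff j)
        rwa [algebraMap_laurentSeries_eq_single] at this)
    rwa [map_one, one_mul] at this
  have heq : g * GalRep.lEval J JN DA = GalRep.lEval J JN GA := GalRep.seriesToC_injective (by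
    rw [GalRep.seriesToC_eq_lmap, map_mul, ← GalRep.seriesToC_eq_lmap, ← GalRep.seriesToC_eq_lmap,
      hval, hval, hDA, hGA]
    exact ((hg.mul (GalRep.hasQSeries_biEval hj _)).congr (.of_forall fun τ =>
      congrFun (congrArg Subtype.val hG) τ)).unique one_pos (GalRep.hasQSeries_biEval hj G))
  have hD0 : GalRep.lEval J JN DA ≠ 0 := fun h0 => by
    have h1 := congrArg seriesToC h0
    rw [hval, hDA, GalRep.seriesToC_eq_lmap, map_zero] at h1
    refine GalRep.biEval_modPoly_deriv_ne_zero (N := N) (Period.baseCoset N) ?_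
    rw [← GalRep.incl_biEval]
    refine (congrArg (GalRep.incl N)
      (show biEval (jMF (Gamma0 N)) (jNMF N) _ = 0 from Subtype.ext ?_)).trans (map_zero _)
    exact GalRep.eq_of_hasQSeries (biEval (jMF (Gamma0 N)) (jNMF N) _).2.holo mdifferentiable_const
      (h1 ▸ GalRep.hasQSeries_biEval hj (Polynomial.derivative (modPoly N))) (HasQSeries.zero 1)
  rw [show g = GalRep.lEval J JN GA / GalRep.lEval J JN DA by
    rw [← heq, mul_div_assoc, div_self hD0, mul_one]]
  exact div_mem (hmem _) (hmem _)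

set_option maxHeartbeats 1000000 in
theorem rootLifts_of_kummerExact {ℓ : ℕ} [Fact ℓ.Prime] (hex : KummerExact N ℓ) (hℓN : ¬ ℓ ∣ N)
    {A : ValuationSubring Q̄} (hA : A.LiesOverPrime ℓ) {m : ℕ} (hm : ¬ ℓ ∣ m) :
    RootLifts A N m := by
  intro f v hf hfgen hvgen hv0 hcong hdvd
  haveI : NeZero m := ⟨fun h => hm (h ▸ dvd_zero ℓ)⟩
  have hm0 : 0 < m := NeZero.pos m
  let x₀ : barAlg N := ⟨⟨_, hf⟩, hfgen⟩
  have hf0 : coeffMap (subA A) f ≠ 0 := by
    intro h0
    have h1 : f = 0 := coeffMap_subA_injective A (h0.trans (map_zero _).symm)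
    rw [h1, map_zero, eq_comm, pow_eq_zero_iff hm0.ne'] at hcong
    exact hv0 hcong
  have hx₀ : x₀ ≠ 0 := fun h => hf0 (congrArg (fun y : barAlg N => ((y : modularFunctionFieldBar N) : LaurentSeries Q̄)) h)
  obtain ⟨G, -, hG⟩ := GalRep.exists_interp (toMod N x₀)
  obtain ⟨χ, F, hF, hnum⟩ := GalRep.rep_of_crit (crit_of_dvd N hA hℓN hx₀ hdvd hG)
  -- `F ^ m` is the function of `f`
  have hFm : ∀ τ, F τ ^ m = (toMod N x₀ : ℍ → ℂ) τ := by
    have heq : ∀ τ : ℍ, (F τ ^ m - (toMod N x₀ : ℍ → ℂ) τ) * (GalRep.denVal N : ℍ → ℂ) τ = 0 :=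
      fun τ => by
        have h1 := hnum τ
        have h2 : (toMod N x₀ : ℍ → ℂ) τ * (GalRep.denVal N : ℍ → ℂ) τ =
            (GalRep.numVal N G : ℍ → ℂ) τ := congrFun (congrArg Subtype.val hG) τ
        linear_combination h1 - h2
    rcases Hecke.eq_zero_or_eq_zero_of_holo_mul ((hF.holo.pow m).sub (toMod N x₀).2.holo)
      (GalRep.denVal N).2.holo (funext heq) with hz | hz
    · exact fun τ => sub_eq_zero.mp (congrFun hz τ)
    · refine absurd (Subtype.ext hz : GalRep.denVal N = 0) fun h => ?_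
      exact GalRep.biEval_modPoly_deriv_ne_zero (Period.baseCoset N) (by
        rw [← GalRep.incl_biEval]
        show GalRep.incl N (GalRep.denVal N) = 0
        rw [h, map_zero])
  -- its series has algebraic coefficients
  obtain ⟨w, s, hw, hs⟩ := hF.cusps 1
  simp only [one_smul] at hs
  obtain ⟨hser, hhser⟩ := GalRep.exists_hasQSeries_of_periodic (N := 1) hF.holo (fun τ => by
    have := hF.periodic 1 1 (by
      rw [inv_one, one_mul, mul_one, zpow_one]
      simp [Gamma0_mem, ModularGroup.coe_T]) τ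
    simpa using this) hw hs
  have hpow : hser ^ m = seriesToC (coeffMap (subA A) f) :=
    ((hhser.pow m).congr (.of_forall hFm)).unique one_pos (hasQSeries_toMod N x₀)
  have hser0 : hser ≠ 0 := fun h0 => hf0 (GalRep.seriesToC_injective (by
    rw [← hpow, h0, zero_pow hm0.ne']; exact (map_zero (coeffMap qbarToC)).symm))
  have hlead : hser.coeff hser.order ≠ 0 := fun h0 => hser0 (HahnSeries.coeff_order_eq_zero.mp h0)
  have halg0 : ∀ σ : ℂ ≃+* ℂ, (∀ y, σ (qbarToC y) = qbarToC y) →
      σ (hser.coeff hser.order) = hser.coeff hser.order := by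
    intro σ hσ
    have h1 : IsAlgebraic ℚ (hser.coeff hser.order ^ m) := by
      refine GalRep.isAlgebraic_of_fixed fun σ hσ => ?_
      have h2 : ∀ i : ℕ, (hser ^ i).coeff (i • hser.order) = hser.coeff hser.order ^ i := by
        intro i
        induction i with
        | zero => simp
        | succ i ih =>
          rw [pow_succ, pow_succ, succ_nsmul, ← ih]
          conv_lhs => rw [show i • hser.order + hser.order = (hser ^ i).order + hser.order by
            rw [HahnSeries.order_pow]]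
          rw [HahnSeries.coeff_mul_order_add_order, HahnSeries.leadingCoeff_eq,
            HahnSeries.leadingCoeff_eq, HahnSeries.order_pow]
      rw [← h2, hpow]
      exact hσ _
    obtain ⟨y, hy⟩ := GalRep.exists_qbarToC_eq (IsAlgebraic.of_pow hm0 h1)
    rw [← hy]; exact hσ y
  have halg : ∀ k, IsAlgebraic ℚ (hser.coeff k) := by
    intro k
    refine GalRep.isAlgebraic_of_fixed fun σ hσ => ?_
    have h1 : GalRep.lmap σ.toRingHom hser ^ m = hser ^ m := by
      rw [← map_pow, hpow, lmap_fix_seriesToC hσ]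
    obtain ⟨ω, hω⟩ : ∃ ω : ℂ, GalRep.lmap σ.toRingHom hser = HahnSeries.C ω * hser := by
      set q := GalRep.lmap σ.toRingHom hser / hser with hq
      have hq1 : q ^ m = 1 := by rw [hq, div_pow, h1, div_self (pow_ne_zero _ hser0)]
      obtain ⟨i, -, hi⟩ := ((Complex.isPrimitiveRoot_exp m hm0.ne').map_of_injective
        (f := (HahnSeries.C : ℂ →+* LaurentSeries ℂ)) HahnSeries.C_injective).eq_pow_of_pow_eq_one hq1
      exact ⟨_, by rw [map_pow, hi, hq, div_mul_cancel₀ _ hser0]⟩
    have h2 := congrArg (fun s : LaurentSeries ℂ => s.coeff hser.order) hω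
    simp only [HahnSeries.C_apply, HahnSeries.coeff_single_zero_mul] at h2
    have hω1 : ω = 1 := by
      refine mul_right_cancel₀ hlead ?_
      rw [one_mul, ← h2]
      exact halg0 σ hσ
    rw [hω1, map_one, one_mul] at hω
    exact congrArg (fun s : LaurentSeries ℂ => s.coeff k) hω
  obtain ⟨hq, hhq⟩ := GalRep.exists_seriesToC_eq halg
  rw [← hhq] at hpow hhser
  have hqm : hq ^ m = coeffMap (subA A) f :=
    GalRep.seriesToC_injective (by
      rw [seriesToC_eq_coeffMap, map_pow, ← seriesToC_eq_coeffMap, hpow])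
  obtain ⟨Ψ, hΨ⟩ := exists_toMod hvgen
  have hχ : χ = 0 := by
    refine hex m hm A hA χ F (Ψ : ℍ → ℂ) hq _ hF hhser Ψ.2 hΨ ?_ ?_ ?_ ?_
    · intro k; rw [hqm]; exact (f.coeff k).2
    · exact fun k => (v.coeff k).2
    · by_contra hall
      push Not at hall
      refine hv0 (HahnSeries.ext (funext fun k => ?_))
      rw [coeffMap_coeff, HahnSeries.coeff_zero, residue_eq_zero_iff]
      exact A.coe_mem_nonunits_iff.mp (hall k)
    · intro k
      rw [hqm, ← map_pow]
      have h1 := congrArg (fun s : LaurentSeries (ResidueField A) => s.coeff k) hcong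
      rw [← map_pow] at h1
      simp only [coeffMap_coeff] at h1
      rw [coeffMap_coeff, coeffMap_coeff, ← map_sub]
      exact A.coe_mem_nonunits_iff.mpr 
        ((residue_eq_zero_iff (f.coeff k - (v ^ m).coeff k)).mp (by rw [map_sub, h1, sub_self]))
  have hFmod : IsModFun (Gamma0 N) F := by
    refine ⟨hF.holo, fun γ hγ τ => ?_, hF.cusps⟩
    rw [hF.equivariant ⟨γ, hγ⟩ τ, hχ]
    simp
  refine ⟨1, ⟨hq, mem_bar_of_isModFun hFmod hhser⟩, one_ne_zero, Subtype.ext ?_⟩
  rw [map_one, one_mul]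
  exact hqm

/-- Reduction modulo `ℓ` is injective on prime-to-`ℓ` torsion, given exact injectivity on Kummer
classes. -/
theorem eq_zero_of_kummerExact {ℓ : ℕ} [Fact ℓ.Prime] (hex : KummerExact N ℓ) (hℓN : ¬ ℓ ∣ N)
    {A : ValuationSubring Q̄} (hA : A.LiesOverPrime ℓ) (h : ReductionInputsModL A N) {m : ℕ}
    (hm : ¬ ℓ ∣ m) (z : JZero N) (hmz : m • z = 0) (hz : reductionModL A N z = 0) : z = 0 :=
  eq_zero_of_rootLifts hℓN hA h hm (rootLifts_of_kummerExact hex hℓN hA hm) z hmz hz

end Fermat.Agent.MCurve
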