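import Fermat.Agent.MCurve.Differential
import Fermat.Prelude.Def_AlgebraicCurve_CanonicalDivisor

/-!
The degree of a canonical divisor of a function field from the ramification of one function.
-/

noncomputable section

namespace Fermat.Agent.MCurve

open AlgebraicCurve KaehlerDifferential IntermediateField

variable {K F : Type*} [Field K] [Field F] [Algebra K F] [IsAlgClosed K] [CharZero K]

theorem degree_eq_sum (D : Divisor K F) (h : ∀ v : Place K F, v.deg = 1) (s : Finset (Place K F))
    (hs : ∀ v ∉ s, D v = 0) : Divisor.degree D = ∑ v ∈ s, D v := by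
  classical
  have : D = ∑ v ∈ s, Finsupp.single v (D v) := by
    ext v
    rw [Finsupp.finsetSum_apply]
    simp only [Finsupp.single_apply, Finset.sum_ite_eq']
    split_ifs with hv
    · rfl
    · exact hs v hv
  conv_lhs => rw [this]
  rw [map_sum]
  exact Finset.sum_congr rfl fun v _ => by rw [Divisor.degree_single, h v, Nat.cast_one, mul_one]

/-- The total order of a nonzero function is zero. -/
theorem IsFinOver.sum_ord_eq_zero {x : F} (h : IsFinOver K x) {g : F} (hg : g ≠ 0) :
    ∃ E : Divisor K F, (∀ v, E v = v.ord g) ∧ Divisor.degree E = 0 := by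
  classical
  by_cases ht : Transcendental K g
  · obtain ⟨T, hT, hTsum⟩ := (h.of_transcendental ht).exists_zeros 0
    obtain ⟨P, hP, hPsum⟩ := (h.of_transcendental ht).exists_poles
    simp only [map_zero, sub_zero] at hT hTsum
    have hsup : ∀ v : Place K F, v ∉ T ∪ P → v.ord g = 0 := fun v hv => by
      rw [Finset.notMem_union, hT, hP] at hv
      omega
    refine ⟨Finsupp.onFinset (T ∪ P) (fun v => v.ord g) (fun v hv => by
      by_contra hn; exact hv (hsup v hn)), fun v => rfl, ?_⟩
    rw [degree_eq_sum _ h.deg_eq_one (T ∪ P) hsup]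
    show ∑ v ∈ T ∪ P, v.ord g = 0
    rw [Finset.sum_union (Finset.disjoint_left.mpr fun v h1 h2 => by
      have := (hT v).mp h1; have := (hP v).mp h2; omega)]
    rw [hTsum, show ∑ v ∈ P, v.ord g = -∑ v ∈ P, -v.ord g by rw [Finset.sum_neg_distrib, neg_neg],
      hPsum]
    ring
  · have hord : ∀ v : Place K F, v.ord g = 0 := fun v => by
      by_contra hv
      exact ht (transcendental_of_ord_ne_zero v hv)
    exact ⟨0, fun v => (hord v).symm, map_zero _⟩

/-- Degree of a canonical divisor when `x` ramifies over two finite values only. -/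
theorem IsFinOver.degree_canonical {x : F} (h : IsFinOver K x) {c₁ c₂ : K} (hc : c₁ ≠ c₂)
    (hgen : ∀ c : K, c ≠ c₁ → c ≠ c₂ →
      Nat.card {v : Place K F // 0 < v.ord (x - algebraMap K F c)} = Module.finrank K⟮x⟯ F)
    {ω : Ω[F⁄K]} (hω : ω ≠ 0) {W : Divisor K F} (hD : ∀ v, W v = v.ordDifferential ω) :
    Divisor.degree W = (Module.finrank K⟮x⟯ F : ℤ)
      - Nat.card {v : Place K F // 0 < v.ord (x⁻¹ - algebraMap K F 0)}
      - Nat.card {v : Place K F // 0 < v.ord (x - algebraMap K F c₁)}
      - Nat.card {v : Place K F // 0 < v.ord (x - algebraMap K F c₂)} := by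
  classical
  haveI := h.nontrivialDifferentials
  set n := Module.finrank K⟮x⟯ F
  obtain ⟨g, rfl⟩ := Submodule.mem_span_singleton.mp
    (h.differential.1 ▸ Submodule.mem_top (x := ω))
  have hg0 : g ≠ 0 := fun h0 => hω (by rw [h0, zero_smul])
  have hxc : ∀ c : K, x - algebraMap K F c ≠ 0 := fun c h0 => h.transcendental (by
    rw [sub_eq_zero.mp h0]; exact isAlgebraic_algebraMap c)
  obtain ⟨E, hE, hE0⟩ := h.sum_ord_eq_zero hg0
  have hx0 : x ≠ 0 := by simpa using hxc 0
  have hpole : ∀ v : Place K F, v.ord x < 0 →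
      v.ordDifferential (D K F x) = v.ord x - 1 ∧ v.differentialCoeff (D K F x) ≠ 0 :=
    fun v hv => h.ordDifferential_D v hv.ne
  have hfin : ∀ (v : Place K F) (c : K), 0 < v.ord (x - algebraMap K F c) →
      v.ordDifferential (D K F x) = v.ord (x - algebraMap K F c) - 1 ∧
        v.differentialCoeff (D K F x) ≠ 0 := by
    intro v c hv
    have := h.ordDifferential_D v hv.ne'
    rwa [map_sub, Derivation.map_algebraMap, sub_zero] at this
  have hcases : ∀ v : Place K F, v.ord x < 0 ∨ ∃ c, 0 < v.ord (x - algebraMap K F c) := by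
    intro v
    rcases lt_or_ge (v.ord x) 0 with hv | hv
    · exact Or.inl hv
    haveI := h.finiteResidue v
    obtain ⟨c, hc' | hc'⟩ := exists_value v ((mem_iff_ord_nonneg v hx0).mpr hv)
    · exact absurd (sub_eq_zero.mpr hc') (hxc c)
    · exact Or.inr ⟨c, hc'⟩
  have hne : ∀ v : Place K F, v.differentialCoeff (D K F x) ≠ 0 := fun v => by
    rcases hcases v with hv | ⟨c, hv⟩
    · exact (hpole v hv).2
    · exact (hfin v c hv).2
  have hDv : ∀ v : Place K F, W v - E v = v.ordDifferential (D K F x) := fun v => by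
    haveI := h.dCoordGenerates v
    rw [hD v, hE v, v.ordDifferential_smul hg0 (hne v)]
    ring
  obtain ⟨P, hP, hPsum⟩ := h.exists_poles
  obtain ⟨T₁, hT₁, hT₁sum⟩ := h.exists_zeros c₁
  obtain ⟨T₂, hT₂, hT₂sum⟩ := h.exists_zeros c₂
  have hdisj : ∀ (v : Place K F) (c c' : K), 0 < v.ord (x - algebraMap K F c) →
      0 < v.ord (x - algebraMap K F c') → c = c' := by
    intro v c c' h1 h2
    by_contra hne'
    have hk : algebraMap K F (c' - c) ≠ 0 :=
      (map_ne_zero_iff _ (algebraMap K F).injective).mpr (sub_ne_zero.mpr (Ne.symm hne'))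
    have hlt : v.ord (algebraMap K F (c' - c)) < v.ord (x - algebraMap K F c') := by
      rw [ord_algebraMap]; exact h2
    have := ord_add_eq v hk (hxc c') hlt
    rw [map_sub, show algebraMap K F c' - algebraMap K F c + (x - algebraMap K F c') =
      x - algebraMap K F c by ring, ← map_sub, ord_algebraMap] at this
    omega
  have hdisjP : ∀ (v : Place K F) (c : K), v.ord x < 0 → ¬ 0 < v.ord (x - algebraMap K F c) := by
    intro v c h1 h2
    rcases eq_or_ne c 0 with rfl | hc0
    · rw [map_zero, sub_zero] at h2; omega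
    have hk : -algebraMap K F c ≠ 0 := by simpa using hc0
    have hlt : v.ord x < v.ord (-algebraMap K F c) := by rw [ord_neg, ord_algebraMap]; exact h1
    have := ord_add_eq v hx0 hk hlt
    rw [← sub_eq_add_neg] at this
    omega
  have hzero : ∀ v, v ∉ P ∪ T₁ ∪ T₂ → (W - E) v = 0 := by
    intro v hv
    simp only [Finset.notMem_union, hP, hT₁, hT₂] at hv
    rw [Finsupp.sub_apply, hDv v]
    rcases hcases v with hv' | ⟨c, hv'⟩
    · exact absurd hv' hv.1.1
    rw [(hfin v c hv').1]
    obtain ⟨T, hT, hTsum⟩ := h.exists_zeros c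
    have hc1 : c ≠ c₁ := fun e => hv.1.2 (e ▸ hv')
    have hc2 : c ≠ c₂ := fun e => hv.2 (e ▸ hv')
    have hcard : T.card = n := by
      rw [← hgen c hc1 hc2, ← Nat.card_eq_finsetCard]
      exact Nat.card_congr (Equiv.subtypeEquivRight hT)
    have hall : ∀ u ∈ T, (1 : ℤ) = u.ord (x - algebraMap K F c) :=
      (Finset.sum_eq_sum_iff_of_le fun u hu => (hT u).mp hu).mp (by
        rw [hTsum, Finset.sum_const, hcard, nsmul_eq_mul, mul_one])
    rw [← hall v ((hT v).mpr hv'), sub_self]
  have hdeg := degree_eq_sum (W - E) h.deg_eq_one _ hzero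
  rw [map_sub, hE0, sub_zero] at hdeg
  rw [hdeg, Finset.sum_union (Finset.disjoint_left.mpr fun v h1 h2 => by
      rcases Finset.mem_union.mp h1 with h1 | h1
      · exact hdisjP v c₂ ((hP v).mp h1) ((hT₂ v).mp h2)
      · exact hc (hdisj v c₁ c₂ ((hT₁ v).mp h1) ((hT₂ v).mp h2))),
    Finset.sum_union (Finset.disjoint_left.mpr fun v h1 h2 =>
      hdisjP v c₁ ((hP v).mp h1) ((hT₁ v).mp h2))]
  have sP : ∑ v ∈ P, (W - E) v = -(n : ℤ) - P.card := by
    rw [← hPsum, Finset.card_eq_sum_ones, Nat.cast_sum, ← Finset.sum_neg_distrib,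
      ← Finset.sum_sub_distrib]
    exact Finset.sum_congr rfl fun v hv => by
      rw [Finsupp.sub_apply, hDv v, (hpole v ((hP v).mp hv)).1]; push_cast; ring
  have sT : ∀ (c : K) (T : Finset (Place K F)), (∀ v, v ∈ T ↔ 0 < v.ord (x - algebraMap K F c)) →
      ∑ v ∈ T, v.ord (x - algebraMap K F c) = (n : ℤ) →
      ∑ v ∈ T, (W - E) v = (n : ℤ) - T.card := by
    intro c T hT hsum
    rw [← hsum, Finset.card_eq_sum_ones, Nat.cast_sum, ← Finset.sum_sub_distrib]
    exact Finset.sum_congr rfl fun v hv => by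
      rw [Finsupp.sub_apply, hDv v, (hfin v c ((hT v).mp hv)).1]; push_cast; ring
  have cP : Nat.card {v : Place K F // 0 < v.ord (x⁻¹ - algebraMap K F 0)} = P.card := by
    rw [← Nat.card_eq_finsetCard]
    exact Nat.card_congr (Equiv.subtypeEquivRight fun v => by
      rw [hP, map_zero, sub_zero, v.ord_inv]; omega)
  have c1 : Nat.card {v : Place K F // 0 < v.ord (x - algebraMap K F c₁)} = T₁.card := by
    rw [← Nat.card_eq_finsetCard]
    exact Nat.card_congr (Equiv.subtypeEquivRight fun v => (hT₁ v).symm)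
  have c2 : Nat.card {v : Place K F // 0 < v.ord (x - algebraMap K F c₂)} = T₂.card := by
    rw [← Nat.card_eq_finsetCard]
    exact Nat.card_congr (Equiv.subtypeEquivRight fun v => (hT₂ v).symm)
  rw [sP, sT c₁ T₁ hT₁ hT₁sum, sT c₂ T₂ hT₂ hT₂sum, cP, c1, c2]
  ring

end Fermat.Agent.MCurve
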