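import Fermat.Agent.MCurve.ModField
import Fermat.Prelude.Def_ModularCurve_ArithmeticGalois
import Fermat.Prelude.Def_ModularCurve_JqCoeff

/-!
Identification of the fixed field of `Γ₀(N)` with `laurentBaseChange K (modularFunctionFieldFull N)`
through `q`-expansions.
-/

noncomputable section

namespace Fermat.Agent.MCurve

open IntermediateField CongruenceSubgroup ModularCurve
open scoped MatrixGroups

local notation "ℍ" => UpperHalfPlane

theorem isFinOver_transfer {K A B : Type*} [Field K] [Field A] [Field B] [Algebra K A] [Algebra K B]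
    (e : A ≃ₐ[K] B) {x : A} (h : IsFinOver K (e x)) :
    IsFinOver K x ∧ Module.finrank K⟮x⟯ A = Module.finrank K⟮e x⟯ B := by
  have hmap : K⟮x⟯.map e.toAlgHom = K⟮e x⟯ := by
    rw [IntermediateField.adjoin_map, Set.image_singleton]; rfl
  let e' : K⟮x⟯ ≃+* K⟮e x⟯ :=
    ((K⟮x⟯.equivMap e.toAlgHom).trans (IntermediateField.equivOfEq hmap)).toRingEquiv
  have hcomm : (algebraMap K⟮e x⟯ B).comp (e' : K⟮x⟯ →+* K⟮e x⟯) =
      (e.toRingEquiv : A →+* B).comp (algebraMap K⟮x⟯ A) := RingHom.ext fun _ => rfl
  haveI := h.finite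
  exact ⟨⟨fun ha => h.transcendental (ha.algHom e.toAlgHom),
    Module.Finite.of_equiv_equiv e'.symm e.toRingEquiv.symm (RingHom.ext fun z => by
      apply e.injective
      conv_rhs => rw [← e'.apply_symm_apply z]
      simp only [RingHom.coe_comp, Function.comp_apply]
      exact (DFunLike.congr_fun hcomm (e'.symm z)).symm.trans (e.apply_symm_apply _).symm)⟩,
    Algebra.finrank_eq_of_equiv_equiv e' e.toRingEquiv hcomm⟩

theorem qExpand_coeffMap {R S : Type*} [CommRing R] [CommRing S] (f : R →+* S) (d : ℕ) [NeZero d]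
    (x : LaurentSeries R) : coeffMap f (qExpand R d x) = qExpand S d (coeffMap f x) := by
  ext k
  rw [coeffMap_coeff]
  by_cases hk : (d : ℤ) ∣ k
  · obtain ⟨m, rfl⟩ := hk
    rw [qExpand_coeff_mul, qExpand_coeff_mul, coeffMap_coeff]
  · rw [qExpand_coeff_of_not_dvd d x hk, qExpand_coeff_of_not_dvd d _ hk, map_zero]

theorem coeffMap_jqModC {R S : Type*} [CommRing R] [CommRing S] (f : R →+* S) :
    coeffMap f (jqModC R) = jqModC S :=
  map_jqModC f

theorem coeffEmb_qExpand_jq (K : Type*) [Field K] [Algebra ℚ K] (d : ℕ) [NeZero d] :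
    coeffEmb K (qExpand ℚ d jq) = qExpand K d (jqModC K) := by
  rw [coeffEmb, qExpand_coeffMap, ← jqModC_rat, coeffMap_jqModC]

variable (N : ℕ) [NeZero N] (K : Type*) [Field K] [Algebra K ℂ] [IsAlgClosed K]

/-- The expansion at infinity in `exp (2 π i τ / N)` on the field. -/
def expFld : ModFld N K →ₐ[K] LaurentSeries K :=
  IsFractionRing.liftAlgHom (A := modRing N K) (g := expansion N K) (expansion_injective N K)

theorem expFld_algebraMap (f : modRing N K) :
    expFld N K (algebraMap (modRing N K) (ModFld N K) f) = expansion N K f :=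
  IsFractionRing.lift_algebraMap (g := (expansion N K).toRingHom) (expansion_injective N K) f

theorem expFld_injective : Function.Injective (expFld N K) := (expFld N K).injective

/-- `q ↦ q ^ N` on Laurent series, as an algebra map. -/
def qPow : LaurentSeries K →ₐ[K] LaurentSeries K where
  __ := qExpand K N
  commutes' r := by
    show qExpand K N (algebraMap K (LaurentSeries K) r) = algebraMap K (LaurentSeries K) r
    rw [algebraMap_laurentSeries_eq_single, qExpand_single, mul_zero]

theorem qPow_apply (x : LaurentSeries K) : qPow N K x = qExpand K N x := rfl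

theorem expFld_jdL {d : ℕ} [NeZero d] (hd : d ∣ N) :
    expFld N K (jdL N K hd) = qPow N K (qExpand K d (jqModC K)) := by
  rw [jdL, expFld_algebraMap]
  apply iotaC_injective K
  refine (lExp_expansion N K _).unique (natCast_pos' N) ?_
  have hN : 0 < N := Nat.pos_of_ne_zero (NeZero.ne N)
  have hd0 : 0 < d := Nat.pos_of_ne_zero (NeZero.ne d)
  haveI : NeZero (N * d) := ⟨Nat.mul_ne_zero hN.ne' hd0.ne'⟩
  have h := lExp_jFn_affPt hd0 Nat.one_pos hN (show d * N = N * d * 1 by ring) 0
  rw [show zetaPow 1 0 = 1 by simp [zetaPow], jSubst_one_eq_qExpand] at h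
  rw [qPow_apply, iotaC, qExpand_coeffMap, qExpand_coeffMap, coeffMap_jqModC, qExpand_qExpand]
  refine (congrArg (fun F => LExp (N : ℝ) F _) (funext fun τ => ?_)).mp h
  show jFn _ = jFn _
  congr 1
  apply UpperHalfPlane.ext
  rw [coe_affPt hd0 Nat.one_pos, coe_scalePt hd0]
  simp

theorem jdL_one : jdL N K (one_dvd N) = jL N K :=
  congrArg _ (Subtype.ext jScale_one)

theorem expFld_jL : expFld N K (jL N K) = qPow N K (jqModC K) := by
  rw [← jdL_one, expFld_jdL, qExpand_one_apply]

variable [Algebra ℚ K]

theorem map_expFld_fixFld :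
    (fixFld N K).map (expFld N K) =
      (laurentBaseChange K (modularFunctionFieldFull N)).map (qPow N K) := by
  refine le_antisymm ?_ ?_
  · rw [fixFld_eq_adjoin, adjoin_map, adjoin_le_iff]
    rintro _ ⟨x, rfl | rfl, rfl⟩
    · refine ⟨coeffEmb K (qExpand ℚ 1 jq),
        coeffEmb_mem_laurentBaseChange K (jqd_mem_full N (one_dvd N)), ?_⟩
      rw [coeffEmb_qExpand_jq, qExpand_one_apply, expFld_jL]
      rfl
    · refine ⟨coeffEmb K (qExpand ℚ N jq),
        coeffEmb_mem_laurentBaseChange K (jqd_mem_full N dvd_rfl), ?_⟩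
      rw [coeffEmb_qExpand_jq, expFld_jdL]
      rfl
  · rw [laurentBaseChange, adjoin_map, adjoin_le_iff]
    rintro _ ⟨_, ⟨x, hx, rfl⟩, rfl⟩
    induction hx using IntermediateField.adjoin_induction with
    | mem x hx =>
      obtain ⟨d, hd0, hd, rfl⟩ := hx
      refine ⟨jdL N K hd, jdL_mem_fixFld N K hd, ?_⟩
      rw [coeffEmb_qExpand_jq]
      exact expFld_jdL N K hd
    | algebraMap q =>
      rw [show coeffEmb K (algebraMap ℚ (LaurentSeries ℚ) q) =
          algebraMap K (LaurentSeries K) (algebraMap ℚ K q) by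
        rw [algebraMap_laurentSeries_eq_single, algebraMap_laurentSeries_eq_single, coeffEmb,
          coeffMap_single], AlgHom.commutes]
      exact IntermediateField.algebraMap_mem _ _
    | add x y _ _ hx hy => rw [map_add, map_add]; exact add_mem hx hy
    | inv x _ hx => rw [map_inv₀, map_inv₀]; exact inv_mem hx
    | mul x y _ _ hx hy => rw [map_mul, map_mul]; exact mul_mem hx hy

/-- The `q`-series field is the fixed field of `Γ₀(N)`. -/
def barEquiv : laurentBaseChange K (modularFunctionFieldFull N) ≃ₐ[K] fixFld N K :=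
  ((laurentBaseChange K (modularFunctionFieldFull N)).equivMap (qPow N K)).trans
    ((IntermediateField.equivOfEq (map_expFld_fixFld N K).symm).trans
      ((fixFld N K).equivMap (expFld N K)).symm)

theorem expFld_barEquiv (x : laurentBaseChange K (modularFunctionFieldFull N)) :
    expFld N K (barEquiv N K x : ModFld N K) = qPow N K (x : LaurentSeries K) := by
  have h := ((fixFld N K).equivMap (expFld N K)).apply_symm_apply
    (IntermediateField.equivOfEq (map_expFld_fixFld N K).symm
      ((laurentBaseChange K (modularFunctionFieldFull N)).equivMap (qPow N K) x))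
  exact congrArg Subtype.val h

/-- Every element of the `q`-series field is a ratio of `q`-expansions of `Γ₀(N)`-invariant
functions of `modRing`, the denominator being a polynomial in `j`. -/
theorem exists_analytic_frac (x : laurentBaseChange K (modularFunctionFieldFull N)) :
    ∃ a b : modRing N K, (∀ γ ∈ Gamma0 N, ∀ τ : ℍ, (a : ℍ → ℂ) (γ • τ) = (a : ℍ → ℂ) τ) ∧
      b ≠ 0 ∧ (b : ℍ → ℂ) ∈ Algebra.adjoin K {jFn} ∧
      expansion N K a = qExpand K N (x : LaurentSeries K) * expansion N K b := by
  obtain ⟨a, b, ha, -, hb0, hb, hab⟩ :=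
    exists_frac_of_fixed N K (H := Gamma0 N) (x := (barEquiv N K x : ModFld N K))
      fun γ hγ => (mem_fixFld N K).mp (barEquiv N K x).2 γ hγ
  refine ⟨a, b, fun γ hγ τ => ?_, hb0, hb, ?_⟩
  · have := congrFun (congrArg Subtype.val (ha γ⁻¹ (inv_mem hγ))) τ
    rw [coe_ringAct, inv_inv] at this
    exact this
  · rw [← expFld_algebraMap, hab, map_mul, expFld_barEquiv, expFld_algebraMap]
    rfl

/-- `j` in the `q`-series field. -/
def jBar : laurentBaseChange K (modularFunctionFieldFull N) :=
  ⟨coeffEmb K (qExpand ℚ 1 jq), coeffEmb_mem_laurentBaseChange K (jqd_mem_full N (one_dvd N))⟩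

theorem coe_jBar : (jBar N K : LaurentSeries K) = jqModC K := by
  show coeffEmb K (qExpand ℚ 1 jq) = _
  rw [coeffEmb_qExpand_jq, qExpand_one_apply]

theorem barEquiv_jBar : barEquiv N K (jBar N K) = ⟨jL N K, jL_mem_fixFld N K⟩ := by
  apply Subtype.ext
  apply expFld_injective N K
  rw [expFld_barEquiv, coe_jBar]
  exact (expFld_jL N K).symm

theorem bar_isFinOver_and_finrank [CharZero K] :
    IsFinOver K (jBar N K) ∧
      Module.finrank K⟮jBar N K⟯ (laurentBaseChange K (modularFunctionFieldFull N)) =
        (Gamma0 N).index := by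
  have h := isFinOver_transfer (barEquiv N K) (x := jBar N K)
    (by rw [barEquiv_jBar]; exact isFinOver_fixFld N K)
  refine ⟨h.1, h.2.trans ?_⟩
  rw [barEquiv_jBar, finrank_fixFld]

end Fermat.Agent.MCurve
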