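import Fermat.Agent.MCurve.EllipticFibres
import Fermat.Agent.MCurve.CanonicalDegree
import Fermat.Agent.MCurve.ModBar
import Fermat.Agent.Period.EichlerShimura

/-!
The genus of the function field of `X₀(N)` over an algebraically closed subfield of `ℂ`.
-/

noncomputable section

namespace Fermat.Agent.MCurve

open AlgebraicCurve IntermediateField CongruenceSubgroup ModularCurve KaehlerDifferential
open scoped MatrixGroups

variable (N : ℕ) [NeZero N] (K : Type*) [Field K] [Algebra K ℂ] [IsAlgClosed K] [CharZero K]
  [Algebra ℚ K]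

theorem card_bar_fibre (x : laurentBaseChange K (modularFunctionFieldFull N)) (c : K) :
    Nat.card {v : Place K (laurentBaseChange K (modularFunctionFieldFull N)) //
      0 < v.ord (x - algebraMap K _ c)} =
    Nat.card {v : Place K (fixFld N K) //
      0 < v.ord (barEquiv N K x - algebraMap K (fixFld N K) c)} :=
  Nat.card_congr ((placeEquiv (barEquiv N K)).subtypeEquiv fun v => by
    rw [← AlgEquiv.commutes (barEquiv N K) c, ← map_sub, ord_placeEquiv])

/-- The genus formula. -/
theorem genus_bar_eq
    [HasCanonicalDivisor (K := K) (F := laurentBaseChange K (modularFunctionFieldFull N))] :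
    (genus K (laurentBaseChange K (modularFunctionFieldFull N)) : ℚ) = genusFormula N := by
  obtain ⟨hfin, hn⟩ := bar_isFinOver_and_finrank N K
  rw [Subgroup.index_eq_card] at hn
  have hne : ∃ ω : Ω[laurentBaseChange K (modularFunctionFieldFull N)⁄K], ω ≠ 0 :=
    ⟨_, hfin.differential.2.1⟩
  have hgen : ∀ c : K, c ≠ 0 → c ≠ 1728 →
      Nat.card {v : Place K (laurentBaseChange K (modularFunctionFieldFull N)) //
        0 < v.ord (jBar N K - algebraMap K _ c)} =
      Module.finrank K⟮jBar N K⟯ (laurentBaseChange K (modularFunctionFieldFull N)) := by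
    intro c h1 h2
    rw [card_bar_fibre, barEquiv_jBar, card_fibre_generic N K c h1 h2, hn]
  have hdeg := hfin.degree_canonical (c₁ := (0 : K)) (c₂ := 1728) (by norm_num) hgen
    hne.choose_spec (canonicalDivisorOf_apply hne.choose_spec)
  have hinv : barEquiv N K (jBar N K)⁻¹ =
      ⟨(jL N K)⁻¹, inv_mem (jL_mem_fixFld N K)⟩ := by
    rw [map_inv₀, barEquiv_jBar]; rfl
  rw [card_bar_fibre, card_bar_fibre, card_bar_fibre, hinv, barEquiv_jBar, ncard_cusps,
    hn] at hdeg
  have hρ := card_fibre_rho N K
  have hI := card_fibre_I N K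
  rw [Fermat.Agent.Period.fixCard_ellU, Fermat.Agent.Period.card_coset] at hρ
  rw [Fermat.Agent.Period.fixCard_S, Fermat.Agent.Period.card_coset] at hI
  rw [Fermat.Agent.Period.card_cuspSet,
    show Nat.card (SL(2, ℤ) ⧸ Gamma0 N) = dedekindPsi N from Fermat.Agent.Period.card_coset]
    at hdeg
  have hg := Fermat.Agent.Period.twelve_mul_finrank_cuspForm_two N
  have hkey : genus K (laurentBaseChange K (modularFunctionFieldFull N)) =
      Module.finrank ℂ (CuspForm (Gamma0 N) 2) := by
    rw [AlgebraicCurve.genus, dif_pos hne, hdeg]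
    omega
  rw [hkey]
  exact Fermat.Agent.Period.finrank_cuspForm_two N

end Fermat.Agent.MCurve
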