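import Fermat.Agent.MCurve.FuncField
import Fermat.Prelude.Def_AlgebraicCurve_Correspondence
import Mathlib.RingTheory.Ideal.Norm.RelNorm

/-!
The norm formula for divisors along a finite extension of function fields over an algebraically
closed field of characteristic zero, and the fundamental identity.
-/

set_option autoImplicit false

noncomputable section

namespace Fermat.Agent.MCurve

open AlgebraicCurve IsDedekindDomain

variable {K F F' : Type*} [Field K] [Field F] [Field F'] [Algebra K F] [Algebra K F']
  [Algebra F F'] [IsScalarTower K F F'] [FiniteDimensional F F'] [IsAlgClosed K] [CharZero K]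

/-- The integral closure in `F'` of the ring of a place of `F`. -/
abbrev overRing (F' : Type*) [Field F'] [Algebra F F'] (v : Place K F) :=
  integralClosure v.toValuationSubring F'

theorem charZero_field (F : Type*) [Field F] [Algebra K F] : CharZero F :=
  charZero_of_injective_algebraMap (algebraMap K F).injective

section Local

variable (v : Place K F)

theorem overRing_facts :
    IsDedekindDomain (overRing F' v) ∧ Module.Finite v.toValuationSubring (overRing F' v) ∧
      IsFractionRing (overRing F' v) F' := by
  haveI := charZero_field (K := K) F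
  exact ⟨integralClosure.isDedekindDomain v.toValuationSubring F F',
    IsIntegralClosure.finite v.toValuationSubring F F' _,
    integralClosure.isFractionRing_of_finite_extension F F'⟩

instance : IsDedekindDomain (overRing F' v) := (overRing_facts v).1
instance : Module.Finite v.toValuationSubring (overRing F' v) := (overRing_facts v).2.1
instance : IsFractionRing (overRing F' v) F' := (overRing_facts v).2.2

instance : Algebra K (overRing F' v) :=
  ((algebraMap v.toValuationSubring (overRing F' v)).comp
    (algebraMap K v.toValuationSubring)).toAlgebra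

instance : IsScalarTower K (overRing F' v) F' := IsScalarTower.of_algebraMap_eq fun a => by
  show algebraMap K F' a = algebraMap v.toValuationSubring F' (algebraMap K _ a)
  rw [IsScalarTower.algebraMap_apply K F F', IsScalarTower.algebraMap_apply v.toValuationSubring F F']
  rfl

/-- The place of a maximal ideal of the integral closure. -/
def placeOver (P : HeightOneSpectrum (overRing F' v)) : Place K F' :=
  Place.ofHeightOneSpectrum P

theorem mem_placeOver {P : HeightOneSpectrum (overRing F' v)} {f : F'} :
    f ∈ (placeOver v P).toValuationSubring ↔ P.valuation F' f ≤ 1 := Iff.rfl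

theorem ord_placeOver (P : HeightOneSpectrum (overRing F' v)) {f : F'} (hf : f ≠ 0) :
    (placeOver v P).ord f = -(WithZero.log (P.valuation F' f)) := by
  refine ord_eq_of (placeOver v P) (fun g => -(WithZero.log (P.valuation F' g))) ?_ ?_ ?_ hf
  · intro a b ha hb
    rw [map_mul, WithZero.log_mul (by simpa using ha) (by simpa using hb)]
    ring
  · intro a ha
    rw [mem_placeOver, ← WithZero.log_le_log (by simpa using ha) one_ne_zero, WithZero.log_one]
    omega
  · obtain ⟨π, hπ⟩ := P.valuation_exists_uniformizer F'
    refine ⟨π, fun h0 => ?_, by rw [hπ]; simp⟩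
    rw [h0, map_zero] at hπ
    exact WithZero.exp_ne_zero hπ.symm

theorem placeOver_pos_iff (P : HeightOneSpectrum (overRing F' v)) (s : overRing F' v) (hs : s ≠ 0) :
    0 < (placeOver v P).ord (s : F') ↔ s ∈ P.asIdeal := by
  have hs' : (s : F') ≠ 0 := by simpa using hs
  rw [ord_placeOver v P hs', ← P.valuation_lt_one_iff_mem (K := F')]
  change 0 < -(WithZero.log (P.valuation F' (s : F'))) ↔ P.valuation F' (s : F') < 1
  rw [← WithZero.log_lt_log (by simpa using hs') one_ne_zero, WithZero.log_one]
  omega

theorem placeOver_injective : Function.Injective (placeOver (F' := F') v) := by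
  intro P Q h
  refine HeightOneSpectrum.ext (Ideal.ext fun s => ?_)
  rcases eq_or_ne s 0 with rfl | hs
  · simp
  rw [← placeOver_pos_iff v P s hs, ← placeOver_pos_iff v Q s hs, h]

theorem coe_overRing_mem {w : Place K F'} (hw : w.restrict F = v) (s : overRing F' v) :
    (s : F') ∈ w.toValuationSubring := by
  have hA : ∀ a : v.toValuationSubring, algebraMap F F' (a : F) ∈ w.toValuationSubring := fun a =>
    Place.mem_restrict_iff w |>.mp (hw.symm ▸ a.2)
  letI : Algebra v.toValuationSubring w.toValuationSubring :=
    ((algebraMap v.toValuationSubring F').codRestrict w.toValuationSubring.toSubring hA).toAlgebra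
  haveI : IsScalarTower v.toValuationSubring w.toValuationSubring F' :=
    IsScalarTower.of_algebraMap_eq fun _ => rfl
  have hs : IsIntegral w.toValuationSubring (s : F') := IsIntegral.tower_top s.2
  obtain ⟨y, hy⟩ := IsIntegrallyClosed.isIntegral_iff.mp hs
  exact hy ▸ y.2

theorem maximalIdeal_ne_bot : IsLocalRing.maximalIdeal v.toValuationSubring ≠ ⊥ :=
  IsDiscreteValuationRing.not_a_field _

theorem under_asIdeal (P : HeightOneSpectrum (overRing F' v)) :
    P.asIdeal.under v.toValuationSubring = IsLocalRing.maximalIdeal v.toValuationSubring := by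
  haveI := P.isMaximal
  exact IsLocalRing.eq_maximalIdeal (Ideal.IsMaximal.under v.toValuationSubring P.asIdeal)

theorem restrict_placeOver (P : HeightOneSpectrum (overRing F' v)) :
    (placeOver v P).restrict F = v := by
  refine (place_eq_of_le fun a ha => ?_).symm
  rw [Place.mem_restrict_iff, mem_placeOver]
  exact P.valuation_le_one (algebraMap v.toValuationSubring (overRing F' v) ⟨a, ha⟩)

theorem exists_placeOver {w : Place K F'} (hw : w.restrict F = v) :
    ∃ P, placeOver v P = w := by
  let ψ : overRing F' v →+* w.toValuationSubring :=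
    ((overRing F' v).val : overRing F' v →+* F').codRestrict w.toValuationSubring.toSubring
      (coe_overRing_mem v hw)
  let I : Ideal (overRing F' v) := (IsLocalRing.maximalIdeal w.toValuationSubring).comap ψ
  have hI : I ≠ ⊥ := by
    intro hbot
    refine w.ne_top' (SetLike.ext fun y => ⟨fun _ => ValuationSubring.mem_top y, fun _ => ?_⟩)
    obtain ⟨a, b, hb, rfl⟩ := IsFractionRing.div_surjective (A := overRing F' v) y
    have hb0 : b ≠ 0 := nonZeroDivisors.ne_zero hb
    have hunit : IsUnit (ψ b) := by
      by_contra hn
      exact hb0 ((Ideal.mem_bot).mp (hbot ▸ (show b ∈ I from hn)))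
    obtain ⟨u, hu⟩ := hunit.exists_right_inv
    have hu' : (b : F') * (u : F') = 1 := congrArg Subtype.val hu
    rw [show algebraMap (overRing F' v) F' a = (a : F') from rfl,
      show algebraMap (overRing F' v) F' b = (b : F') from rfl,
      div_eq_mul_inv, inv_eq_of_mul_eq_one_right hu']
    exact mul_mem (coe_overRing_mem v hw a) u.2
  haveI : I.IsPrime := Ideal.comap_isPrime _ _
  refine ⟨⟨I, inferInstance, hI⟩, place_eq_of_le fun y hy => ?_⟩
  obtain ⟨a, b, hb⟩ := HeightOneSpectrum.exists_primeCompl_mul_eq_of_integer _ y hy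
  have hunit : IsUnit (ψ (b : overRing F' v)) := by
    by_contra hn
    exact b.2 hn
  obtain ⟨u, hu⟩ := hunit.exists_right_inv
  have hu' : ((b : overRing F' v) : F') * (u : F') = 1 := congrArg Subtype.val hu
  have hy' : y = (a : F') * (u : F') := by
    rw [show (a : F') = y * ((b : overRing F' v) : F') from hb.symm, mul_assoc, hu', mul_one]
  rw [hy']
  exact mul_mem (coe_overRing_mem v hw a) u.2

theorem inertiaDeg_asIdeal (hres : ∀ w : Place K F', Module.Finite K w.ResidueField)
    (P : HeightOneSpectrum (overRing F' v)) : P.asIdeal.inertiaDeg v.toValuationSubring = 1 := by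
  haveI := P.isMaximal
  haveI : P.asIdeal.LiesOver (IsLocalRing.maximalIdeal v.toValuationSubring) :=
    ⟨(under_asIdeal v P).symm⟩
  refine le_antisymm ?_ (Ideal.inertiaDeg_pos P.asIdeal v.toValuationSubring)
  rw [Ideal.inertiaDeg_eq_of_isMaximal (IsLocalRing.maximalIdeal v.toValuationSubring)]
  letI : Field (v.toValuationSubring ⧸ IsLocalRing.maximalIdeal v.toValuationSubring) :=
    Ideal.Quotient.field _
  refine finrank_le_one (1 : overRing F' v ⧸ P.asIdeal) fun y => ?_
  obtain ⟨s, rfl⟩ := Ideal.Quotient.mk_surjective y
  haveI := hres (placeOver v P)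
  obtain ⟨a, ha⟩ := exists_value (placeOver v P) (coe_overRing_mem v (restrict_placeOver v P) s)
  refine ⟨Ideal.Quotient.mk _ (algebraMap K v.toValuationSubring a), ?_⟩
  rw [Algebra.smul_def, mul_one]
  refine ((Ideal.Quotient.mk_eq_mk_iff_sub_mem _ _).mpr ?_).symm
  have hcoe : ((algebraMap v.toValuationSubring (overRing F' v) (algebraMap K _ a) :
      overRing F' v) : F') = algebraMap K F' a :=
    (IsScalarTower.algebraMap_apply K (overRing F' v) F' a).symm
  rcases ha with h | h
  · rw [show s - algebraMap v.toValuationSubring (overRing F' v) (algebraMap K _ a) = 0 from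
      Subtype.ext (by simp [hcoe, h])]
    exact zero_mem _
  · refine (placeOver_pos_iff v P _ fun h0 => ?_).mp (by simpa [hcoe] using h)
    have := congrArg Subtype.val h0
    simp only [AddSubgroupClass.coe_sub, hcoe, ZeroMemClass.coe_zero] at this
    rw [this, Place.ord_zero] at h
    exact lt_irrefl _ h

open UniqueFactorizationMonoid in
theorem ord_intNorm_eq_card (hres : ∀ w : Place K F', Module.Finite K w.ResidueField)
    (s : overRing F' v) (hs : s ≠ 0) :
    v.ord (Algebra.norm F (s : F')) =
      Multiset.card (normalizedFactors (Ideal.span ({s} : Set (overRing F' v)))) := by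
  classical
  haveI := charZero_field (K := K) F
  haveI : CharZero (FractionRing v.toValuationSubring) :=
    charZero_of_injective_ringHom
      (FractionRing.algEquiv v.toValuationSubring F).symm.toRingHom.injective
  set I := Ideal.span ({s} : Set (overRing F' v)) with hI
  have hI0 : I ≠ ⊥ := by simpa [hI] using hs
  set m := IsLocalRing.maximalIdeal v.toValuationSubring
  have hrel : ∀ J ∈ normalizedFactors I, Ideal.relNorm v.toValuationSubring J = m := by
    intro J hJ
    have hJ0 : J ≠ ⊥ := ne_zero_of_mem_normalizedFactors hJ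
    rw [Ideal.mem_normalizedFactors_iff hI0] at hJ
    haveI : J.IsMaximal := Ring.DimensionLEOne.maximalOfPrime hJ0 hJ.1
    haveI : J.LiesOver m := ⟨(under_asIdeal v ⟨J, hJ.1, hJ0⟩).symm⟩
    rw [Ideal.relNorm_eq_pow_of_isMaximal J m, inertiaDeg_asIdeal v hres ⟨J, hJ.1, hJ0⟩, pow_one]
  have h1 : Ideal.relNorm v.toValuationSubring I =
      m ^ Multiset.card (normalizedFactors I) := by
    conv_lhs => rw [← prod_normalizedFactors_eq_self hI0, map_multiset_prod,
      Multiset.map_congr rfl hrel, Multiset.map_const', Multiset.prod_replicate]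
  rw [hI, Ideal.relNorm_singleton] at h1
  obtain ⟨π, hπ⟩ := IsDiscreteValuationRing.exists_irreducible v.toValuationSubring
  rw [show m = Ideal.span {π} from hπ.maximalIdeal_eq, Ideal.span_singleton_pow,
    Ideal.span_singleton_eq_span_singleton] at h1
  obtain ⟨u, hu⟩ := h1.symm
  have h2 := congrArg (fun z : v.toValuationSubring => v.ord (z : F)) hu
  have h3 : ((Algebra.intNorm v.toValuationSubring (overRing F' v) s : v.toValuationSubring) : F) =
      Algebra.norm F (s : F') :=
    Algebra.algebraMap_intNorm (A := v.toValuationSubring) (K := F) (L := F') s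
  simp only [h3] at h2
  rw [← h2, mul_comm]
  push_cast
  rw [← zpow_natCast, v.ord_unit_smul_zpow u hπ]

open UniqueFactorizationMonoid in
theorem count_eq_ord (s : overRing F' v) (hs : s ≠ 0) (P : HeightOneSpectrum (overRing F' v)) :
    ((normalizedFactors (Ideal.span ({s} : Set (overRing F' v)))).count P.asIdeal : ℤ) =
      (placeOver v P).ord (s : F') := by
  classical
  rw [ord_placeOver v P (by simpa using hs),
    show P.valuation F' (s : F') = P.intValuation s from P.valuation_of_algebraMap (K := F') s,
    P.intValuation_if_neg hs, WithZero.log_exp, neg_neg,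
    Ideal.count_associates_factors_eq (by simpa using hs) P.isPrime P.ne_bot]

variable [HasPrincipalDivisors K F']

theorem ord_norm_coe (hres : ∀ w : Place K F', Module.Finite K w.ResidueField)
    (s : overRing F' v) (hs : s ≠ 0) :
    v.ord (Algebra.norm F (s : F')) = ∑ w ∈ v.fiber F', w.ord (s : F') := by
  classical
  rw [ord_intNorm_eq_card v hres s hs]
  set M := UniqueFactorizationMonoid.normalizedFactors (Ideal.span ({s} : Set (overRing F' v)))
  have hex : ∀ w : {w // w ∈ v.fiber F'}, ∃ P, placeOver v P = w.1 := fun w =>
    exists_placeOver v (Place.mem_fiber.mp w.2)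
  choose Q hQ using hex
  rw [← Finset.sum_attach]
  have h1 : ∀ w ∈ (v.fiber F').attach, w.1.ord (s : F') = (M.count (Q w).asIdeal : ℤ) :=
    fun w _ => by rw [count_eq_ord v s hs (Q w), hQ]
  rw [Finset.sum_congr rfl h1, ← Nat.cast_sum]
  have hQinj : Function.Injective fun w => (Q w).asIdeal := fun a b h => by
    refine Subtype.ext ?_
    rw [← hQ a, ← hQ b, HeightOneSpectrum.ext h]
  congr 1
  rw [← Finset.sum_image (f := fun J => M.count J) (fun a _ b _ h => hQinj h)]
  symm
  refine Multiset.sum_count_eq_card fun J hJ => ?_
  have hI0 : Ideal.span ({s} : Set (overRing F' v)) ≠ ⊥ := by simpa using hs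
  have hJ0 : J ≠ ⊥ := UniqueFactorizationMonoid.ne_zero_of_mem_normalizedFactors hJ
  have hJp := ((Ideal.mem_normalizedFactors_iff hI0).mp hJ).1
  let P : HeightOneSpectrum (overRing F' v) := ⟨J, hJp, hJ0⟩
  let w : {w // w ∈ v.fiber F'} :=
    ⟨placeOver v P, Place.mem_fiber.mpr (restrict_placeOver v P)⟩
  refine Finset.mem_image.mpr ⟨w, Finset.mem_attach _ _, ?_⟩
  rw [placeOver_injective v (hQ w)]

/-- The order of a norm is the sum of the orders over the fibre. -/
theorem ord_norm (hres : ∀ w : Place K F', Module.Finite K w.ResidueField) {f : F'} (hf : f ≠ 0) :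
    v.ord (Algebra.norm F f) = ∑ w ∈ v.fiber F', w.ord f := by
  obtain ⟨a, b, hb, rfl⟩ := IsFractionRing.div_surjective (A := overRing F' v) f
  have hb0 : b ≠ 0 := nonZeroDivisors.ne_zero hb
  have ha0 : a ≠ 0 := fun h => hf (by simp [h])
  have hb' : (b : F') ≠ 0 := by simpa using hb0
  have ha' : (a : F') ≠ 0 := by simpa using ha0
  rw [show algebraMap (overRing F' v) F' a = (a : F') from rfl,
    show algebraMap (overRing F' v) F' b = (b : F') from rfl, div_eq_mul_inv, map_mul, Algebra.norm_inv,
    v.ord_mul (Algebra.norm_ne_zero_iff.mpr ha')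
      (inv_ne_zero (Algebra.norm_ne_zero_iff.mpr hb')), v.ord_inv,
    ord_norm_coe v hres a ha0, ord_norm_coe v hres b hb0, ← Finset.sum_neg_distrib,
    ← Finset.sum_add_distrib]
  exact Finset.sum_congr rfl fun w _ => by rw [w.ord_mul ha' (inv_ne_zero hb'), w.ord_inv]

end Local

variable [HasPrincipalDivisors K F']

theorem inertiaDeg_eq_one {x : F} {y : F'} (hx : IsFinOver K x) (hy : IsFinOver K y)
    (w : Place K F') : w.inertiaDeg F = 1 := by
  have h := w.deg_restrict_mul_inertiaDeg (F := F)
  rwa [hy.deg_eq_one, hx.deg_eq_one, one_mul] at h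

/-- The norm formula. -/
theorem pushforwardNormFormula {x : F} {y : F'} (hx : IsFinOver K x) (hy : IsFinOver K y) :
    Divisor.PushforwardNormFormula K F F' := by
  classical
  intro f hf D hD v
  rw [ord_norm v hy.finiteResidue hf, Divisor.pushforward_apply, ← Finset.sum_filter]
  refine Eq.trans (Finset.sum_congr rfl fun w _ => by
    rw [inertiaDeg_eq_one hx hy w, Nat.cast_one, mul_one, hD]) ?_
  refine Finset.sum_subset (fun w hw => Place.mem_fiber.mpr (Finset.mem_filter.mp hw).2)
    fun w hw hw' => ?_
  by_contra h0
  exact hw' (Finset.mem_filter.mpr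
    ⟨Finsupp.mem_support_iff.mpr (by rwa [hD]), Place.mem_fiber.mp hw⟩)

theorem sum_ramificationIndex {y : F'} (hy : IsFinOver K y) (v : Place K F) :
    ∑ w ∈ v.fiber F', (w.ramificationIndex F : ℤ) = Module.finrank F F' := by
  obtain ⟨π, hπ, h1⟩ := exists_ord_eq_one v
  have h := ord_norm (F' := F') v hy.finiteResidue
    ((map_ne_zero (algebraMap F F')).mpr hπ)
  rw [Algebra.norm_algebraMap, ← zpow_natCast, v.ord_zpow, h1, mul_one] at h
  rw [h]
  refine Finset.sum_congr rfl fun w hw => ?_
  rw [Place.ord_restrict, Place.mem_fiber.mp hw, h1, mul_one]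

/-- The fundamental identity. -/
theorem fundamentalIdentity {x : F} {y : F'} (hx : IsFinOver K x) (hy : IsFinOver K y) :
    FundamentalIdentity K F F' := ⟨fun v => by
  rw [hx.deg_eq_one, Nat.cast_one, mul_one, ← sum_ramificationIndex hy v]
  exact Finset.sum_congr rfl fun w _ => by rw [hy.deg_eq_one, Nat.cast_one, mul_one]⟩

end Fermat.Agent.MCurve
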