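import Fermat.Agent.MCurve.RedDegree
import Fermat.Agent.MCurve.ModBar
import Fermat.Agent.MCurve.IgusaIntegral
import Fermat.Agent.GalRep.Datum
import Fermat.Prelude.Def_ModularCurve_IgusaScheme

/-!
The coordinate rings of the Igusa model have integral `q`-expansions and their reduction mod `ℓ`
embeds into `k((q))`.
-/

noncomputable section

namespace Fermat.Agent.MCurve

open ModularCurve ModularCurve.IgusaScheme CongruenceSubgroup
open scoped MatrixGroups

section Auxiliary

variable (ℓ : ℕ)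

/-- `ℤ_(ℓ) → ℂ`. -/
def oToC : GaloisRep.ratLocalizedAt ℓ →+* ℂ :=
  (algebraMap ℚ ℂ).comp (GaloisRep.ratLocalizedAt ℓ).subtype

/-- Complex numbers integral over `ℤ_(ℓ)`. -/
def intC : Subring ℂ where
  carrier := {z | (oToC ℓ).IsIntegralElem z}
  mul_mem' := RingHom.IsIntegralElem.mul _
  one_mem' := RingHom.isIntegralElem_one _
  add_mem' := RingHom.IsIntegralElem.add _
  zero_mem' := RingHom.isIntegralElem_zero _
  neg_mem' := RingHom.IsIntegralElem.neg _

theorem oToC_mem (r : GaloisRep.ratLocalizedAt ℓ) : oToC ℓ r ∈ intC ℓ :=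
  RingHom.isIntegralElem_map _

/-- `ℤ_(ℓ) → intC ℓ`. -/
def oToIntC : GaloisRep.ratLocalizedAt ℓ →+* intC ℓ :=
  (oToC ℓ).codRestrict (intC ℓ) (oToC_mem ℓ)

theorem oToC_injective : Function.Injective (oToC ℓ) :=
  (algebraMap ℚ ℂ).injective.comp Subtype.val_injective

theorem isGoodRing_intC [Fact ℓ.Prime] {N : ℕ} [NeZero N] (hℓN : ¬ ℓ ∣ N) :
    IsGoodRing N (intC ℓ) := by
  refine ⟨fun ζ hζ => ⟨Polynomial.X ^ N - Polynomial.C 1,
    Polynomial.monic_X_pow_sub_C _ (NeZero.ne N), by simp [hζ]⟩, ?_⟩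
  have hmem : ((N : ℚ))⁻¹.den.Coprime ℓ := by
    rw [Rat.inv_natCast_den_of_pos (Nat.pos_of_ne_zero (NeZero.ne N)), Nat.coprime_comm]
    exact (Fact.out : ℓ.Prime).coprime_iff_not_dvd.mpr hℓN
  have := oToC_mem ℓ ⟨(N : ℚ)⁻¹, hmem⟩
  simpa [oToC] using this

theorem natCast_ne_unit_intC [Fact ℓ.Prime] : ¬ IsUnit ((ℓ : ℕ) : intC ℓ) := by
  intro hu
  obtain ⟨z, hz⟩ := hu.exists_right_inv
  obtain ⟨p, hp, hpz⟩ := (z.2 : (oToC ℓ).IsIntegralElem (z : ℂ))
  have h1 := Polynomial.scaleRoots_eval₂_eq_zero (oToC ℓ)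
    (s := (ℓ : GaloisRep.ratLocalizedAt ℓ)) hpz
  have hz' : (oToC ℓ) (ℓ : GaloisRep.ratLocalizedAt ℓ) * (z : ℂ) = oToC ℓ 1 := by
    rw [map_natCast, map_one]
    exact_mod_cast congrArg Subtype.val hz
  rw [hz', Polynomial.eval₂_at_apply] at h1
  have h2 := oToC_injective ℓ (h1.trans (map_zero _).symm)
  set q := Ideal.Quotient.mk (Ideal.span {((ℓ : ℕ) : GaloisRep.ratLocalizedAt ℓ)})
  haveI : Nontrivial (GaloisRep.ratLocalizedAt ℓ ⧸
      Ideal.span {((ℓ : ℕ) : GaloisRep.ratLocalizedAt ℓ)}) :=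
    Ideal.Quotient.nontrivial_iff.mpr
      (fun h => (prime_natCast_ratLocalizedAt ℓ).not_isUnit (Ideal.span_singleton_eq_top.mp h))
  have h3 := congrArg q h2
  rw [← Polynomial.eval₂_at_apply, ← Polynomial.eval_map, Polynomial.map_scaleRoots _ _ _
      (by rw [hp.leadingCoeff, map_one]; exact one_ne_zero),
    show q (ℓ : GaloisRep.ratLocalizedAt ℓ) = 0 from
      Ideal.Quotient.eq_zero_iff_mem.mpr (Ideal.mem_span_singleton_self _),
    Polynomial.scaleRoots_zero, map_one, map_zero, Polynomial.eval_smul, Polynomial.eval_pow,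
    Polynomial.eval_X, one_pow, smul_eq_mul, mul_one, (hp.map q).leadingCoeff] at h3
  exact one_ne_zero h3

theorem exists_red [Fact ℓ.Prime] :
    ∃ m : Ideal (intC ℓ), m.IsMaximal ∧ ((ℓ : ℕ) : intC ℓ) ∈ m := by
  obtain ⟨m, hm, hle⟩ := Ideal.exists_le_maximal (Ideal.span {((ℓ : ℕ) : intC ℓ)})
    (fun h => natCast_ne_unit_intC ℓ (Ideal.span_singleton_eq_top.mp h))
  exact ⟨m, hm, hle (Ideal.mem_span_singleton_self _)⟩

theorem red_eq_zero_iff [Fact ℓ.Prime] {k : Type*} [Field k] (ρ : GaloisRep.ratLocalizedAt ℓ →+* k)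
    (hρ : ρ (ℓ : GaloisRep.ratLocalizedAt ℓ) = 0) (r : GaloisRep.ratLocalizedAt ℓ) :
    ρ r = 0 ↔ (ℓ : GaloisRep.ratLocalizedAt ℓ) ∣ r := by
  refine ⟨fun h => ?_, fun ⟨y, hy⟩ => by rw [hy, map_mul, hρ, zero_mul]⟩
  rcases ratLocalizedAt_cases ℓ r with hu | ⟨y, hy⟩
  · exact absurd h (hu.map ρ).ne_zero
  · exact ⟨y, hy⟩

end Auxiliary

section Relation

variable (N : ℕ) [NeZero N]

theorem exists_ratLinearMap {K : Type*} [Field K] [Algebra ℚ K] {c : K} (hc : c ≠ 0) :
    ∃ φ : K →ₗ[ℚ] ℚ, φ c ≠ 0 :=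
  not_forall.mp fun h => hc ((Module.forall_dual_apply_eq_zero_iff ℚ c).mp h)

/-- Every element satisfies a linear relation with the powers of `j (q ^ N)` over `ℤ [j]`. -/
theorem exists_relation (x : modularFunctionFieldFull N) :
    ∃ (d : Polynomial ℤ) (a : Fin (Gamma0 N).index → Polynomial ℤ), (d ≠ 0 ∨ ∃ b, a b ≠ 0) ∧
      evalAtJ d * (x : LaurentSeries ℚ) = ∑ b, evalAtJ (a b) * qExpand ℚ N jq ^ (b : ℕ) := by
  classical
  letI : Algebra (AlgebraicClosure ℚ) ℂ := Fermat.Agent.GalRep.qbarToC.toAlgebra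
  set K := AlgebraicClosure ℚ
  obtain ⟨hfin, hrank⟩ := bar_isFinOver_and_finrank N K
  haveI := hfin.finite
  let v : Option (Fin (Gamma0 N).index) → laurentBaseChange K (modularFunctionFieldFull N) :=
    fun i => match i with
    | none => ⟨coeffEmb K (x : LaurentSeries ℚ), coeffEmb_mem_laurentBaseChange K x.2⟩
    | some b => ⟨coeffEmb K (qExpand ℚ N jq),
        coeffEmb_mem_laurentBaseChange K (jqd_mem_full N dvd_rfl)⟩ ^ (b : ℕ)
  let w : Option (Fin (Gamma0 N).index) → LaurentSeries ℚ :=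
    fun i => match i with
    | none => (x : LaurentSeries ℚ)
    | some b => qExpand ℚ N jq ^ (b : ℕ)
  have hvw : ∀ i, ((v i : laurentBaseChange K (modularFunctionFieldFull N)) : LaurentSeries K) =
      coeffEmb K (w i) := by
    rintro (_ | b)
    · rfl
    · simp [v, w, map_pow]
  have hdep : ¬ LinearIndependent (IntermediateField.adjoin K {jBar N K}) v := fun hli => by
    have := hli.fintype_card_le_finrank
    rw [Fintype.card_option, Fintype.card_fin, hrank] at this
    omega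
  rw [Fintype.not_linearIndependent_iff] at hdep
  obtain ⟨g, hg, i₀, hi₀⟩ := hdep
  have hrep : ∀ i, ∃ p q : Polynomial K, (g i : laurentBaseChange K (modularFunctionFieldFull N)) =
      Polynomial.aeval (jBar N K) p / Polynomial.aeval (jBar N K) q ∧ q ≠ 0 := by
    intro i
    obtain ⟨p, q, hpq⟩ := (IntermediateField.mem_adjoin_simple_iff _ _).mp (g i).2
    rcases eq_or_ne q 0 with rfl | hq
    · exact ⟨0, 1, by rw [hpq]; simp, one_ne_zero⟩
    · exact ⟨p, q, hpq, hq⟩
  choose p q hpq hq using hrep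
  have hev : ∀ r : Polynomial K, r ≠ 0 → Polynomial.aeval (jBar N K) r ≠ 0 := fun r hr h0 =>
    hfin.transcendental ⟨r, hr, h0⟩
  set P : Option (Fin (Gamma0 N).index) → Polynomial K :=
    fun i => p i * ∏ l ∈ Finset.univ.erase i, q l with hP
  have hPne : P i₀ ≠ 0 := by
    refine mul_ne_zero (fun h0 => hi₀ ?_) (Finset.prod_ne_zero_iff.mpr fun l _ => hq l)
    apply Subtype.ext
    show (g i₀ : laurentBaseChange K (modularFunctionFieldFull N)) = 0
    rw [hpq, h0, map_zero, zero_div]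
  have hsum : ∑ i, Polynomial.aeval (jBar N K) (P i) * v i = 0 := by
    have : ∀ i, Polynomial.aeval (jBar N K) (P i) * v i =
        Polynomial.aeval (jBar N K) (∏ l, q l) *
          ((g i : laurentBaseChange K (modularFunctionFieldFull N)) * v i) := by
      intro i
      rw [hP, map_mul, ← Finset.mul_prod_erase Finset.univ q (Finset.mem_univ i), map_mul, hpq]
      field_simp [hev _ (hq i)]
    rw [Finset.sum_congr rfl fun i _ => this i, ← Finset.mul_sum]
    refine mul_eq_zero_of_right _ ?_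
    exact hg
  have hS : ∑ i, Polynomial.eval₂ (algebraMap K (LaurentSeries K)) (jqModC K) (P i) *
      coeffEmb K (w i) = 0 := by
    have := congrArg (laurentBaseChange K (modularFunctionFieldFull N)).val hsum
    rw [map_sum, map_zero] at this
    rw [← this]
    refine Finset.sum_congr rfl fun i _ => ?_
    rw [map_mul, IntermediateField.coe_val, hvw, ← coe_jBar N K]
    congr 1
    exact (Polynomial.aeval_algHom_apply (laurentBaseChange K (modularFunctionFieldFull N)).val
      (jBar N K) (P i))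
  obtain ⟨m₀, hm₀⟩ : ∃ m, (P i₀).coeff m ≠ 0 := ⟨_, Polynomial.leadingCoeff_ne_zero.mpr hPne⟩
  obtain ⟨φ, hφ⟩ := exists_ratLinearMap hm₀
  have hC : ∀ (c : K) (s : LaurentSeries K) (k : ℤ),
      (algebraMap K (LaurentSeries K) c * s).coeff k = c * s.coeff k := fun c s k => by
    rw [algebraMap_laurentSeries_eq_single, HahnSeries.coeff_single_mul, sub_zero]
  let Q : Option (Fin (Gamma0 N).index) → Polynomial ℚ := fun i =>
    ∑ m ∈ (P i).support, Polynomial.monomial m (φ ((P i).coeff m))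
  have hQco : ∀ i m, (Q i).coeff m = φ ((P i).coeff m) := by
    intro i m
    rw [Polynomial.finsetSum_coeff]
    simp only [Polynomial.coeff_monomial, Finset.sum_ite_eq']
    split_ifs with h
    · rfl
    · rw [Polynomial.notMem_support_iff.mp h, map_zero]
  have hQ : ∑ i, Polynomial.eval₂ (algebraMap ℚ (LaurentSeries ℚ)) jq (Q i) * w i = 0 := by
    ext k
    have hk := congrArg (fun s : LaurentSeries K => φ (s.coeff k)) hS
    simp only [HahnSeries.coeff_sum, map_sum, HahnSeries.coeff_zero, map_zero] at hk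
    rw [HahnSeries.coeff_sum, HahnSeries.coeff_zero, ← hk]
    refine Finset.sum_congr rfl fun i _ => ?_
    rw [show Q i = ∑ m ∈ (P i).support, Polynomial.monomial m (φ ((P i).coeff m)) from rfl,
      Polynomial.eval₂_finsetSum, Finset.sum_mul, HahnSeries.coeff_sum,
      Polynomial.eval₂_eq_sum (p := P i), Polynomial.sum_def, Finset.sum_mul, HahnSeries.coeff_sum,
      map_sum]
    refine Finset.sum_congr rfl fun m _ => ?_
    rw [Polynomial.eval₂_monomial, mul_assoc, mul_assoc, hC,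
      algebraMap_laurentSeries_eq_single, HahnSeries.coeff_single_mul, sub_zero,
      ← coeffMap_jqModC (algebraMap ℚ K), jqModC_rat,
      show coeffMap (algebraMap ℚ K) jq ^ m * coeffEmb K (w i) = coeffEmb K (jq ^ m * w i) by
        rw [coeffEmb, map_mul, map_pow], coeffEmb_coeff, mul_comm ((P i).coeff m),
      ← Algebra.smul_def, LinearMap.map_smul, smul_eq_mul, mul_comm]
  let e := nonZeroDivisors ℤ
  obtain ⟨⟨D, hD⟩, hDint⟩ := IsLocalization.exist_integer_multiples_of_finset (R := ℤ) e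
    ((Finset.univ : Finset (Option (Fin (Gamma0 N).index))).biUnion fun i =>
      (Q i).support.image (Q i).coeff)
  have hD0 : (D : ℚ) ≠ 0 := Int.cast_ne_zero.mpr (nonZeroDivisors.ne_zero hD)
  have hZ : ∀ i, ∃ Z : Polynomial ℤ, Z.map (Int.castRingHom ℚ) = Polynomial.C (D : ℚ) * Q i := by
    intro i
    refine (Polynomial.lifts_iff_coeff_lifts _).mpr fun m => ?_
    rw [Polynomial.coeff_C_mul]
    by_cases hm : m ∈ (Q i).support
    · obtain ⟨z, hz⟩ := hDint _ (Finset.mem_biUnion.mpr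
        ⟨i, Finset.mem_univ _, Finset.mem_image.mpr ⟨m, hm, rfl⟩⟩)
      refine ⟨z, ?_⟩
      simpa [Algebra.smul_def] using hz
    · exact ⟨0, by rw [Polynomial.notMem_support_iff.mp hm, mul_zero, map_zero]⟩
  choose Z hZ using hZ
  have hev2 : ∀ i, evalAtJ (Z i) = algebraMap ℚ (LaurentSeries ℚ) (D : ℚ) *
      Polynomial.eval₂ (algebraMap ℚ (LaurentSeries ℚ)) jq (Q i) := by
    intro i
    rw [← Polynomial.eval₂_C (algebraMap ℚ (LaurentSeries ℚ)) jq (a := (D : ℚ)),
      ← Polynomial.eval₂_mul, ← hZ, Polynomial.eval₂_map]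
    show Polynomial.aeval jq (Z i) = _
    rw [Polynomial.aeval_def]
    congr 1
    exact RingHom.ext_int _ _
  refine ⟨-(Z none), fun b => Z (some b), ?_, ?_⟩
  · by_contra hall
    push Not at hall
    have hz : Z i₀ = 0 := by
      rcases i₀ with _ | b
      · exact neg_eq_zero.mp hall.1
      · exact hall.2 b
    have h1 := congrArg (fun r : Polynomial ℚ => r.coeff m₀) (hZ i₀)
    simp only [hz, Polynomial.map_zero, Polynomial.coeff_zero, Polynomial.coeff_C_mul, hQco] at h1
    exact mul_ne_zero hD0 hφ h1.symm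
  · rw [Fintype.sum_option] at hQ
    simp only [map_neg, hev2]
    rw [Finset.sum_congr rfl fun b _ => mul_assoc _ _ _, ← Finset.mul_sum,
      eq_neg_of_add_eq_zero_right hQ]
    ring

end Relation

section Primitive

variable (N : ℕ) [NeZero N] (ℓ : ℕ) [Fact ℓ.Prime] {k : Type*} [Field k]
  {ρ : GaloisRep.ratLocalizedAt ℓ →+* k}

theorem intMap_evalAtJ {R : Type*} [Field R] (a : Polynomial ℤ) :
    coeffMap (Int.castRingHom R) (a.eval₂ (Int.castRingHom (LaurentSeries ℤ)) (jqModC ℤ)) =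
      jHom R (a.map (Int.castRingHom R)) := by
  rw [Polynomial.hom_eval₂, jHom, Polynomial.coe_eval₂RingHom, Polynomial.eval₂_map]
  congr 1
  · exact RingHom.ext_int _ _
  · exact map_jqModC _

/-- A polynomial in `j` as a series over `ℤ_(ℓ)`. -/
def oJ : Polynomial ℤ →+* LaurentSeries (GaloisRep.ratLocalizedAt ℓ) :=
  Polynomial.eval₂RingHom (Int.castRingHom _) (jqModC (GaloisRep.ratLocalizedAt ℓ))

theorem coeffMap_oJ {R : Type*} [CommRing R] (f : GaloisRep.ratLocalizedAt ℓ →+* R)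
    (a : Polynomial ℤ) :
    coeffMap f (oJ ℓ a) = a.eval₂ (Int.castRingHom (LaurentSeries R)) (jqModC R) := by
  rw [oJ, Polynomial.coe_eval₂RingHom, Polynomial.hom_eval₂]
  congr 1
  · exact RingHom.ext_int _ _
  · exact map_jqModC _

theorem coeffMap_subtype_oJ (a : Polynomial ℤ) :
    coeffMap (GaloisRep.ratLocalizedAt ℓ).subtype (oJ ℓ a) = evalAtJ a := by
  rw [coeffMap_oJ, jqModC_rat]
  show _ = Polynomial.aeval jq a
  rw [Polynomial.aeval_def]
  congr 1
  exact RingHom.ext_int _ _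

theorem coeffMap_red_oJ (a : Polynomial ℤ) :
    coeffMap ρ (oJ ℓ a) = jHom k (a.map (Int.castRingHom k)) := by
  rw [coeffMap_oJ, jHom, Polynomial.coe_eval₂RingHom, Polynomial.eval₂_map]
  congr 1

/-- The reductions of the powers of `j (q ^ N)` are independent over `k [j]`. -/
def RedIndependent (k : Type*) [Field k] (N : ℕ) [NeZero N] : Prop :=
  ∀ a : Fin (Gamma0 N).index → Polynomial k,
    (∑ b, jHom k (a b) * qExpand k N (jqModC k) ^ (b : ℕ)) = 0 → a = 0

theorem redIndependent_of {A : Subring ℂ} (red : A →+* k) (hred : Function.Surjective red)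
    (hA : IsGoodRing N A) (hNk : (N : k) ≠ 0) : RedIndependent k N := by
  intro a ha
  set Q : Polynomial (Polynomial k) :=
    ∑ b : Fin (Gamma0 N).index, Polynomial.monomial (b : ℕ) (a b) with hQ
  have hcoef : ∀ b : Fin (Gamma0 N).index, Q.coeff (b : ℕ) = a b := fun b => by
    rw [hQ, Polynomial.finsetSum_coeff, Finset.sum_eq_single b]
    · simp
    · intro c _ hc
      rw [Polynomial.coeff_monomial, if_neg (fun h => hc (Fin.ext h))]
    · simp
  have hdeg : Q.natDegree < (Gamma0 N).index := by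
    have hpos : 0 < (Gamma0 N).index := Nat.pos_of_ne_zero Subgroup.FiniteIndex.index_ne_zero
    refine lt_of_le_of_lt (Polynomial.natDegree_le_iff_coeff_eq_zero.mpr fun m hm => ?_)
      (Nat.sub_lt hpos Nat.one_pos)
    rw [hQ, Polynomial.finsetSum_coeff]
    refine Finset.sum_eq_zero fun c _ => ?_
    rw [Polynomial.coeff_monomial, if_neg]
    intro h
    have := c.2
    omega
  have hQ0 : Q = 0 := red_jScale_independent N red hA hred hNk hdeg (by
    rw [hQ, Polynomial.eval₂_finsetSum]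
    simpa [Polynomial.eval₂_monomial] using ha)
  funext b
  rw [← hcoef b, hQ0, Polynomial.coeff_zero]
  rfl

variable (hρ : ρ (ℓ : GaloisRep.ratLocalizedAt ℓ) = 0)
include hρ

omit [NeZero N] in
theorem exists_dvd_of_map_eq_zero {a : Polynomial ℤ} (ha : a.map (Int.castRingHom k) = 0) :
    ∃ a', a = Polynomial.C (ℓ : ℤ) * a' := by
  refine (Polynomial.C_dvd_iff_dvd_coeff _ _).mpr fun m => ?_
  have h1 : ρ ((a.coeff m : ℤ) : GaloisRep.ratLocalizedAt ℓ) = 0 := by
    rw [map_intCast]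
    have := congrArg (fun r : Polynomial k => r.coeff m) ha
    simpa using this
  obtain ⟨y, hy⟩ := (red_eq_zero_iff ℓ ρ hρ _).mp h1
  by_contra hnd
  have hcop : IsCoprime (ℓ : ℤ) (a.coeff m) :=
    (Nat.prime_iff_prime_int.mp (Fact.out : ℓ.Prime)).coprime_iff_not_dvd.mpr hnd
  obtain ⟨u, v, huv⟩ := hcop
  refine (prime_natCast_ratLocalizedAt ℓ).not_isUnit (isUnit_of_dvd_one
    ⟨(u : GaloisRep.ratLocalizedAt ℓ) + v * y, ?_⟩)
  have := congrArg (fun z : ℤ => (z : GaloisRep.ratLocalizedAt ℓ)) huv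
  push_cast at this
  rw [← this, hy]
  ring

/-- A relation which is primitive modulo `ℓ`. -/
theorem exists_primitive_relation (hind : RedIndependent k N) (x : LaurentSeries ℚ)
    (d : Polynomial ℤ) (a : Fin (Gamma0 N).index → Polynomial ℤ) (hd : d ≠ 0)
    (hrel : evalAtJ d * x = ∑ b, evalAtJ (a b) * qExpand ℚ N jq ^ (b : ℕ))
    (t : LaurentSeries (GaloisRep.ratLocalizedAt ℓ))
    (ht : coeffMap (GaloisRep.ratLocalizedAt ℓ).subtype t = x) :
    ∃ (d' : Polynomial ℤ) (a' : Fin (Gamma0 N).index → Polynomial ℤ),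
      d'.map (Int.castRingHom k) ≠ 0 ∧
      evalAtJ d' * x = ∑ b, evalAtJ (a' b) * qExpand ℚ N jq ^ (b : ℕ) ∧
      jHom k (d'.map (Int.castRingHom k)) * coeffMap ρ t =
        ∑ b, jHom k ((a' b).map (Int.castRingHom k)) * qExpand k N (jqModC k) ^ (b : ℕ) := by
  have hinj : Function.Injective (coeffMap (GaloisRep.ratLocalizedAt ℓ).subtype) := fun _ _ h =>
    HahnSeries.ext (funext fun i =>
      Subtype.ext (congrArg (fun s : LaurentSeries ℚ => s.coeff i) h))
  have hredrel : ∀ (d' : Polynomial ℤ) (a' : Fin (Gamma0 N).index → Polynomial ℤ),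
      evalAtJ d' * x = ∑ b, evalAtJ (a' b) * qExpand ℚ N jq ^ (b : ℕ) →
      jHom k (d'.map (Int.castRingHom k)) * coeffMap ρ t =
        ∑ b, jHom k ((a' b).map (Int.castRingHom k)) * qExpand k N (jqModC k) ^ (b : ℕ) := by
    intro d' a' h
    have h' : oJ ℓ d' * t = ∑ b, oJ ℓ (a' b) *
        qExpand (GaloisRep.ratLocalizedAt ℓ) N (jqModC (GaloisRep.ratLocalizedAt ℓ)) ^ (b : ℕ) := by
      apply hinj
      rw [map_mul, map_sum, coeffMap_subtype_oJ, ht, h]
      refine Finset.sum_congr rfl fun b _ => ?_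
      rw [map_mul, map_pow, coeffMap_subtype_oJ, qExpand_coeffMap, MCurve.coeffMap_jqModC,
        jqModC_rat]
    have := congrArg (coeffMap ρ) h'
    rw [map_mul, map_sum, coeffMap_red_oJ] at this
    rw [this]
    refine Finset.sum_congr rfl fun b _ => ?_
    rw [map_mul, map_pow, coeffMap_red_oJ, qExpand_coeffMap, MCurve.coeffMap_jqModC]
  obtain ⟨m, hm⟩ : ∃ m, d.coeff m ≠ 0 := ⟨_, Polynomial.leadingCoeff_ne_zero.mpr hd⟩
  induction hM : (d.coeff m).natAbs using Nat.strong_induction_on generalizing d a with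
  | _ M ih =>
    by_cases h0 : d.map (Int.castRingHom k) = 0
    swap
    · exact ⟨d, a, h0, hrel, hredrel d a hrel⟩
    have h1 := hredrel d a hrel
    rw [h0, map_zero, zero_mul] at h1
    have ha0 := hind (fun b => (a b).map (Int.castRingHom k)) h1.symm
    obtain ⟨d', hd'⟩ := exists_dvd_of_map_eq_zero ℓ hρ h0
    choose a' ha' using fun b => exists_dvd_of_map_eq_zero ℓ hρ (congrFun ha0 b)
    have hℓ0 : (ℓ : ℤ) ≠ 0 := by exact_mod_cast (Fact.out : ℓ.Prime).ne_zero
    have hℓs : evalAtJ (Polynomial.C (ℓ : ℤ)) ≠ 0 := by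
      rw [show evalAtJ (Polynomial.C (ℓ : ℤ)) = ((ℓ : ℤ) : LaurentSeries ℚ) by
        rw [← map_intCast evalAtJ]; rfl]
      intro h
      rw [← map_intCast (HahnSeries.C : ℚ →+* LaurentSeries ℚ), map_eq_zero] at h
      exact hℓ0 (by exact_mod_cast h)
    have hd'0 : d'.coeff m ≠ 0 := fun h => hm (by rw [hd', Polynomial.coeff_C_mul, h, mul_zero])
    refine ih (d'.coeff m).natAbs ?_ d' a' (fun h => hd'0 (by rw [h, Polynomial.coeff_zero])) ?_
      hd'0 rfl
    · rw [← hM, hd', Polynomial.coeff_C_mul, Int.natAbs_mul, Int.natAbs_natCast]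
      exact lt_mul_left (Int.natAbs_pos.mpr hd'0) (Fact.out : ℓ.Prime).one_lt
    · refine mul_left_cancel₀ hℓs ?_
      rw [← mul_assoc, ← map_mul, ← hd', hrel, Finset.mul_sum]
      refine Finset.sum_congr rfl fun b _ => ?_
      rw [ha' b, map_mul, mul_assoc]

end Primitive

section Charts

variable (N : ℕ) [NeZero N] (ℓ : ℕ) [Fact ℓ.Prime]

/-- The inclusion of the function field into Laurent series. -/
def valHom : modularFunctionFieldFull N →+* LaurentSeries ℚ where
  toFun x := x.1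
  map_one' := rfl
  map_mul' _ _ := rfl
  map_zero' := rfl
  map_add' _ _ := rfl

@[simp] theorem valHom_apply (x : modularFunctionFieldFull N) :
    valHom N x = (x : LaurentSeries ℚ) := rfl

theorem valHom_algebraMap (r : GaloisRep.ratLocalizedAt ℓ) :
    valHom N (algebraMap _ _ r) = algebraMap ℚ (LaurentSeries ℚ) (r : ℚ) :=
  RingHom.congr_fun (Subsingleton.elim ((valHom N).comp (algebraMap ℚ (modularFunctionFieldFull N)))
    (algebraMap ℚ (LaurentSeries ℚ))) (r : ℚ)

theorem inv_pow_mul_eq {L : Type*} [Field L] {j : L} (hj : j ≠ 0) (r y : L) (m n : ℕ) :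
    j⁻¹ ^ n * r * y = j⁻¹ ^ m * (j⁻¹ ^ n * (r * j ^ m * y)) := by
  have h : j⁻¹ ^ m * j ^ m = 1 := by rw [← mul_pow, inv_mul_cancel₀ hj, one_pow]
  linear_combination (-(j⁻¹ ^ n * r * y)) * h

theorem exists_redIndependent (hℓN : ¬ ℓ ∣ N) :
    ∃ (k : Type) (_ : Field k) (ρ : GaloisRep.ratLocalizedAt ℓ →+* k),
      ρ (ℓ : GaloisRep.ratLocalizedAt ℓ) = 0 ∧ RedIndependent k N := by
  obtain ⟨m, hm, hℓm⟩ := exists_red ℓ
  letI : Field (intC ℓ ⧸ m) := Ideal.Quotient.field m
  refine ⟨intC ℓ ⧸ m, inferInstance, (Ideal.Quotient.mk m).comp (oToIntC ℓ), ?_,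
    redIndependent_of N (Ideal.Quotient.mk m) Ideal.Quotient.mk_surjective
      (isGoodRing_intC ℓ hℓN) ?_⟩
  · rw [map_natCast, ← map_natCast (Ideal.Quotient.mk m)]
    exact Ideal.Quotient.eq_zero_iff_mem.mpr hℓm
  · intro h0
    obtain ⟨u, v, huv⟩ := ((Nat.prime_iff_prime_int.mp (Fact.out : ℓ.Prime)).coprime_iff_not_dvd.mpr
      (mt Int.natCast_dvd_natCast.mp hℓN) : IsCoprime (ℓ : ℤ) (N : ℤ))
    have hz : ((ℓ : ℕ) : intC ℓ ⧸ m) = 0 := by
      rw [← map_natCast (Ideal.Quotient.mk m)]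
      exact Ideal.Quotient.eq_zero_iff_mem.mpr hℓm
    have := congrArg (fun z : ℤ => (z : intC ℓ ⧸ m)) huv
    push_cast at this
    rw [h0, hz, mul_zero, mul_zero, add_zero] at this
    exact zero_ne_one this

set_option maxHeartbeats 1000000 in
theorem jqN_integral (hℓN : ¬ ℓ ∣ N) :
    (⟨qExpand ℚ N jq, jqd_mem_full N dvd_rfl⟩ : modularFunctionFieldFull N) ∈
      chartAlgFin N ℓ := by
  have hA := isGoodRing_intC ℓ hℓN
  set u : levelRing N (intC ℓ) := ⟨jScale N, jScale_mem_levelRing hA dvd_rfl⟩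
  obtain ⟨M, hM, hMu⟩ := isIntegralElem_jEval N (intC ℓ) u
  haveI : NeZero (N * N) := ⟨Nat.mul_ne_zero (NeZero.ne N) (NeZero.ne N)⟩
  set toC : LaurentSeries (intC ℓ) →+* LaurentSeries ℂ := coeffMap (intC ℓ).subtype
  set ψ : Polynomial (GaloisRep.ratLocalizedAt ℓ) →+* LaurentSeries ℂ :=
    Polynomial.eval₂RingHom ((HahnSeries.C : ℂ →+* LaurentSeries ℂ).comp (oToC ℓ))
      (qExpand ℂ N (jqModC ℂ)) with hψ
  letI : Algebra (Polynomial (GaloisRep.ratLocalizedAt ℓ)) (LaurentSeries ℂ) := ψ.toAlgebra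
  set C₀ := integralClosure (Polynomial (GaloisRep.ratLocalizedAt ℓ)) (LaurentSeries ℂ)
  have hconst : ∀ a : intC ℓ, HahnSeries.C (a : ℂ) ∈ C₀ := by
    intro a
    obtain ⟨p, hp, hpa⟩ := (a.2 : (oToC ℓ).IsIntegralElem (a : ℂ))
    refine ⟨p.map Polynomial.C, hp.map _, ?_⟩
    rw [Polynomial.eval₂_map,
      show (algebraMap (Polynomial (GaloisRep.ratLocalizedAt ℓ)) (LaurentSeries ℂ)).comp Polynomial.C
        = (HahnSeries.C : ℂ →+* LaurentSeries ℂ).comp (oToC ℓ) from RingHom.ext fun r =>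
          Polynomial.eval₂_C _ _, ← Polynomial.hom_eval₂, hpa, map_zero]
  have hj : qExpand ℂ N (jqModC ℂ) ∈ C₀ := by
    rw [show qExpand ℂ N (jqModC ℂ) = algebraMap (Polynomial (GaloisRep.ratLocalizedAt ℓ))
      (LaurentSeries ℂ) Polynomial.X from (Polynomial.eval₂_X _ _).symm]
    exact Subalgebra.algebraMap_mem _ _
  set J : levelRing N (intC ℓ) →+* LaurentSeries ℂ := toC.comp (aExp N (intC ℓ))
  have hJj : ∀ p : Polynomial (intC ℓ), J (jEval N (intC ℓ) p) ∈ C₀ := by
    intro p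
    induction p using Polynomial.induction_on with
    | C a =>
      rw [show J (jEval N (intC ℓ) (Polynomial.C a)) = HahnSeries.C (a : ℂ) from
        ((lExp_aExp N (intC ℓ) (jEval N (intC ℓ) (Polynomial.C a))).unique (natCast_pos' N) (by
          refine (congrArg (fun F => LExp (N : ℝ) F _) (funext fun τ => ?_)).mp
            (LExp.C (h := (N : ℝ)) (a : ℂ))
          rw [coe_jEval, Polynomial.eval₂_C]; rfl))]
      exact hconst a
    | add p q hp hq => rw [map_add, map_add]; exact add_mem hp hq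
    | monomial n a ih =>
      rw [pow_succ, ← mul_assoc, map_mul (jEval N (intC ℓ)) _ Polynomial.X, map_mul J]
      refine mul_mem ih ?_
      haveI : NeZero (N * 1) := ⟨by rw [mul_one]; exact NeZero.ne N⟩
      have hs := (lExp_jFn.scale (N := N) (d := 1))
      rw [show J (jEval N (intC ℓ) Polynomial.X) = qExpand ℂ N (jqModC ℂ) from
        ((lExp_aExp N (intC ℓ) (jEval N (intC ℓ) Polynomial.X)).unique (natCast_pos' N) (by
          rw [← qExpand_congr (mul_one N)]
          refine (congrArg (fun F => LExp (N : ℝ) F _) (funext fun τ => ?_)).mp hs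
          rw [coe_jEval, Polynomial.eval₂_X, scalePt_one]))]
      exact hj
  have hJu : J u = qExpand ℂ (N * N) (jqModC ℂ) :=
    (lExp_aExp N (intC ℓ) u).unique (natCast_pos' N) lExp_jFn.scale
  have hmem : qExpand ℂ (N * N) (jqModC ℂ) ∈ C₀ := by
    let g : Polynomial (intC ℓ) →+* C₀ := (J.comp (jEval N (intC ℓ))).codRestrict C₀ hJj
    have hint : IsIntegral C₀ (qExpand ℂ (N * N) (jqModC ℂ)) := by
      refine ⟨M.map g, hM.map _, ?_⟩
      rw [Polynomial.eval₂_map,
        show (algebraMap C₀ (LaurentSeries ℂ)).comp g = J.comp (jEval N (intC ℓ)) from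
          RingHom.ext fun _ => rfl, ← hJu, ← Polynomial.hom_eval₂, hMu, map_zero]
    exact (isIntegral_trans (R := Polynomial (GaloisRep.ratLocalizedAt ℓ)) _ hint)
  obtain ⟨p, hp, hpu⟩ := (hmem : IsIntegral (Polynomial (GaloisRep.ratLocalizedAt ℓ)) _)
  refine (mem_chartAlg_iff N ℓ).mpr ?_
  refine ⟨p.map ((Polynomial.aeval (R := GaloisRep.ratLocalizedAt ℓ)
    (⟨jFull N, Algebra.subset_adjoin rfl⟩ : Algebra.adjoin (GaloisRep.ratLocalizedAt ℓ)
      ({jFull N} : Set (modularFunctionFieldFull N)))).toRingHom), hp.map _, ?_⟩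
  rw [Polynomial.eval₂_map]
  apply Subtype.val_injective
  apply (show Function.Injective (coeffMap (algebraMap ℚ ℂ)) from fun _ _ h => HahnSeries.ext
    (funext fun i => (algebraMap ℚ ℂ).injective (congrArg (fun s : LaurentSeries ℂ => s.coeff i) h)))
  apply qExpand_injective N
  set E : modularFunctionFieldFull N →+* LaurentSeries ℂ :=
    ((qExpand ℂ N).comp (coeffMap (algebraMap ℚ ℂ))).comp
      (valHom N) with hE
  show E _ = E 0
  rw [map_zero, Polynomial.hom_eval₂]
  have hEN : E ⟨qExpand ℚ N jq, jqd_mem_full N dvd_rfl⟩ = qExpand ℂ (N * N) (jqModC ℂ) := by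
    show qExpand ℂ N (coeffMap (algebraMap ℚ ℂ) (qExpand ℚ N jq)) = _
    rw [qExpand_coeffMap, ← jqModC_rat, MCurve.coeffMap_jqModC, qExpand_qExpand]
  rw [hEN]
  refine (congrArg (fun f => Polynomial.eval₂ f _ p) (Polynomial.ringHom_ext (fun r => ?_) ?_)).trans
    hpu
  · simp only [RingHom.coe_comp, Function.comp_apply, AlgHom.toRingHom_eq_coe, RingHom.coe_coe,
      Polynomial.aeval_C]
    show qExpand ℂ N (coeffMap (algebraMap ℚ ℂ)
      (valHom N (algebraMap _ _ r))) = Polynomial.eval₂ _ _ (Polynomial.C r)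
    rw [valHom_algebraMap]
    rw [Polynomial.eval₂_C, algebraMap_laurentSeries_eq_single, coeffMap_single, qExpand_single,
      mul_zero]
    rfl
  · simp only [RingHom.coe_comp, Function.comp_apply, AlgHom.toRingHom_eq_coe, RingHom.coe_coe,
      Polynomial.aeval_X]
    show qExpand ℂ N (coeffMap (algebraMap ℚ ℂ) jq) = Polynomial.eval₂ _ _ Polynomial.X
    rw [Polynomial.eval₂_X, ← jqModC_rat, MCurve.coeffMap_jqModC]

theorem evalAtJ_coe (d : Polynomial ℤ) :
    evalAtJ d = ((Polynomial.aeval (R := ℤ) (jFull N) d : modularFunctionFieldFull N) :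
      LaurentSeries ℚ) := by
  refine RingHom.congr_fun (Polynomial.ringHom_ext (f := evalAtJ)
    (g := (valHom N).comp (Polynomial.aeval (R := ℤ) (jFull N)).toRingHom) (fun a => ?_) ?_) d
  · simp [evalAtJ]
  · rw [evalAtJ_X, RingHom.comp_apply]
    simp [coe_jFull]

theorem isIntegralElem_of_mem_chartAlg {t x : modularFunctionFieldFull N}
    (hx : x ∈ chartAlg N ℓ {t}) :
    (Polynomial.aeval (R := GaloisRep.ratLocalizedAt ℓ) t).toRingHom.IsIntegralElem x := by
  obtain ⟨M, hM, hMx⟩ := (mem_chartAlg_iff N ℓ).mp hx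
  have hlift : M.map (Algebra.adjoin (GaloisRep.ratLocalizedAt ℓ) {t}).val.toRingHom ∈
      Polynomial.lifts (Polynomial.aeval (R := GaloisRep.ratLocalizedAt ℓ) t).toRingHom := by
    refine (Polynomial.lifts_iff_coeff_lifts _).mpr fun i => ?_
    rw [Polynomial.coeff_map]
    obtain ⟨p, hp⟩ := (Algebra.adjoin_singleton_eq_range_aeval _ t).le (M.coeff i).2
    exact ⟨p, hp⟩
  obtain ⟨Q, hQ, -, hQm⟩ := Polynomial.lifts_and_natDegree_eq_and_monic hlift (hM.map _)
  refine ⟨Q, hQm, ?_⟩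
  rw [Polynomial.eval₂_eq_eval_map, hQ, Polynomial.eval_map]
  exact hMx

theorem mem_chartAlg_of_isIntegralElem {t x : modularFunctionFieldFull N}
    (hx : (Polynomial.aeval (R := GaloisRep.ratLocalizedAt ℓ) t).toRingHom.IsIntegralElem x) :
    x ∈ chartAlg N ℓ {t} := by
  obtain ⟨M, hM, hMx⟩ := hx
  refine (mem_chartAlg_iff N ℓ).mpr ⟨M.map ((Polynomial.aeval (R := GaloisRep.ratLocalizedAt ℓ)
    (⟨t, Algebra.subset_adjoin rfl⟩ : Algebra.adjoin (GaloisRep.ratLocalizedAt ℓ)
      ({t} : Set (modularFunctionFieldFull N)))).toRingHom), hM.map _, ?_⟩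
  rw [Polynomial.eval₂_map]
  refine (congrArg (fun f => Polynomial.eval₂ f x M)
    (Polynomial.ringHom_ext (fun r => ?_) ?_)).trans hMx <;> simp

theorem evalAtJ_ne_zero {d : Polynomial ℤ} (hd : d ≠ 0) : evalAtJ d ≠ 0 := by
  intro h0
  refine hd (Polynomial.map_injective (Int.castRingHom ℚ) Int.cast_injective
    (jHom_injective ?_))
  rw [Polynomial.map_zero, map_zero, ← h0, jHom, Polynomial.coe_eval₂RingHom, Polynomial.eval₂_map,
    jqModC_rat]
  show _ = Polynomial.aeval jq d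
  rw [Polynomial.aeval_def]
  congr 1
  exact RingHom.ext_int _ _

theorem aeval_jFull_injective :
    Function.Injective
      (Polynomial.aeval (R := GaloisRep.ratLocalizedAt ℓ) (jFull N)).toRingHom := by
  rw [injective_iff_map_eq_zero]
  intro p hp
  refine Polynomial.map_injective (GaloisRep.ratLocalizedAt ℓ).subtype Subtype.val_injective
    (jHom_injective ?_)
  rw [Polynomial.map_zero, map_zero, jHom, Polynomial.coe_eval₂RingHom, Polynomial.eval₂_map,
    jqModC_rat]
  have h := congrArg (valHom N) hp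
  rw [map_zero, AlgHom.toRingHom_eq_coe, RingHom.coe_coe, Polynomial.aeval_def,
    Polynomial.hom_eval₂] at h
  refine Eq.trans ?_ h
  refine congrArg (fun f => Polynomial.eval₂ f jq p) (RingHom.ext fun r => ?_)
  show HahnSeries.C (r : ℚ) = valHom N (algebraMap _ _ r)
  rw [valHom_algebraMap, algebraMap_laurentSeries_eq_single]
  rfl

theorem aeval_jFull_inv_injective :
    Function.Injective
      (Polynomial.aeval (R := GaloisRep.ratLocalizedAt ℓ) (jFull N)⁻¹).toRingHom := by
  rw [injective_iff_map_eq_zero]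
  intro p hp
  letI : Invertible (jFull N)⁻¹ := invertibleOfNonzero (inv_ne_zero (jFull_ne_zero N))
  rw [AlgHom.toRingHom_eq_coe, RingHom.coe_coe, Polynomial.aeval_def,
    ← Polynomial.eval₂_reverse_eq_zero_iff, invOf_eq_inv, inv_inv] at hp
  exact Polynomial.reverse_eq_zero.mp ((injective_iff_map_eq_zero _).mp
    (aeval_jFull_injective N ℓ) _ hp)

theorem evalAtJ_C_natCast :
    evalAtJ (Polynomial.C (ℓ : ℤ)) = ((ℓ : ℕ) : LaurentSeries ℚ) :=
  map_natCast (evalAtJ.comp Polynomial.C) ℓ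

theorem C_natCast_prime :
    Prime (Polynomial.C ((ℓ : ℕ) : GaloisRep.ratLocalizedAt ℓ)) :=
  Polynomial.prime_C_iff.mpr (prime_natCast_ratLocalizedAt ℓ)

theorem not_dvd_of_map_ne_zero {k : Type*} [Field k] {ρ : GaloisRep.ratLocalizedAt ℓ →+* k}
    (hρ : ρ (ℓ : GaloisRep.ratLocalizedAt ℓ) = 0) {e : Polynomial (GaloisRep.ratLocalizedAt ℓ)}
    (he : e.map ρ ≠ 0) : ¬ Polynomial.C ((ℓ : ℕ) : GaloisRep.ratLocalizedAt ℓ) ∣ e := by
  rintro ⟨f, rfl⟩
  exact he (by rw [Polynomial.map_mul, Polynomial.map_C, hρ, map_zero, zero_mul])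

set_option maxHeartbeats 1000000 in
/-- The two kinds of coordinate. -/
theorem chartAlg_reduction (hℓN : ¬ ℓ ∣ N) {S : Set (modularFunctionFieldFull N)}
    (hS : S = {jFull N} ∨ S = {(jFull N)⁻¹}) (x : modularFunctionFieldFull N)
    (hx : x ∈ chartAlg N ℓ S) :
    ∃ t : LaurentSeries (GaloisRep.ratLocalizedAt ℓ),
      coeffMap (GaloisRep.ratLocalizedAt ℓ).subtype t = (x : LaurentSeries ℚ) ∧
      ((∀ i, (ℓ : GaloisRep.ratLocalizedAt ℓ) ∣ t.coeff i) →
        ∃ y ∈ chartAlg N ℓ S, x = (ℓ : modularFunctionFieldFull N) * y) := by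
  classical
  obtain ⟨k, _, ρ, hρ, hind⟩ := exists_redIndependent N ℓ hℓN
  obtain ⟨d, a, hne, hrel⟩ := exists_relation N x
  set sub := (GaloisRep.ratLocalizedAt ℓ).subtype with hsub
  have hinj : Function.Injective (coeffMap sub) := fun _ _ h => HahnSeries.ext (funext fun i =>
    Subtype.ext (congrArg (fun s : LaurentSeries ℚ => s.coeff i) h))
  set Nq := qExpand (GaloisRep.ratLocalizedAt ℓ) N (jqModC (GaloisRep.ratLocalizedAt ℓ))
  have hNq : coeffMap sub Nq = qExpand ℚ N jq := by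
    rw [qExpand_coeffMap, MCurve.coeffMap_jqModC, jqModC_rat]
  have hd : d ≠ 0 := by
    intro hd0
    obtain ⟨b₀, hb₀⟩ := hne.resolve_left (not_not.mpr hd0)
    have key : ∀ (M : ℕ) (a : Fin (Gamma0 N).index → Polynomial ℤ) (m : ℕ),
        ((a b₀).coeff m).natAbs = M →
        (∑ b, evalAtJ (a b) * qExpand ℚ N jq ^ (b : ℕ)) = 0 → (a b₀).coeff m = 0 := by
      intro M
      induction M using Nat.strong_induction_on with
      | _ M ih =>
        intro a m hM ha
        by_contra hne'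
        have h0 : ∑ b, oJ ℓ (a b) * Nq ^ (b : ℕ) = 0 := hinj (by
          rw [map_sum, map_zero, ← ha]
          exact Finset.sum_congr rfl fun b _ => by rw [map_mul, map_pow, coeffMap_subtype_oJ, hNq])
        have h1 := congrArg (coeffMap ρ) h0
        rw [map_sum, map_zero] at h1
        have h2 := hind (fun b => (a b).map (Int.castRingHom k)) (by
          rw [← h1]
          exact Finset.sum_congr rfl fun b _ => by
            rw [map_mul, map_pow, coeffMap_red_oJ, qExpand_coeffMap, MCurve.coeffMap_jqModC])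
        choose a' ha' using fun b => exists_dvd_of_map_eq_zero ℓ hρ (congrFun h2 b)
        have hlt : ((a' b₀).coeff m).natAbs < M := by
          rw [← hM, ha' b₀, Polynomial.coeff_C_mul, Int.natAbs_mul, Int.natAbs_natCast]
          refine lt_mul_left (Int.natAbs_pos.mpr fun h => hne' ?_) (Fact.out : ℓ.Prime).one_lt
          rw [ha' b₀, Polynomial.coeff_C_mul, h, mul_zero]
        refine hne' ?_
        rw [ha' b₀, Polynomial.coeff_C_mul, ih _ hlt a' m rfl ?_, mul_zero]
        have hℓs : ((ℓ : ℕ) : LaurentSeries ℚ) ≠ 0 := by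
          rw [← map_natCast (HahnSeries.C : ℚ →+* LaurentSeries ℚ), map_ne_zero]
          exact_mod_cast (Fact.out : ℓ.Prime).ne_zero
        refine mul_left_cancel₀ hℓs ?_
        rw [mul_zero, Finset.mul_sum, ← ha]
        refine Finset.sum_congr rfl fun b _ => ?_
        rw [ha' b, map_mul, evalAtJ_C_natCast, mul_assoc]
    refine hb₀ (Polynomial.ext fun m => ?_)
    rw [Polynomial.coeff_zero]
    exact key _ a m rfl (by rw [← hrel, hd0, map_zero, zero_mul])
  set jn : modularFunctionFieldFull N := ⟨qExpand ℚ N jq, jqd_mem_full N dvd_rfl⟩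
  have hw : ∀ (a : Fin (Gamma0 N).index → Polynomial ℤ),
      (((∑ b, Polynomial.aeval (R := ℤ) (jFull N) (a b) * jn ^ (b : ℕ) :
        modularFunctionFieldFull N)) : LaurentSeries ℚ) =
        ∑ b, evalAtJ (a b) * qExpand ℚ N jq ^ (b : ℕ) := by
    intro a
    simp [jn, evalAtJ_coe N]
  obtain ⟨s, hs, hs1⟩ : ∃ s : modularFunctionFieldFull N, S = {s} ∧
      (s = jFull N ∨ s = (jFull N)⁻¹) := by
    rcases hS with h | h
    · exact ⟨_, h, Or.inl rfl⟩
    · exact ⟨_, h, Or.inr rfl⟩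
  subst hs
  have hser : ∃ t : LaurentSeries (GaloisRep.ratLocalizedAt ℓ),
      coeffMap sub t = (x : LaurentSeries ℚ) := by
    have hd' : oJ ℓ d ≠ 0 := fun h0 => evalAtJ_ne_zero hd (by
      rw [← coeffMap_subtype_oJ ℓ, h0, map_zero])
    refine exists_series_of_integral (f := sub) Subtype.val_injective hd'
      (w := ∑ b, oJ ℓ (a b) * Nq ^ (b : ℕ)) ?_ ?_
    · rw [coeffMap_subtype_oJ, hrel, map_sum]
      exact Finset.sum_congr rfl fun b _ => by rw [map_mul, map_pow, coeffMap_subtype_oJ, hNq]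
    · obtain ⟨u, hu⟩ : ∃ u : LaurentSeries (GaloisRep.ratLocalizedAt ℓ),
          coeffMap sub u = (s : LaurentSeries ℚ) := by
        rcases hs1 with rfl | rfl
        · exact ⟨jqModC _, (MCurve.coeffMap_jqModC _).trans jqModC_rat⟩
        · have hunit : IsUnit (jqModC (GaloisRep.ratLocalizedAt ℓ)) := by
            rw [jqModC]
            refine IsUnit.mul (.of_mul_eq_one (HahnSeries.single (1 : ℤ) 1) (by simp))
              (IsUnit.map _ (PowerSeries.isUnit_iff_constantCoeff.mpr ?_))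
            rw [← PowerSeries.coeff_zero_eq_constantCoeff_apply, PowerSeries.coeff_map,
              PowerSeries.coeff_zero_eq_constantCoeff_apply, constantCoeff_jNum]
            simp
          obtain ⟨v, hv⟩ := hunit.exists_right_inv
          refine ⟨v, eq_inv_of_mul_eq_one_right ?_⟩
          have := congrArg (coeffMap sub) hv
          rwa [map_mul, map_one, MCurve.coeffMap_jqModC, jqModC_rat] at this
      obtain ⟨M, hM, hMx⟩ := isIntegralElem_of_mem_chartAlg N ℓ hx
      refine ⟨M.map (Polynomial.eval₂RingHom HahnSeries.C u), hM.map _, ?_⟩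
      rw [Polynomial.eval₂_map]
      have h2 := congrArg (valHom N) hMx
      rw [Polynomial.hom_eval₂, map_zero] at h2
      refine (congrArg (fun f => Polynomial.eval₂ f (x : LaurentSeries ℚ) M)
        (Polynomial.ringHom_ext (fun r => ?_) ?_)).trans h2
      · simp only [RingHom.coe_comp, Function.comp_apply, Polynomial.coe_eval₂RingHom,
          Polynomial.eval₂_C, AlgHom.toRingHom_eq_coe, RingHom.coe_coe, Polynomial.aeval_C]
        show coeffMap sub (HahnSeries.C r) = valHom N (algebraMap _ _ r)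
        rw [valHom_algebraMap, algebraMap_laurentSeries_eq_single]
        exact coeffMap_single _ 0 r
      · simp [hu]
  obtain ⟨t, ht⟩ := hser
  refine ⟨t, ht, fun hzero => ?_⟩
  obtain ⟨d', a', hd', hrel', hred'⟩ := exists_primitive_relation N ℓ hρ hind _ d a hd hrel t ht
  have ht0 : coeffMap ρ t = 0 := HahnSeries.ext (funext fun i => by
    rw [coeffMap_coeff, HahnSeries.coeff_zero]
    exact (red_eq_zero_iff ℓ ρ hρ _).mpr (hzero i))
  rw [ht0, mul_zero] at hred'
  have ha0 := hind (fun b => (a' b).map (Int.castRingHom k)) hred'.symm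
  choose a'' ha'' using fun b => exists_dvd_of_map_eq_zero ℓ hρ (congrFun ha0 b)
  have hℓF : (ℓ : modularFunctionFieldFull N) ≠ 0 :=
    Nat.cast_ne_zero.mpr (Fact.out : ℓ.Prime).ne_zero
  set w : modularFunctionFieldFull N :=
    ∑ b, Polynomial.aeval (R := ℤ) (jFull N) (a'' b) * jn ^ (b : ℕ) with hwdef
  set y : modularFunctionFieldFull N := x / (ℓ : modularFunctionFieldFull N) with hy
  have hxy : x = (ℓ : modularFunctionFieldFull N) * y := (mul_div_cancel₀ _ hℓF).symm
  refine ⟨y, ?_, hxy⟩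
  have hdy : Polynomial.aeval (R := ℤ) (jFull N) d' * y = w := by
    refine mul_left_cancel₀ hℓF ?_
    rw [mul_left_comm, ← hxy]
    apply Subtype.val_injective
    show ((Polynomial.aeval (R := ℤ) (jFull N) d' : modularFunctionFieldFull N) : LaurentSeries ℚ) *
      (x : LaurentSeries ℚ) = _
    rw [← evalAtJ_coe N, hrel', IntermediateField.coe_mul, hwdef, hw, Finset.mul_sum]
    refine Finset.sum_congr rfl fun b _ => ?_
    rw [ha'' b, map_mul, mul_assoc]
    simp
  have hwFin : w ∈ chartAlgFin N ℓ := by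
    refine sum_mem fun b _ => mul_mem (adjoin_le_chartAlg N ℓ _ ?_)
      (pow_mem (jqN_integral N ℓ hℓN) _)
    rw [← Polynomial.aeval_map_algebraMap (GaloisRep.ratLocalizedAt ℓ) (jFull N) (a'' b),
      Algebra.adjoin_singleton_eq_range_aeval]
    exact ⟨_, rfl⟩
  set dO : Polynomial (GaloisRep.ratLocalizedAt ℓ) := d'.map (algebraMap ℤ _) with hdO
  have hdOk : dO.map ρ = d'.map (Int.castRingHom k) := by
    rw [hdO, Polynomial.map_map]
    congr 1
    exact RingHom.ext_int _ _
  have hpi : (Polynomial.aeval (R := GaloisRep.ratLocalizedAt ℓ) s).toRingHom.IsIntegralElem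
      ((Polynomial.aeval (R := GaloisRep.ratLocalizedAt ℓ) s).toRingHom
        (Polynomial.C ((ℓ : ℕ) : GaloisRep.ratLocalizedAt ℓ)) * y) := by
    rw [show (Polynomial.aeval (R := GaloisRep.ratLocalizedAt ℓ) s).toRingHom
      (Polynomial.C ((ℓ : ℕ) : GaloisRep.ratLocalizedAt ℓ)) = (ℓ : modularFunctionFieldFull N) by
        simp, ← hxy]
    exact isIntegralElem_of_mem_chartAlg N ℓ hx
  refine mem_chartAlg_of_isIntegralElem N ℓ ?_
  rcases hs1 with rfl | rfl
  · refine isIntegralElem_of_two _ (aeval_jFull_injective N ℓ)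
      (C_natCast_prime ℓ) (not_dvd_of_map_ne_zero ℓ hρ (e := dO) (hdOk.symm ▸ hd')) hpi ?_
    rw [show (Polynomial.aeval (R := GaloisRep.ratLocalizedAt ℓ) (jFull N)).toRingHom dO =
      Polynomial.aeval (R := ℤ) (jFull N) d' from Polynomial.aeval_map_algebraMap _ _ _, hdy]
    exact isIntegralElem_of_mem_chartAlg N ℓ hwFin
  · have hwMid : w ∈ chartAlg N ℓ (insert (jFull N)⁻¹⁻¹ {(jFull N)⁻¹}) :=
      chartAlg_mono N ℓ (by simp) hwFin
    obtain ⟨n, hn⟩ := exists_pow_mul_mem_chartAlg (Set.mem_singleton _)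
      (inv_ne_zero (jFull_ne_zero N)) hwMid
    set e : Polynomial (GaloisRep.ratLocalizedAt ℓ) := Polynomial.X ^ n * dO.reverse with he
    refine isIntegralElem_of_two _ (aeval_jFull_inv_injective N ℓ)
      (C_natCast_prime ℓ) (not_dvd_of_map_ne_zero ℓ hρ (e := e) ?_) hpi ?_
    · rw [he, Polynomial.map_mul, Polynomial.map_pow, Polynomial.map_X]
      refine mul_ne_zero (pow_ne_zero _ Polynomial.X_ne_zero) fun h0 => hd' ?_
      rw [← hdOk]
      ext i
      rw [Polynomial.coeff_map, Polynomial.coeff_zero]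
      by_cases hi : i ≤ dO.natDegree
      · have := congrArg (fun r : Polynomial k => r.coeff (dO.natDegree - i)) h0
        simpa [Polynomial.coeff_reverse, Polynomial.revAt_le (Nat.sub_le _ _),
          Nat.sub_sub_self hi] using this
      · rw [Polynomial.coeff_eq_zero_of_natDegree_lt (not_le.mp hi), map_zero]
    · have hj0 := jFull_ne_zero N
      haveI : Invertible (jFull N) := invertibleOfNonzero hj0
      have hrev := Polynomial.eval₂_reverse_mul_pow
        (algebraMap (GaloisRep.ratLocalizedAt ℓ) (modularFunctionFieldFull N)) (jFull N) dO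
      rw [invOf_eq_inv] at hrev
      have hval : (Polynomial.aeval (R := GaloisRep.ratLocalizedAt ℓ) (jFull N)⁻¹).toRingHom e * y =
          (jFull N)⁻¹ ^ dO.natDegree * ((jFull N)⁻¹ ^ n * w) := by
        have h1 : Polynomial.eval₂ (algebraMap (GaloisRep.ratLocalizedAt ℓ) _) (jFull N) dO =
            Polynomial.aeval (R := ℤ) (jFull N) d' := Polynomial.aeval_map_algebraMap _ _ _
        rw [h1] at hrev
        rw [← hdy, ← hrev, he, AlgHom.toRingHom_eq_coe, RingHom.coe_coe, map_mul, map_pow,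
          Polynomial.aeval_X, Polynomial.aeval_def]
        exact inv_pow_mul_eq hj0 _ _ _ _
      rw [hval]
      have hmem1 : (jFull N)⁻¹ ∈ chartAlg N ℓ {(jFull N)⁻¹} :=
        subset_chartAlg N ℓ {(jFull N)⁻¹} (Set.mem_singleton _)
      have hmem2 := mul_mem (pow_mem hmem1 dO.natDegree) hn
      exact isIntegralElem_of_mem_chartAlg N ℓ hmem2

end Charts

end Fermat.Agent.MCurve
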