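import Mathlib.NumberTheory.ModularForms.QExpansion
import Mathlib.RingTheory.LaurentSeries
import Mathlib.Analysis.Normed.Ring.InfiniteSum
import Mathlib.RingTheory.PowerSeries.Inverse

/-!
Convergent `q`-expansions with power series and Laurent series: an algebraic calculus.
-/

noncomputable section

namespace Fermat.Agent.MCurve

open Complex Filter Function Topology
open scoped Real

local notation "𝕢" => Function.Periodic.qParam
local notation "ℍ" => UpperHalfPlane

variable {h : ℝ}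

/-- `f` is everywhere the sum of the power series `s` in `exp (2 π i τ / h)`. -/
def QExp (h : ℝ) (f : ℍ → ℂ) (s : PowerSeries ℂ) : Prop :=
  ∀ τ : ℍ, HasSum (fun m : ℕ => PowerSeries.coeff m s * 𝕢 h (τ : ℂ) ^ m) (f τ)

namespace QExp

variable {f g : ℍ → ℂ} {s t : PowerSeries ℂ}

theorem congr (hf : QExp h f s) (hfg : ∀ τ, f τ = g τ) : QExp h g s := fun τ => hfg τ ▸ hf τ

theorem add (hf : QExp h f s) (hg : QExp h g t) : QExp h (f + g) (s + t) := fun τ => by
  simpa [add_mul] using (hf τ).add (hg τ)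

theorem C (c : ℂ) : QExp h (fun _ => c) (PowerSeries.C c) := fun τ => by
  convert hasSum_single (f := fun m : ℕ => PowerSeries.coeff m (PowerSeries.C c) *
    𝕢 h (τ : ℂ) ^ m) 0 (fun m hm => by simp [PowerSeries.coeff_C, hm]) using 1
  simp

theorem zero : QExp h (0 : ℍ → ℂ) 0 := (map_zero (PowerSeries.C : ℂ →+* _)) ▸ QExp.C (h := h) 0

theorem one : QExp h (1 : ℍ → ℂ) 1 := (map_one (PowerSeries.C : ℂ →+* _)) ▸ QExp.C (h := h) 1

theorem neg (hf : QExp h f s) : QExp h (-f) (-s) := fun τ => by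
  simpa using (hf τ).neg

theorem const_mul (hf : QExp h f s) (c : ℂ) : QExp h (fun τ => c * f τ) (PowerSeries.C c * s) :=
  fun τ => by simpa [mul_assoc] using (hf τ).mul_left c

theorem qParam_pow (n : ℕ) :
    QExp h (fun τ : ℍ => 𝕢 h (τ : ℂ) ^ n) (PowerSeries.X ^ n) := fun τ => by
  convert hasSum_single (f := fun m : ℕ =>
    PowerSeries.coeff m ((PowerSeries.X : PowerSeries ℂ) ^ n) * 𝕢 h (τ : ℂ) ^ m) n
    (fun m hm => by simp [PowerSeries.coeff_X_pow, hm]) using 1
  simp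

theorem mul (hf : QExp h f s) (hg : QExp h g t) : QExp h (f * g) (s * t) := fun τ => by
  have h1 := (hf τ).summable.norm
  have h2 := (hg τ).summable.norm
  have key : HasSum (fun m : ℕ => ∑ p ∈ Finset.HasAntidiagonal.antidiagonal m,
      (PowerSeries.coeff p.1 s * 𝕢 h (τ : ℂ) ^ p.1) * (PowerSeries.coeff p.2 t * 𝕢 h (τ : ℂ) ^ p.2))
      (f τ * g τ) := by
    rw [← (hf τ).tsum_eq, ← (hg τ).tsum_eq,
      tsum_mul_tsum_eq_tsum_sum_antidiagonal_of_summable_norm h1 h2]
    exact (summable_norm_sum_mul_antidiagonal_of_summable_norm h1 h2).of_norm.hasSum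
  refine key.congr_fun fun m => ?_
  rw [PowerSeries.coeff_mul, Finset.sum_mul]
  refine Finset.sum_congr rfl fun p hp => ?_
  rw [← Finset.HasAntidiagonal.mem_antidiagonal.mp hp, pow_add]
  ring

theorem pow (hf : QExp h f s) (n : ℕ) : QExp h (f ^ n) (s ^ n) := by
  induction n with
  | zero => simpa using QExp.one (h := h)
  | succ n ih => simpa [pow_succ] using ih.mul hf

theorem unique (hh : 0 < h) (hs : QExp h f s) (ht : QExp h f t) : s = t := by
  set d : ℕ → ℂ := fun m => PowerSeries.coeff m s - PowerSeries.coeff m t with hd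
  have hzero : ∀ q : ℂ, ‖q‖ < 1 → q ≠ 0 → HasSum (fun m => d m * q ^ m) 0 := by
    intro q hq hq0
    set τ : ℍ := ⟨Periodic.invQParam h q, Periodic.im_invQParam_pos_of_norm_lt_one hh hq hq0⟩
    have := (hs τ).sub (ht τ)
    rw [sub_self, show 𝕢 h (τ : ℂ) = q from Periodic.qParam_right_inv hh.ne' hq0] at this
    exact this.congr_fun fun m => sub_mul _ _ _
  set P := FormalMultilinearSeries.ofScalars ℂ d with hP
  have hr : 0 < P.radius := by
    refine lt_of_lt_of_le (ENNReal.coe_pos.mpr (show (0 : NNReal) < 1 / 2 by norm_num))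
      (P.le_radius_of_summable ?_)
    have hsum := (hzero (1 / 2 : ℂ) (by norm_num) (by norm_num)).summable.norm
    refine hsum.of_nonneg_of_le (fun n => by positivity) fun n => ?_
    simp [hP, FormalMultilinearSeries.ofScalars_norm]
  have hP1 := P.hasFPowerSeriesOnBall hr
  have hev : P.sum =ᶠ[𝓝[≠] (0 : ℂ)] fun _ => 0 := by
    filter_upwards [self_mem_nhdsWithin,
      nhdsWithin_le_nhds (Metric.ball_mem_nhds (0 : ℂ) one_pos)] with q hq0 hq
    rw [FormalMultilinearSeries.sum]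
    rw [Metric.mem_ball, dist_zero_right] at hq
    simpa [hP, FormalMultilinearSeries.ofScalars_apply_eq, mul_comm] using
      (hzero q hq hq0).tsum_eq
  have hev' : P.sum =ᶠ[𝓝 (0 : ℂ)] fun _ => 0 :=
    (hP1.hasFPowerSeriesAt.continuousAt.eventuallyEq_nhds_iff_eventuallyEq_nhdsNE
      continuousAt_const).mp hev
  have hz := (hP1.hasFPowerSeriesAt.congr hev').eq_zero
  ext m
  have := congrArg (fun q : FormalMultilinearSeries ℂ ℂ ℂ => q.coeff m) hz
  simp only [hP, FormalMultilinearSeries.coeff_ofScalars] at this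
  exact sub_eq_zero.mp (this.trans rfl)

/-- Substituting `q ↦ c * q ^ m`. -/
theorem comp {h₀ : ℝ} {φ : ℍ → ℍ} (hf : QExp h₀ f s) {c : ℂ} {m : ℕ} (hm : 0 < m)
    (hφ : ∀ τ : ℍ, 𝕢 h₀ (φ τ : ℂ) = c * 𝕢 h (τ : ℂ) ^ m) :
    QExp h (fun τ => f (φ τ)) (PowerSeries.mk fun n =>
      if m ∣ n then PowerSeries.coeff (n / m) s * c ^ (n / m) else 0) := fun τ => by
  have hi : Function.Injective fun k : ℕ => m * k := fun a b hab =>
    Nat.eq_of_mul_eq_mul_left hm hab
  rw [← hi.hasSum_iff (fun n hn => by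
    have : ¬ m ∣ n := fun ⟨k, hk⟩ => hn ⟨k, hk.symm⟩
    simp [this])]
  refine (hf (φ τ)).congr_fun fun k => ?_
  simp only [Function.comp_apply, PowerSeries.coeff_mk, dvd_mul_right, if_true,
    Nat.mul_div_cancel_left _ hm]
  rw [hφ τ, mul_pow, ← pow_mul]
  ring

end QExp

/-- `f` has the Laurent expansion `s` in `exp (2 π i τ / h)`, with a pole of bounded order. -/
def LExp (h : ℝ) (f : ℍ → ℂ) (s : LaurentSeries ℂ) : Prop :=
  ∃ (n : ℕ) (p : PowerSeries ℂ), QExp h (fun τ : ℍ => 𝕢 h (τ : ℂ) ^ n * f τ) p ∧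
    s = HahnSeries.single (-(n : ℤ)) (1 : ℂ) * HahnSeries.ofPowerSeries ℤ ℂ p

namespace LExp

variable {f g : ℍ → ℂ} {s t : LaurentSeries ℂ}

theorem ofPowerSeries_X_pow (d : ℕ) :
    HahnSeries.ofPowerSeries ℤ ℂ (PowerSeries.X ^ d) = HahnSeries.single (d : ℤ) (1 : ℂ) := by
  rw [map_pow, HahnSeries.ofPowerSeries_X, HahnSeries.single_pow, one_pow]
  simp

theorem raise (hf : LExp h f s) : ∃ n₀ : ℕ, ∀ n ≥ n₀, ∃ p : PowerSeries ℂ,
    QExp h (fun τ : ℍ => 𝕢 h (τ : ℂ) ^ n * f τ) p ∧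
    s = HahnSeries.single (-(n : ℤ)) (1 : ℂ) * HahnSeries.ofPowerSeries ℤ ℂ p := by
  obtain ⟨n₀, p, hp, rfl⟩ := hf
  refine ⟨n₀, fun n hn => ⟨PowerSeries.X ^ (n - n₀) * p, ?_, ?_⟩⟩
  · refine ((QExp.qParam_pow (n - n₀)).mul hp).congr fun τ => ?_
    show 𝕢 h (τ : ℂ) ^ (n - n₀) * (𝕢 h (τ : ℂ) ^ n₀ * f τ) = _
    rw [← mul_assoc, ← pow_add, Nat.sub_add_cancel hn]
  · rw [map_mul, ofPowerSeries_X_pow, ← mul_assoc, HahnSeries.single_mul_single, one_mul]
    congr 3
    omega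

theorem of_qExp {p : PowerSeries ℂ} (hp : QExp h f p) :
    LExp h f (HahnSeries.ofPowerSeries ℤ ℂ p) :=
  ⟨0, p, hp.congr fun τ => by simp, by simp⟩

theorem add (hf : LExp h f s) (hg : LExp h g t) : LExp h (f + g) (s + t) := by
  obtain ⟨a, ha⟩ := hf.raise
  obtain ⟨b, hb⟩ := hg.raise
  obtain ⟨p, hp, rfl⟩ := ha (max a b) (le_max_left _ _)
  obtain ⟨r, hr, rfl⟩ := hb (max a b) (le_max_right _ _)
  refine ⟨max a b, p + r, (hp.add hr).congr fun τ => ?_, by rw [map_add, mul_add]⟩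
  simp [mul_add]

theorem mul (hf : LExp h f s) (hg : LExp h g t) : LExp h (f * g) (s * t) := by
  obtain ⟨a, p, hp, rfl⟩ := hf
  obtain ⟨b, r, hr, rfl⟩ := hg
  refine ⟨a + b, p * r, (hp.mul hr).congr fun τ => ?_, ?_⟩
  · simp only [Pi.mul_apply, pow_add]
    ring
  · rw [map_mul, show ((-((a + b : ℕ) : ℤ))) = -(a : ℤ) + -(b : ℤ) by push_cast; ring,
      ← mul_one (1 : ℂ), ← HahnSeries.single_mul_single, mul_one]
    ring

theorem C (c : ℂ) : LExp h (fun _ => c) (HahnSeries.C c) := by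
  have := of_qExp (QExp.C (h := h) c)
  rwa [HahnSeries.ofPowerSeries_C] at this

theorem neg (hf : LExp h f s) : LExp h (-f) (-s) := by
  have := (C (h := h) (-1)).mul hf
  have e : (fun _ : ℍ => (-1 : ℂ)) * f = -f := by ext τ; simp
  have e' : HahnSeries.C (-1 : ℂ) * s = -s := by rw [map_neg, map_one]; exact neg_one_mul s
  rwa [e, e'] at this

theorem pow (hf : LExp h f s) (n : ℕ) : LExp h (f ^ n) (s ^ n) := by
  induction n with
  | zero =>
    rw [pow_zero, pow_zero, ← map_one (HahnSeries.C : ℂ →+* LaurentSeries ℂ)]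
    exact C (h := h) 1
  | succ n ih => simpa [pow_succ] using ih.mul hf

theorem qParam_inv : LExp h (fun τ : ℍ => (𝕢 h (τ : ℂ))⁻¹) (HahnSeries.single (-1 : ℤ) (1 : ℂ)) := by
  refine ⟨1, 1, QExp.one.congr fun τ => ?_, by simp⟩
  simp [Periodic.qParam_ne_zero]

theorem unique (hh : 0 < h) (hs : LExp h f s) (ht : LExp h f t) : s = t := by
  obtain ⟨a, ha⟩ := hs.raise
  obtain ⟨b, hb⟩ := ht.raise
  obtain ⟨p, hp, rfl⟩ := ha (max a b) (le_max_left _ _)
  obtain ⟨r, hr, rfl⟩ := hb (max a b) (le_max_right _ _)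
  rw [hp.unique hh hr]

theorem eq_zero (hf : LExp h f 0) : f = 0 := by
  obtain ⟨n, p, hp, hzero⟩ := hf
  have hp0 : p = 0 := by
    have := mul_eq_zero.mp hzero.symm
    rcases this with h1 | h1
    · exact absurd h1 (by simp)
    · exact HahnSeries.ofPowerSeries_injective (h1.trans (map_zero _).symm)
  funext τ
  have := (hp τ).tsum_eq
  rw [hp0] at this
  simp only [map_zero, zero_mul, tsum_zero] at this
  simpa [Periodic.qParam_ne_zero] using this.symm

theorem eq_of_eq (hf : LExp h f s) (hg : LExp h g s) : f = g := by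
  have := hf.add hg.neg
  rw [add_neg_cancel] at this
  exact sub_eq_zero.mp ((sub_eq_add_neg f g).trans this.eq_zero)

end LExp

end Fermat.Agent.MCurve
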