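import Fermat.Agent.MCurve.Differential
import Fermat.Prelude.Def_AlgebraicCurve_DivisorPushPull
import Mathlib.FieldTheory.Galois.Basic

/-!
Places of a function field over the fixed field of a finite group of automorphisms.
-/

noncomputable section

namespace Fermat.Agent.MCurve

open AlgebraicCurve IntermediateField
open scoped Pointwise

variable {K L : Type*} [Field K] [Field L] [Algebra K L] [IsAlgClosed K] [CharZero K]

theorem IsFinOver.exists_place {x : L} (h : IsFinOver K x) {A : ValuationSubring L}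
    (hK : ∀ a : K, algebraMap K L a ∈ A) (hA : A ≠ ⊤) :
    ∃ v : Place K L, v.toValuationSubring = A := by
  have key : ∀ {y : L}, IsFinOver K y → y ∈ A → ∃ v : Place K L, v.toValuationSubring = A := by
    intro y hy hmem
    letI : Algebra (Polynomial K) L := (Polynomial.aeval (R := K) y).toRingHom.toAlgebra
    letI : Algebra (RatFunc K) L := (ratFuncHom K hy.transcendental).toRingHom.toAlgebra
    haveI : IsScalarTower K (Polynomial K) L :=
      IsScalarTower.of_algebraMap_eq fun a => ((Polynomial.aeval (R := K) y).commutes a).symm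
    haveI : IsScalarTower (Polynomial K) (RatFunc K) L :=
      IsScalarTower.of_algebraMap_eq fun p => (ratFuncHom_algebraMap hy.transcendental p).symm
    let e : RatFunc K ≃+* K⟮y⟯ :=
      ((AlgEquiv.ofInjectiveField (ratFuncHom K hy.transcendental)).trans
        (IntermediateField.equivOfEq (fieldRange_ratFuncHom hy.transcendental))).toRingEquiv
    have he : (algebraMap (RatFunc K) L).comp (e.symm : K⟮y⟯ →+* RatFunc K) =
        algebraMap K⟮y⟯ L := by
      refine RingHom.ext fun z => ?_
      conv_rhs => rw [← e.apply_symm_apply z]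
      rfl
    haveI := hy.finite
    haveI : FiniteDimensional (RatFunc K) L :=
      Module.Finite.of_equiv_equiv e.symm (RingEquiv.refl L) (by exact he)
    exact exists_place_of_valuationSubring hK
      (by rw [show coordX K L = y from Polynomial.aeval_X y]; exact hmem) hA
  rcases A.mem_or_inv_mem x with hx | hx
  · exact key h hx
  · exact key h.inv hx

variable (F : IntermediateField K L)

theorem IsFinOver.intermediate {x : F} (h : IsFinOver K (x : L)) : IsFinOver K x := by
  refine ⟨fun ha => h.transcendental (ha.algHom F.val), ?_⟩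
  haveI := h.finite
  have hle : K⟮(x : L)⟯ ≤ F := adjoin_simple_le_iff.mpr x.2
  letI : Algebra K⟮(x : L)⟯ F := (IntermediateField.inclusion hle).toRingHom.toAlgebra
  haveI : IsScalarTower K⟮(x : L)⟯ F L := IsScalarTower.of_algebraMap_eq fun _ => rfl
  haveI : FiniteDimensional K⟮(x : L)⟯ F :=
    FiniteDimensional.of_injective (IsScalarTower.toAlgHom K⟮(x : L)⟯ F L).toLinearMap
      Subtype.val_injective
  have hmap : K⟮x⟯.map F.val = K⟮(x : L)⟯ := by
    rw [IntermediateField.adjoin_map, Set.image_singleton]; rfl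
  let e : K⟮x⟯ ≃+* K⟮(x : L)⟯ :=
    ((K⟮x⟯.equivMap F.val).trans (IntermediateField.equivOfEq hmap)).toRingEquiv
  exact Module.Finite.of_equiv_equiv e.symm (RingEquiv.refl F) (RingHom.ext fun z => by
    apply Subtype.val_injective
    conv_rhs => rw [← e.apply_symm_apply z]
    rfl)

theorem exists_place_extension {x : L} (h : IsFinOver K x) [Algebra.IsIntegral F L]
    (Q : Place K F) : ∃ P : Place K L, P.restrict F = Q := by
  let R₀ : LocalSubring L := LocalSubring.map (algebraMap F L) Q.toValuationSubring.toLocalSubring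
  obtain ⟨A, hA⟩ := LocalSubring.exists_le_valuationSubring R₀
  obtain ⟨hle, hloc⟩ := hA
  have hmem : ∀ {f : F}, f ∈ Q.toValuationSubring → (f : L) ∈ A :=
    fun {f} hf => hle ⟨f, hf, rfl⟩
  obtain ⟨π, hπ0, hπ⟩ := exists_ord_eq_one Q
  have hπmem : π ∈ Q.toValuationSubring := (mem_iff_ord_nonneg Q hπ0).mpr (by omega)
  have htop : A ≠ ⊤ := by
    intro hA'
    have hu : IsUnit (Subring.inclusion hle ⟨(π : L), π, hπmem, rfl⟩) := by
      refine .of_mul_eq_one ⟨(π : L)⁻¹, by
        show (π : L)⁻¹ ∈ A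
        rw [hA']; exact ValuationSubring.mem_top _⟩ (Subtype.ext ?_)
      show (π : L) * (π : L)⁻¹ = 1
      exact mul_inv_cancel₀ (by simpa using hπ0)
    obtain ⟨w, hw⟩ := (hloc.map_nonunit _ hu).exists_right_inv
    obtain ⟨_, u, hu', rfl⟩ := w
    have h1 : π * u = 1 := by
      apply Subtype.ext
      have h' := congrArg (fun z : R₀.toSubring => (z : L)) hw
      exact h'
    have hu0 : u ≠ 0 := fun h0 => by simp [h0] at h1
    have := Q.ord_mul hπ0 hu0
    rw [h1, Q.ord_one, hπ] at this
    have := (mem_iff_ord_nonneg Q hu0).mp hu'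
    omega
  have hK : ∀ a : K, algebraMap K L a ∈ A := fun a => hmem (Q.algebraMap_mem' a)
  obtain ⟨P, hP⟩ := h.exists_place hK htop
  refine ⟨P, (place_eq_of_le fun f hf => ?_).symm⟩
  rw [Place.mem_restrict_iff, hP]
  exact hmem hf

variable {F}

theorem mem_smul_toValuationSubring (g : L ≃ₐ[K] L) (P : Place K L) (z : L) :
    z ∈ (g • P).toValuationSubring ↔ g⁻¹ z ∈ P.toValuationSubring := by
  rw [Place.smul_toValuationSubring, ValuationSubring.mem_pointwise_smul_iff_inv_smul_mem]
  rfl

theorem ord_smul_place (g : L ≃ₐ[K] L) (P : Place K L) (z : L) :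
    (g • P).ord z = P.ord (g⁻¹ z) := by
  have := Place.ord_smul g P (g⁻¹ z)
  rwa [show g (g⁻¹ z) = z from g.apply_symm_apply z] at this

/-- Two places with the same trace on the fixed field are conjugate. -/
theorem exists_smul_eq_of_fixed {x : L} (h : IsFinOver K x) (H : Subgroup (L ≃ₐ[K] L)) [Finite H]
    (hx : ∀ g ∈ H, g x = x) (P P' : Place K L)
    (heq : ∀ f : L, (∀ g ∈ H, g f = f) →
      (f ∈ P.toValuationSubring ↔ f ∈ P'.toValuationSubring)) :
    ∃ g ∈ H, g • P = P' := by
  classical
  haveI := Fintype.ofFinite H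
  suffices key : ∀ y : L, IsFinOver K y → (∀ g ∈ H, g y = y) → y ∈ P.toValuationSubring →
      ∃ g ∈ H, g • P = P' by
    rcases P.toValuationSubring.mem_or_inv_mem x with hm | hm
    · exact key x h hx hm
    · exact key x⁻¹ h.inv (fun g hg => by rw [map_inv₀, hx g hg]) hm
  intro y hy hfix hmem
  by_contra hne
  push Not at hne
  letI : Algebra (Polynomial K) L := (Polynomial.aeval (R := K) y).toRingHom.toAlgebra
  letI : Algebra (RatFunc K) L := (ratFuncHom K hy.transcendental).toRingHom.toAlgebra
  haveI : IsScalarTower K (Polynomial K) L :=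
    IsScalarTower.of_algebraMap_eq fun a => ((Polynomial.aeval (R := K) y).commutes a).symm
  haveI : IsScalarTower (Polynomial K) (RatFunc K) L :=
    IsScalarTower.of_algebraMap_eq fun p => (ratFuncHom_algebraMap hy.transcendental p).symm
  let e : RatFunc K ≃+* K⟮y⟯ :=
    ((AlgEquiv.ofInjectiveField (ratFuncHom K hy.transcendental)).trans
      (IntermediateField.equivOfEq (fieldRange_ratFuncHom hy.transcendental))).toRingEquiv
  have he : (algebraMap (RatFunc K) L).comp (e.symm : K⟮y⟯ →+* RatFunc K) =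
      algebraMap K⟮y⟯ L := by
    refine RingHom.ext fun z => ?_
    conv_rhs => rw [← e.apply_symm_apply z]
    rfl
  haveI := hy.finite
  haveI : FiniteDimensional (RatFunc K) L :=
    Module.Finite.of_equiv_equiv e.symm (RingEquiv.refl L) (by exact he)
  have hX : coordX K L = y := Polynomial.aeval_X y
  have horb : ∀ g : H, coordX K L ∈ ((g : L ≃ₐ[K] L) • P).toValuationSubring := fun g => by
    rw [hX, mem_smul_toValuationSubring, hfix _ (inv_mem g.2)]
    exact hmem
  have hX' : coordX K L ∈ P'.toValuationSubring := by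
    rw [hX]; exact (heq y hfix).mp hmem
  choose q hq using fun g : H => exists_placeOfPrime_eq (horb g)
  obtain ⟨q', hq'⟩ := exists_placeOfPrime_eq hX'
  have hnotle : ∀ g : H, ¬ q'.asIdeal ≤ (q g).asIdeal := fun g hle => by
    have := q'.isMaximal.eq_of_le (q g).isMaximal.ne_top hle
    exact hne g g.2 (by rw [← hq g, ← hq', IsDedekindDomain.HeightOneSpectrum.ext this])
  have : ¬ ((q'.asIdeal : Set ↥(integralClosure (Polynomial K) L)) ⊆
      ⋃ g ∈ (Finset.univ : Finset H), ((q g).asIdeal : Set _)) := by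
    intro hsub
    obtain ⟨g, -, hg⟩ := (Ideal.subset_union_prime (f := fun g : H => (q g).asIdeal)
      (s := Finset.univ) 1 1 fun g _ _ _ => (q g).isPrime).mp (by simpa using hsub)
    exact hnotle g hg
  obtain ⟨z, hz', hz⟩ := Set.not_subset.mp this
  simp only [Finset.mem_univ, Set.iUnion_true, Set.mem_iUnion, not_exists] at hz
  have hz0 : z ≠ 0 := fun h0 => hz 1 (h0 ▸ zero_mem _)
  have hzL : (z : L) ≠ 0 := by simpa using hz0
  have hordg : ∀ g : H, P.ord ((g : L ≃ₐ[K] L) (z : L)) = 0 := by
    intro g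
    have h1 : ((g⁻¹ : H) : L ≃ₐ[K] L)⁻¹ (z : L) = (g : L ≃ₐ[K] L) z := by simp
    have h2 := ord_smul_place ((g⁻¹ : H) : L ≃ₐ[K] L) P (z : L)
    rw [h1] at h2
    rw [← h2, ← hq g⁻¹]
    have h3 : ¬ 0 < (placeOfPrime (q g⁻¹)).ord (z : L) := fun hp =>
      hz g⁻¹ ((ord_placeOfPrime_pos_iff _ _ hz0).mp hp)
    have h4 := ord_nonneg_of_mem' (placeOfPrime (q g⁻¹))
      (coe_integralClosure_mem (coordX_mem_placeOfPrime _) z)
    omega
  have hmemg : ∀ g : H, (g : L ≃ₐ[K] L) (z : L) ∈ P'.toValuationSubring := by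
    intro g
    have h1 := coe_integralClosure_mem (K := K) (F := L)
      (v := ((g⁻¹ : H) : L ≃ₐ[K] L) • P') (by
        rw [hX, mem_smul_toValuationSubring, hfix _ (inv_mem (g⁻¹).2)]
        exact hX ▸ hX') z
    rw [mem_smul_toValuationSubring] at h1
    simpa using h1
  set N : L := ∏ g : H, (g : L ≃ₐ[K] L) (z : L) with hN
  have hNfix : ∀ g ∈ H, g N = N := fun g hg => by
    rw [hN, map_prod]
    exact Fintype.prod_equiv (Equiv.mulLeft ⟨g, hg⟩) _ _ fun a => rfl
  have hN0 : N ≠ 0 := Finset.prod_ne_zero_iff.mpr fun g _ => by simpa using hzL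
  have hordprod : ∀ (R : Place K L) (s : Finset H),
      R.ord (∏ g ∈ s, (g : L ≃ₐ[K] L) (z : L)) = ∑ g ∈ s, R.ord ((g : L ≃ₐ[K] L) (z : L)) := by
    intro R s
    induction s using Finset.induction_on with
    | empty => simp
    | insert a s ha ih =>
      rw [Finset.prod_insert ha, Finset.sum_insert ha,
        R.ord_mul (by simpa using hzL) (Finset.prod_ne_zero_iff.mpr fun g _ => by simpa using hzL),
        ih]
  have hP : P.ord N = 0 := by
    rw [hN, hordprod]
    exact Finset.sum_eq_zero fun g _ => hordg g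
  have hP' : 0 < P'.ord N := by
    rw [hN, hordprod]
    refine Finset.sum_pos' (fun g _ => ord_nonneg_of_mem' P' (hmemg g)) ⟨1, Finset.mem_univ _, ?_⟩
    show 0 < P'.ord (z : L)
    rw [← hq', ord_placeOfPrime_pos_iff _ _ hz0]
    exact hz'
  have hinv : ∀ g ∈ H, g N⁻¹ = N⁻¹ := fun g hg => by rw [map_inv₀, hNfix g hg]
  have h1 : N⁻¹ ∈ P.toValuationSubring :=
    (mem_iff_ord_nonneg P (inv_ne_zero hN0)).mpr (by rw [P.ord_inv]; omega)
  have h2 := (mem_iff_ord_nonneg P' (inv_ne_zero hN0)).mp ((heq _ hinv).mp h1)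
  rw [P'.ord_inv] at h2
  omega

end Fermat.Agent.MCurve
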