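import Fermat.Agent.MCurve.ModRing
import Fermat.Agent.MCurve.Orbit
import Mathlib.RingTheory.Localization.FractionRing
import Mathlib.FieldTheory.Galois.Basic

/-!
The field of modular functions generated by the conjugates of `j (d τ)`, the action of
`SL(2, ℤ)` on it, the fixed fields of the whole image and of the image of `Γ₀(N)`.
-/

noncomputable section

namespace Fermat.Agent.MCurve

open IntermediateField CongruenceSubgroup
open scoped MatrixGroups

local notation "ℍ" => UpperHalfPlane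

section Tower

variable {K L : Type*} [Field K] [Field L] [Algebra K L] (F : IntermediateField K L)

theorem finrank_adjoin_mul (x : F) :
    Module.finrank K⟮x⟯ F * Module.finrank F L = Module.finrank K⟮(x : L)⟯ L := by
  have hle : K⟮(x : L)⟯ ≤ F := adjoin_simple_le_iff.mpr x.2
  letI : Algebra K⟮(x : L)⟯ F := (IntermediateField.inclusion hle).toRingHom.toAlgebra
  haveI : IsScalarTower K⟮(x : L)⟯ F L := IsScalarTower.of_algebraMap_eq fun _ => rfl
  have hmap : K⟮x⟯.map F.val = K⟮(x : L)⟯ := by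
    rw [IntermediateField.adjoin_map, Set.image_singleton]; rfl
  let e : K⟮x⟯ ≃+* K⟮(x : L)⟯ :=
    ((K⟮x⟯.equivMap F.val).trans (IntermediateField.equivOfEq hmap)).toRingEquiv
  rw [Algebra.finrank_eq_of_equiv_equiv e (RingEquiv.refl F) (RingHom.ext fun z =>
    Subtype.val_injective rfl), Module.finrank_mul_finrank]

end Tower

variable (N : ℕ) [NeZero N] (K : Type*) [Field K] [Algebra K ℂ]

theorem comp_smul_mem_modRing {f : ℍ → ℂ} (hf : f ∈ modRing N K) (γ : SL(2, ℤ)) :
    (fun τ => f (γ • τ)) ∈ modRing N K := by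
  induction hf using Algebra.adjoin_induction with
  | mem x hx => exact Algebra.subset_adjoin (comp_smul_mem_genSet N hx γ)
  | algebraMap c => exact Subalgebra.algebraMap_mem _ c
  | add x y _ _ hx hy => exact add_mem hx hy
  | mul x y _ _ hx hy => exact mul_mem hx hy

/-- Translation by `γ` on the ring of modular functions. -/
def ringEquivSL (γ : SL(2, ℤ)) : modRing N K ≃ₐ[K] modRing N K where
  toFun f := ⟨fun τ => (f : ℍ → ℂ) (γ⁻¹ • τ), comp_smul_mem_modRing N K f.2 γ⁻¹⟩
  invFun f := ⟨fun τ => (f : ℍ → ℂ) (γ • τ), comp_smul_mem_modRing N K f.2 γ⟩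
  left_inv f := Subtype.ext (funext fun τ => by simp only [inv_smul_smul])
  right_inv f := Subtype.ext (funext fun τ => by simp only [smul_inv_smul])
  map_mul' _ _ := rfl
  map_add' _ _ := rfl
  commutes' _ := rfl

theorem coe_ringEquivSL (γ : SL(2, ℤ)) (f : modRing N K) :
    (ringEquivSL N K γ f : ℍ → ℂ) = fun τ => (f : ℍ → ℂ) (γ⁻¹ • τ) := rfl

/-- `ringEquivSL` as a homomorphism. -/
def ringAct : SL(2, ℤ) →* (modRing N K ≃ₐ[K] modRing N K) where
  toFun := ringEquivSL N K
  map_one' := AlgEquiv.ext fun f => Subtype.ext (funext fun τ => by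
    simp only [coe_ringEquivSL, inv_one, one_smul, AlgEquiv.one_apply])
  map_mul' γ δ := AlgEquiv.ext fun f => Subtype.ext (funext fun τ => by
    simp only [coe_ringEquivSL, mul_inv_rev, mul_smul, AlgEquiv.mul_apply])

theorem coe_ringAct (γ : SL(2, ℤ)) (f : modRing N K) :
    (ringAct N K γ f : ℍ → ℂ) = fun τ => (f : ℍ → ℂ) (γ⁻¹ • τ) := rfl

instance finite_range_ringAct : Finite (ringAct N K).range := by
  haveI := (genSet_finite N).to_subtype
  have key : ∀ (g : (ringAct N K).range) (f : genSet N),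
      ((g : modRing N K ≃ₐ[K] modRing N K) ⟨f, Algebra.subset_adjoin f.2⟩ : ℍ → ℂ) ∈ genSet N := by
    rintro ⟨_, γ, rfl⟩ f
    exact comp_smul_mem_genSet N f.2 γ⁻¹
  refine Finite.of_injective (fun g f => (⟨_, key g f⟩ : genSet N)) fun g g' h => ?_
  refine Subtype.ext (AlgEquiv.ext fun x => ?_)
  obtain ⟨x, hx⟩ := x
  induction hx using Algebra.adjoin_induction with
  | mem x hx => exact Subtype.ext (congrArg (fun u : genSet N => (u : ℍ → ℂ)) (congrFun h ⟨x, hx⟩))
  | algebraMap c => exact (AlgEquiv.commutes _ c).trans (AlgEquiv.commutes _ c).symm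
  | add a b ha hb iha ihb =>
    show g.1 (⟨a, ha⟩ + ⟨b, hb⟩) = g'.1 (⟨a, ha⟩ + ⟨b, hb⟩)
    rw [map_add, map_add, iha, ihb]
  | mul a b ha hb iha ihb =>
    show g.1 (⟨a, ha⟩ * ⟨b, hb⟩) = g'.1 (⟨a, ha⟩ * ⟨b, hb⟩)
    rw [map_mul, map_mul, iha, ihb]

variable [IsAlgClosed K]

/-- The field of modular functions. -/
def ModFld := FractionRing (modRing N K)

instance : Field (ModFld N K) := inferInstanceAs (Field (FractionRing (modRing N K)))

instance : Algebra (modRing N K) (ModFld N K) :=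
  inferInstanceAs (Algebra (modRing N K) (FractionRing (modRing N K)))

instance : Algebra K (ModFld N K) := inferInstanceAs (Algebra K (FractionRing (modRing N K)))

instance : IsFractionRing (modRing N K) (ModFld N K) :=
  inferInstanceAs (IsFractionRing (modRing N K) (FractionRing (modRing N K)))

instance : IsScalarTower K (modRing N K) (ModFld N K) :=
  inferInstanceAs (IsScalarTower K (modRing N K) (FractionRing (modRing N K)))

instance [CharZero K] : CharZero (ModFld N K) :=
  charZero_of_injective_algebraMap (algebraMap K (ModFld N K)).injective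

/-- The action of `SL(2, ℤ)` on the field. -/
def fldAct : SL(2, ℤ) →* (ModFld N K ≃ₐ[K] ModFld N K) :=
  (IsFractionRing.fieldEquivOfAlgEquivHom K (ModFld N K)).comp (ringAct N K)

theorem fldAct_algebraMap (γ : SL(2, ℤ)) (f : modRing N K) :
    fldAct N K γ (algebraMap (modRing N K) (ModFld N K) f) =
      algebraMap (modRing N K) (ModFld N K) (ringAct N K γ f) :=
  IsFractionRing.fieldEquivOfAlgEquiv_algebraMap K (ModFld N K) (ModFld N K) _ f

/-- The image of `SL(2, ℤ)`. -/
abbrev fullGp : Subgroup (ModFld N K ≃ₐ[K] ModFld N K) := (fldAct N K).range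

/-- The image of `Γ₀(N)`. -/
abbrev gamma0Gp : Subgroup (ModFld N K ≃ₐ[K] ModFld N K) := (Gamma0 N).map (fldAct N K)

theorem gamma0Gp_le : gamma0Gp N K ≤ fullGp N K := Subgroup.map_le_range _ _

instance finite_fullGp : Finite (fullGp N K) := by
  have hs : Function.Surjective
      (fun g : (ringAct N K).range => (⟨IsFractionRing.fieldEquivOfAlgEquivHom K (ModFld N K) g.1,
        by obtain ⟨γ, hγ⟩ := g.2; exact ⟨γ, by rw [← hγ]; rfl⟩⟩ : fullGp N K)) := by
    rintro ⟨_, γ, rfl⟩
    exact ⟨⟨_, γ, rfl⟩, rfl⟩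
  exact Finite.of_surjective _ hs

instance finite_gamma0Gp : Finite (gamma0Gp N K) :=
  Finite.of_injective _ (Subgroup.inclusion_injective (gamma0Gp_le N K))

/-- `j` in the field. -/
def jL : ModFld N K :=
  algebraMap (modRing N K) (ModFld N K) ⟨jFn, Algebra.subset_adjoin (jFn_mem_genSet N)⟩

/-- `j (d τ)` in the field. -/
def jdL {d : ℕ} (hd : d ∣ N) : ModFld N K :=
  algebraMap (modRing N K) (ModFld N K) ⟨jScale d, Algebra.subset_adjoin (jScale_mem_genSet N hd)⟩

theorem fldAct_jL (γ : SL(2, ℤ)) : fldAct N K γ (jL N K) = jL N K := by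
  rw [jL, fldAct_algebraMap]
  exact congrArg _ (Subtype.ext (funext fun τ => jFn_smul γ⁻¹ τ))

theorem fldAct_jdL {γ : SL(2, ℤ)} (hγ : γ ∈ Gamma0 N) {d : ℕ} (hd : d ∣ N) :
    fldAct N K γ (jdL N K hd) = jdL N K hd := by
  rw [jdL, fldAct_algebraMap]
  exact congrArg _ (Subtype.ext (funext fun τ => jScale_smul_of_mem N hd (inv_mem hγ) τ))

theorem transcendental_jL : Transcendental K (jL N K) := by
  intro halg
  have hi : IsIntegral K (⟨jFn, Algebra.subset_adjoin (jFn_mem_genSet N)⟩ : modRing N K) :=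
    (halg.of_ringHom_of_comp_eq (RingHom.id K)
      (IsScalarTower.toAlgHom K (modRing N K) (ModFld N K)) Function.surjective_id
      (IsFractionRing.injective _ _) (by ext; rfl)).isIntegral
  obtain ⟨c, hc⟩ : ∃ c : K, algebraMap K (modRing N K) c = ⟨jFn, _⟩ := by
    have hd := IsAlgClosed.degree_eq_one_of_irreducible K (minpoly.irreducible hi)
    have hev := minpoly.aeval K
      (⟨jFn, Algebra.subset_adjoin (jFn_mem_genSet N)⟩ : modRing N K)
    rw [Polynomial.eq_X_add_C_of_degree_eq_one hd, (minpoly.monic hi).leadingCoeff, map_one,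
      one_mul, map_add, Polynomial.aeval_X, Polynomial.aeval_C] at hev
    exact ⟨_, ((eq_neg_of_add_eq_zero_left hev).trans (map_neg _ _).symm).symm⟩
  exact jFn_ne_const (algebraMap K ℂ c) (congrArg Subtype.val hc).symm

theorem exists_frac_of_fixed {H : Subgroup (SL(2, ℤ))} {x : ModFld N K}
    (hx : ∀ γ ∈ H, fldAct N K γ x = x) :
    ∃ a b : modRing N K, (∀ γ ∈ H, ringAct N K γ a = a) ∧ (∀ γ : SL(2, ℤ), ringAct N K γ b = b) ∧
      b ≠ 0 ∧ (b : ℍ → ℂ) ∈ Algebra.adjoin K {jFn} ∧
      algebraMap (modRing N K) (ModFld N K) a = x * algebraMap (modRing N K) (ModFld N K) b := by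
  classical
  haveI := Fintype.ofFinite (ringAct N K).range
  obtain ⟨a, b, hb, rfl⟩ := IsFractionRing.div_surjective (A := modRing N K) x
  have hb0 : b ≠ 0 := nonZeroDivisors.ne_zero hb
  set B : modRing N K := ∏ g : (ringAct N K).range, (g : modRing N K ≃ₐ[K] modRing N K) b with hB
  set B' : modRing N K := ∏ g ∈ (Finset.univ : Finset (ringAct N K).range).erase 1,
    (g : modRing N K ≃ₐ[K] modRing N K) b with hB'
  have hBeq : B = b * B' := by
    rw [hB, hB', ← Finset.mul_prod_erase _ _ (Finset.mem_univ (1 : (ringAct N K).range))]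
    rfl
  have hBne : B ≠ 0 := Finset.prod_ne_zero_iff.mpr fun g _ => by simpa using hb0
  have hBinv : ∀ γ : SL(2, ℤ), ringAct N K γ B = B := fun γ => by
    rw [hB, map_prod]
    exact Fintype.prod_equiv (Equiv.mulLeft ⟨ringAct N K γ, γ, rfl⟩) _ _ fun g => rfl
  have hBj : (B : ℍ → ℂ) ∈ Algebra.adjoin K {jFn} :=
    mem_adjoin_jFn_of_invariant B.2 fun γ τ => by
      have := congrFun (congrArg Subtype.val (hBinv γ⁻¹)) τ
      rw [coe_ringAct, inv_inv] at this
      exact this
  have hab : algebraMap (modRing N K) (ModFld N K) (a * B') =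
      algebraMap (modRing N K) (ModFld N K) a / algebraMap (modRing N K) (ModFld N K) b *
        algebraMap (modRing N K) (ModFld N K) B := by
    have : algebraMap (modRing N K) (ModFld N K) b ≠ 0 :=
      (map_ne_zero_iff _ (IsFractionRing.injective _ _)).mpr hb0
    rw [hBeq, map_mul, map_mul]
    field_simp
  refine ⟨a * B', B, fun γ hγ => ?_, hBinv, hBne, hBj, hab⟩
  apply IsFractionRing.injective (modRing N K) (ModFld N K)
  rw [← fldAct_algebraMap, hab, map_mul, hx γ hγ, fldAct_algebraMap, hBinv]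

theorem algebraMap_mem_adjoin_jL {a : modRing N K} (ha : (a : ℍ → ℂ) ∈ Algebra.adjoin K {jFn}) :
    algebraMap (modRing N K) (ModFld N K) a ∈ K⟮jL N K⟯ := by
  obtain ⟨p, hp⟩ := (Algebra.adjoin_singleton_eq_range_aeval K jFn).le ha
  have h : a = Polynomial.aeval
      (⟨jFn, Algebra.subset_adjoin (jFn_mem_genSet N)⟩ : modRing N K) p := by
    apply Subtype.ext
    rw [← hp]
    exact (Polynomial.aeval_algHom_apply (modRing N K).val
      (⟨jFn, Algebra.subset_adjoin (jFn_mem_genSet N)⟩ : modRing N K) p)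
  rw [h, ← Polynomial.aeval_algebraMap_apply]
  exact IntermediateField.algebra_adjoin_le_adjoin K _
    ((Algebra.adjoin_singleton_eq_range_aeval K (jL N K)).ge ⟨p, rfl⟩)

/-- The fixed field of the whole image is `K(j)`. -/
theorem fixedField_fullGp : IntermediateField.fixedField (fullGp N K) = K⟮jL N K⟯ := by
  refine le_antisymm (fun x hx => ?_) (adjoin_simple_le_iff.mpr ?_)
  · rw [mem_fixedField_iff] at hx
    obtain ⟨a, b, ha, -, hb0, hb, hab⟩ :=
      exists_frac_of_fixed N K (H := ⊤) (x := x) fun γ _ => hx _ ⟨γ, rfl⟩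
    have haj : (a : ℍ → ℂ) ∈ Algebra.adjoin K {jFn} :=
      mem_adjoin_jFn_of_invariant a.2 fun γ τ => by
        have := congrFun (congrArg Subtype.val (ha γ⁻¹ (Subgroup.mem_top _))) τ
        rw [coe_ringAct, inv_inv] at this
        exact this
    have hbL : algebraMap (modRing N K) (ModFld N K) b ≠ 0 :=
      (map_ne_zero_iff _ (IsFractionRing.injective _ _)).mpr hb0
    rw [show x = algebraMap (modRing N K) (ModFld N K) a / algebraMap (modRing N K) (ModFld N K) b
      by rw [hab]; field_simp]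
    exact div_mem (algebraMap_mem_adjoin_jL N K haj) (algebraMap_mem_adjoin_jL N K hb)
  · rw [mem_fixedField_iff]
    rintro _ ⟨γ, rfl⟩
    exact fldAct_jL N K γ

theorem finrank_fixedField_gp (H : Subgroup (ModFld N K ≃ₐ[K] ModFld N K)) [Finite H] :
    Module.finrank (IntermediateField.fixedField H) (ModFld N K) = Nat.card H := by
  haveI := Fintype.ofFinite H
  rw [Nat.card_eq_fintype_card]
  exact FixedPoints.finrank_eq_card H (ModFld N K)

theorem finrank_adjoin_jL : Module.finrank K⟮jL N K⟯ (ModFld N K) = Nat.card (fullGp N K) := by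
  rw [← fixedField_fullGp]; exact finrank_fixedField_gp N K _

theorem isFinOver_jL : IsFinOver K (jL N K) :=
  ⟨transcendental_jL N K, Module.finite_of_finrank_pos (by
    rw [finrank_adjoin_jL]; exact Nat.card_pos)⟩

theorem isGalois_adjoin_jL : IsGalois K⟮jL N K⟯ (ModFld N K) := by
  rw [← fixedField_fullGp]
  exact IsGalois.of_fixed_field (ModFld N K) (fullGp N K)

theorem mem_fullGp_of_fix {σ : ModFld N K ≃ₐ[K] ModFld N K} (h : σ (jL N K) = jL N K) :
    σ ∈ fullGp N K := by
  have hfix : ∀ z : IntermediateField.fixedField (fullGp N K), σ z = z := fun z => by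
    have hle : K⟮jL N K⟯ ≤ IntermediateField.fixedField (Subgroup.zpowers σ) := by
      refine adjoin_simple_le_iff.mpr ((mem_fixedField_iff _ _).mpr fun f hf => ?_)
      obtain ⟨k, rfl⟩ := hf
      exact (MulAction.mem_stabilizer_iff.mp ((Subgroup.zpowers_le (H := MulAction.stabilizer
        (ModFld N K ≃ₐ[K] ModFld N K) (jL N K))).mpr (MulAction.mem_stabilizer_iff.mpr h)
        ⟨k, rfl⟩))
    exact (mem_fixedField_iff _ _).mp (hle (fixedField_fullGp N K ▸ z.2)) σ
      (Subgroup.mem_zpowers σ)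
  obtain ⟨g, hg⟩ := (FixedPoints.toAlgAut_bijective (fullGp N K) (ModFld N K)).2
    (AlgEquiv.ofRingEquiv (f := σ.toRingEquiv) fun z => hfix ⟨z.1, z.2⟩)
  have : (g : ModFld N K ≃ₐ[K] ModFld N K) = σ := AlgEquiv.ext fun z => DFunLike.congr_fun hg z
  exact this ▸ g.2

/-- A subfield containing `j` consists of the elements fixed by its stabiliser. -/
theorem mem_of_forall_fix {M : IntermediateField K (ModFld N K)} (hj : jL N K ∈ M)
    {x : ModFld N K} (hx : ∀ γ : SL(2, ℤ), (∀ m ∈ M, fldAct N K γ m = m) → fldAct N K γ x = x) :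
    x ∈ M := by
  have hle : K⟮jL N K⟯ ≤ M := adjoin_simple_le_iff.mpr hj
  letI : Algebra K⟮jL N K⟯ M := (IntermediateField.inclusion hle).toRingHom.toAlgebra
  haveI : IsScalarTower K⟮jL N K⟯ M (ModFld N K) := IsScalarTower.of_algebraMap_eq fun _ => rfl
  haveI := isGalois_adjoin_jL N K
  haveI : IsGalois M (ModFld N K) :=
    IsGalois.tower_top_of_isGalois K⟮jL N K⟯ M (ModFld N K)
  haveI := (isFinOver_jL N K).finite
  haveI : FiniteDimensional M (ModFld N K) := Module.Finite.right K⟮jL N K⟯ M (ModFld N K)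
  suffices hf : ∀ f : ModFld N K ≃ₐ[M] ModFld N K, f x = x by
    obtain ⟨y, hy⟩ := IntermediateField.mem_bot.mp
      ((IsGalois.mem_bot_iff_fixed (F := M) x).mpr hf)
    rw [← hy]; exact y.2
  intro f
  have hfix : ∀ m ∈ M, (f.restrictScalars K) m = m := fun m hm => f.commutes ⟨m, hm⟩
  obtain ⟨γ, hγ⟩ := mem_fullGp_of_fix N K (hfix _ hj)
  have := hx γ fun m hm => by rw [hγ]; exact hfix m hm
  rw [hγ] at this
  exact this

/-- The stabiliser of `j (N τ)` is `Γ₀(N)`. -/
theorem mem_Gamma0_of_jScale_smul {γ : SL(2, ℤ)}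
    (h : ∀ τ : ℍ, jScale N (γ • τ) = jScale N τ) : γ ∈ Gamma0 N := by
  have hN : 0 < N := Nat.pos_of_ne_zero (NeZero.ne N)
  obtain ⟨γ', α, δ, β, hα, hδ, hαδ, hc, heq⟩ := exists_decomp hN γ
  have h1 : LExp (N : ℝ) (jScale N) (jSubst (zetaPow δ β) (α * α)) := by
    have := lExp_jFn_affPt hα hδ hN (show α * N = α * α * δ by rw [← hαδ]; ring) β
    refine (congrArg (fun F => LExp (N : ℝ) F _) (funext fun τ => ?_)).mp this
    rw [← h τ, jScale, heq, jFn_smul]
  have h2 : LExp (N : ℝ) (jScale N) (jSubst (zetaPow 1 0) (N * N)) := by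
    have := lExp_jFn_affPt hN Nat.one_pos hN (show N * N = N * N * 1 by ring) 0
    refine (congrArg (fun F => LExp (N : ℝ) F _) (funext fun τ => ?_)).mp this
    rw [jScale]
    congr 1
    apply UpperHalfPlane.ext
    rw [coe_affPt hN Nat.one_pos, coe_scalePt hN]
    simp
  have hu := congrArg (fun s : LaurentSeries ℂ => s.coeff (-((N * N : ℕ) : ℤ)))
    (h1.unique (natCast_pos' N) h2)
  simp only [jSubst_coeff_self] at hu
  have hαN : α ∣ N := ⟨δ, hαδ.symm⟩
  rcases (Nat.le_of_dvd hN hαN).lt_or_eq with hlt | heqN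
  · rw [jSubst_coeff_of_lt _ _ (by
      have := Nat.mul_self_lt_mul_self hlt
      omega)] at hu
    exact absurd hu.symm (inv_ne_zero (Complex.exp_ne_zero _))
  · rw [Gamma0_mem, ZMod.intCast_zmod_eq_zero_iff_dvd, hc, heqN]
    exact dvd_mul_left _ _

theorem fldAct_jdL_self_iff (γ : SL(2, ℤ)) :
    fldAct N K γ (jdL N K dvd_rfl) = jdL N K dvd_rfl ↔ γ ∈ Gamma0 N := by
  refine ⟨fun h => ?_, fun h => fldAct_jdL N K h dvd_rfl⟩
  rw [jdL, fldAct_algebraMap] at h
  have h' := congrArg Subtype.val (IsFractionRing.injective (modRing N K) (ModFld N K) h)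
  exact inv_mem_iff.mp (mem_Gamma0_of_jScale_smul N fun τ => congrFun h' τ)

/-- The function field of `X₀(N)` inside the field of modular functions. -/
def fixFld : IntermediateField K (ModFld N K) := IntermediateField.fixedField (gamma0Gp N K)

theorem mem_fixFld {x : ModFld N K} :
    x ∈ fixFld N K ↔ ∀ γ ∈ Gamma0 N, fldAct N K γ x = x := by
  rw [fixFld, mem_fixedField_iff]
  exact ⟨fun h γ hγ => h _ ⟨γ, hγ, rfl⟩, by rintro h _ ⟨γ, hγ, rfl⟩; exact h γ hγ⟩

theorem jL_mem_fixFld : jL N K ∈ fixFld N K :=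
  (mem_fixFld N K).mpr fun γ _ => fldAct_jL N K γ

theorem jdL_mem_fixFld {d : ℕ} (hd : d ∣ N) : jdL N K hd ∈ fixFld N K :=
  (mem_fixFld N K).mpr fun _ hγ => fldAct_jdL N K hγ hd

theorem fixFld_eq_adjoin : fixFld N K = IntermediateField.adjoin K {jL N K, jdL N K dvd_rfl} := by
  refine le_antisymm (fun x hx => ?_) (adjoin_le_iff.mpr ?_)
  · refine mem_of_forall_fix N K (subset_adjoin K _ (Set.mem_insert _ _)) fun γ hγ => ?_
    exact (mem_fixFld N K).mp hx γ ((fldAct_jdL_self_iff N K γ).mp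
      (hγ _ (subset_adjoin K _ (Set.mem_insert_of_mem _ rfl))))
  · rintro x (rfl | rfl)
    · exact jL_mem_fixFld N K
    · exact jdL_mem_fixFld N K dvd_rfl

/-- Galois correspondence for `fixFld`. -/
theorem fldAct_fix_fixFld_iff (γ : SL(2, ℤ)) :
    (∀ x ∈ fixFld N K, fldAct N K γ x = x) ↔ γ ∈ Gamma0 N :=
  ⟨fun h => (fldAct_jdL_self_iff N K γ).mp (h _ (jdL_mem_fixFld N K dvd_rfl)),
    fun h x hx => (mem_fixFld N K).mp hx γ h⟩

theorem ker_fldAct_le : (fldAct N K).ker ≤ Gamma0 N := fun γ hγ =>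
  (fldAct_fix_fixFld_iff N K γ).mp fun x _ => by
    rw [MonoidHom.mem_ker.mp hγ]; rfl

theorem card_gamma0Gp_mul_index :
    (Gamma0 N).index * Nat.card (gamma0Gp N K) = Nat.card (fullGp N K) := by
  have h1 := Subgroup.index_map_eq (H := Gamma0 N) (f := (fldAct N K).rangeRestrict)
    (fldAct N K).rangeRestrict_surjective
    (by rw [MonoidHom.ker_rangeRestrict]; exact ker_fldAct_le N K)
  have h2 := Subgroup.card_mul_index ((Gamma0 N).map (fldAct N K).rangeRestrict)
  have h3 : Nat.card (gamma0Gp N K) = Nat.card ((Gamma0 N).map (fldAct N K).rangeRestrict) := by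
    rw [show gamma0Gp N K = ((Gamma0 N).map (fldAct N K).rangeRestrict).map (fullGp N K).subtype by
      rw [Subgroup.map_map, MonoidHom.subtype_comp_rangeRestrict]]
    exact Nat.card_congr (Subgroup.equivMapOfInjective _ _
      (fullGp N K).subtype_injective).symm.toEquiv
  rw [h1] at h2
  rw [h3, mul_comm, h2]

theorem finrank_fixFld :
    Module.finrank K⟮(⟨jL N K, jL_mem_fixFld N K⟩ : fixFld N K)⟯ (fixFld N K) =
      (Gamma0 N).index := by
  have h := finrank_adjoin_mul (fixFld N K) (⟨jL N K, jL_mem_fixFld N K⟩ : fixFld N K)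
  have h2 : Module.finrank (fixFld N K) (ModFld N K) = Nat.card (gamma0Gp N K) :=
    finrank_fixedField_gp N K _
  rw [h2, finrank_adjoin_jL, ← card_gamma0Gp_mul_index N K] at h
  exact Nat.eq_of_mul_eq_mul_right Nat.card_pos h

theorem isFinOver_fixFld [CharZero K] :
    IsFinOver K (⟨jL N K, jL_mem_fixFld N K⟩ : fixFld N K) :=
  IsFinOver.intermediate (fixFld N K) (isFinOver_jL N K)

end Fermat.Agent.MCurve
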