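import Fermat.Agent.MCurve.JFun
import Fermat.Agent.Period.LevelOne
import Fermat.Prelude.Def_ModularCurve_LaurentCoeff
import Mathlib.Analysis.Complex.LocallyUniformLimit
import Mathlib.RingTheory.Polynomial.RationalRoot

/-!
The identity `(θ j) ^ 6 = j ^ 4 (j - 1728) ^ 3 Δ` over any ring, and: in characteristic prime to
`p`, `j (q ^ p)` is not a rational function of `j`, granted that `Δ (q ^ p) / Δ (q)` is integral
over `k [j]`.
-/

noncomputable section

namespace Fermat.Agent.MCurve

open Complex
open scoped Real Manifold Derivative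

local notation "ℍ" => UpperHalfPlane
local notation "𝕢" => Function.Periodic.qParam

section Formal

variable {R S : Type*} [CommRing R] [CommRing S]

/-- `q d/dq`. -/
def thetaL (x : LaurentSeries R) : LaurentSeries R :=
  ⟨fun k => (k : R) * x.coeff k, x.isPWO_support.mono fun k hk h0 => hk (by simp [h0])⟩

@[simp]
theorem thetaL_coeff (x : LaurentSeries R) (k : ℤ) : (thetaL x).coeff k = (k : R) * x.coeff k := rfl

theorem thetaL_mul (x y : LaurentSeries R) :
    thetaL (x * y) = thetaL x * y + x * thetaL y := by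
  classical
  ext k
  rw [thetaL_coeff, HahnSeries.coeff_add]
  have hx : (thetaL x).support ⊆ x.support := fun i hi h0 => hi (by simp [h0])
  have hy : (thetaL y).support ⊆ y.support := fun i hi h0 => hi (by simp [h0])
  rw [HahnSeries.coeff_mul_left' x.isPWO_support hx,
    HahnSeries.coeff_mul_right' y.isPWO_support hy, HahnSeries.coeff_mul, Finset.mul_sum,
    ← Finset.sum_add_distrib]
  refine Finset.sum_congr rfl fun ij hij => ?_
  rw [Finset.mem_addAntidiagonal] at hij
  rw [thetaL_coeff, thetaL_coeff, ← hij.2.2]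
  push_cast
  ring

theorem thetaL_add (x y : LaurentSeries R) : thetaL (x + y) = thetaL x + thetaL y := by
  ext k; simp [mul_add]

theorem thetaL_coeffMap (f : R →+* S) (x : LaurentSeries R) :
    thetaL (ModularCurve.coeffMap f x) = ModularCurve.coeffMap f (thetaL x) := by
  ext k; simp

theorem thetaL_qExpand (p : ℕ) [NeZero p] (x : LaurentSeries R) :
    thetaL (ModularCurve.qExpand R p x) =
      HahnSeries.C (p : R) * ModularCurve.qExpand R p (thetaL x) := by
  ext k
  rw [thetaL_coeff, HahnSeries.C_mul_eq_smul, HahnSeries.coeff_smul, smul_eq_mul]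
  by_cases hk : (p : ℤ) ∣ k
  · obtain ⟨m, rfl⟩ := hk
    rw [ModularCurve.qExpand_coeff_mul, ModularCurve.qExpand_coeff_mul, thetaL_coeff]
    push_cast; ring
  · rw [ModularCurve.qExpand_coeff_of_not_dvd p _ hk, ModularCurve.qExpand_coeff_of_not_dvd p _ hk,
      mul_zero, mul_zero]

theorem thetaL_C (c : R) : thetaL (HahnSeries.C c) = 0 := by
  ext k
  rcases eq_or_ne k 0 with rfl | hk
  · simp
  · simp [HahnSeries.coeff_single_of_ne hk]

theorem thetaL_eval₂ (x : LaurentSeries R) (p : Polynomial R) :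
    thetaL (p.eval₂ HahnSeries.C x) = p.derivative.eval₂ HahnSeries.C x * thetaL x := by
  induction p using Polynomial.induction_on with
  | C a => rw [Polynomial.eval₂_C, thetaL_C]; simp
  | add p q hp hq => simp [thetaL_add, hp, hq, add_mul]
  | monomial n a ih =>
    simp only [Polynomial.derivative_mul, Polynomial.derivative_C, zero_mul, zero_add,
      Polynomial.eval₂_mul, Polynomial.eval₂_C, Polynomial.eval₂_pow, Polynomial.eval₂_X,
      Polynomial.derivative_X_pow] at ih ⊢
    rw [pow_succ, ← mul_assoc, thetaL_mul, ih]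
    rcases n with _ | n
    · simp
    · simp only [Nat.add_sub_cancel, Nat.cast_succ, map_add, map_one]
      rw [pow_succ]
      ring

variable (R)

/-- The expansion of the discriminant. -/
def deltaC : LaurentSeries R :=
  HahnSeries.single (1 : ℤ) 1 *
    HahnSeries.ofPowerSeries ℤ R ((ModularCurve.etaProd ^ 24).map (Int.castRingHom R))

variable {R}

theorem coeffMap_ofPowerSeries' (f : R →+* S) (p : PowerSeries R) :
    ModularCurve.coeffMap f (HahnSeries.ofPowerSeries ℤ R p) =
      HahnSeries.ofPowerSeries ℤ S (p.map f) := by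
  ext k
  rw [ModularCurve.coeffMap_coeff]
  rcases le_or_gt 0 k with hk | hk
  · lift k to ℕ using hk
    rw [HahnSeries.ofPowerSeries_apply_coeff, HahnSeries.ofPowerSeries_apply_coeff,
      PowerSeries.coeff_map]
  · rw [ModularCurve.ofPowerSeries_coeff_of_neg _ hk, ModularCurve.ofPowerSeries_coeff_of_neg _ hk,
      map_zero]

theorem coeffMap_deltaC (f : R →+* S) : ModularCurve.coeffMap f (deltaC R) = deltaC S := by
  rw [deltaC, map_mul, ModularCurve.coeffMap_single, map_one, coeffMap_ofPowerSeries', deltaC]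
  congr 2
  rw [← RingHom.comp_apply (PowerSeries.map f) (PowerSeries.map (Int.castRingHom R)),
    ← PowerSeries.map_comp, RingHom.ext_int (f.comp (Int.castRingHom R)) (Int.castRingHom S)]

theorem deltaC_coeff_one [Nontrivial R] : (deltaC R).coeff 1 = 1 := by
  rw [deltaC, HahnSeries.coeff_single_mul, sub_self, one_mul,
    show (0 : ℤ) = ((0 : ℕ) : ℤ) from rfl, HahnSeries.ofPowerSeries_apply_coeff,
    PowerSeries.coeff_map, PowerSeries.coeff_zero_eq_constantCoeff, map_pow,
    ModularCurve.constantCoeff_etaProd]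
  simp

theorem deltaC_coeff_of_lt {k : ℤ} (hk : k < 1) : (deltaC R).coeff k = 0 := by
  rw [deltaC, HahnSeries.coeff_single_mul, one_mul]
  exact ModularCurve.ofPowerSeries_coeff_of_neg _ (by omega)

end Formal

section Analytic

theorem QExp.normalizedDeriv {f : ℍ → ℂ} {p : PowerSeries ℂ} (hf : QExp 1 f p) :
    QExp 1 (D f) (PowerSeries.mk fun n => (n : ℂ) * PowerSeries.coeff n p) := by
  intro τ
  set c : ℝ := τ.im / 2
  have hc : 0 < c := by have := τ.im_pos; positivity
  set U : Set ℂ := {z : ℂ | c < z.im}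
  have hU : IsOpen U := isOpen_lt continuous_const Complex.continuous_im
  have hτU : (τ : ℂ) ∈ U := by
    show c < (τ : ℂ).im
    have := τ.im_pos
    rw [UpperHalfPlane.coe_im]; simp only [c]; linarith
  let τc : ℍ := ⟨c * I, by simpa using hc⟩
  set r : ℝ := Real.exp (-2 * π * c) with hr
  have hrq : ‖𝕢 1 (τc : ℂ)‖ = r := by
    simp [τc, Function.Periodic.qParam, Complex.norm_exp, hr, mul_comm, mul_left_comm]
  have hsum : Summable fun n : ℕ => ‖PowerSeries.coeff n p‖ * r ^ n := by
    refine (hf τc).summable.norm.congr fun n => ?_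
    rw [norm_mul, norm_pow, hrq]
  let F : ℕ → ℂ → ℂ := fun n z => PowerSeries.coeff n p * 𝕢 1 z ^ n
  have hF : ∀ n, DifferentiableOn ℂ (F n) U := fun n => by
    simp only [F, Function.Periodic.qParam]; fun_prop
  have hle : ∀ n, ∀ w ∈ U, ‖F n w‖ ≤ ‖PowerSeries.coeff n p‖ * r ^ n := by
    intro n w (hw : c < w.im)
    rw [norm_mul, norm_pow]
    refine mul_le_mul_of_nonneg_left (pow_le_pow_left₀ (norm_nonneg _) ?_ n) (norm_nonneg _)
    rw [hr, Function.Periodic.norm_qParam]
    refine Real.exp_le_exp.mpr ?_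
    have := Real.pi_pos
    nlinarith
  have h := hasSum_deriv_of_summable_norm hsum hF hU hle hτU
  have hEq : (fun w : ℂ => ∑' n, F n w) =ᶠ[nhds (τ : ℂ)] (f ∘ UpperHalfPlane.ofComplex) := by
    filter_upwards [hU.mem_nhds hτU] with w hw
    have hw0 : 0 < w.im := hc.trans hw
    rw [Function.comp_apply, UpperHalfPlane.ofComplex_apply_of_im_pos hw0]
    exact (hf ⟨w, hw0⟩).tsum_eq
  rw [hEq.deriv_eq] at h
  have h2 := h.mul_left ((2 * π * I)⁻¹)
  refine h2.congr_fun fun n => ?_
  have hd : HasDerivAt (F n) ((n : ℂ) * PowerSeries.coeff n p * 𝕢 1 (τ : ℂ) ^ n * (2 * π * I))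
      (τ : ℂ) := by
    have h1 : HasDerivAt (fun z : ℂ => 𝕢 1 z) (𝕢 1 (τ : ℂ) * (2 * π * I)) (τ : ℂ) := by
      simp only [Function.Periodic.qParam, Complex.ofReal_one, div_one]
      exact ((hasDerivAt_id (τ : ℂ)).const_mul (2 * π * I)).cexp.congr_deriv (by simp)
    refine ((h1.fun_pow n).const_mul (PowerSeries.coeff n p)).congr_deriv ?_
    rcases n with _ | n
    · simp
    · simp only [Nat.add_sub_cancel, pow_succ]
      ring
  rw [hd.deriv, PowerSeries.coeff_mk]
  field_simp [Real.pi_ne_zero, Complex.I_ne_zero]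

theorem thetaL_jqModC_complex : thetaL (ModularCurve.jqModC ℂ) ^ 6 =
    ModularCurve.jqModC ℂ ^ 4 * (ModularCurve.jqModC ℂ - HahnSeries.C 1728) ^ 3 * deltaC ℂ := by
  have hq : ∀ τ : ℍ, 𝕢 1 (τ : ℂ) ≠ 0 := fun τ => Function.Periodic.qParam_ne_zero _
  set P := ModularCurve.jNum.map (Int.castRingHom ℂ)
  have hg := qExp_qParam_mul_jFn
  have hdiff : QExp 1 (fun τ => D (fun τ : ℍ => 𝕢 1 (τ : ℂ) * jFn τ) τ - 𝕢 1 (τ : ℂ) * jFn τ)
      (PowerSeries.mk (fun n => (n : ℂ) * PowerSeries.coeff n P) + -P) :=
    (hg.normalizedDeriv.add hg.neg).congr fun τ => by simp [sub_eq_add_neg]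
  have hqD : ∀ τ : ℍ, D (fun τ : ℍ => 𝕢 1 (τ : ℂ) * jFn τ) τ =
      𝕢 1 (τ : ℂ) * jFn τ + 𝕢 1 (τ : ℂ) * D jFn τ := by
    intro τ
    have h1 : HasDerivAt (fun z : ℂ => 𝕢 1 z) (𝕢 1 (τ : ℂ) * (2 * π * I)) (τ : ℂ) := by
      simp only [Function.Periodic.qParam, Complex.ofReal_one, div_one]
      exact ((hasDerivAt_id (τ : ℂ)).const_mul (2 * π * I)).cexp.congr_deriv (by simp)
    have h2 := Fermat.Agent.Period.hasDerivAt_of_D (F := jFn) mdifferentiable_jFn τ
    have h3 := h1.mul h2
    have heq : ((fun τ : ℍ => 𝕢 1 (τ : ℂ) * jFn τ) ∘ UpperHalfPlane.ofComplex) =ᶠ[nhds (τ : ℂ)]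
        ((fun z : ℂ => 𝕢 1 z) * (jFn ∘ UpperHalfPlane.ofComplex)) := by
      filter_upwards [UpperHalfPlane.isOpen_upperHalfPlaneSet.mem_nhds τ.im_pos] with w hw
      simp only [Function.comp_apply, Pi.mul_apply,
        UpperHalfPlane.ofComplex_apply_of_im_pos (show 0 < w.im from hw)]
    rw [Derivative.normalizedDerivOfComplex, heq.deriv_eq, h3.deriv, Function.comp_apply,
      UpperHalfPlane.ofComplex_apply]
    field_simp [Real.pi_ne_zero, Complex.I_ne_zero]
  have hL : LExp 1 (D jFn) (HahnSeries.single (-1 : ℤ) (1 : ℂ) * HahnSeries.ofPowerSeries ℤ ℂ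
      (PowerSeries.mk (fun n => (n : ℂ) * PowerSeries.coeff n P) + -P)) :=
    ⟨1, _, hdiff.congr fun τ => by rw [pow_one, hqD]; ring, rfl⟩
  have hth : HahnSeries.single (-1 : ℤ) (1 : ℂ) * HahnSeries.ofPowerSeries ℤ ℂ
      (PowerSeries.mk (fun n => (n : ℂ) * PowerSeries.coeff n P) + -P) =
      thetaL (ModularCurve.jqModC ℂ) := by
    ext k
    rw [thetaL_coeff, ModularCurve.jqModC, HahnSeries.coeff_single_mul,
      HahnSeries.coeff_single_mul, one_mul, one_mul]
    rcases le_or_gt 0 (k - -1) with hk | hk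
    · obtain ⟨i, hi⟩ := Int.eq_ofNat_of_zero_le hk
      rw [hi, HahnSeries.ofPowerSeries_apply_coeff, HahnSeries.ofPowerSeries_apply_coeff, map_add,
        map_neg, PowerSeries.coeff_mk, show k = (i : ℤ) - 1 by omega]
      push_cast
      ring
    · rw [ModularCurve.ofPowerSeries_coeff_of_neg _ hk,
        ModularCurve.ofPowerSeries_coeff_of_neg _ hk, mul_zero]
  rw [hth] at hL
  have hD : LExp 1 ModularForm.discriminant (deltaC ℂ) := by
    have h : QExp 1 ModularForm.discriminant
        (PowerSeries.X ^ 1 * (ModularCurve.etaProd.map (Int.castRingHom ℂ)) ^ 24) :=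
      ((QExp.qParam_pow 1).mul (qExp_etaFn.pow 24)).congr fun τ => by
        simp [discriminant_eq_qParam_mul]
    have := LExp.of_qExp h
    rwa [map_mul, LExp.ofPowerSeries_X_pow, Nat.cast_one,
      ← map_pow (PowerSeries.map (Int.castRingHom ℂ))] at this
  have hR := ((lExp_jFn.pow 4).mul
    ((lExp_jFn.add (LExp.C (h := 1) (-1728 : ℂ))).pow 3)).mul hD
  refine (hL.pow 6).unique one_pos ?_
  rw [sub_eq_add_neg, ← map_neg]
  refine (congrArg (fun F => LExp (1 : ℝ) F _) (funext fun τ => ?_)).mp hR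
  have hDj : D jFn τ = -(ModularForm.E₄ τ ^ 2 * ModularForm.E₆ τ) / ModularForm.discriminant τ := by
    rw [Derivative.normalizedDerivOfComplex,
      show deriv (jFn ∘ UpperHalfPlane.ofComplex) (τ : ℂ) = _ from
        (Fermat.Agent.Period.hasDerivAt_jFun τ).deriv]
    field_simp [Real.pi_ne_zero, Complex.I_ne_zero]
  have h6 := Fermat.Agent.Period.E4_cube_sub_E6_sq τ
  simp only [Pi.mul_apply, Pi.pow_apply, Pi.add_apply]
  rw [hDj, jFn]
  have hd := ModularForm.discriminant_ne_zero τ
  rw [show ModularForm.E₄ τ ^ 3 / ModularForm.discriminant τ + -1728 =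
    ModularForm.E₆ τ ^ 2 / ModularForm.discriminant τ by
      rw [div_add' _ _ _ hd]; congr 1; linear_combination h6]
  field_simp

end Analytic

theorem thetaL_jqModC (R : Type*) [CommRing R] :
    thetaL (ModularCurve.jqModC R) ^ 6 =
      ModularCurve.jqModC R ^ 4 * (ModularCurve.jqModC R - HahnSeries.C 1728) ^ 3 * deltaC R := by
  have hZ : thetaL (ModularCurve.jqModC ℤ) ^ 6 = ModularCurve.jqModC ℤ ^ 4 *
      (ModularCurve.jqModC ℤ - HahnSeries.C 1728) ^ 3 * deltaC ℤ := by
    apply (show Function.Injective (ModularCurve.coeffMap (Int.castRingHom ℂ)) from fun _ _ h =>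
      HahnSeries.ext (funext fun k =>
        Int.cast_injective (congrArg (fun s : LaurentSeries ℂ => s.coeff k) h)))
    rw [map_pow, map_mul, map_mul, map_pow, map_pow, map_sub, ← thetaL_coeffMap, coeffMap_deltaC,
      show ModularCurve.coeffMap (Int.castRingHom ℂ) (ModularCurve.jqModC ℤ) = ModularCurve.jqModC ℂ
        from ModularCurve.map_jqModC _,
      show ModularCurve.coeffMap (Int.castRingHom ℂ) (HahnSeries.C 1728) = HahnSeries.C (1728 : ℂ)
        from (ModularCurve.coeffMap_single _ 0 1728).trans (by simp)]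
    exact thetaL_jqModC_complex
  have := congrArg (ModularCurve.coeffMap (Int.castRingHom R)) hZ
  rw [map_pow, map_mul, map_mul, map_pow, map_pow, map_sub, ← thetaL_coeffMap, coeffMap_deltaC,
    show ModularCurve.coeffMap (Int.castRingHom R) (ModularCurve.jqModC ℤ) = ModularCurve.jqModC R
      from ModularCurve.map_jqModC _,
    show ModularCurve.coeffMap (Int.castRingHom R) (HahnSeries.C 1728) = HahnSeries.C (1728 : R)
      from (ModularCurve.coeffMap_single _ 0 1728).trans (by simp)] at this
  exact this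

section Irrational

variable {k : Type*} [Field k]

theorem eval₂_jqModC_ne_zero {a : Polynomial k} (ha : a ≠ 0) :
    (a.eval₂ HahnSeries.C (ModularCurve.jqModC k)).coeff (-(a.natDegree : ℤ)) ≠ 0 := by
  rw [Polynomial.eval₂_eq_sum_range, HahnSeries.coeff_sum, Finset.sum_range_succ,
    Finset.sum_eq_zero fun i hi => ?_, zero_add]
  · rw [HahnSeries.C_mul_eq_smul, HahnSeries.coeff_smul, smul_eq_mul,
      ModularCurve.coeff_jqModC_pow_self, mul_one]
    exact Polynomial.leadingCoeff_ne_zero.mpr ha
  · rw [HahnSeries.C_mul_eq_smul, HahnSeries.coeff_smul,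
      ModularCurve.coeff_jqModC_pow_of_lt k (by have := Finset.mem_range.mp hi; omega), smul_zero]

/-- The embedding of `k[X]`. -/
def jHom (k : Type*) [Field k] : Polynomial k →+* LaurentSeries k :=
  Polynomial.eval₂RingHom HahnSeries.C (ModularCurve.jqModC k)

theorem jHom_injective : Function.Injective (jHom k) := by
  rw [injective_iff_map_eq_zero]
  intro a ha
  by_contra h
  exact eval₂_jqModC_ne_zero h (by
    rw [show a.eval₂ HahnSeries.C (ModularCurve.jqModC k) = jHom k a from rfl, ha]; rfl)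

theorem jHom_order_nonpos (a : Polynomial k) : (jHom k a).order ≤ 0 := by
  rcases eq_or_ne a 0 with rfl | ha
  · rw [map_zero, HahnSeries.order_zero]
  · exact (HahnSeries.order_le_of_coeff_ne_zero (eval₂_jqModC_ne_zero ha)).trans (by omega)

theorem order_eq_of_first {x : LaurentSeries k} {n : ℤ} (h : x.coeff n ≠ 0)
    (h' : ∀ i < n, x.coeff i = 0) : x ≠ 0 ∧ x.order = n := by
  have hx : x ≠ 0 := fun h0 => h (by rw [h0]; rfl)
  refine ⟨hx, le_antisymm (HahnSeries.order_le_of_coeff_ne_zero h) (not_lt.mp fun hlt => ?_)⟩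
  exact hx (HahnSeries.coeff_order_eq_zero.mp (h' _ hlt))

theorem exists_jHom_eq_of_integral {u : LaurentSeries k} (hu : (jHom k).IsIntegralElem u)
    {den num : Polynomial k} (hden : den ≠ 0) (h : jHom k den * u = jHom k num) :
    ∃ P, jHom k P = u := by
  let φ : RatFunc k →+* LaurentSeries k := IsFractionRing.lift (A := Polynomial k) (jHom_injective)
  have hφ : ∀ x, φ (algebraMap (Polynomial k) (RatFunc k) x) = jHom k x :=
    fun x => IsFractionRing.lift_algebraMap _ x
  set r : RatFunc k := algebraMap (Polynomial k) (RatFunc k) num /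
    algebraMap (Polynomial k) (RatFunc k) den with hrdef
  have hru : φ r = u := by
    rw [hrdef, map_div₀, hφ, hφ, div_eq_iff ((map_ne_zero_iff _ jHom_injective).mpr hden), ← h,
      mul_comm]
  obtain ⟨M, hM, hMu⟩ := hu
  have hri : IsIntegral (Polynomial k) r := by
    refine ⟨M, hM, φ.injective ?_⟩
    rw [Polynomial.hom_eval₂, map_zero, hru,
      show φ.comp (algebraMap (Polynomial k) (RatFunc k)) = jHom k from RingHom.ext hφ]
    exact hMu
  obtain ⟨P, hP⟩ := IsIntegrallyClosed.algebraMap_eq_of_integral hri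
  exact ⟨P, by rw [← hru, ← hP, hφ]⟩

/-- `j(q^p)` is not a rational function of `j` in characteristic prime to `p`. -/
theorem qExpand_jqModC_not_rational (p : ℕ) [NeZero p] (hp : 1 < p) (hpk : (p : k) ≠ 0)
    (hu : (jHom k).IsIntegralElem
      (ModularCurve.qExpand k p (deltaC k) * (deltaC k)⁻¹)) {a b : Polynomial k} (hb : b ≠ 0) :
    jHom k b * ModularCurve.qExpand k p (ModularCurve.jqModC k) ≠ jHom k a := by
  intro hab
  set J := ModularCurve.jqModC k
  set Jp := ModularCurve.qExpand k p J
  set Δk := deltaC k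
  set Δp := ModularCurve.qExpand k p Δk
  have hΔord : Δk ≠ 0 ∧ Δk.order = 1 := order_eq_of_first (by rw [deltaC_coeff_one]; exact one_ne_zero)
    fun i hi => deltaC_coeff_of_lt hi
  have hΔpord : Δp ≠ 0 ∧ Δp.order = (p : ℤ) := by
    refine order_eq_of_first ?_ fun i hi => ?_
    · rw [show (p : ℤ) = (p : ℤ) * 1 by ring, ModularCurve.qExpand_coeff_mul, deltaC_coeff_one]
      exact one_ne_zero
    · by_cases hd : (p : ℤ) ∣ i
      · obtain ⟨m, rfl⟩ := hd
        rw [ModularCurve.qExpand_coeff_mul]
        refine deltaC_coeff_of_lt ?_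
        by_contra hm
        nlinarith
      · exact ModularCurve.qExpand_coeff_of_not_dvd p _ hd
  have hθp : thetaL Jp = HahnSeries.C (p : k) * ModularCurve.qExpand k p (thetaL J) :=
    thetaL_qExpand p J
  have hd : jHom k b.derivative * thetaL J * Jp + jHom k b * thetaL Jp =
      jHom k a.derivative * thetaL J := by
    have := congrArg thetaL hab
    rw [thetaL_mul] at this
    change thetaL (b.eval₂ HahnSeries.C J) * Jp + b.eval₂ HahnSeries.C J * thetaL Jp =
      thetaL (a.eval₂ HahnSeries.C J) at this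
    rw [thetaL_eval₂, thetaL_eval₂] at this
    exact this
  set W : Polynomial k := a.derivative * b - a * b.derivative with hW
  have h2 : jHom k b ^ 2 * thetaL Jp = jHom k W * thetaL J := by
    rw [hW, map_sub, map_mul, map_mul, ← hab]
    linear_combination jHom k b * hd
  have h6 := congrArg (· ^ 6) h2
  simp only [mul_pow] at h6
  rw [hθp, mul_pow, ← map_pow (ModularCurve.qExpand k p), thetaL_jqModC, map_mul, map_mul, map_pow,
    map_pow, map_sub, ModularCurve.qExpand_C] at h6
  set num : Polynomial k :=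
    W ^ 6 * Polynomial.X ^ 4 * (Polynomial.X - Polynomial.C 1728) ^ 3
  set den : Polynomial k :=
    Polynomial.C ((p : k) ^ 6) * b ^ 5 * a ^ 4 * (a - Polynomial.C 1728 * b) ^ 3
  have hkey : jHom k den * Δp = jHom k num * Δk := by
    simp only [den, num, map_mul, map_pow, map_sub]
    rw [show jHom k Polynomial.X = J from Polynomial.eval₂_X _ _,
      show jHom k (Polynomial.C ((p : k))) = HahnSeries.C (p : k) from Polynomial.eval₂_C _ _,
      show jHom k (Polynomial.C (1728 : k)) = HahnSeries.C (1728 : k) from Polynomial.eval₂_C _ _,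
      ← hab]
    linear_combination h6
  have hJp : Jp ≠ 0 := by
    intro h0
    have := congrArg (fun x : LaurentSeries k => x.coeff ((p : ℤ) * -1)) h0
    rw [show Jp.coeff ((p : ℤ) * -1) = J.coeff (-1) from
      ModularCurve.qExpand_coeff_mul p J (-1), ModularCurve.coeff_jqModC_neg_one] at this
    simpa using this
  have hbne : jHom k b ≠ 0 := (map_ne_zero_iff _ jHom_injective).mpr hb
  have hden : den ≠ 0 := by
    intro h0
    have h0' := congrArg (jHom k) h0
    simp only [den, map_mul, map_pow, map_sub, map_zero] at h0'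
    rw [show jHom k (Polynomial.C ((p : k))) = HahnSeries.C (p : k) from Polynomial.eval₂_C _ _,
      show jHom k (Polynomial.C (1728 : k)) = HahnSeries.C (1728 : k) from Polynomial.eval₂_C _ _,
      ← hab, show jHom k b * Jp - HahnSeries.C (1728 : k) * jHom k b =
        jHom k b * (Jp - HahnSeries.C 1728) by ring] at h0'
    have hC : (HahnSeries.C (p : k) : LaurentSeries k) ≠ 0 := fun h => hpk (by
      have := congrArg (fun x : LaurentSeries k => x.coeff 0) h
      simpa only [HahnSeries.C_apply, HahnSeries.coeff_single_same, HahnSeries.coeff_zero] using this)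
    have hsub : Jp - HahnSeries.C (1728 : k) ≠ 0 := fun h => by
      have := congrArg (fun x : LaurentSeries k => x.coeff ((p : ℤ) * -1)) h
      simp only [HahnSeries.coeff_sub, HahnSeries.coeff_zero] at this
      rw [show Jp.coeff ((p : ℤ) * -1) = J.coeff (-1) from ModularCurve.qExpand_coeff_mul p J (-1),
        ModularCurve.coeff_jqModC_neg_one, HahnSeries.C_apply,
        HahnSeries.coeff_single_of_ne (by omega), sub_zero] at this
      exact one_ne_zero this
    exact mul_ne_zero (mul_ne_zero (mul_ne_zero (pow_ne_zero _ hC) (pow_ne_zero _ hbne))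
      (pow_ne_zero _ (mul_ne_zero hbne hJp))) (pow_ne_zero _ (mul_ne_zero hbne hsub)) h0'
  set u := Δp * Δk⁻¹ with hudef
  obtain ⟨P, huP⟩ := exists_jHom_eq_of_integral hu hden (num := num) (by
    rw [hudef, ← mul_assoc, hkey, mul_inv_cancel_right₀ hΔord.1])
  have hord : u.order = (p : ℤ) - 1 := by
    have h1 : u * Δk = Δp := inv_mul_cancel_right₀ hΔord.1 Δp
    have hu0 : u ≠ 0 := fun h => hΔpord.1 (by rw [← h1, h, zero_mul])
    have := HahnSeries.order_mul hu0 hΔord.1
    rw [h1, hΔord.2, hΔpord.2] at this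
    omega
  have := jHom_order_nonpos P
  rw [huP, hord] at this
  omega

end Irrational

end Fermat.Agent.MCurve
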