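import Fermat.Agent.MCurve.LevelGen
import Fermat.Agent.MCurve.Theta
import Fermat.Agent.MCurve.ModField
import Fermat.Prelude.Thm_ModularCurve_coeffMap_qExpand
import Mathlib.LinearAlgebra.Matrix.FixedDetMatrices

/-!
Irreducibility of the modular equation modulo a prime not dividing `N`: the reductions of the
`[SL(2,ℤ) : Γ₀(N)]` translates of `j (N τ)` are conjugate over `k (j)` and pairwise distinct.
-/

noncomputable section

namespace Fermat.Agent.MCurve

open CongruenceSubgroup ModularGroup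
open scoped MatrixGroups Real

local notation "ℍ" => UpperHalfPlane
local notation "𝕢" => Function.Periodic.qParam

theorem LExp.translate' {h : ℝ} {f : ℍ → ℂ} {s : LaurentSeries ℂ} (hf : LExp h f s)
    {φ : ℍ → ℍ} {ζ : ℂ} (hζ : ζ ≠ 0)
    (hφ : ∀ τ : ℍ, 𝕢 h (φ τ : ℂ) = ζ * 𝕢 h (τ : ℂ)) :
    ∃ s', LExp h (fun τ => f (φ τ)) s' ∧ ∀ k, s'.coeff k = ζ ^ k * s.coeff k := by
  obtain ⟨n, p, hp, rfl⟩ := hf
  have h1 := (hp.comp (h := h) (φ := φ) (c := ζ) one_pos fun τ => by rw [hφ τ, pow_one]).const_mul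
    (ζ ^ n)⁻¹
  refine ⟨_, ⟨n, _, h1.congr fun τ => ?_, rfl⟩, fun k => ?_⟩
  · rw [hφ τ, mul_pow, ← mul_assoc, ← mul_assoc, inv_mul_cancel₀ (pow_ne_zero _ hζ), one_mul]
  · rw [HahnSeries.coeff_single_mul, HahnSeries.coeff_single_mul, one_mul, one_mul]
    rcases le_or_gt 0 (k - -(n : ℤ)) with hk | hk
    · obtain ⟨i, hi⟩ := Int.eq_ofNat_of_zero_le hk
      rw [hi, HahnSeries.ofPowerSeries_apply_coeff, HahnSeries.ofPowerSeries_apply_coeff,
        PowerSeries.coeff_C_mul, PowerSeries.coeff_mk, if_pos (one_dvd i), Nat.div_one,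
        show k = (i : ℤ) - n by omega, zpow_sub₀ hζ, zpow_natCast, zpow_natCast]
      ring
    · rw [ModularCurve.ofPowerSeries_coeff_of_neg _ hk,
        ModularCurve.ofPowerSeries_coeff_of_neg _ hk, mul_zero]

theorem qExpand_ofPowerSeries {R : Type*} [CommRing R] (m : ℕ) [NeZero m] (p : PowerSeries R) :
    ModularCurve.qExpand R m (HahnSeries.ofPowerSeries ℤ R p) =
      HahnSeries.ofPowerSeries ℤ R (PowerSeries.mk fun n =>
        if m ∣ n then PowerSeries.coeff (n / m) p else 0) := by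
  have hm : 0 < m := Nat.pos_of_ne_zero (NeZero.ne m)
  ext k
  by_cases hk : (m : ℤ) ∣ k
  · obtain ⟨i, rfl⟩ := hk
    rw [ModularCurve.qExpand_coeff_mul]
    rcases le_or_gt 0 i with hi | hi
    · lift i to ℕ using hi
      rw [show (m : ℤ) * (i : ℤ) = ((m * i : ℕ) : ℤ) by push_cast; ring,
        HahnSeries.ofPowerSeries_apply_coeff, HahnSeries.ofPowerSeries_apply_coeff]
      simp [Nat.mul_div_cancel_left _ hm]
    · rw [ModularCurve.ofPowerSeries_coeff_of_neg _ hi, ModularCurve.ofPowerSeries_coeff_of_neg]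
      exact mul_neg_of_pos_of_neg (by exact_mod_cast hm) hi
  · rw [ModularCurve.qExpand_coeff_of_not_dvd m _ hk]
    rcases le_or_gt 0 k with hk' | hk'
    · lift k to ℕ using hk'
      rw [HahnSeries.ofPowerSeries_apply_coeff, PowerSeries.coeff_mk,
        if_neg fun h => hk (Int.natCast_dvd_natCast.mpr h)]
    · exact (ModularCurve.ofPowerSeries_coeff_of_neg _ hk').symm

theorem LExp.scale {f : ℍ → ℂ} {s : LaurentSeries ℂ} (hf : LExp 1 f s) {N d : ℕ} [NeZero N]
    [NeZero d] [NeZero (N * d)] :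
    LExp (N : ℝ) (fun τ => f (scalePt d τ)) (ModularCurve.qExpand ℂ (N * d) s) := by
  obtain ⟨n, p, hp, rfl⟩ := hf
  have hN : 0 < N := Nat.pos_of_ne_zero (NeZero.ne N)
  have hd : 0 < d := Nat.pos_of_ne_zero (NeZero.ne d)
  have hφ : ∀ τ : ℍ, 𝕢 1 (scalePt d τ : ℂ) = 1 * 𝕢 (N : ℝ) (τ : ℂ) ^ (N * d) := fun τ => by
    rw [coe_scalePt hd, one_mul, Function.Periodic.qParam, Function.Periodic.qParam,
      ← Complex.exp_nat_mul]
    congr 1
    have : (N : ℂ) ≠ 0 := Nat.cast_ne_zero.mpr hN.ne'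
    push_cast
    field_simp
  refine ⟨N * d * n, _, (hp.comp (Nat.mul_pos hN hd) hφ).congr fun τ => ?_, ?_⟩
  · rw [hφ τ, one_mul, ← pow_mul]
  · rw [map_mul, ModularCurve.qExpand_single, qExpand_ofPowerSeries]
    simp only [one_pow, mul_one]
    congr 2
    push_cast
    ring

variable (N : ℕ) [NeZero N] {A : Subring ℂ} {k : Type*} [Field k] (red : A →+* k)

/-- Reduction of the expansion at infinity. -/
def redExp : levelRing N A →+* LaurentSeries k :=
  (ModularCurve.coeffMap red).comp (aExp N A)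

theorem redExp_eq {f : levelRing N A} {t : LaurentSeries A}
    (h : LExp (N : ℝ) (f : ℍ → ℂ) (ModularCurve.coeffMap A.subtype t)) :
    redExp N red f = ModularCurve.coeffMap red t := by
  rw [redExp, RingHom.comp_apply,
    show aExp N A f = t from coeffMap_subtype_injective ((lExp_aExp N A f).unique (natCast_pos' N) h)]

theorem redExp_scale {f : levelRing N A} {F : ℍ → ℂ} {s : LaurentSeries A} {d : ℕ} [NeZero d]
    [NeZero (N * d)] (hF : LExp 1 F (ModularCurve.coeffMap A.subtype s))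
    (hf : (f : ℍ → ℂ) = fun τ => F (scalePt d τ)) :
    redExp N red f =
      ModularCurve.qExpand k N (ModularCurve.qExpand k d (ModularCurve.coeffMap red s)) := by
  rw [redExp_eq N red (t := ModularCurve.qExpand A (N * d) s) (by
      rw [ModularCurve.coeffMap_qExpand, hf]; exact hF.scale),
    ModularCurve.coeffMap_qExpand, ModularCurve.qExpand_qExpand]

theorem lExp_jFn_subring :
    LExp 1 jFn (ModularCurve.coeffMap A.subtype (ModularCurve.jqModC A)) := by
  rw [show ModularCurve.coeffMap A.subtype (ModularCurve.jqModC A) = ModularCurve.jqModC ℂ from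
    ModularCurve.map_jqModC _]
  exact lExp_jFn

theorem lExp_discriminant_subring :
    LExp 1 ModularForm.discriminant (ModularCurve.coeffMap A.subtype (deltaC A)) := by
  rw [coeffMap_deltaC]
  have h : QExp 1 ModularForm.discriminant
      (PowerSeries.X ^ 1 * (ModularCurve.etaProd.map (Int.castRingHom ℂ)) ^ 24) :=
    ((QExp.qParam_pow 1).mul (qExp_etaFn.pow 24)).congr fun τ => by
      simp [discriminant_eq_qParam_mul]
  have := LExp.of_qExp h
  rwa [map_mul, LExp.ofPowerSeries_X_pow, Nat.cast_one,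
    ← map_pow (PowerSeries.map (Int.castRingHom ℂ))] at this

theorem redExp_jScale {d : ℕ} [NeZero d] (hA : IsGoodRing N A) (hd : d ∣ N) :
    redExp N red ⟨jScale d, jScale_mem_levelRing hA hd⟩ =
      ModularCurve.qExpand k N (ModularCurve.qExpand k d (ModularCurve.jqModC k)) := by
  haveI : NeZero (N * d) := ⟨Nat.mul_ne_zero (NeZero.ne N) (NeZero.ne d)⟩
  rw [redExp_scale N red (d := d) (F := jFn) (s := ModularCurve.jqModC A) lExp_jFn_subring rfl,
    show ModularCurve.coeffMap red (ModularCurve.jqModC A) = ModularCurve.jqModC k from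
      ModularCurve.map_jqModC _]

theorem redExp_jEval (p : Polynomial A) :
    redExp N red (jEval N A p) = ModularCurve.qExpand k N (jHom k (p.map red)) := by
  induction p using Polynomial.induction_on with
  | C a =>
    rw [Polynomial.map_C, show jHom k (Polynomial.C (red a)) = HahnSeries.C (red a) from
      Polynomial.eval₂_C _ _, ModularCurve.qExpand_C,
      redExp_eq N red (t := HahnSeries.C a) (by
        rw [show ModularCurve.coeffMap A.subtype (HahnSeries.C a) = HahnSeries.C (a : ℂ) from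
          ModularCurve.coeffMap_single _ 0 a]
        refine (congrArg (fun F => LExp (N : ℝ) F _) (funext fun τ => ?_)).mp
          (LExp.C (h := (N : ℝ)) (a : ℂ))
        rw [coe_jEval, Polynomial.eval₂_C]; rfl)]
    exact ModularCurve.coeffMap_single _ 0 a
  | add p q hp hq => simp [hp, hq]
  | monomial n a ih =>
    have hX : redExp N red (jEval N A Polynomial.X) =
        ModularCurve.qExpand k N (ModularCurve.jqModC k) := by
      haveI : NeZero (N * 1) := ⟨by rw [mul_one]; exact NeZero.ne N⟩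
      rw [redExp_scale N red (d := 1) (F := jFn) (s := ModularCurve.jqModC A) lExp_jFn_subring
          (funext fun τ => by rw [coe_jEval, Polynomial.eval₂_X, scalePt_one]),
        ModularCurve.qExpand_one_apply]
      exact congrArg _ (ModularCurve.map_jqModC _)
    rw [pow_succ, ← mul_assoc, map_mul (jEval N A) _ Polynomial.X, map_mul (redExp N red), ih, hX,
      Polynomial.map_mul (p := Polynomial.C a * Polynomial.X ^ n) (q := Polynomial.X),
      map_mul (jHom k), map_mul (ModularCurve.qExpand k N), Polynomial.map_X,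
      show jHom k Polynomial.X = ModularCurve.jqModC k from Polynomial.eval₂_X _ _]

/-- The decomposition group of the kernel of `redExp`. -/
def decompGp : Subgroup (SL(2, ℤ)) where
  carrier := {γ | ∀ f : levelRing N A, redExp N red (translate N A γ f) = 0 ↔ redExp N red f = 0}
  mul_mem' {a b} ha hb f := by rw [translate_mul, hb, ha]
  one_mem' f := by rw [translate_one]
  inv_mem' {a} ha f := by
    have := ha (translate N A a⁻¹ f)
    rwa [← translate_mul, inv_mul_cancel, translate_one, Iff.comm] at this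

theorem Gamma_le_decompGp : Gamma N ≤ decompGp N red := fun γ hγ f => by
  rw [translate_of_mem_Gamma N A hγ]

theorem T_mem_decompGp (hA : IsGoodRing N A) : (T : SL(2, ℤ)) ∈ decompGp N red := by
  intro f
  set ζ : ℂ := Complex.exp (2 * π * Complex.I / N) with hζ
  have hζN : ζ ^ N = 1 := by
    rw [hζ, ← Complex.exp_nat_mul,
      mul_div_cancel₀ _ (show (N : ℂ) ≠ 0 from Nat.cast_ne_zero.mpr (NeZero.ne N)),
      Complex.exp_two_pi_mul_I]
  have hζ0 : ζ ≠ 0 := Complex.exp_ne_zero _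
  obtain ⟨s', hs', hc⟩ := (lExp_aExp N A f).translate' (φ := fun τ => (T : SL(2, ℤ)) • τ) hζ0
    fun τ => by
      rw [show (T : SL(2, ℤ)) = T ^ (1 : ℤ) from (zpow_one T).symm,
        UpperHalfPlane.modular_T_zpow_smul, UpperHalfPlane.coe_vadd, Function.Periodic.qParam,
        Function.Periodic.qParam, ← Complex.exp_add]
      congr 1
      push_cast
      ring
  have hu := (lExp_aExp N A (translate N A T f)).unique (natCast_pos' N) hs'
  have hk : ∀ i : ℤ, red ((aExp N A (translate N A T f)).coeff i) = 0 ↔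
      red ((aExp N A f).coeff i) = 0 := by
    intro i
    have hz : ζ ^ i ∈ A ∧ (ζ ^ i)⁻¹ ∈ A := by
      have hi : (ζ ^ i) ^ N = 1 := by
        rw [← zpow_natCast, ← zpow_mul, mul_comm, zpow_mul, zpow_natCast, hζN, one_zpow]
      exact ⟨hA.root_mem _ hi, hA.root_mem _ (by rw [inv_pow, hi, inv_one])⟩
    have heq : (aExp N A (translate N A T f)).coeff i = ⟨ζ ^ i, hz.1⟩ * (aExp N A f).coeff i :=
      Subtype.ext ((congrArg (fun s : LaurentSeries ℂ => s.coeff i) hu).trans (hc i))
    rw [heq, map_mul, mul_eq_zero]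
    refine ⟨fun h => h.resolve_left fun h0 => ?_, Or.inr⟩
    have h1 : red ⟨ζ ^ i, hz.1⟩ * red ⟨(ζ ^ i)⁻¹, hz.2⟩ = 1 := by
      rw [← map_mul, show (⟨ζ ^ i, hz.1⟩ * ⟨(ζ ^ i)⁻¹, hz.2⟩ : A) = 1 from
        Subtype.ext (mul_inv_cancel₀ (zpow_ne_zero _ hζ0)), map_one]
    rw [h0, zero_mul] at h1
    exact zero_ne_one h1
  exact ⟨fun h => HahnSeries.ext (funext fun i => (hk i).mp
      (congrArg (fun s : LaurentSeries k => s.coeff i) h)),
    fun h => HahnSeries.ext (funext fun i => (hk i).mpr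
      (congrArg (fun s : LaurentSeries k => s.coeff i) h))⟩

/-- Functions fixed by the decomposition group reduce into `k(j)`. -/
theorem exists_rat_of_fixed (f : levelRing N A)
    (hf : ∀ γ ∈ decompGp N red, translate N A γ f = f) :
    ∃ a b : Polynomial k, b ≠ 0 ∧
      ModularCurve.qExpand k N (jHom k b) * redExp N red f = ModularCurve.qExpand k N (jHom k a) := by
  classical
  set D := decompGp N red with hD
  haveI : D.FiniteIndex := Subgroup.finiteIndex_of_le (Gamma_le_decompGp N red)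
  haveI : Fintype (SL(2, ℤ) ⧸ D) := Fintype.ofFinite _
  haveI : Fintype (SL(2, ℤ) ⧸ Gamma N) := Fintype.ofFinite _
  have hsep : ∀ g : SL(2, ℤ), g ∉ D →
      ∃ s : levelRing N A, redExp N red (translate N A g s) = 0 ∧ redExp N red s ≠ 0 := by
    intro g hg
    by_contra hcon
    push Not at hcon
    obtain ⟨m, hm0, hm⟩ : ∃ m : ℕ, 0 < m ∧ g ^ m ∈ Gamma N := by
      haveI := Gamma_normal N
      refine ⟨orderOf (g : SL(2, ℤ) ⧸ Gamma N), orderOf_pos _, ?_⟩
      rw [← QuotientGroup.eq_one_iff, QuotientGroup.mk_pow, pow_orderOf_eq_one]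
    have hchain : ∀ (i : ℕ) (y : levelRing N A),
        redExp N red (translate N A (g ^ (i + 1)) y) = 0 → redExp N red (translate N A g y) = 0 := by
      intro i
      induction i with
      | zero => intro y hy; simpa using hy
      | succ i ih =>
        intro y hy
        rw [pow_succ, translate_mul] at hy
        exact ih y (hcon _ hy)
    refine hg fun y => ⟨hcon y, fun hy => hchain (m - 1) y ?_⟩
    rwa [Nat.sub_add_cancel hm0, translate_of_mem_Gamma N A hm]
  have hsep' : ∀ q : SL(2, ℤ) ⧸ D, ∃ s : levelRing N A,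
      (q.out ∉ D → redExp N red (translate N A q.out s) = 0) ∧ redExp N red s ≠ 0 := by
    intro q
    by_cases hq : q.out ∈ D
    · exact ⟨1, fun h => absurd hq h, by rw [map_one]; exact one_ne_zero⟩
    · obtain ⟨s, h1, h2⟩ := hsep _ hq
      exact ⟨s, fun _ => h1, h2⟩
  choose s hs1 hs2 using hsep'
  set e : levelRing N A := ∏ q, s q with he
  have he0 : redExp N red e ≠ 0 := by
    rw [he, map_prod]
    exact Finset.prod_ne_zero_iff.mpr fun q _ => hs2 q
  have heg : ∀ g : SL(2, ℤ), g ∉ D → redExp N red (translate N A g e) = 0 := by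
    intro g hg
    obtain ⟨⟨h, hh⟩, hh'⟩ := QuotientGroup.mk_out_eq_mul D g
    rw [he, map_prod, map_prod]
    refine Finset.prod_eq_zero (Finset.mem_univ (g : SL(2, ℤ) ⧸ D)) ?_
    have hout : (g : SL(2, ℤ) ⧸ D).out ∉ D := by
      rw [hh']; exact fun h' => hg ((mul_mem_cancel_right hh).mp h')
    have h0 := hs1 _ hout
    rw [hh', translate_mul] at h0
    exact (hh _).mp h0
  let R := {r : SL(2, ℤ) ⧸ Gamma N // r.out ∈ D}
  set e' : levelRing N A := ∏ r : R, translate N A r.1.out e with he'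
  have he'0 : redExp N red e' ≠ 0 := by
    rw [he', map_prod]
    exact Finset.prod_ne_zero_iff.mpr fun r _ => fun h => he0 ((r.2 e).mp h)
  have he'g : ∀ g : SL(2, ℤ), g ∉ D → redExp N red (translate N A g e') = 0 := by
    intro g hg
    rw [he', map_prod, map_prod]
    obtain ⟨⟨h, hh⟩, hh'⟩ := QuotientGroup.mk_out_eq_mul (Gamma N) (1 : SL(2, ℤ))
    have hr : ((1 : SL(2, ℤ)) : SL(2, ℤ) ⧸ Gamma N).out ∈ D := by
      rw [hh', one_mul]; exact Gamma_le_decompGp N red hh
    refine Finset.prod_eq_zero (Finset.mem_univ (⟨_, hr⟩ : R)) ?_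
    show redExp N red (translate N A g
      (translate N A ((1 : SL(2, ℤ)) : SL(2, ℤ) ⧸ Gamma N).out e)) = 0
    rw [hh', one_mul, translate_of_mem_Gamma N A hh]
    exact heg g hg
  have he'inv : ∀ γ ∈ D, translate N A γ e' = e' := by
    intro γ hγ
    haveI := Gamma_normal N
    rw [he', map_prod]
    have hmem : ∀ r : R, ((r.1.out * γ : SL(2, ℤ)) : SL(2, ℤ) ⧸ Gamma N).out ∈ D := fun r => by
      obtain ⟨⟨h, hh⟩, hh'⟩ := QuotientGroup.mk_out_eq_mul (Gamma N) (r.1.out * γ)
      rw [hh']; exact mul_mem (mul_mem r.2 hγ) (Gamma_le_decompGp N red hh)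
    have hmem' : ∀ r : R, ((r.1.out * γ⁻¹ : SL(2, ℤ)) : SL(2, ℤ) ⧸ Gamma N).out ∈ D := fun r => by
      obtain ⟨⟨h, hh⟩, hh'⟩ := QuotientGroup.mk_out_eq_mul (Gamma N) (r.1.out * γ⁻¹)
      rw [hh']; exact mul_mem (mul_mem r.2 (inv_mem hγ)) (Gamma_le_decompGp N red hh)
    refine Fintype.prod_equiv
      { toFun := fun r => (⟨_, hmem r⟩ : R)
        invFun := fun r => (⟨_, hmem' r⟩ : R)
        left_inv := fun r => Subtype.ext ?_
        right_inv := fun r => Subtype.ext ?_ } _ _ fun r => ?_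
    · show ((Quotient.out _ * γ⁻¹ : SL(2, ℤ)) : SL(2, ℤ) ⧸ Gamma N) = r.1
      rw [QuotientGroup.mk_mul, QuotientGroup.out_eq', ← QuotientGroup.mk_mul,
        mul_inv_cancel_right, QuotientGroup.out_eq']
    · show ((Quotient.out _ * γ : SL(2, ℤ)) : SL(2, ℤ) ⧸ Gamma N) = r.1
      rw [QuotientGroup.mk_mul, QuotientGroup.out_eq', ← QuotientGroup.mk_mul,
        inv_mul_cancel_right, QuotientGroup.out_eq']
    · show translate N A γ (translate N A r.1.out e) =
        translate N A ((r.1.out * γ : SL(2, ℤ)) : SL(2, ℤ) ⧸ Gamma N).out e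
      obtain ⟨⟨h, hh⟩, hh'⟩ := QuotientGroup.mk_out_eq_mul (Gamma N) (r.1.out * γ)
      rw [hh', translate_mul N A (r.1.out * γ) h, translate_of_mem_Gamma N A hh, translate_mul]
  have sum_lemma : ∀ y : levelRing N A, (∀ γ ∈ D, translate N A γ y = y) →
      (∀ g, g ∉ D → redExp N red (translate N A g y) = 0) →
      ∃ p : Polynomial A, redExp N red (jEval N A p) = redExp N red y := by
    intro y hy hyg
    set z : levelRing N A := ∑ q : SL(2, ℤ) ⧸ D, translate N A q.out⁻¹ y with hz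
    obtain ⟨p, hp⟩ := exists_jEval_eq N A (f := z) (fun γ => by
      rw [hz, map_sum]
      refine Fintype.sum_equiv (MulAction.toPerm γ⁻¹) _ _ fun q => ?_
      rw [← translate_mul]
      obtain ⟨⟨h, hh⟩, hh'⟩ := QuotientGroup.mk_out_eq_mul D (γ⁻¹ * q.out)
      rw [show MulAction.toPerm γ⁻¹ q = ((γ⁻¹ * q.out : SL(2, ℤ)) : SL(2, ℤ) ⧸ D) by
          conv_lhs => rw [← q.out_eq']
          rfl,
        hh', mul_inv_rev, translate_mul N A h⁻¹, hy _ (inv_mem hh), mul_inv_rev, inv_inv])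
    refine ⟨p, ?_⟩
    rw [← hp, hz, map_sum, Finset.sum_eq_single ((1 : SL(2, ℤ)) : SL(2, ℤ) ⧸ D)]
    · obtain ⟨⟨h, hh⟩, hh'⟩ := QuotientGroup.mk_out_eq_mul D (1 : SL(2, ℤ))
      rw [hh', one_mul, hy _ (inv_mem hh)]
    · intro q _ hq
      refine hyg _ fun hmem => hq ?_
      rw [← q.out_eq', QuotientGroup.eq, mul_one]
      exact hmem
    · exact fun h => absurd (Finset.mem_univ _) h
  obtain ⟨b, hb⟩ := sum_lemma e' he'inv he'g
  obtain ⟨a, ha⟩ := sum_lemma (f * e') (fun γ hγ => by rw [map_mul, hf γ hγ, he'inv γ hγ])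
    (fun g hg => by rw [map_mul, map_mul, he'g g hg, mul_zero])
  rw [redExp_jEval] at ha hb
  refine ⟨a.map red, b.map red, fun h0 => he'0 ?_, ?_⟩
  · rw [← hb, h0, map_zero, map_zero]
  · rw [hb, ha, map_mul, mul_comm]

theorem decompGp_not_le_Gamma0 (hA : IsGoodRing N A) (hNk : (N : k) ≠ 0) {p : ℕ} (hp : p.Prime)
    (hpN : p ∣ N) : ∃ γ ∈ decompGp N red, ¬ (p : ℤ) ∣ γ 1 0 := by
  by_contra hcon
  push Not at hcon
  haveI : NeZero p := ⟨hp.ne_zero⟩
  have hfix : ∀ γ ∈ decompGp N red, translate N A γ ⟨jScale p, jScale_mem_levelRing hA hpN⟩ =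
      ⟨jScale p, jScale_mem_levelRing hA hpN⟩ := fun γ hγ => Subtype.ext (funext fun τ =>
    jScale_smul_of_mem p dvd_rfl
      (Gamma0_mem.mpr ((ZMod.intCast_zmod_eq_zero_iff_dvd _ _).mpr (hcon γ hγ))) τ)
  obtain ⟨a, b, hb, hab⟩ := exists_rat_of_fixed N red _ hfix
  rw [redExp_jScale N red hA hpN, ← map_mul] at hab
  have hab' := ModularCurve.qExpand_injective N hab
  have hpk : (p : k) ≠ 0 := by
    obtain ⟨e, he⟩ := hpN
    rw [he, Nat.cast_mul] at hNk
    exact left_ne_zero_of_mul hNk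
  refine qExpand_jqModC_not_rational p hp.one_lt hpk ?_ hb hab'
  set u : levelRing N A := ⟨deltaRatio p, deltaRatio_mem_levelRing hA hpN⟩ with hu
  obtain ⟨M, hM, hMu⟩ := isIntegralElem_jEval N A u
  refine ⟨M.map (Polynomial.mapRingHom red), hM.map _, ?_⟩
  have hΔ0 : deltaC k ≠ 0 := fun h => by
    have := deltaC_coeff_one (R := k)
    rw [h] at this
    exact zero_ne_one this
  have hval : redExp N red u =
      ModularCurve.qExpand k N (ModularCurve.qExpand k p (deltaC k) * (deltaC k)⁻¹) := by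
    haveI : NeZero (N * p) := ⟨Nat.mul_ne_zero (NeZero.ne N) hp.ne_zero⟩
    haveI : NeZero (N * 1) := ⟨by rw [mul_one]; exact NeZero.ne N⟩
    have hD : ∀ (d : ℕ) [NeZero d] [NeZero (N * d)], d ∣ N →
        ∃ f : LaurentSeries A, LExp (N : ℝ) (fun τ => ModularForm.discriminant (scalePt d τ))
          (ModularCurve.coeffMap A.subtype f) ∧ ModularCurve.coeffMap red f =
          ModularCurve.qExpand k N (ModularCurve.qExpand k d (deltaC k)) := by
      intro d _ _ _
      refine ⟨ModularCurve.qExpand A (N * d) (deltaC A), ?_, ?_⟩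
      · rw [ModularCurve.coeffMap_qExpand]; exact lExp_discriminant_subring.scale
      · rw [ModularCurve.coeffMap_qExpand, coeffMap_deltaC, ModularCurve.qExpand_qExpand]
    obtain ⟨f1, hf1, hf1'⟩ := hD 1 (one_dvd N)
    obtain ⟨fp, hfp, hfp'⟩ := hD p hpN
    have hmul : aExp N A u * f1 = fp := by
      apply coeffMap_subtype_injective
      rw [map_mul]
      refine LExp.unique (natCast_pos' N) ((lExp_aExp N A u).mul hf1) ?_
      refine (congrArg (fun F => LExp (N : ℝ) F _) (funext fun τ => ?_)).mp hfp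
      simp only [Pi.mul_apply, scalePt_one, hu, deltaRatio]
      rw [div_mul_cancel₀ _ (ModularForm.discriminant_ne_zero τ)]
    have := congrArg (ModularCurve.coeffMap red) hmul
    rw [map_mul, hf1', hfp', ModularCurve.qExpand_one_apply] at this
    rw [map_mul, map_inv₀, eq_mul_inv_iff_mul_eq₀
      ((map_ne_zero_iff _ (ModularCurve.qExpand_injective N)).mpr hΔ0)]
    exact this
  apply ModularCurve.qExpand_injective N
  have := congrArg (redExp N red) hMu
  rw [Polynomial.hom_eval₂, hval, map_zero] at this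
  rw [Polynomial.eval₂_map, Polynomial.hom_eval₂, map_zero]
  rwa [show ((ModularCurve.qExpand k N).comp ((jHom k).comp (Polynomial.mapRingHom red))) =
    (redExp N red).comp (jEval N A) from RingHom.ext fun x => (redExp_jEval N red x).symm]

theorem decompGp_eq_top (hA : IsGoodRing N A) (hNk : (N : k) ≠ 0) : decompGp N red = ⊤ := by
  classical
  set D := decompGp N red
  have hT := T_mem_decompGp N red hA
  have key : ∀ S : Finset ℕ, S ⊆ N.primeFactors →
      ∃ h ∈ D, ∀ q ∈ S, ¬ (q : ℤ) ∣ h 1 0 := by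
    intro S
    induction S using Finset.induction_on with
    | empty => exact fun _ => ⟨1, one_mem _, by simp⟩
    | insert p S hpS ih =>
      intro hsub
      obtain ⟨h1, h1D, h1S⟩ := ih ((Finset.subset_insert p S).trans hsub)
      have hp := Nat.mem_primeFactors.mp (hsub (Finset.mem_insert_self p S))
      by_cases hp1 : (p : ℤ) ∣ h1 1 0
      swap
      · exact ⟨h1, h1D, fun q hq => (Finset.mem_insert.mp hq).elim (fun e => e ▸ hp1) (h1S q)⟩
      obtain ⟨h2, h2D, h2p⟩ := decompGp_not_le_Gamma0 N red hA hNk hp.1 hp.2.1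
      set E : ℤ := h1 1 0 * h2 0 0 + h1 1 1 * h2 1 0 with hE
      set κ : ℕ := ∏ q ∈ S.filter fun q => ¬ ((q : ℕ) : ℤ) ∣ E, q with hκ
      refine ⟨h1 * T ^ (κ : ℤ) * h2, mul_mem (mul_mem h1D (zpow_mem hT _)) h2D, ?_⟩
      have hent : (h1 * T ^ (κ : ℤ) * h2) 1 0 = E + (κ : ℤ) * (h1 1 0 * h2 1 0) := by
        rw [Matrix.SpecialLinearGroup.coe_mul, Matrix.SpecialLinearGroup.coe_mul, coe_T_zpow, hE]
        simp [Matrix.mul_apply, Fin.sum_univ_two]
        ring
      have hd1 := h1.det_coe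
      have hd2 := h2.det_coe
      rw [Matrix.det_fin_two] at hd1 hd2
      intro q hq hdvd
      rw [hent] at hdvd
      have hqp : Prime (q : ℤ) := Nat.prime_iff_prime_int.mp (Nat.mem_primeFactors.mp (hsub hq)).1
      have hunit : ∀ x y : ℤ, (q : ℤ) ∣ x → x * y ≠ 1 := fun x y hx h =>
        hqp.not_unit (isUnit_of_dvd_one (h ▸ hx.mul_right y))
      rcases Finset.mem_insert.mp hq with rfl | hqS
      · have hqd : (q : ℤ) ∣ h1 1 1 * h2 1 0 := by
          have h3 : (q : ℤ) ∣ h1 1 0 * h2 0 0 + (κ : ℤ) * (h1 1 0 * h2 1 0) :=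
            dvd_add (hp1.mul_right _) ((hp1.mul_right _).mul_left _)
          have h4 := dvd_sub hdvd h3
          rwa [hE, show h1 1 0 * h2 0 0 + h1 1 1 * h2 1 0 + (κ : ℤ) * (h1 1 0 * h2 1 0) -
            (h1 1 0 * h2 0 0 + (κ : ℤ) * (h1 1 0 * h2 1 0)) = h1 1 1 * h2 1 0 by ring] at h4
        rcases hqp.dvd_or_dvd hqd with h | h
        · exact hunit ((h1 1 1) * (h1 0 0) - (h1 1 0) * (h1 0 1)) 1
            (dvd_sub (h.mul_right _) (hp1.mul_right _)) (by rw [mul_one]; linear_combination hd1)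
        · exact h2p h
      · by_cases hc2 : (q : ℤ) ∣ h2 1 0
        · have hqd : (q : ℤ) ∣ h1 1 0 * h2 0 0 := by
            have h3 : (q : ℤ) ∣ h1 1 1 * h2 1 0 + (κ : ℤ) * (h1 1 0 * h2 1 0) :=
              dvd_add (hc2.mul_left _) ((hc2.mul_left _).mul_left _)
            have h4 := dvd_sub hdvd h3
            rwa [hE, show h1 1 0 * h2 0 0 + h1 1 1 * h2 1 0 + (κ : ℤ) * (h1 1 0 * h2 1 0) -
              (h1 1 1 * h2 1 0 + (κ : ℤ) * (h1 1 0 * h2 1 0)) = h1 1 0 * h2 0 0 by ring] at h4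
          rcases hqp.dvd_or_dvd hqd with h | h
          · exact h1S q hqS h
          · exact hunit ((h2 0 0) * (h2 1 1) - (h2 0 1) * (h2 1 0)) 1
              (dvd_sub (h.mul_right _) (hc2.mul_left _)) (by rw [mul_one]; linear_combination hd2)
        · by_cases hEq : (q : ℤ) ∣ E
          · have h4 := (dvd_add_right hEq).mp hdvd
            rcases hqp.dvd_or_dvd h4 with h | h
            · rw [Int.natCast_dvd_natCast, hκ] at h
              obtain ⟨r, hr, hqr⟩ := (Nat.mem_primeFactors.mp (hsub hq)).1.prime.exists_mem_finset_dvd h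
              rw [Finset.mem_filter] at hr
              have := (Nat.prime_dvd_prime_iff_eq (Nat.mem_primeFactors.mp (hsub hq)).1
                (Nat.mem_primeFactors.mp (hsub (Finset.mem_insert_of_mem hr.1))).1).mp hqr
              exact hr.2 (this ▸ hEq)
            · rcases hqp.dvd_or_dvd h with h | h
              · exact h1S q hqS h
              · exact hc2 h
          · refine hEq ((dvd_add_left ?_).mp hdvd)
            refine Dvd.dvd.mul_right ?_ _
            rw [Int.natCast_dvd_natCast, hκ]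
            exact Finset.dvd_prod_of_mem (fun x : ℕ => x) (Finset.mem_filter.mpr ⟨hqS, hEq⟩)
  obtain ⟨h, hhD, hh⟩ := key N.primeFactors subset_rfl
  haveI := Gamma_normal N
  have hunit : IsUnit ((h 1 0 : ℤ) : ZMod N) := by
    have hcop : IsCoprime (h 1 0) (N : ℤ) := by
      rw [Int.isCoprime_iff_gcd_eq_one]
      by_contra hg
      obtain ⟨q, hq, hqg⟩ := Nat.exists_prime_and_dvd hg
      have hqg' : (q : ℤ) ∣ ((Int.gcd (h 1 0) (N : ℤ) : ℕ) : ℤ) := Int.natCast_dvd_natCast.mpr hqg
      exact hh q (Nat.mem_primeFactors.mpr ⟨hq,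
        Int.natCast_dvd_natCast.mp (hqg'.trans (Int.gcd_dvd_right _ _)), NeZero.ne N⟩)
        (hqg'.trans (Int.gcd_dvd_left _ _))
    obtain ⟨x, y, hxy⟩ := hcop
    refine .of_mul_eq_one (x : ZMod N) ?_
    have := congrArg (fun z : ℤ => (z : ZMod N)) hxy
    push_cast at this
    rw [ZMod.natCast_self, mul_zero, add_zero] at this
    rw [mul_comm]; exact this
  obtain ⟨c, hc⟩ := hunit
  obtain ⟨a₀, ha₀⟩ := ZMod.intCast_surjective (-((h 0 0 : ℤ) : ZMod N) * ((c⁻¹ : (ZMod N)ˣ) : ZMod N))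
  obtain ⟨b₀, hb₀⟩ := ZMod.intCast_surjective (-((h 1 1 : ℤ) : ZMod N) * ((c⁻¹ : (ZMod N)ˣ) : ZMod N))
  obtain ⟨k₀, hk₀⟩ := ZMod.intCast_surjective (((c⁻¹ * c⁻¹ : (ZMod N)ˣ) : ZMod N))
  set w := T ^ a₀ * h * T ^ b₀
  set L : SL(2, ℤ) := ⟨!![1, 0; -1, 1], by simp [Matrix.det_fin_two]⟩
  set φN : SL(2, ℤ) →* SL(2, ZMod N) := Matrix.SpecialLinearGroup.map (Int.castRingHom (ZMod N))
  have hwLD : w * T ^ k₀ * w⁻¹ ∈ D := by
    have hw : w ∈ D := mul_mem (mul_mem (zpow_mem hT _) hhD) (zpow_mem hT _)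
    exact mul_mem (mul_mem hw (zpow_mem hT _)) (inv_mem hw)
  have hπ : φN (w * T ^ k₀ * w⁻¹) = φN L := by
    have hu : (c : ZMod N) * ((c⁻¹ : (ZMod N)ˣ) : ZMod N) = 1 := c.mul_inv
    have hw00 : ((w 0 0 : ℤ) : ZMod N) = 0 := by
      simp only [w, Matrix.SpecialLinearGroup.coe_mul, coe_T_zpow, Matrix.mul_apply,
        Fin.sum_univ_two, Matrix.cons_val', Matrix.cons_val_zero, Matrix.cons_val_fin_one,
        Matrix.cons_val_one, Matrix.of_apply]
      push_cast
      rw [ha₀, ← hc]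
      linear_combination -((h 0 0 : ℤ) : ZMod N) * hu
    have hw11 : ((w 1 1 : ℤ) : ZMod N) = 0 := by
      simp only [w, Matrix.SpecialLinearGroup.coe_mul, coe_T_zpow, Matrix.mul_apply,
        Fin.sum_univ_two, Matrix.cons_val', Matrix.cons_val_zero, Matrix.cons_val_fin_one,
        Matrix.cons_val_one, Matrix.of_apply]
      push_cast
      rw [hb₀, ← hc]
      linear_combination -((h 1 1 : ℤ) : ZMod N) * hu
    have hw10 : ((w 1 0 : ℤ) : ZMod N) = (c : ZMod N) := by
      simp only [w, Matrix.SpecialLinearGroup.coe_mul, coe_T_zpow, Matrix.mul_apply,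
        Fin.sum_univ_two, Matrix.cons_val', Matrix.cons_val_zero, Matrix.cons_val_fin_one,
        Matrix.cons_val_one, Matrix.of_apply]
      push_cast
      rw [← hc]
      ring
    have hdet : ((w 0 0 : ℤ) : ZMod N) * ((w 1 1 : ℤ) : ZMod N) -
        ((w 0 1 : ℤ) : ZMod N) * ((w 1 0 : ℤ) : ZMod N) = 1 := by
      have hd := w.det_coe
      rw [Matrix.det_fin_two] at hd
      exact_mod_cast congrArg (fun z : ℤ => (z : ZMod N)) hd
    rw [hw00, hw11, hw10] at hdet
    have hk1 : ((k₀ : ℤ) : ZMod N) * (c : ZMod N) * (c : ZMod N) = 1 := by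
      rw [hk₀, Units.val_mul]
      linear_combination ((c : ZMod N) * ((c⁻¹ : (ZMod N)ˣ) : ZMod N) + 1) * hu
    apply Subtype.ext
    show (((w * T ^ k₀ * w⁻¹ : SL(2, ℤ)) : Matrix (Fin 2) (Fin 2) ℤ)).map (Int.cast) =
      ((L : SL(2, ℤ)) : Matrix (Fin 2) (Fin 2) ℤ).map Int.cast
    rw [Matrix.SpecialLinearGroup.coe_mul, Matrix.SpecialLinearGroup.coe_mul, coe_T_zpow,
      Matrix.SpecialLinearGroup.coe_inv]
    ext i j
    fin_cases i <;> fin_cases j <;>
      simp [L, Matrix.adjugate_fin_two, Matrix.mul_apply, Fin.sum_univ_two, hw00, hw11, hw10]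
    · linear_combination hdet
    · linear_combination hk1
    · linear_combination hdet
  have hLD : L ∈ D := by
    have hker : (w * T ^ k₀ * w⁻¹)⁻¹ * L ∈ Gamma N := by
      rw [show Gamma N = φN.ker from rfl, MonoidHom.mem_ker, map_mul, map_inv, hπ, inv_mul_cancel]
    have := mul_mem hwLD (Gamma_le_decompGp N red hker)
    rwa [mul_inv_cancel_left] at this
  have hS : S ∈ D := by
    have hS' : (S : SL(2, ℤ)) = (T * L * T)⁻¹ := by
      apply Subtype.ext
      rw [Matrix.SpecialLinearGroup.coe_inv, Matrix.SpecialLinearGroup.coe_mul,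
        Matrix.SpecialLinearGroup.coe_mul, coe_S, coe_T]
      ext i j
      fin_cases i <;> fin_cases j <;>
        simp [L, Matrix.adjugate_fin_two, Matrix.mul_apply, Fin.sum_univ_two]
    rw [hS']
    exact inv_mem (mul_mem (mul_mem hT hLD) hT)
  rw [eq_top_iff, ← SpecialLinearGroup.SL2Z_generators, Subgroup.closure_le]
  rintro x (rfl | hx)
  · exact hS
  · rw [Set.mem_singleton_iff] at hx
    subst hx
    exact hT

theorem redExp_translate_jScale_injective (hA : IsGoodRing N A) (hNk : (N : k) ≠ 0)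
    (γ γ' : SL(2, ℤ))
    (h : redExp N red (translate N A γ ⟨jScale N, jScale_mem_levelRing hA dvd_rfl⟩) =
      redExp N red (translate N A γ' ⟨jScale N, jScale_mem_levelRing hA dvd_rfl⟩)) :
    ∀ τ : ℍ, jScale N (γ • τ) = jScale N (γ' • τ) := by
  have hN : 0 < N := Nat.pos_of_ne_zero (NeZero.ne N)
  have main : ∀ g : SL(2, ℤ), ∃ (α δ : ℕ) (β : ℤ), 0 < α ∧ 0 < δ ∧ α * δ = N ∧
      LExp (N : ℝ) (fun τ => jScale N (g • τ)) (jSubst (zetaPow δ β) (α * α)) ∧
      ∀ i, ∃ (x : A), (x : ℂ) = (jSubst (zetaPow δ β) (α * α)).coeff i ∧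
        (redExp N red (translate N A g ⟨jScale N, jScale_mem_levelRing hA dvd_rfl⟩)).coeff i =
          red x := by
    intro g
    obtain ⟨α, δ, β, hα, hδ, hαδ, -, heq⟩ := jScale_translate (N := N) dvd_rfl g
    have hl := lExp_jFn_affPt hα hδ hN (show α * N = α * α * δ by rw [← hαδ]; ring) β
    have hl2 : LExp (N : ℝ) (fun τ => jScale N (g • τ)) (jSubst (zetaPow δ β) (α * α)) := by
      rw [heq]; exact hl
    refine ⟨α, δ, β, hα, hδ, hαδ, hl2, fun i => ?_⟩
    refine ⟨(aExp N A (translate N A g ⟨jScale N, jScale_mem_levelRing hA dvd_rfl⟩)).coeff i,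
      ?_, rfl⟩
    exact congrArg (fun s : LaurentSeries ℂ => s.coeff i)
      ((lExp_aExp N A (translate N A g ⟨jScale N, jScale_mem_levelRing hA dvd_rfl⟩)).unique
        (natCast_pos' N) hl2)
  obtain ⟨α, δ, β, hα, hδ, hαδ, hl, hc⟩ := main γ
  obtain ⟨α', δ', β', hα', hδ', hαδ', hl', hc'⟩ := main γ'
  have hz : ∀ (d : ℕ) (b : ℤ), 0 < d → d ∣ N →
      zetaPow d b ^ N = 1 ∧ ∃ x : A, (x : ℂ) = (zetaPow d b)⁻¹ ∧ red x ≠ 0 := by
    intro d b hd hdN
    have h1 : zetaPow d b ^ N = 1 := by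
      obtain ⟨e, he⟩ := hdN
      rw [he, pow_mul, zetaPow_pow hd, one_pow]
    refine ⟨h1, ⟨_, (hA.zetaPow_mem hd hdN b).2⟩, rfl, fun h0 => ?_⟩
    have : red ⟨_, (hA.zetaPow_mem hd hdN b).2⟩ * red ⟨_, (hA.zetaPow_mem hd hdN b).1⟩ = 1 := by
      rw [← map_mul]
      exact (congrArg red (Subtype.ext (inv_mul_cancel₀ (Complex.exp_ne_zero _)))).trans (map_one red)
    rw [h0, zero_mul] at this
    exact zero_ne_one this
  obtain ⟨-, x, hx, hx0⟩ := hz δ β hδ ⟨α, by rw [← hαδ, mul_comm]⟩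
  obtain ⟨-, x', hx', hx'0⟩ := hz δ' β' hδ' ⟨α', by rw [← hαδ', mul_comm]⟩
  have hlead : ∀ {a d : ℕ} {b : ℤ} {z : A} {R : LaurentSeries k},
      (∀ i, ∃ y : A, (y : ℂ) = (jSubst (zetaPow d b) (a * a)).coeff i ∧ R.coeff i = red y) →
      (z : ℂ) = (zetaPow d b)⁻¹ →
      R.coeff (-((a * a : ℕ) : ℤ)) = red z ∧ ∀ i < -((a * a : ℕ) : ℤ), R.coeff i = 0 := by
    intro a d b z R hR hzz
    refine ⟨?_, fun i hi => ?_⟩
    · obtain ⟨y, hy, hy'⟩ := hR (-((a * a : ℕ) : ℤ))
      rw [hy', show y = z from Subtype.ext (by rw [hy, jSubst_coeff_self, hzz])]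
    · obtain ⟨y, hy, hy'⟩ := hR i
      rw [hy', show y = 0 from Subtype.ext (by rw [hy, jSubst_coeff_of_lt _ _ hi]; rfl), map_zero]
  obtain ⟨e1, e2⟩ := hlead hc hx
  obtain ⟨e1', e2'⟩ := hlead hc' hx'
  rw [h] at e1 e2
  have hαα : α = α' := by
    rcases lt_trichotomy α α' with hlt | heq | hgt
    · exfalso
      rw [e1] at *
      exact hx'0 (e1'.symm.trans (e2 _ (by have := Nat.mul_self_lt_mul_self hlt; omega)))
    · exact heq
    · exfalso
      exact hx0 (e1.symm.trans (e2' _ (by have := Nat.mul_self_lt_mul_self hgt; omega)))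
  subst hαα
  have hδδ : δ = δ' := Nat.eq_of_mul_eq_mul_left hα (hαδ.trans hαδ'.symm)
  subst hδδ
  have hred : red x = red x' := e1.symm.trans e1'
  obtain ⟨hr1, -⟩ := hz δ β hδ ⟨α, by rw [← hαδ, mul_comm]⟩
  obtain ⟨hr2, -⟩ := hz δ β' hδ ⟨α, by rw [← hαδ, mul_comm]⟩
  have hζeq : zetaPow δ β = zetaPow δ β' := by
    set z : A := ⟨zetaPow δ β' * (zetaPow δ β)⁻¹, mul_mem
      (hA.zetaPow_mem hδ ⟨α, by rw [← hαδ, mul_comm]⟩ β').1
      (hA.zetaPow_mem hδ ⟨α, by rw [← hαδ, mul_comm]⟩ β).2⟩ with hzdef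
    have hzx : z * x' = x := Subtype.ext (by
      show zetaPow δ β' * (zetaPow δ β)⁻¹ * (x' : ℂ) = (x : ℂ)
      rw [hx', hx, mul_right_comm,
        mul_inv_cancel₀ (show zetaPow δ β' ≠ 0 from Complex.exp_ne_zero _), one_mul])
    have hz1 : red z = 1 := by
      have := congrArg red hzx
      rw [map_mul, hred] at this
      exact (mul_eq_right₀ hx'0).mp this
    have hzN : z ^ N = 1 := Subtype.ext (by
      show (zetaPow δ β' * (zetaPow δ β)⁻¹) ^ N = 1
      rw [mul_pow, inv_pow, hr1, hr2, inv_one, mul_one])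
    by_contra hne
    have hz_ne : (z : ℂ) - 1 ≠ 0 := fun h0 => hne (by
      have h1 : zetaPow δ β' * (zetaPow δ β)⁻¹ = 1 := sub_eq_zero.mp h0
      rwa [mul_inv_eq_one₀ (show zetaPow δ β ≠ 0 from Complex.exp_ne_zero _), eq_comm] at h1)
    have hsum : ∑ i ∈ Finset.range N, z ^ i = 0 := by
      have hg := geom_sum_mul z N
      rw [hzN, sub_self] at hg
      refine (mul_eq_zero.mp hg).resolve_right fun h0 => hz_ne ?_
      simpa using congrArg (fun w : A => (w : ℂ)) h0
    have := congrArg red hsum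
    rw [map_sum, map_zero] at this
    simp only [map_pow, hz1, one_pow, Finset.sum_const, Finset.card_range, nsmul_one] at this
    exact hNk this
  rw [← hζeq] at hl'
  exact congrFun (hl.eq_of_eq hl')

/-- The reduced powers of `j (q ^ N)` are linearly independent over `k [j]` up to the index. -/
theorem red_jScale_independent (hA : IsGoodRing N A) (hred : Function.Surjective red)
    (hNk : (N : k) ≠ 0) {Q : Polynomial (Polynomial k)} (hdeg : Q.natDegree < (Gamma0 N).index)
    (hQ : Q.eval₂ (jHom k) (ModularCurve.qExpand k N (ModularCurve.jqModC k)) = 0) : Q = 0 := by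
  classical
  set jN : levelRing N A := ⟨jScale N, jScale_mem_levelRing hA dvd_rfl⟩
  have hlift : Q ∈ Polynomial.lifts (Polynomial.mapRingHom red) :=
    (Polynomial.lifts_iff_coeff_lifts Q).mpr fun i => Polynomial.map_surjective red hred _
  obtain ⟨M, hM⟩ := hlift
  rw [Polynomial.coe_mapRingHom] at hM
  have hjN : redExp N red jN =
      ModularCurve.qExpand k N (ModularCurve.qExpand k N (ModularCurve.jqModC k)) :=
    redExp_jScale N red hA dvd_rfl
  have hcomp : (redExp N red).comp (jEval N A) =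
      ((ModularCurve.qExpand k N).comp (jHom k)).comp (Polynomial.mapRingHom red) :=
    RingHom.ext fun x => redExp_jEval N red x
  have h0 : redExp N red (M.eval₂ (jEval N A) jN) = 0 := by
    rw [Polynomial.hom_eval₂, hcomp, hjN, ← Polynomial.eval₂_map, hM, ← Polynomial.hom_eval₂, hQ,
      map_zero]
  set R : Polynomial (LaurentSeries k) := Q.map ((ModularCurve.qExpand k N).comp (jHom k))
  have hroot : ∀ γ : SL(2, ℤ), R.eval (redExp N red (translate N A γ jN)) = 0 := by
    intro γ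
    have hγ : γ ∈ decompGp N red := decompGp_eq_top N red hA hNk ▸ Subgroup.mem_top γ
    have h1 := (hγ _).mpr h0
    rw [Polynomial.hom_eval₂, show (translate N A γ).comp (jEval N A) = jEval N A from
      RingHom.ext fun x => Subtype.ext (funext fun τ => by
        simp only [RingHom.comp_apply, coe_translate, coe_jEval, jFn_smul]),
      Polynomial.hom_eval₂, hcomp, ← Polynomial.eval₂_map, hM] at h1
    rw [Polynomial.eval_map]
    exact h1
  set G : SL(2, ℤ) ⧸ Gamma0 N → LaurentSeries k :=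
    fun q => redExp N red (translate N A q.out⁻¹ jN)
  have hG : Function.Injective G := by
    intro q q' hqq
    have h := redExp_translate_jScale_injective N red hA hNk _ _ hqq
    have hmem : q.out⁻¹ * q'.out ∈ Gamma0 N := mem_Gamma0_of_jScale_smul N fun τ => by
      have := h (q'.out • τ)
      rwa [← mul_smul, inv_smul_smul] at this
    rw [← q.out_eq', ← q'.out_eq', QuotientGroup.eq]
    exact hmem
  haveI : Fintype (SL(2, ℤ) ⧸ Gamma0 N) := Fintype.ofFinite _
  have hR : R = 0 := Polynomial.eq_zero_of_natDegree_lt_card_of_eval_eq_zero R hG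
    (fun q => hroot _) (by
      rw [← Nat.card_eq_fintype_card, ← Subgroup.index_eq_card]
      exact (Polynomial.natDegree_map_le).trans_lt hdeg)
  exact (Polynomial.map_eq_zero_iff (f := (ModularCurve.qExpand k N).comp (jHom k))
    (fun x y h => jHom_injective (ModularCurve.qExpand_injective N h))).mp hR

end Fermat.Agent.MCurve
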