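import Fermat.Agent.MCurve.FuncField
import Fermat.Prelude.Def_ModularCurve_CanonicalDivisor
import Mathlib.RingTheory.Etale.Kaehler
import Mathlib.RingTheory.Etale.Field
import Mathlib.RingTheory.Kaehler.Polynomial
import Mathlib.RingTheory.Nakayama

/-!
Orders of differentials on a function field of one variable.
-/

noncomputable section

namespace Fermat.Agent.MCurve

open AlgebraicCurve KaehlerDifferential IntermediateField

variable {K F : Type*} [Field K] [Field F] [Algebra K F] [IsAlgClosed K] [CharZero K]

section Coord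

variable [Algebra (Polynomial K) F] [Algebra (RatFunc K) F] [IsScalarTower K (Polynomial K) F]
  [IsScalarTower (Polynomial K) (RatFunc K) F] [FiniteDimensional (RatFunc K) F]

theorem formallyEtale_polynomial : Algebra.FormallyEtale (Polynomial K) F := by
  haveI : Algebra.FormallyEtale (Polynomial K) (RatFunc K) :=
    Algebra.FormallyEtale.of_isLocalization (nonZeroDivisors (Polynomial K))
  haveI : Algebra.FormallyEtale (RatFunc K) F := Algebra.FormallyEtale.of_isSeparable _ _
  exact Algebra.FormallyEtale.comp (Polynomial K) (RatFunc K) F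

theorem coord_differential :
    Submodule.span F {D K F (coordX K F)} = ⊤ ∧ D K F (coordX K F) ≠ 0 := by
  haveI := formallyEtale_polynomial (K := K) (F := F)
  let e₁ := tensorKaehlerEquivOfFormallyEtale K (Polynomial K) F
  let e : Ω[F⁄K] ≃ₗ[F] F :=
    e₁.symm ≪≫ₗ (LinearEquiv.baseChange (Polynomial K) F _ _ (polynomialEquiv K)) ≪≫ₗ
      TensorProduct.AlgebraTensorModule.rid (Polynomial K) F F
  have he : e (D K F (coordX K F)) = 1 := by
    simp only [e, e₁, LinearEquiv.trans_apply, tensorKaehlerEquivOfFormallyEtale_symm_D_algebraMap,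
      LinearEquiv.baseChange_tmul, polynomialEquiv_D, TensorProduct.AlgebraTensorModule.rid_tmul,
      Polynomial.derivative_X, one_smul]
  refine ⟨eq_top_iff.mpr fun ω _ => Submodule.mem_span_singleton.mpr ⟨e ω, e.injective ?_⟩,
    fun h0 => ?_⟩
  · rw [map_smul, he, smul_eq_mul, mul_one]
  · rw [h0, map_zero] at he; exact zero_ne_one he

theorem exists_coeff_of_uniformizer {v : Place K F} (hv : coordX K F ∈ v.toValuationSubring)
    (hord : v.ord (coordX K F) = 1) {a : F} (ha : a ∈ v.toValuationSubring) :
    ∃ c ∈ v.toValuationSubring, D K F a = c • D K F (coordX K F) := by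
  classical
  set t := coordX K F with ht
  let A := v.toValuationSubring
  obtain ⟨G, hG⟩ := Module.Finite.fg_top (R := Polynomial K) (M := ↥(integralClosure (Polynomial K) F))
  let gens : Finset Ω[F⁄K] :=
    insert (D K F t) (G.image fun s : ↥(integralClosure (Polynomial K) F) => D K F (s : F))
  let M : Submodule A Ω[F⁄K] := Submodule.span A (gens : Set Ω[F⁄K])
  let N : Submodule A Ω[F⁄K] := Submodule.span A {D K F t}
  have hsmul : ∀ {r : F}, r ∈ A → ∀ {ω}, ω ∈ M → r • ω ∈ M := fun hr _ hω => by
    have := M.smul_mem ⟨_, hr⟩ hω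
    exact this
  have hpoly : ∀ p : Polynomial K, algebraMap (Polynomial K) F p ∈ A :=
    fun p => coe_integralClosure_mem hv (algebraMap _ _ p)
  have hpolyD : ∀ p : Polynomial K, D K F (algebraMap (Polynomial K) F p) ∈ M := by
    intro p
    induction p using Polynomial.induction_on' with
    | add p q hp hq => rw [map_add, map_add]; exact add_mem hp hq
    | monomial n b =>
      rw [← Polynomial.C_mul_X_pow_eq_monomial, map_mul, map_pow, ← Polynomial.algebraMap_eq,
        ← IsScalarTower.algebraMap_apply, Derivation.leibniz, Derivation.map_algebraMap, smul_zero,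
        add_zero, Derivation.leibniz_pow]
      refine hsmul (v.algebraMap_mem' b) (nsmul_mem (hsmul (pow_mem hv _) ?_) _)
      exact Submodule.subset_span (Finset.mem_insert_self _ _)
  have hS : ∀ s : ↥(integralClosure (Polynomial K) F), D K F (s : F) ∈ M := by
    intro s
    have hs : s ∈ Submodule.span (Polynomial K) (G : Set _) := hG ▸ Submodule.mem_top
    induction hs using Submodule.span_induction with
    | mem y hy =>
      exact Submodule.subset_span (Finset.mem_insert_of_mem (Finset.mem_image_of_mem _ hy))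
    | zero => simp
    | add y z _ _ hy hz => rw [AddMemClass.coe_add, map_add]; exact add_mem hy hz
    | smul p y _ hy =>
      rw [show ((p • y : ↥(integralClosure (Polynomial K) F)) : F) =
        algebraMap (Polynomial K) F p * (y : F) from Algebra.smul_def p (y : F), Derivation.leibniz]
      exact add_mem (hsmul (hpoly p) hy) (hsmul (coe_integralClosure_mem hv y) (hpolyD p))
  have hM : ∀ {b : F}, b ∈ A → D K F b ∈ M := by
    intro b hb
    obtain ⟨q, hq⟩ := exists_placeOfPrime_eq hv
    have hb' : b ∈ (placeOfPrime q).toValuationSubring := hq ▸ hb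
    obtain ⟨n, d, hnd⟩ :=
      IsDedekindDomain.HeightOneSpectrum.exists_primeCompl_mul_eq_of_integer q b hb'
    have hd0 : ((d : ↥(integralClosure (Polynomial K) F)) : F) ≠ 0 := by
      simpa using (show (d : ↥(integralClosure (Polynomial K) F)) ≠ 0 from
        fun h => d.2 (h ▸ zero_mem _))
    have hdinv : ((d : ↥(integralClosure (Polynomial K) F)) : F)⁻¹ ∈ A := by
      refine (mem_iff_ord_nonneg v (inv_ne_zero hd0)).mpr ?_
      rw [v.ord_inv]
      have h1 : ¬ 0 < v.ord ((d : ↥(integralClosure (Polynomial K) F)) : F) := fun h =>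
        d.2 ((ord_placeOfPrime_pos_iff q _ (by simpa using hd0)).mp (hq ▸ h))
      omega
    have hb2 : b = (n : F) * ((d : ↥(integralClosure (Polynomial K) F)) : F)⁻¹ := by
      rw [show (n : F) = b * ((d : ↥(integralClosure (Polynomial K) F)) : F) from hnd.symm,
        mul_assoc, mul_inv_cancel₀ hd0, mul_one]
    rw [hb2, Derivation.leibniz, Derivation.leibniz_inv]
    refine add_mem (hsmul (coe_integralClosure_mem hv n) ?_) (hsmul hdinv (hS n))
    rw [neg_smul]
    exact neg_mem (hsmul (pow_mem hdinv 2) (hS _))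
  have ht0 : t ≠ 0 := fun h => by simp [h] at hord
  have hle : ∀ {b : F}, b ∈ A → D K F b ∈ N ⊔ (IsLocalRing.maximalIdeal A) • M := by
    intro b hb
    haveI := finite_residueField hv
    obtain ⟨k, rfl | hk⟩ := exists_value v hb
    · rw [Derivation.map_algebraMap]; exact zero_mem _
    set u := (b - algebraMap K F k) * t⁻¹ with hu
    have hne : b - algebraMap K F k ≠ 0 := fun h => by simp [h] at hk
    have hu' : u ∈ A :=
      (mem_iff_ord_nonneg v (mul_ne_zero hne (inv_ne_zero ht0))).mpr
        (by rw [v.ord_mul hne (inv_ne_zero ht0), v.ord_inv, hord]; omega)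
    have hb : b = algebraMap K F k + u * t := by
      rw [hu, mul_assoc, inv_mul_cancel₀ ht0, mul_one]; ring
    rw [hb, map_add, Derivation.map_algebraMap, zero_add, Derivation.leibniz]
    refine add_mem (Submodule.mem_sup_left ?_) (Submodule.mem_sup_right ?_)
    · exact N.smul_mem (⟨u, hu'⟩ : A) (Submodule.subset_span rfl)
    · refine Submodule.smul_mem_smul (r := (⟨t, hv⟩ : A)) ?_ (hM hu')
      rw [IsLocalRing.mem_maximalIdeal, mem_nonunits_iff]
      intro hun
      have := v.ord_coe_unit hun.unit
      rw [IsUnit.unit_spec] at this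
      change v.ord t = 0 at this; omega
  have hMN : M ≤ N := by
    refine Submodule.le_of_le_smul_of_le_jacobson_bot ⟨gens, rfl⟩
      (IsLocalRing.maximalIdeal_le_jacobson _) (Submodule.span_le.mpr ?_)
    intro ω hω
    rcases Finset.mem_insert.mp hω with rfl | hω
    · exact Submodule.mem_sup_left (Submodule.subset_span rfl)
    · obtain ⟨s, -, rfl⟩ := Finset.mem_image.mp hω
      exact hle (coe_integralClosure_mem hv s)
  obtain ⟨c, hc⟩ := Submodule.mem_span_singleton.mp (hMN (hM ha))
  exact ⟨c, c.2, hc.symm⟩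

end Coord

variable {x : F}

/-- `dx` spans the differentials and is nonzero. -/
theorem IsFinOver.differential (h : IsFinOver K x) :
    Submodule.span F {D K F x} = ⊤ ∧ D K F x ≠ 0 ∧
      ∀ v : Place K F, v.ord x = 1 → ∀ a ∈ v.toValuationSubring,
        ∃ c ∈ v.toValuationSubring, D K F a = c • D K F x := by
  letI : Algebra (Polynomial K) F := (Polynomial.aeval (R := K) x).toRingHom.toAlgebra
  letI : Algebra (RatFunc K) F := (ratFuncHom K h.transcendental).toRingHom.toAlgebra
  haveI : IsScalarTower K (Polynomial K) F :=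
    IsScalarTower.of_algebraMap_eq fun a => ((Polynomial.aeval (R := K) x).commutes a).symm
  haveI : IsScalarTower (Polynomial K) (RatFunc K) F :=
    IsScalarTower.of_algebraMap_eq fun p => (ratFuncHom_algebraMap h.transcendental p).symm
  let e : RatFunc K ≃+* K⟮x⟯ :=
    ((AlgEquiv.ofInjectiveField (ratFuncHom K h.transcendental)).trans
      (IntermediateField.equivOfEq (fieldRange_ratFuncHom h.transcendental))).toRingEquiv
  have he : (algebraMap (RatFunc K) F).comp (e.symm : K⟮x⟯ →+* RatFunc K) =
      algebraMap K⟮x⟯ F := by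
    refine RingHom.ext fun y => ?_
    conv_rhs => rw [← e.apply_symm_apply y]
    rfl
  haveI := h.finite
  haveI : FiniteDimensional (RatFunc K) F :=
    Module.Finite.of_equiv_equiv e.symm (RingEquiv.refl F) (by exact he)
  have hX : coordX K F = x := Polynomial.aeval_X x
  have h1 := coord_differential (K := K) (F := F)
  rw [hX] at h1
  refine ⟨h1.1, h1.2, fun v hv a ha => ?_⟩
  have hx0 : x ≠ 0 := fun h0 => by simp [h0] at hv
  have hmem : x ∈ v.toValuationSubring := (mem_iff_ord_nonneg v hx0).mpr (by omega)
  have := exists_coeff_of_uniformizer (v := v) (hX.symm ▸ hmem) (by rw [hX]; exact hv) ha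
  rwa [hX] at this

theorem transcendental_of_ord_ne_zero (v : Place K F) {f : F} (hf : v.ord f ≠ 0) :
    Transcendental K f := fun ha => by
  obtain ⟨a, rfl⟩ := exists_algebraMap_eq_of_isAlgebraic ha
  exact hf (ord_algebraMap v a)

theorem IsFinOver.dCoordGenerates (h : IsFinOver K x) (v : Place K F) : v.DCoordGenerates := by
  have hirr := (IsDiscreteValuationRing.exists_irreducible v.toValuationSubring).choose_spec
  have h1 := v.ord_coe_irreducible hirr
  exact ⟨((h.of_transcendental (transcendental_of_ord_ne_zero v (h1.symm ▸ one_ne_zero : v.ord _ ≠ 0))).differential).1⟩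

theorem IsFinOver.nontrivialDifferentials (h : IsFinOver K x) : Nontrivial Ω[F⁄K] :=
  ⟨⟨D K F x, 0, h.differential.2.1⟩⟩

theorem IsFinOver.isCurveOver (h : IsFinOver K x) : IsCurveOver K F :=
  { h.hasPrincipalDivisors with
    finiteResidue := h.finiteResidue
    kaehler_free_rank_one :=
      ⟨Module.Free.of_divisionRing F Ω[F⁄K], by
        refine finrank_eq_one (D K F x) h.differential.2.1 fun w => ?_
        exact Submodule.mem_span_singleton.mp (h.differential.1 ▸ Submodule.mem_top)⟩ }

/-- `ord (df) = ord f - 1` where `ord f ≠ 0`. -/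
theorem IsFinOver.ordDifferential_D (h : IsFinOver K x) (v : Place K F) {f : F}
    (hf : v.ord f ≠ 0) :
    v.ordDifferential (D K F f) = v.ord f - 1 ∧ v.differentialCoeff (D K F f) ≠ 0 := by
  haveI := h.dCoordGenerates v
  haveI := h.nontrivialDifferentials
  have hirr := (IsDiscreteValuationRing.exists_irreducible v.toValuationSubring).choose_spec
  set π : F := ((IsDiscreteValuationRing.exists_irreducible v.toValuationSubring).choose : F)
    with hπdef
  have hπ : v.ord π = 1 := v.ord_coe_irreducible hirr
  have hπ0 : π ≠ 0 := fun h0 => by simp [h0] at hπ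
  have hf0 : f ≠ 0 := fun h0 => by simp [h0] at hf
  have hdC : v.dCoord = D K F π := rfl
  obtain ⟨-, -, hcoef⟩ :=
    (h.of_transcendental (transcendental_of_ord_ne_zero v (hπ ▸ one_ne_zero))).differential
  obtain ⟨u, hu⟩ := v.exists_unit_mul_zpow hf0 hirr
  set w : F := ((u : v.toValuationSubring) : F) with hw
  set e : ℤ := v.ord f with he
  have hw0 : v.ord w = 0 := v.ord_coe_unit u
  have hwne : w ≠ 0 := by simp [hw]
  obtain ⟨c, hc, hdw⟩ := hcoef v hπ w (u : v.toValuationSubring).2
  have hdf : D K F f = (π ^ e * c + w * ((e : F) * π ^ (e - 1))) • v.dCoord := by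
    rw [hu, ← hπdef, Derivation.leibniz, Derivation.leibniz_zpow, hdw, hdC,
      ← Int.cast_smul_eq_zsmul F e, smul_smul, smul_smul, smul_smul, ← add_smul]
    congr 1
    ring
  have hcoeff := v.differentialCoeff_unique hdf
  have hecast : v.ord ((e : F)) = 0 := by
    have := ord_algebraMap v ((e : K))
    rwa [map_intCast] at this
  have hene : (e : F) ≠ 0 := by
    have hK : (e : K) ≠ 0 := Int.cast_ne_zero.mpr hf
    have : algebraMap K F ((e : K)) ≠ 0 :=
      fun h0 => hK ((algebraMap K F).injective (h0.trans (map_zero _).symm))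
    rwa [map_intCast] at this
  have h2ne : w * ((e : F) * π ^ (e - 1)) ≠ 0 :=
    mul_ne_zero hwne (mul_ne_zero hene (zpow_ne_zero _ hπ0))
  have h2 : v.ord (w * ((e : F) * π ^ (e - 1))) = e - 1 := by
    rw [v.ord_mul hwne (mul_ne_zero hene (zpow_ne_zero _ hπ0)),
      v.ord_mul hene (zpow_ne_zero _ hπ0), hw0, hecast, v.ord_zpow, hπ]
    ring
  rcases eq_or_ne c 0 with rfl | hc0
  · rw [mul_zero, zero_add] at hcoeff
    exact ⟨by rw [Place.ordDifferential, hcoeff, h2], by rw [hcoeff]; exact h2ne⟩
  have h1ne : π ^ e * c ≠ 0 := mul_ne_zero (zpow_ne_zero _ hπ0) hc0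
  have h1 : e ≤ v.ord (π ^ e * c) := by
    rw [v.ord_mul (zpow_ne_zero _ hπ0) hc0, v.ord_zpow, hπ]
    have := ord_nonneg_of_mem' v hc
    omega
  have hlt : v.ord (w * ((e : F) * π ^ (e - 1))) < v.ord (π ^ e * c) := by omega
  have hsum := ord_add_eq v h2ne h1ne hlt
  rw [add_comm] at hsum
  refine ⟨by rw [Place.ordDifferential, hcoeff, hsum, h2], fun h0 => ?_⟩
  rw [hcoeff] at h0
  rw [h0, v.ord_zero] at hsum
  have : (w * ((e : F) * π ^ (e - 1))) = -(π ^ e * c) := eq_neg_of_add_eq_zero_right h0
  rw [this, ord_neg] at hlt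
  exact lt_irrefl _ hlt

end Fermat.Agent.MCurve
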