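import Fermat.Agent.MCurve.FibreCount
import Mathlib.NumberTheory.Modular

/-!
The place at infinity of the field of modular functions.
-/

noncomputable section

namespace Fermat.Agent.MCurve

open AlgebraicCurve IntermediateField CongruenceSubgroup ModularGroup
open scoped MatrixGroups Pointwise Real

local notation "ℍ" => UpperHalfPlane
local notation "𝕢" => Function.Periodic.qParam

theorem coeff_single_mul_ofPowerSeries {R : Type*} [CommSemiring R] (n : ℤ) (p : PowerSeries R)
    (k : ℤ) : (HahnSeries.single n (1 : R) * HahnSeries.ofPowerSeries ℤ R p).coeff k =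
      if 0 ≤ k - n then PowerSeries.coeff (k - n).toNat p else 0 := by
  rw [HahnSeries.coeff_single_mul, one_mul]
  split_ifs with h
  · conv_lhs => rw [← Int.toNat_of_nonneg h]
    rw [HahnSeries.ofPowerSeries_apply_coeff]
  · exact ModularCurve.ofPowerSeries_coeff_of_neg _ (by omega)

theorem order_eq_of_coeff_iff {R : Type*} [Zero R] {x y : LaurentSeries R}
    (hx : x ≠ 0) (hy : y ≠ 0) (h : ∀ k, x.coeff k = 0 ↔ y.coeff k = 0) : x.order = y.order :=
  le_antisymm (HahnSeries.order_le_of_coeff_ne_zero fun e =>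
      hy (HahnSeries.coeff_order_eq_zero.mp ((h _).mp e)))
    (HahnSeries.order_le_of_coeff_ne_zero fun e =>
      hx (HahnSeries.coeff_order_eq_zero.mp ((h _).mpr e)))

theorem LExp.translate {h : ℝ} {f : ℍ → ℂ} {s : LaurentSeries ℂ} (hf : LExp h f s)
    {φ : ℍ → ℍ} {ζ : ℂ} (hζ : ζ ≠ 0)
    (hφ : ∀ τ : ℍ, 𝕢 h (φ τ : ℂ) = ζ * 𝕢 h (τ : ℂ)) :
    ∃ s', LExp h (fun τ => f (φ τ)) s' ∧ ∀ k, s'.coeff k = 0 ↔ s.coeff k = 0 := by
  obtain ⟨n, p, hp, rfl⟩ := hf
  have h1 := (hp.comp (h := h) (φ := φ) (c := ζ) one_pos fun τ => by rw [hφ τ, pow_one]).const_mul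
    (ζ ^ n)⁻¹
  refine ⟨_, ⟨n, _, h1.congr fun τ => ?_, rfl⟩, fun k => ?_⟩
  · rw [hφ τ, mul_pow, ← mul_assoc, ← mul_assoc, inv_mul_cancel₀ (pow_ne_zero _ hζ), one_mul]
  · rw [coeff_single_mul_ofPowerSeries, coeff_single_mul_ofPowerSeries]
    split_ifs with hk
    · simp [hζ]
    · exact Iff.rfl

variable (N : ℕ) [NeZero N] (K : Type*) [Field K] [Algebra K ℂ] [IsAlgClosed K] [CharZero K]

theorem ringAct_T_order {a : modRing N K} (ha : a ≠ 0) :
    (expansion N K (ringAct N K T a)).order = (expansion N K a).order := by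
  obtain ⟨s', hs', hiff⟩ := (lExp_expansion N K a).translate (φ := fun τ => (T : SL(2, ℤ))⁻¹ • τ)
    (ζ := Complex.exp (-(2 * π * Complex.I) / N)) (Complex.exp_ne_zero _) fun τ => by
      rw [← zpow_neg_one, UpperHalfPlane.modular_T_zpow_smul, UpperHalfPlane.coe_vadd,
        Function.Periodic.qParam, Function.Periodic.qParam, ← Complex.exp_add]
      congr 1
      push_cast
      ring
  have hu := (lExp_expansion N K (ringAct N K T a)).unique (natCast_pos' N) hs'
  have hne : ∀ {b : modRing N K}, b ≠ 0 → expansion N K b ≠ 0 := fun hb h0 =>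
    hb (expansion_injective N K (h0.trans (map_zero _).symm))
  refine order_eq_of_coeff_iff (hne (by simpa using ha)) (hne ha) fun k => ?_
  have h2 := hiff k
  rw [← hu, ModularCurve.coeffMap_coeff, ModularCurve.coeffMap_coeff] at h2
  simpa [map_eq_zero] using h2

theorem expansion_jFn_order :
    (expansion N K ⟨jFn, Algebra.subset_adjoin (jFn_mem_genSet N)⟩).order = -(N : ℤ) := by
  set j : modRing N K := ⟨jFn, Algebra.subset_adjoin (jFn_mem_genSet N)⟩
  have hN : 0 < N := Nat.pos_of_ne_zero (NeZero.ne N)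
  have h := lExp_jFn_affPt (α := 1) (δ := 1) (m := N) Nat.one_pos Nat.one_pos hN
    (show 1 * N = N * 1 by ring) 0
  have hj : LExp (N : ℝ) (j : ℍ → ℂ) (jSubst (zetaPow 1 0) N) := by
    refine (congrArg (fun F => LExp (N : ℝ) F _) (funext fun τ => ?_)).mp h
    show jFn _ = jFn τ
    congr 1
    apply UpperHalfPlane.ext
    rw [coe_affPt Nat.one_pos Nat.one_pos]
    simp
  have hu := (lExp_expansion N K j).unique (natCast_pos' N) hj
  have hcoe : ∀ k, algebraMap K ℂ ((expansion N K j).coeff k) = (jSubst (zetaPow 1 0) N).coeff k :=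
    fun k => congrArg (fun s : LaurentSeries ℂ => s.coeff k) hu
  have hne : (expansion N K j).coeff (-(N : ℤ)) ≠ 0 := fun h0 => by
    have := hcoe (-(N : ℤ))
    rw [h0, map_zero, jSubst_coeff_self] at this
    exact inv_ne_zero (Complex.exp_ne_zero _) this.symm
  refine le_antisymm (HahnSeries.order_le_of_coeff_ne_zero hne) (not_lt.mp fun hlt => ?_)
  have := hcoe (expansion N K j).order
  rw [jSubst_coeff_of_lt _ _ hlt, map_eq_zero] at this
  exact hne (by rw [HahnSeries.coeff_order_eq_zero.mp this]; rfl)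

omit [CharZero K] in
theorem ker_fldAct_smul {γ : SL(2, ℤ)} (hγ : fldAct N K γ = 1)
    (q : Fermat.Agent.Period.Coset N) : γ • q = q := by
  induction q using QuotientGroup.induction_on with
  | _ g =>
    rw [MulAction.Quotient.smul_mk, QuotientGroup.eq, smul_eq_mul]
    refine ker_fldAct_le N K ?_
    rw [MonoidHom.mem_ker, map_mul, map_inv, map_mul, hγ, one_mul, inv_mul_cancel]

theorem coset_action_of_card_stab {P : Place K (ModFld N K)} {σ : SL(2, ℤ)}
    (hσ : fldAct N K σ • P = P)
    (hcard : Nat.card (MulAction.stabilizer (fullGp N K) P) ≤ orderOf (fldAct N K σ))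
    (γ : SL(2, ℤ)) (hγ : fldAct N K γ • P = P) (q : Fermat.Agent.Period.Coset N) :
    ∃ k : ℤ, γ • q = σ ^ k • q := by
  set s : fullGp N K := ⟨fldAct N K σ, σ, rfl⟩ with hs
  have hmem : Subgroup.zpowers s ≤ MulAction.stabilizer (fullGp N K) P :=
    Subgroup.zpowers_le.mpr hσ
  have heq : Subgroup.zpowers s = MulAction.stabilizer (fullGp N K) P := by
    refine Subgroup.eq_of_le_of_card_ge hmem ?_
    rw [Nat.card_zpowers, show orderOf s = orderOf (fldAct N K σ) from
      (orderOf_injective (fullGp N K).subtype (fullGp N K).subtype_injective s).symm]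
    exact hcard
  have hg : (⟨fldAct N K γ, γ, rfl⟩ : fullGp N K) ∈ Subgroup.zpowers s := heq ▸ hγ
  obtain ⟨k, hk⟩ := Subgroup.mem_zpowers_iff.mp hg
  refine ⟨k, ?_⟩
  have hk' : fldAct N K σ ^ k = fldAct N K γ := by
    have := congrArg (fun g : fullGp N K => (g : ModFld N K ≃ₐ[K] ModFld N K)) hk
    simpa [hs] using this
  have := ker_fldAct_smul N K (γ := (σ ^ k)⁻¹ * γ)
    (by rw [map_mul, map_inv, map_zpow, hk', inv_mul_cancel]) q
  rw [mul_smul, inv_smul_eq_iff] at this
  exact this

theorem dvd_of_fldAct_T_pow {k : ℕ} (h : fldAct N K ((T : SL(2, ℤ)) ^ k) = 1) : N ∣ k := by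
  have h1 := ker_fldAct_smul N K h ((S : SL(2, ℤ)) : Fermat.Agent.Period.Coset N)
  rw [MulAction.Quotient.smul_mk, QuotientGroup.eq, smul_eq_mul, Gamma0_mem,
    show (((T : SL(2, ℤ)) ^ k * S)⁻¹ * S) 1 0 = (k : ℤ) from ?_] at h1
  · exact ((ZMod.natCast_eq_zero_iff k N).mp (by exact_mod_cast h1))
  · have hTk : ((T ^ k : SL(2, ℤ)) : Matrix (Fin 2) (Fin 2) ℤ) = !![1, (k : ℤ); 0, 1] := by
      rw [← zpow_natCast, coe_T_zpow]
    rw [Matrix.SpecialLinearGroup.coe_mul, Matrix.SpecialLinearGroup.coe_inv,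
      Matrix.SpecialLinearGroup.coe_mul, hTk, coe_S]
    simp [Matrix.adjugate_fin_two, Matrix.mul_apply, Fin.sum_univ_two]

theorem ncard_cusps :
    Nat.card {v : Place K (fixFld N K) // 0 < v.ord ((⟨(jL N K)⁻¹, inv_mem (jL_mem_fixFld N K)⟩ :
      fixFld N K) - algebraMap K (fixFld N K) 0)} = Nat.card (Fermat.Agent.Period.CuspSet N) := by
  set j : modRing N K := ⟨jFn, Algebra.subset_adjoin (jFn_mem_genSet N)⟩
  have hN : 0 < N := Nat.pos_of_ne_zero (NeZero.ne N)
  have hne : ∀ {b : modRing N K}, b ≠ 0 → expansion N K b ≠ 0 := fun hb h0 =>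
    hb (expansion_injective N K (h0.trans (map_zero _).symm))
  have hjord := expansion_jFn_order N K
  have hj0 : j ≠ 0 := fun h => by
    rw [show (⟨jFn, _⟩ : modRing N K) = 0 from h, map_zero, HahnSeries.order_zero] at hjord
    omega
  obtain ⟨P, hP1, k, hk, hkey⟩ := (isFinOver_jL N K).exists_place_of_order (R := modRing N K)
    (fun a => (expansion N K a).order)
    (fun ha hb => by rw [map_mul]; exact HahnSeries.order_mul (hne ha) (hne hb))
    (fun ha hb hab => by
      rw [map_add]; exact HahnSeries.min_order_le_order_add (by rw [← map_add]; exact hne hab))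
    (fun c hc => by
      rw [AlgHom.commutes, ModularCurve.algebraMap_laurentSeries_eq_single,
        HahnSeries.order_single hc])
    ⟨j, hj0, by rw [hjord]; omega⟩
  have hjP : -(N : ℤ) = P.ord (jL N K) * k := hjord.symm.trans (hkey j hj0)
  have hpos : 0 < P.ord (jL N K)⁻¹ := by
    rw [P.ord_inv]
    by_contra hcon
    nlinarith
  have hle : P.ord (jL N K)⁻¹ ≤ (N : ℤ) := by rw [P.ord_inv] at hpos ⊢; nlinarith
  have hT : fldAct N K T • P = P := by
    refine place_eq_of_le fun z hz => ?_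
    rcases eq_or_ne z 0 with rfl | hz0
    · exact zero_mem _
    obtain ⟨x, y, hx, hy, rfl⟩ := exists_frac_ne_zero (R := modRing N K) hz0
    have hinv : ∀ {u : modRing N K}, u ≠ 0 →
        (expansion N K (ringAct N K T⁻¹ u)).order = (expansion N K u).order := fun {u} hu => by
      conv_rhs => rw [show u = ringAct N K T (ringAct N K T⁻¹ u) by
        rw [← AlgEquiv.mul_apply, ← map_mul, mul_inv_cancel, map_one, AlgEquiv.one_apply]]
      exact (ringAct_T_order N K (by simpa using hu)).symm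
    rw [mem_smul_toValuationSubring, ← map_inv, map_div₀, fldAct_algebraMap, fldAct_algebraMap,
      hP1 _ _ (by simpa using hx) (by simpa using hy), hinv hx, hinv hy] at hz
    exact (hP1 x y hx hy).mpr hz
  have hfix : IntermediateField.fixedField (fullGp N K) = K⟮(jL N K)⁻¹⟯ := by
    rw [fixedField_fullGp]
    refine le_antisymm (adjoin_simple_le_iff.mpr ?_)
      (adjoin_simple_le_iff.mpr (inv_mem (mem_adjoin_simple_self K _)))
    simpa using inv_mem (mem_adjoin_simple_self K (jL N K)⁻¹)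
  have hpos' : 0 < P.ord ((jL N K)⁻¹ - algebraMap K (ModFld N K) 0) := by
    rw [map_zero, sub_zero]; exact hpos
  obtain ⟨-, hstab⟩ := (isFinOver_jL N K).inv.galois_fibre (fullGp N K) hfix 0 P hpos'
  rw [map_zero, sub_zero] at hstab
  refine card_fibre N K (isFinOver_jL N K).inv hfix (inv_mem (jL_mem_fixFld N K)) 0 P hpos' T hT
    (coset_action_of_card_stab N K hT ?_)
  have horder : N ∣ orderOf (fldAct N K T) :=
    dvd_of_fldAct_T_pow N K (by rw [map_pow]; exact pow_orderOf_eq_one _)
  have h0 : 0 < orderOf (fldAct N K T) := by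
    have h := orderOf_pos (⟨fldAct N K T, T, rfl⟩ : fullGp N K)
    rwa [← orderOf_injective (fullGp N K).subtype (fullGp N K).subtype_injective] at h
  refine le_trans ?_ (Nat.le_of_dvd h0 horder)
  exact_mod_cast hstab.trans_le hle

end Fermat.Agent.MCurve
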