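import Fermat.Agent.MCurve.FibreSum
import Mathlib.RingTheory.AlgebraicIndependent.TranscendenceBasis
import Mathlib.RingTheory.AlgebraicIndependent.Transcendental
import Mathlib.RingTheory.AlgebraicIndependent.AlgebraicClosure
import Mathlib.FieldTheory.IsAlgClosed.Basic

/-!
Function fields of one variable over an algebraically closed field of characteristic zero.
-/

noncomputable section

namespace Fermat.Agent.MCurve

open AlgebraicCurve IntermediateField

variable {K F : Type*} [Field K] [Field F] [Algebra K F]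

variable (K) in
/-- `F` is finite over the purely transcendental subfield `K(x)`. -/
structure IsFinOver (x : F) : Prop where
  transcendental : Transcendental K x
  finite : FiniteDimensional K⟮x⟯ F

section Lift

variable (K) in
/-- The embedding `K(X) → F` sending `X` to a transcendental element. -/
def ratFuncHom {x : F} (hx : Transcendental K x) : RatFunc K →ₐ[K] F :=
  IsFractionRing.liftAlgHom (A := Polynomial K) (g := Polynomial.aeval (R := K) x)
    (transcendental_iff_injective.mp hx)

theorem ratFuncHom_algebraMap {x : F} (hx : Transcendental K x) (p : Polynomial K) :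
    ratFuncHom K hx (algebraMap (Polynomial K) (RatFunc K) p) = Polynomial.aeval x p :=
  IsFractionRing.lift_algebraMap (g := (Polynomial.aeval (R := K) x).toRingHom)
    (transcendental_iff_injective.mp hx) p

theorem fieldRange_ratFuncHom {x : F} (hx : Transcendental K x) :
    (ratFuncHom K hx).fieldRange = K⟮x⟯ := by
  refine le_antisymm ?_ (adjoin_simple_le_iff.mpr ⟨algebraMap _ _ Polynomial.X, by
    show ratFuncHom K hx _ = x
    rw [ratFuncHom_algebraMap, Polynomial.aeval_X]⟩)
  rintro _ ⟨r, rfl⟩
  obtain ⟨p, q, -, rfl⟩ := IsFractionRing.div_surjective (A := Polynomial K) r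
  show ratFuncHom K hx _ ∈ _
  rw [map_div₀, ratFuncHom_algebraMap, ratFuncHom_algebraMap]
  exact (mem_adjoin_simple_iff _ _).mpr ⟨p, q, rfl⟩

end Lift

variable [IsAlgClosed K] [CharZero K] {x : F}

theorem IsFinOver.inv (h : IsFinOver K x) : IsFinOver K x⁻¹ := by
  have he : K⟮x⁻¹⟯ = K⟮x⟯ := by
    refine le_antisymm (adjoin_simple_le_iff.mpr (inv_mem (mem_adjoin_simple_self K x)))
      (adjoin_simple_le_iff.mpr ?_)
    simpa using inv_mem (mem_adjoin_simple_self K x⁻¹)
  exact ⟨fun ha => h.transcendental (by simpa using ha.inv), he ▸ h.finite⟩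

theorem IsFinOver.aux (h : IsFinOver K x) :
    (∀ v : Place K F, x ∈ v.toValuationSubring → Module.Finite K v.ResidueField) ∧
    ∀ c : K, ∃ T : Finset (Place K F), (∀ v, v ∈ T ↔ 0 < v.ord (x - algebraMap K F c)) ∧
      ∑ v ∈ T, v.ord (x - algebraMap K F c) = Module.finrank K⟮x⟯ F := by
  letI : Algebra (Polynomial K) F := (Polynomial.aeval (R := K) x).toRingHom.toAlgebra
  letI : Algebra (RatFunc K) F := (ratFuncHom K h.transcendental).toRingHom.toAlgebra
  haveI : IsScalarTower K (Polynomial K) F :=
    IsScalarTower.of_algebraMap_eq fun a => ((Polynomial.aeval (R := K) x).commutes a).symm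
  haveI : IsScalarTower (Polynomial K) (RatFunc K) F :=
    IsScalarTower.of_algebraMap_eq fun p => (ratFuncHom_algebraMap h.transcendental p).symm
  let e : RatFunc K ≃+* K⟮x⟯ :=
    ((AlgEquiv.ofInjectiveField (ratFuncHom K h.transcendental)).trans
      (IntermediateField.equivOfEq (fieldRange_ratFuncHom h.transcendental))).toRingEquiv
  have he : (algebraMap (RatFunc K) F).comp (e.symm : K⟮x⟯ →+* RatFunc K) =
      algebraMap K⟮x⟯ F := by
    refine RingHom.ext fun y => ?_
    conv_rhs => rw [← e.apply_symm_apply y]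
    rfl
  haveI := h.finite
  haveI : FiniteDimensional (RatFunc K) F :=
    Module.Finite.of_equiv_equiv e.symm (RingEquiv.refl F) (by exact he)
  have hn : Module.finrank K⟮x⟯ F = Module.finrank (RatFunc K) F :=
    Algebra.finrank_eq_of_equiv_equiv e.symm (RingEquiv.refl F) (by exact he)
  have hX : coordX K F = x := Polynomial.aeval_X x
  refine ⟨fun v hv => finite_residueField (hX.symm ▸ hv), fun c => ?_⟩
  obtain ⟨T, hT, hsum⟩ := exists_fibre (K := K) (F := F) c
  rw [hX] at hT hsum
  exact ⟨T, hT, hsum.trans (by rw [hn])⟩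

theorem IsFinOver.finiteResidue (h : IsFinOver K x) (v : Place K F) :
    Module.Finite K v.ResidueField := by
  by_cases hv : x ∈ v.toValuationSubring
  · exact h.aux.1 v hv
  · exact h.inv.aux.1 v ((v.toValuationSubring.mem_or_inv_mem x).resolve_left hv)

theorem IsFinOver.deg_eq_one (h : IsFinOver K x) (v : Place K F) : v.deg = 1 :=
  haveI := h.finiteResidue v
  v.deg_eq_one_of_isAlgClosed_of_finite

theorem IsFinOver.exists_zeros (h : IsFinOver K x) (c : K) :
    ∃ T : Finset (Place K F), (∀ v, v ∈ T ↔ 0 < v.ord (x - algebraMap K F c)) ∧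
      ∑ v ∈ T, v.ord (x - algebraMap K F c) = Module.finrank K⟮x⟯ F :=
  h.aux.2 c

theorem IsFinOver.exists_poles (h : IsFinOver K x) :
    ∃ T : Finset (Place K F), (∀ v, v ∈ T ↔ v.ord x < 0) ∧
      ∑ v ∈ T, -v.ord x = Module.finrank K⟮x⟯ F := by
  obtain ⟨T, hT, hsum⟩ := h.inv.exists_zeros 0
  have hd : Module.finrank K⟮x⁻¹⟯ F = Module.finrank K⟮x⟯ F := by
    rw [show K⟮x⁻¹⟯ = K⟮x⟯ from le_antisymm
      (adjoin_simple_le_iff.mpr (inv_mem (mem_adjoin_simple_self K x)))
      (adjoin_simple_le_iff.mpr (by simpa using inv_mem (mem_adjoin_simple_self K x⁻¹)))]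
  refine ⟨T, fun v => ?_, ?_⟩
  · rw [hT, map_zero, sub_zero, v.ord_inv]; omega
  · rw [← hd, ← hsum]
    exact Finset.sum_congr rfl fun v _ => by rw [map_zero, sub_zero, v.ord_inv]

omit [IsAlgClosed K] [CharZero K] in
theorem IsFinOver.of_transcendental (h : IsFinOver K x) {f : F} (hf : Transcendental K f) :
    IsFinOver K f := by
  haveI := h.finite
  haveI hax : Algebra.IsAlgebraic K⟮x⟯ F := Algebra.IsAlgebraic.of_finite _ _
  have hindx : AlgebraicIndependent K ((↑) : ({x} : Set F) → F) :=
    (algebraicIndependent_unique_type_iff).mpr h.transcendental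
  have hbasis : IsTranscendenceBasis K ((↑) : ({x} : Set F) → F) := by
    rw [hindx.isTranscendenceBasis_iff_isAlgebraic, Subtype.range_coe]
    exact IntermediateField.isAlgebraic_adjoin_iff_top.mp hax
  have htr : Algebra.trdeg K F = 1 := by
    rw [← hbasis.cardinalMk_eq_trdeg, Cardinal.mk_singleton]
  have hindf : AlgebraicIndependent K ((↑) : ({f} : Set F) → F) :=
    (algebraicIndependent_unique_type_iff).mpr hf
  have hbf : IsTranscendenceBasis K ((↑) : ({f} : Set F) → F) :=
    AlgebraicIndependent.isTranscendenceBasis_of_trdeg_le_of_finite hindf (by rw [htr, Cardinal.mk_singleton])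
  have halg : Algebra.IsAlgebraic K⟮f⟯ F := by
    rw [hindf.isTranscendenceBasis_iff_isAlgebraic, Subtype.range_coe] at hbf
    exact IntermediateField.isAlgebraic_adjoin_iff_top.mpr hbf
  refine ⟨hf, ?_⟩
  let b := Module.finBasis K⟮x⟯ F
  let s : Set F := insert x (Set.range b)
  haveI : Finite ↑s := ((Set.finite_range b).insert x).to_subtype
  have htop : adjoin K⟮f⟯ s = ⊤ := by
    refine eq_top_iff.mpr fun y _ => ?_
    have hx' : x ∈ (adjoin K⟮f⟯ s).restrictScalars K :=
      subset_adjoin K⟮f⟯ s (Set.mem_insert _ _)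
    rw [← b.sum_repr y]
    refine sum_mem fun i _ => ?_
    rw [Algebra.smul_def]
    refine mul_mem ?_ (subset_adjoin K⟮f⟯ s (Set.mem_insert_of_mem _ (Set.mem_range_self i)))
    exact (adjoin_simple_le_iff.mpr hx') (b.repr y i).2
  haveI : FiniteDimensional K⟮f⟯ (adjoin K⟮f⟯ s) :=
    finiteDimensional_adjoin fun y _ => Algebra.IsIntegral.isIntegral y
  exact Module.Finite.equiv
    ((IntermediateField.equivOfEq htop).trans IntermediateField.topEquiv).toLinearEquiv

omit [CharZero K] in
theorem exists_algebraMap_eq_of_isAlgebraic {f : F} (hf : IsAlgebraic K f) :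
    ∃ a : K, algebraMap K F a = f := by
  have hi : IsIntegral K f := hf.isIntegral
  haveI : FiniteDimensional K K⟮f⟯ := adjoin.finiteDimensional hi
  obtain ⟨a, ha⟩ := (IsAlgClosed.algebraMap_bijective_of_isIntegral (k := K) (K := K⟮f⟯)).surjective
    ⟨f, mem_adjoin_simple_self K f⟩
  exact ⟨a, congrArg Subtype.val ha⟩

theorem IsFinOver.hasPrincipalDivisors (h : IsFinOver K x) : HasPrincipalDivisors K F := by
  refine ⟨fun f hf => ?_⟩
  by_cases halg : IsAlgebraic K f
  · obtain ⟨a, rfl⟩ := exists_algebraMap_eq_of_isAlgebraic halg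
    exact ⟨0, fun v => by rw [ord_algebraMap]; rfl, map_zero _⟩
  classical
  have hf' := h.of_transcendental halg
  obtain ⟨Z, hZ, hZsum⟩ := hf'.exists_zeros 0
  obtain ⟨P, hP, hPsum⟩ := hf'.exists_poles
  simp only [map_zero, sub_zero] at hZ hZsum
  let D : Divisor K F := Finsupp.onFinset (Z ∪ P) (fun v => v.ord f) fun v hv => by
    rw [Finset.mem_union, hZ, hP]; omega
  refine ⟨D, fun v => rfl, ?_⟩
  have hdeg : Divisor.degree D = ∑ v ∈ Z ∪ P, v.ord f := by
    show Finsupp.liftAddHom _ D = _
    rw [Finsupp.liftAddHom_apply, Finsupp.onFinset_sum (g := fun v n => _) _ (fun v => map_zero _)]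
    refine Finset.sum_congr rfl fun v _ => ?_
    simp [h.deg_eq_one v]
  rw [hdeg, Finset.sum_union (Finset.disjoint_left.mpr fun v h1 h2 => by
    rw [hZ] at h1; rw [hP] at h2; omega), hZsum]
  rw [Finset.sum_neg_distrib] at hPsum
  omega

end Fermat.Agent.MCurve
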