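import Fermat.Agent.MCurve.NormFormula
import Fermat.Agent.MCurve.ModBar
import Fermat.Prelude.Def_ModularCurve_HeckeModule

/-!
The inputs of the Hecke correspondences on `X₀(N)` over an algebraically closed field of
characteristic zero hold, so `heckeOperatorAlong` is the honest correspondence.
-/

set_option autoImplicit false

noncomputable section

namespace Fermat.Agent.MCurve

open AlgebraicCurve ModularCurve IntermediateField

section Along

variable {K F F' : Type*} [Field K] [Field F] [Field F'] [Algebra K F] [Algebra K F']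
  {x : F} {y : F'} [IsAlgClosed K] [CharZero K]

theorem finiteAlong_of_isFinOver (hx : IsFinOver K x) (hy : IsFinOver K y) (φ : F →ₐ[K] F') :
    FiniteAlong K φ := by
  letI := algebraAlong φ
  haveI := isScalarTower_along φ
  show Module.Finite F F'
  have ht : Transcendental K (φ x) :=
    (transcendental_algebraMap_iff (R := K) (A := F') (algebraMap F F').injective).mpr
      hx.transcendental
  haveI := (hy.of_transcendental ht).finite
  have hle : K⟮φ x⟯ ≤ φ.fieldRange := adjoin_simple_le_iff.mpr ⟨x, rfl⟩
  haveI : FiniteDimensional φ.fieldRange F' := by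
    letI : Algebra K⟮φ x⟯ φ.fieldRange := (IntermediateField.inclusion hle).toRingHom.toAlgebra
    haveI : IsScalarTower K⟮φ x⟯ φ.fieldRange F' := IsScalarTower.of_algebraMap_eq fun _ => rfl
    exact FiniteDimensional.right K⟮φ x⟯ φ.fieldRange F'
  haveI : Module.Finite φ.range F' := inferInstanceAs (Module.Finite φ.fieldRange F')
  exact Module.Finite.of_equiv_equiv (AlgEquiv.ofInjectiveField φ).toRingEquiv.symm
    (RingEquiv.refl F') (RingHom.ext fun z => by
      obtain ⟨a, rfl⟩ := (AlgEquiv.ofInjectiveField φ).surjective z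
      simp only [RingHom.comp_apply]
      show algebraMap F F' ((AlgEquiv.ofInjectiveField φ).symm (AlgEquiv.ofInjectiveField φ a)) = _
      rw [AlgEquiv.symm_apply_apply]
      rfl)

theorem isIntegral_of_finiteAlong {φ : F →ₐ[K] F'} (h : FiniteAlong K φ) :
    φ.toRingHom.IsIntegral := by
  letI := algebraAlong φ
  haveI : Module.Finite F F' := h
  exact fun z => Algebra.IsIntegral.isIntegral (R := F) z

theorem normFormulaAlong_of_isFinOver (hx : IsFinOver K x) (hy : IsFinOver K y)
    (φ : F →ₐ[K] F') (hfin : FiniteAlong K φ) : NormFormulaAlong K φ hfin := by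
  letI := algebraAlong φ
  haveI := isScalarTower_along φ
  haveI : Module.Finite F F' := hfin
  haveI := hy.hasPrincipalDivisors
  exact pushforwardNormFormula hx hy

theorem fundamentalIdentityAlong_of_isFinOver [HasPrincipalDivisors K F'] (hx : IsFinOver K x)
    (hy : IsFinOver K y) (φ : F →ₐ[K] F') (hint : φ.toRingHom.IsIntegral) :
    FundamentalIdentityAlong K φ hint := by
  letI := algebraAlong φ
  haveI := isScalarTower_along φ
  haveI : Module.Finite F F' := finiteAlong_of_isFinOver hx hy φ
  exact fundamentalIdentity hx hy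

end Along

variable (L : Type*) [Field L] [Algebra ℚ L] [IsAlgClosed L] (N ℓ : ℕ) [NeZero N] [NeZero ℓ]

/-- The Hecke correspondences have all their inputs. -/
theorem heckeInputsAlong [Algebra L ℂ] [IsScalarTower ℚ L ℂ] : HeckeInputsAlong L N ℓ := by
  haveI : CharZero L := charZero_of_injective_algebraMap (algebraMap ℚ L).injective
  have h₁ := (bar_isFinOver_and_finrank (N := N) (K := L)).1
  have h₂ := (bar_isFinOver_and_finrank (N := N * ℓ) (K := L)).1
  haveI := h₂.hasPrincipalDivisors
  exact heckeInputsAlong_intro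
    (isIntegral_of_finiteAlong (finiteAlong_of_isFinOver h₁ h₂ (heckeAlphaBar L N ℓ)))
    (isIntegral_of_finiteAlong (finiteAlong_of_isFinOver h₁ h₂ (heckeBetaBar L N ℓ)))
    (fundamentalIdentityAlong_of_isFinOver h₁ h₂ _ _)
    (finiteAlong_of_isFinOver h₁ h₂ _)
    (normFormulaAlong_of_isFinOver h₁ h₂ _ _)

/-- The case of `ℚ̄`, for the Hecke operators on `J₀(N)`. -/
theorem heckeInputsAlong_qbar : HeckeInputsAlong (AlgebraicClosure ℚ) N ℓ := by
  haveI : Algebra.IsAlgebraic ℚ (AlgebraicClosure ℚ) := AlgebraicClosure.isAlgebraic ℚ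
  letI : Algebra (AlgebraicClosure ℚ) ℂ :=
    (IsAlgClosed.lift (R := ℚ) (M := ℂ) (S := AlgebraicClosure ℚ)).toRingHom.toAlgebra
  haveI : IsScalarTower ℚ (AlgebraicClosure ℚ) ℂ :=
    IsScalarTower.of_algebraMap_eq fun q => by simp
  exact heckeInputsAlong _ N ℓ

end Fermat.Agent.MCurve
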