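import Fermat.Agent.MCurve.IgusaField
import Fermat.Agent.MCurve.PlaceExists
import Fermat.Prelude.Def_ModularCurve_X0ModL

/-!
The field generated by the `j (q ^ d)` over any field in which `N` is invertible: it is finite over
the rational functions in `j`, and every element has a denominator in `K [j]`.
-/

noncomputable section

namespace Fermat.Agent.MCurve

open ModularCurve IntermediateField ModularCurve.IgusaScheme

variable (K : Type*) [Field K] (N : ℕ) [NeZero N]

/-- Polynomials in the `j (q ^ d)`. -/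
def genAlg : Subalgebra K (LaurentSeries K) := Algebra.adjoin K (divisorExpansionsC K N)

/-- `K [X] → K((q))`, evaluation at `j`. -/
def evJq : Polynomial K →ₐ[K] LaurentSeries K := Polynomial.aeval (jqModC K)

theorem evJq_eq_jHom (p : Polynomial K) : evJq K p = jHom K p := by
  rw [evJq, Polynomial.aeval_def, jHom, Polynomial.coe_eval₂RingHom]
  congr 1
  refine RingHom.ext fun c => ?_
  rw [algebraMap_laurentSeries_eq_single]; rfl

theorem evJq_injective : Function.Injective (evJq K) := fun p q h =>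
  jHom_injective (by rwa [← evJq_eq_jHom, ← evJq_eq_jHom])

omit [NeZero N] in
theorem evJq_mem (p : Polynomial K) : evJq K p ∈ genAlg K N := by
  rw [evJq]
  refine Polynomial.induction_on' p (fun a b ha hb => by rw [map_add]; exact add_mem ha hb)
    fun n a => ?_
  rw [Polynomial.aeval_monomial]
  refine mul_mem (Subalgebra.algebraMap_mem _ _) (pow_mem (Algebra.subset_adjoin ?_) _)
  simpa [qExpand_one_apply] using mem_divisorExpansionsC K N (one_dvd N)

omit [NeZero N] in
theorem genAlg_le_full : (genAlg K N : Set (LaurentSeries K)) ⊆ modularFunctionFieldFullC K N :=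
  fun _ hx => (Algebra.adjoin_le (S := (modularFunctionFieldFullC K N).toSubalgebra)
    (fun _ hy => subset_adjoin K _ hy)) hx

/-- The integrality relation of `j (q ^ d)` over `ℤ_(ℓ) [j]`. -/
theorem exists_monic_relation (d ℓ : ℕ) [NeZero d] [Fact ℓ.Prime] (hℓd : ¬ ℓ ∣ d) :
    ∃ M : Polynomial (Polynomial ↥(GaloisRep.ratLocalizedAt ℓ)), M.Monic ∧
      M.eval₂ (Polynomial.eval₂RingHom HahnSeries.C (jqModC _))
        (qExpand ↥(GaloisRep.ratLocalizedAt ℓ) d (jqModC _)) = 0 := by
  obtain ⟨M, hM, hMx⟩ := isIntegralElem_of_mem_chartAlg d ℓ (jqN_integral d ℓ hℓd)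
  refine ⟨M, hM, ?_⟩
  have hinj : Function.Injective (coeffMap (GaloisRep.ratLocalizedAt ℓ).subtype) := fun _ _ h =>
    HahnSeries.ext (funext fun i =>
      Subtype.ext (congrArg (fun s : LaurentSeries ℚ => s.coeff i) h))
  apply hinj
  rw [map_zero, Polynomial.hom_eval₂]
  have h2 := congrArg (valHom d) hMx
  rw [Polynomial.hom_eval₂, map_zero] at h2
  refine (congrArg₂ (fun f y => Polynomial.eval₂ f y M) (Polynomial.ringHom_ext (fun r => ?_) ?_)
    ?_).trans h2
  · simp only [RingHom.coe_comp, Function.comp_apply, Polynomial.coe_eval₂RingHom,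
      Polynomial.eval₂_C, AlgHom.toRingHom_eq_coe, RingHom.coe_coe, Polynomial.aeval_C]
    show coeffMap _ (HahnSeries.C r) = valHom d (algebraMap _ _ r)
    rw [valHom_algebraMap, algebraMap_laurentSeries_eq_single]
    exact coeffMap_single _ 0 r
  · simp only [RingHom.coe_comp, Function.comp_apply, Polynomial.coe_eval₂RingHom,
      Polynomial.eval₂_X, AlgHom.toRingHom_eq_coe, RingHom.coe_coe, Polynomial.aeval_X]
    rw [MCurve.coeffMap_jqModC, jqModC_rat]; rfl
  · rw [qExpand_coeffMap, MCurve.coeffMap_jqModC, jqModC_rat]; rfl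

omit [NeZero N] in
/-- The generators are integral over `K [j]`. -/
theorem isIntegral_gen (ℓ : ℕ) [Fact ℓ.Prime] (hℓN : ¬ ℓ ∣ N)
    (ρ : ↥(GaloisRep.ratLocalizedAt ℓ) →+* K) {x : LaurentSeries K}
    (hx : x ∈ divisorExpansionsC K N) : (evJq K).toRingHom.IsIntegralElem x := by
  obtain ⟨d, hd0, hd, rfl⟩ := hx
  obtain ⟨M, hM, hMx⟩ := exists_monic_relation d ℓ (fun h => hℓN (h.trans hd))
  refine ⟨M.map (Polynomial.mapRingHom ρ), hM.map _, ?_⟩
  rw [Polynomial.eval₂_map]
  have h2 := congrArg (coeffMap ρ) hMx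
  rw [Polynomial.hom_eval₂, map_zero] at h2
  refine (congrArg₂ (fun f y => Polynomial.eval₂ f y M) (Polynomial.ringHom_ext (fun r => ?_) ?_)
    ?_).trans h2
  · simp only [RingHom.coe_comp, Function.comp_apply, Polynomial.coe_eval₂RingHom,
      Polynomial.eval₂_C, Polynomial.coe_mapRingHom, Polynomial.map_C, AlgHom.toRingHom_eq_coe,
      RingHom.coe_coe, evJq, Polynomial.aeval_C]
    rw [algebraMap_laurentSeries_eq_single]
    exact (coeffMap_single ρ 0 r).symm
  · simp only [RingHom.coe_comp, Function.comp_apply, Polynomial.coe_eval₂RingHom,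
      Polynomial.eval₂_X, Polynomial.coe_mapRingHom, Polynomial.map_X, AlgHom.toRingHom_eq_coe,
      RingHom.coe_coe, evJq, Polynomial.aeval_X]
    rw [MCurve.coeffMap_jqModC]
  · rw [qExpand_coeffMap, MCurve.coeffMap_jqModC]

variable {K N}

theorem isIntegralElem_of_mem_genAlg
    (hint : ∀ x ∈ divisorExpansionsC K N, (evJq K).toRingHom.IsIntegralElem x)
    {x : LaurentSeries K} (hx : x ∈ genAlg K N) : (evJq K).toRingHom.IsIntegralElem x := by
  induction hx using Algebra.adjoin_induction with
  | mem y hy => exact hint y hy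
  | algebraMap a =>
    rw [show algebraMap K (LaurentSeries K) a = (evJq K).toRingHom (Polynomial.C a) from
      ((evJq K).commutes a).symm]
    exact RingHom.isIntegralElem_map _
  | add y z _ _ hy hz => exact hy.add _ hz
  | mul y z _ _ hy hz => exact hy.mul _ hz

/-- A nonzero element of `genAlg` divides a nonzero polynomial in `j`. -/
theorem exists_mul_eq_evJq
    (hint : ∀ x ∈ divisorExpansionsC K N, (evJq K).toRingHom.IsIntegralElem x)
    {x : LaurentSeries K} (hx : x ∈ genAlg K N) (hx0 : x ≠ 0) :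
    ∃ y ∈ genAlg K N, ∃ p : Polynomial K, p ≠ 0 ∧ x * y = evJq K p := by
  obtain ⟨M, hM, hMx⟩ := isIntegralElem_of_mem_genAlg hint hx
  obtain ⟨r, hMr⟩ := (Polynomial.X_pow_dvd_iff (f := M) (n := M.natTrailingDegree)).mpr
    (fun d hd => Polynomial.coeff_eq_zero_of_lt_natTrailingDegree hd)
  set n := M.natTrailingDegree
  have hr0 : r.coeff 0 ≠ 0 := by
    have hc : M.coeff n ≠ 0 := Polynomial.coeff_natTrailingDegree_ne_zero.mpr hM.ne_zero
    rwa [hMr, Polynomial.coeff_X_pow_mul', if_pos le_rfl, Nat.sub_self] at hc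
  rw [hMr, Polynomial.eval₂_mul, Polynomial.eval₂_X_pow, mul_eq_zero] at hMx
  have hrx := hMx.resolve_left (pow_ne_zero _ hx0)
  rw [← r.divX_mul_X_add, Polynomial.eval₂_add, Polynomial.eval₂_C, Polynomial.eval₂_mul,
    Polynomial.eval₂_X] at hrx
  refine ⟨-(r.divX.eval₂ (evJq K).toRingHom x), neg_mem ?_, r.coeff 0, hr0, ?_⟩
  · rw [Polynomial.eval₂_eq_sum, Polynomial.sum_def]
    exact sum_mem fun i _ => mul_mem (evJq_mem K N _) (pow_mem hx _)
  · rw [mul_neg, mul_comm x]
    exact (eq_neg_of_add_eq_zero_right hrx).symm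

/-- Every element of the field has a denominator in `K [j]`. -/
theorem exists_denominator
    (hint : ∀ x ∈ divisorExpansionsC K N, (evJq K).toRingHom.IsIntegralElem x)
    {x : LaurentSeries K} (hx : x ∈ modularFunctionFieldFullC K N) :
    ∃ a ∈ genAlg K N, ∃ p : Polynomial K, p ≠ 0 ∧ x * evJq K p = a := by
  obtain ⟨r, hr, s, hs, rfl⟩ := IntermediateField.mem_adjoin_iff_div.mp hx
  rcases eq_or_ne s 0 with rfl | hs0
  · exact ⟨0, zero_mem _, 1, one_ne_zero, by simp⟩
  obtain ⟨y, hy, p, hp, hsy⟩ := exists_mul_eq_evJq hint hs hs0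
  exact ⟨r * y, mul_mem hr hy, p, hp, by rw [← hsy, ← mul_assoc, div_mul_cancel₀ _ hs0]⟩

/-- `j` in the field. -/
def jFullC (K : Type*) [Field K] (N : ℕ) : modularFunctionFieldFullC K N :=
  ⟨jqModC K, jqModC_mem_full K N⟩

set_option synthInstance.maxHeartbeats 100000 in
set_option maxHeartbeats 1000000 in
theorem isFinOver_jFullC
    (hint : ∀ x ∈ divisorExpansionsC K N, (evJq K).toRingHom.IsIntegralElem x) :
    IsFinOver K (jFullC K N) := by
  have htr : Transcendental K (jFullC K N) := fun ⟨p, hp, h⟩ => hp (evJq_injective K (by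
    rw [map_zero]
    have := congrArg (modularFunctionFieldFullC K N).val h
    rwa [map_zero, ← Polynomial.aeval_algHom_apply] at this))
  refine ⟨htr, ?_⟩
  set E := modularFunctionFieldFullC K N
  let S : Set E := Subtype.val ⁻¹' divisorExpansionsC K N
  have hSfin : Finite ↑S := by
    have : (divisorExpansionsC K N).Finite := by
      refine Set.Finite.subset (s := ⋃ d ∈ (N.divisors : Set ℕ),
        {x | ∃ _ : NeZero d, x = qExpand K d (jqModC K)}) (N.divisors.finite_toSet.biUnion fun d _ => ?_) ?_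
      · exact Set.Subsingleton.finite fun a ⟨_, ha⟩ b ⟨_, hb⟩ => ha.trans hb.symm
      · rintro x ⟨d, hd0, hd, rfl⟩
        exact Set.mem_biUnion (Nat.mem_divisors.mpr ⟨hd, NeZero.ne N⟩) ⟨hd0, rfl⟩
    exact (this.preimage Subtype.val_injective.injOn).to_subtype
  have htop : adjoin K⟮jFullC K N⟯ S = ⊤ := by
    refine eq_top_iff.mpr fun y _ => ?_
    have h1 : E ≤ ((adjoin K⟮jFullC K N⟯ S).restrictScalars K).map E.val := by
      refine adjoin_le_iff.mpr fun z hz => ?_
      exact ⟨⟨z, subset_adjoin K _ hz⟩, subset_adjoin K⟮jFullC K N⟯ S hz, rfl⟩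
    obtain ⟨z, hz, hzy⟩ := h1 y.2
    exact (Subtype.ext hzy : z = y) ▸ hz
  haveI : FiniteDimensional K⟮jFullC K N⟯ (adjoin K⟮jFullC K N⟯ S) := by
    refine finiteDimensional_adjoin fun y hy => ?_
    obtain ⟨M, hM, hMx⟩ := hint (y : LaurentSeries K) hy
    refine ⟨M.map (Polynomial.aeval (R := K)
      (⟨jFullC K N, mem_adjoin_simple_self K _⟩ : K⟮jFullC K N⟯)).toRingHom, hM.map _, ?_⟩
    rw [Polynomial.eval₂_map]
    apply Subtype.val_injective
    show E.val.toRingHom _ = E.val.toRingHom 0
    rw [map_zero, Polynomial.hom_eval₂]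
    refine (congrArg (fun f => Polynomial.eval₂ f (y : LaurentSeries K) M)
      (Polynomial.ringHom_ext (fun r => ?_) ?_)).trans hMx
    · simp only [RingHom.coe_comp, Function.comp_apply, AlgHom.toRingHom_eq_coe, RingHom.coe_coe,
        evJq, Polynomial.aeval_C]
      rfl
    · simp only [RingHom.coe_comp, Function.comp_apply, AlgHom.toRingHom_eq_coe, RingHom.coe_coe,
        evJq, Polynomial.aeval_X]
      rfl
  exact Module.Finite.equiv
    ((IntermediateField.equivOfEq htop).trans IntermediateField.topEquiv).toLinearEquiv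

/-- The base change of the field over `ℚ` is the field over `K`. -/
theorem laurentBaseChange_full (L : Type*) [Field L] [Algebra ℚ L] (N : ℕ) :
    laurentBaseChange L (modularFunctionFieldFull N) = modularFunctionFieldFullC L N := by
  apply le_antisymm
  · refine adjoin_le_iff.mpr ?_
    rintro _ ⟨x, hx, rfl⟩
    induction hx using IntermediateField.adjoin_induction with
    | mem y hy =>
      obtain ⟨d, hd0, hd, rfl⟩ := hy
      rw [coeffEmb_qExpand_jq]
      exact jqModCd_mem_full L N hd
    | algebraMap q =>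
      rw [algebraMap_laurentSeries_eq_single, coeffEmb, coeffMap_single,
        ← algebraMap_laurentSeries_eq_single]
      exact IntermediateField.algebraMap_mem _ _
    | add y z _ _ hy hz => rw [map_add]; exact add_mem hy hz
    | inv y _ hy => rw [map_inv₀]; exact inv_mem hy
    | mul y z _ _ hy hz => rw [map_mul]; exact mul_mem hy hz
  · refine adjoin_le_iff.mpr ?_
    rintro _ ⟨d, hd0, hd, rfl⟩
    rw [← coeffEmb_qExpand_jq]
    exact coeffEmb_mem_laurentBaseChange L (jqd_mem_full N hd)

end Fermat.Agent.MCurve
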