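import Fermat.Agent.MCurve.ModRing

/-!
Level `N` functions whose expansions at every cusp have coefficients in a subring `A` of `ℂ`:
invariant ones are polynomials in `j` over `A`, so all of them are integral over `A[j]`.
-/

noncomputable section

namespace Fermat.Agent.MCurve

open CongruenceSubgroup
open scoped MatrixGroups Real ModularForm Manifold

local notation "ℍ" => UpperHalfPlane
local notation "𝕢" => Function.Periodic.qParam

variable (N : ℕ) [NeZero N] (A : Subring ℂ)

/-- Holomorphic with an expansion at `∞` in `exp (2 π i τ / N)` with coefficients in `A`. -/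
def HasASeries (f : ℍ → ℂ) : Prop :=
  DifferentiableOn ℂ (f ∘ UpperHalfPlane.ofComplex) {z : ℂ | 0 < z.im} ∧
    ∃ t : LaurentSeries A, LExp (N : ℝ) f (ModularCurve.coeffMap A.subtype t)

variable {N A}

theorem exists_coeffMap_subtype_eq {s : LaurentSeries ℂ} (h : ∀ k, s.coeff k ∈ A) :
    ∃ t : LaurentSeries A, ModularCurve.coeffMap A.subtype t = s :=
  ⟨⟨fun k => ⟨s.coeff k, h k⟩, s.isPWO_support.mono fun k hk h0 => hk (Subtype.ext h0)⟩,
    HahnSeries.ext (funext fun _ => rfl)⟩

theorem HasASeries.add {f g : ℍ → ℂ} (hf : HasASeries N A f) (hg : HasASeries N A g) :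
    HasASeries N A (f + g) := by
  obtain ⟨hf1, s, hs⟩ := hf; obtain ⟨hg1, t, ht⟩ := hg
  exact ⟨hf1.add hg1, s + t, by rw [map_add]; exact hs.add ht⟩

theorem HasASeries.mul {f g : ℍ → ℂ} (hf : HasASeries N A f) (hg : HasASeries N A g) :
    HasASeries N A (f * g) := by
  obtain ⟨hf1, s, hs⟩ := hf; obtain ⟨hg1, t, ht⟩ := hg
  exact ⟨hf1.mul hg1, s * t, by rw [map_mul]; exact hs.mul ht⟩

theorem HasASeries.const (a : A) : HasASeries N A (fun _ => (a : ℂ)) := by
  refine ⟨differentiableOn_const (a : ℂ), HahnSeries.C a, ?_⟩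
  rw [show ModularCurve.coeffMap A.subtype (HahnSeries.C a) = HahnSeries.C (a : ℂ) from
    ModularCurve.coeffMap_single _ 0 a]
  exact LExp.C (h := (N : ℝ)) (a : ℂ)

theorem HasASeries.neg {f : ℍ → ℂ} (hf : HasASeries N A f) : HasASeries N A (-f) := by
  obtain ⟨hf1, s, hs⟩ := hf
  exact ⟨hf1.neg, -s, by rw [map_neg]; exact hs.neg⟩

variable (N A)

/-- The ring of functions with expansion over `A` at infinity. -/
def aSeriesRing : Subring (ℍ → ℂ) where
  carrier := {f | HasASeries N A f}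
  mul_mem' := HasASeries.mul
  one_mem' := HasASeries.const (N := N) (A := A) 1
  add_mem' := HasASeries.add
  zero_mem' := HasASeries.const (N := N) (A := A) 0
  neg_mem' := HasASeries.neg

theorem mem_aSeriesRing {f : ℍ → ℂ} : f ∈ aSeriesRing N A ↔ HasASeries N A f := Iff.rfl

theorem jFn_hasASeries : HasASeries N A jFn := by
  refine ⟨UpperHalfPlane.mdifferentiable_iff.mp mdifferentiable_jFn,
    ModularCurve.qExpand A N (ModularCurve.jqModC A), ?_⟩
  have hN : 0 < N := Nat.pos_of_ne_zero (NeZero.ne N)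
  have h := lExp_jFn_affPt (α := 1) (δ := 1) (m := N) Nat.one_pos Nat.one_pos hN
    (show 1 * N = N * 1 by ring) 0
  rw [show zetaPow 1 0 = 1 by simp [zetaPow], jSubst_one_eq_qExpand] at h
  rw [show ModularCurve.coeffMap A.subtype (ModularCurve.qExpand A N (ModularCurve.jqModC A)) =
    ModularCurve.qExpand ℂ N (ModularCurve.jqModC ℂ) from ?_]
  · refine (congrArg (fun F => LExp (N : ℝ) F _) (funext fun τ => ?_)).mp h
    congr 1
    apply UpperHalfPlane.ext
    rw [coe_affPt Nat.one_pos Nat.one_pos]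
    simp
  · ext k
    rw [ModularCurve.coeffMap_coeff]
    by_cases hk : (N : ℤ) ∣ k
    · obtain ⟨m, rfl⟩ := hk
      rw [ModularCurve.qExpand_coeff_mul, ModularCurve.qExpand_coeff_mul,
        ← ModularCurve.map_jqModC A.subtype, HahnSeries.map_coeff]
    · rw [ModularCurve.qExpand_coeff_of_not_dvd N _ hk,
        ModularCurve.qExpand_coeff_of_not_dvd N _ hk, map_zero]

theorem qParam_id (τ : ℍ) : 𝕢 1 (id τ : ℂ) = 1 * 𝕢 (N : ℝ) (τ : ℂ) ^ N := by
  rw [one_mul, Function.Periodic.qParam, Function.Periodic.qParam, ← Complex.exp_nat_mul]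
  congr 1
  have : (N : ℂ) ≠ 0 := Nat.cast_ne_zero.mpr (NeZero.ne N)
  push_cast [id]
  field_simp

theorem discriminant_hasASeries : HasASeries N A ModularForm.discriminant := by
  refine ⟨UpperHalfPlane.mdifferentiable_iff.mp (CuspFormClass.holo CuspForm.discriminant), ?_⟩
  have h1 : QExp 1 ModularForm.discriminant
      ((PowerSeries.X ^ 1 * ModularCurve.etaProd ^ 24).map (Int.castRingHom ℂ)) := by
    rw [map_mul, map_pow, map_pow, PowerSeries.map_X]
    exact ((QExp.qParam_pow 1).mul (qExp_etaFn.pow 24)).congr fun τ => by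
      simp [discriminant_eq_qParam_mul]
  have h2 := LExp.of_qExp (h1.comp (h := (N : ℝ)) (φ := id) (c := 1) (m := N)
    (Nat.pos_of_ne_zero (NeZero.ne N)) (qParam_id N))
  obtain ⟨t, ht⟩ := exists_coeffMap_subtype_eq (A := A) (s := HahnSeries.ofPowerSeries ℤ ℂ
      (PowerSeries.mk fun n => if N ∣ n then PowerSeries.coeff (n / N)
        ((PowerSeries.X ^ 1 * ModularCurve.etaProd ^ 24).map (Int.castRingHom ℂ)) *
          (1 : ℂ) ^ (n / N) else 0)) (fun k => by
    rcases le_or_gt 0 k with hk | hk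
    · lift k to ℕ using hk
      rw [HahnSeries.ofPowerSeries_apply_coeff, PowerSeries.coeff_mk]
      split_ifs
      · rw [PowerSeries.coeff_map, one_pow, mul_one]
        exact intCast_mem A _
      · exact zero_mem A
    · rw [ModularCurve.ofPowerSeries_coeff_of_neg _ hk]; exact zero_mem A)
  exact ⟨t, ht.symm ▸ h2⟩

variable {N A}

/-- A level one invariant function with an expansion over `A` is in `A[j]`. -/
theorem exists_poly_of_invariant {r : ℍ → ℂ} (hr : HasASeries N A r)
    (hinv : ∀ (γ : SL(2, ℤ)) (τ : ℍ), r (γ • τ) = r τ) :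
    ∃ p : Polynomial A, ∀ τ, r τ = p.eval₂ A.subtype (jFn τ) := by
  have hform : ∀ (a : ℕ) (s : ℍ → ℂ), HasASeries N A s →
      (∀ (γ : SL(2, ℤ)) (τ : ℍ), s (γ • τ) = s τ) →
      UpperHalfPlane.IsBoundedAtImInfty (fun τ => s τ * ModularForm.discriminant τ ^ a) →
      ∃ f : ModularForm 𝒮ℒ ((12 * a : ℕ) : ℤ), (⇑f = fun τ => s τ * ModularForm.discriminant τ ^ a) ∧
        (UpperHalfPlane.qExpansion 1 ⇑f).coeff 0 ∈ A := by
    intro a s hs hsinv hb
    have hmem : HasASeries N A (s * ModularForm.discriminant ^ a) := by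
      rw [← mem_aSeriesRing] at hs ⊢
      exact mul_mem hs (pow_mem ((mem_aSeriesRing N A).mpr (discriminant_hasASeries N A)) a)
    obtain ⟨hol, t, ht⟩ := hmem
    let f : ModularForm 𝒮ℒ ((12 * a : ℕ) : ℤ) :=
      levelOneForm (fun τ => s τ * ModularForm.discriminant τ ^ a) hol (fun γ τ => by
        have hd' : ModularForm.discriminant (γ • τ) =
          UpperHalfPlane.denom γ (τ : ℂ) ^ (12 : ℤ) * ModularForm.discriminant τ :=
          SlashInvariantForm.slash_action_eqn'' CuspForm.discriminant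
            (show Matrix.SpecialLinearGroup.mapGL ℝ γ ∈ (Matrix.SpecialLinearGroup.mapGL ℝ).range
              from ⟨γ, rfl⟩) τ
        rw [hsinv, hd', mul_pow, ← zpow_natCast (UpperHalfPlane.denom _ _ ^ (12 : ℤ)) a, ← zpow_mul]
        push_cast; ring) hb
    refine ⟨f, rfl, ?_⟩
    have hf1 : QExp 1 ⇑f (UpperHalfPlane.qExpansion 1 ⇑f) :=
      fun τ => ModularForm.hasSum_qExpansion f one_pos one_mem_strictPeriods_SL τ
    have hf2 := LExp.of_qExp (hf1.comp (h := (N : ℝ)) (φ := id) (c := 1) (m := N)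
      (Nat.pos_of_ne_zero (NeZero.ne N)) (qParam_id N))
    have h0 := congrArg (fun x : LaurentSeries ℂ => x.coeff ((0 : ℕ) : ℤ))
      (ht.unique (natCast_pos' N) hf2)
    simp only [ModularCurve.coeffMap_coeff, HahnSeries.ofPowerSeries_apply_coeff,
      PowerSeries.coeff_mk, dvd_zero, if_true, Nat.zero_div, pow_zero, mul_one] at h0
    rw [← h0]
    exact (t.coeff _).2
  suffices key : ∀ (a : ℕ) (s : ℍ → ℂ), HasASeries N A s →
      (∀ (γ : SL(2, ℤ)) (τ : ℍ), s (γ • τ) = s τ) →
      UpperHalfPlane.IsBoundedAtImInfty (fun τ => s τ * ModularForm.discriminant τ ^ a) →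
      ∃ p : Polynomial A, ∀ τ, s τ = p.eval₂ A.subtype (jFn τ) by
    obtain ⟨t, n, p, hp, -⟩ := hr.2
    refine key n r hr hinv ?_
    have hbd : UpperHalfPlane.IsBoundedAtImInfty (fun τ : ℍ => 𝕢 (N : ℝ) (τ : ℂ) ^ n * r τ) :=
      UpperHalfPlane.isBoundedAtImInfty_of_hasSum_qExpansion (natCast_pos' N) hp
    have hq : (fun τ : ℍ => ModularForm.discriminant τ) =O[UpperHalfPlane.atImInfty]
        (fun τ : ℍ => 𝕢 (N : ℝ) (τ : ℂ)) := by
      have h1 : UpperHalfPlane.IsBoundedAtImInfty (fun τ : ℍ => etaFn (𝕢 1 (τ : ℂ)) ^ 24) :=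
        UpperHalfPlane.isBoundedAtImInfty_of_hasSum_qExpansion one_pos (qExp_etaFn.pow 24)
      have h2 : UpperHalfPlane.IsBoundedAtImInfty (fun τ : ℍ => 𝕢 (N : ℝ) (τ : ℂ) ^ (N - 1)) :=
        UpperHalfPlane.isBoundedAtImInfty_of_hasSum_qExpansion (natCast_pos' N) (QExp.qParam_pow _)
      have h1' := h1.trans (Asymptotics.isBigO_of_le _ (g := fun _ : ℍ => (1 : ℂ))
        fun τ => by simp)
      have h2' := h2.trans (Asymptotics.isBigO_of_le _ (g := fun _ : ℍ => (1 : ℂ))
        fun τ => by simp)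
      have h3 := ((Asymptotics.isBigO_refl (fun τ : ℍ => 𝕢 (N : ℝ) (τ : ℂ))
        UpperHalfPlane.atImInfty).mul h2').mul h1'
      refine (h3.congr (fun τ => ?_) (fun τ => by simp)).trans (Asymptotics.isBigO_refl _ _)
      rw [← pow_succ', Nat.sub_add_cancel (Nat.pos_of_ne_zero (NeZero.ne N)),
        discriminant_eq_qParam_mul]
      congr 1
      have := qParam_id N τ
      rw [one_mul] at this
      exact this.symm
    exact ((Asymptotics.isBigO_refl r UpperHalfPlane.atImInfty).mul (hq.pow n)).trans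
      (hbd.congr_left fun τ => by ring)
  intro a
  induction a with
  | zero =>
    intro s hs hsinv hb
    obtain ⟨f, hf, hc₀⟩ := hform 0 s hs hsinv hb
    obtain ⟨c, hc⟩ := ModularFormClass.levelOne_weight_zero_const (F := ModularForm 𝒮ℒ 0)
      (show ModularForm 𝒮ℒ 0 from f)
    have h1 : QExp 1 ⇑f (PowerSeries.C c) := (QExp.C (h := 1) c).congr fun τ =>
      (congrFun hc τ).symm
    have h2 : QExp 1 ⇑f (UpperHalfPlane.qExpansion 1 ⇑f) :=
      fun τ => ModularForm.hasSum_qExpansion f one_pos one_mem_strictPeriods_SL τ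
    have hcA : c ∈ A := by
      rw [← h1.unique one_pos h2] at hc₀
      simpa using hc₀
    refine ⟨Polynomial.C ⟨c, hcA⟩, fun τ => ?_⟩
    have := congrFun (hf.symm.trans hc) τ
    simpa using this
  | succ a ih =>
    intro s hs hsinv hb
    obtain ⟨f, hf, hc₀⟩ := hform (a + 1) s hs hsinv hb
    set c₀ : A := ⟨_, hc₀⟩ with hc₀def
    let s' : ℍ → ℂ := s - (fun _ => (c₀ : ℂ)) * jFn ^ (a + 1)
    have hs' : HasASeries N A s' := by
      rw [← mem_aSeriesRing] at hs ⊢
      exact sub_mem hs (mul_mem ((mem_aSeriesRing N A).mpr (HasASeries.const c₀))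
        (pow_mem ((mem_aSeriesRing N A).mpr (jFn_hasASeries N A)) _))
    have hs'inv : ∀ (γ : SL(2, ℤ)) (τ : ℍ), s' (γ • τ) = s' τ := fun γ τ => by
      simp only [s', Pi.sub_apply, Pi.mul_apply, Pi.pow_apply, hsinv, jFn_smul]
    have hE : ∀ τ : ℍ, (c₀ : ℂ) * jFn τ ^ (a + 1) * ModularForm.discriminant τ ^ (a + 1) =
        (c₀ : ℂ) * ModularForm.E₄ τ ^ (3 * (a + 1)) := fun τ => by
      rw [mul_assoc, ← mul_pow, jFn, div_mul_cancel₀ _ (ModularForm.discriminant_ne_zero τ),
        ← pow_mul]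
    let F : ℍ → ℂ := fun τ => s' τ * ModularForm.discriminant τ ^ (a + 1)
    have hE4b : UpperHalfPlane.IsBoundedAtImInfty (fun τ : ℍ => ModularForm.E₄ τ ^ (3 * (a + 1))) :=
      UpperHalfPlane.isBoundedAtImInfty_of_hasSum_qExpansion one_pos (qExp_E₄.pow _)
    have hFb : UpperHalfPlane.IsBoundedAtImInfty F := by
      refine (hb.sub (hE4b.const_mul_left (c₀ : ℂ))).congr_left fun τ => ?_
      rw [← hE τ]
      simp only [F, s', Pi.sub_apply, Pi.mul_apply, Pi.pow_apply]
      ring
    obtain ⟨g, hg, -⟩ := hform (a + 1) s' hs' hs'inv hFb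
    have hg0 : (UpperHalfPlane.qExpansion 1 ⇑g).coeff 0 = 0 := by
      have h1 : QExp 1 ⇑g (UpperHalfPlane.qExpansion 1 ⇑f +
          (- (PowerSeries.C (c₀ : ℂ) *
            (ModularCurve.eisenstein4.map (Int.castRingHom ℂ)) ^ (3 * (a + 1))))) := by
        refine (QExp.add (fun τ => ModularForm.hasSum_qExpansion f one_pos one_mem_strictPeriods_SL τ)
          (((qExp_E₄.pow (3 * (a + 1))).const_mul (c₀ : ℂ)).neg)).congr fun τ => ?_
        simp only [Pi.add_apply, Pi.neg_apply, Pi.pow_apply, ← hE τ, hf, hg, s', Pi.sub_apply,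
          Pi.mul_apply]
        ring
      have h2 : QExp 1 ⇑g (UpperHalfPlane.qExpansion 1 ⇑g) :=
        fun τ => ModularForm.hasSum_qExpansion g one_pos one_mem_strictPeriods_SL τ
      rw [h2.unique one_pos h1, map_add, map_neg, PowerSeries.coeff_C_mul,
        ← map_pow (PowerSeries.map (Int.castRingHom ℂ)), PowerSeries.coeff_map]
      simp [PowerSeries.coeff_zero_eq_constantCoeff, hc₀def]
    have hdecay := CuspForm.exp_decay_isBigO_discriminant (ModularForm.toCuspForm g hg0)
    have hs'b : UpperHalfPlane.IsBoundedAtImInfty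
        (fun τ => s' τ * ModularForm.discriminant τ ^ a) := by
      have := hdecay.mul (Asymptotics.isBigO_refl (fun τ => (ModularForm.discriminant τ)⁻¹)
        UpperHalfPlane.atImInfty)
      refine (this.congr (fun τ => ?_) fun τ => mul_inv_cancel₀
        (ModularForm.discriminant_ne_zero τ)).trans
        (Asymptotics.isBigO_of_le _ fun τ => by simp)
      show (⇑g) τ * _ = _
      rw [hg]
      simp only [pow_succ, ← mul_assoc]
      rw [mul_assoc _ (ModularForm.discriminant τ),
        mul_inv_cancel₀ (ModularForm.discriminant_ne_zero τ), mul_one]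
    obtain ⟨p, hp⟩ := ih s' hs' hs'inv hs'b
    refine ⟨p + Polynomial.C c₀ * Polynomial.X ^ (a + 1), fun τ => ?_⟩
    rw [Polynomial.eval₂_add, ← hp τ]
    simp [s']

variable (N A)

/-- `Γ(N)`-invariant functions all of whose translates have expansions over `A`. -/
def levelRing : Subring (ℍ → ℂ) where
  carrier := {f | (∀ γ ∈ Gamma N, ∀ τ : ℍ, f (γ • τ) = f τ) ∧
    ∀ γ : SL(2, ℤ), HasASeries N A (fun τ => f (γ • τ))}
  mul_mem' := fun hf hg => ⟨fun γ hγ τ => by simp only [Pi.mul_apply, hf.1 γ hγ, hg.1 γ hγ],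
    fun γ => (hf.2 γ).mul (hg.2 γ)⟩
  one_mem' := ⟨fun _ _ _ => rfl, fun _ => HasASeries.const (N := N) (A := A) 1⟩
  add_mem' := fun hf hg => ⟨fun γ hγ τ => by simp only [Pi.add_apply, hf.1 γ hγ, hg.1 γ hγ],
    fun γ => (hf.2 γ).add (hg.2 γ)⟩
  zero_mem' := ⟨fun _ _ _ => rfl, fun _ => HasASeries.const (N := N) (A := A) 0⟩
  neg_mem' := fun hf => ⟨fun γ hγ τ => by simp only [Pi.neg_apply, hf.1 γ hγ],
    fun γ => (hf.2 γ).neg⟩

theorem mem_levelRing {f : ℍ → ℂ} : f ∈ levelRing N A ↔
    (∀ γ ∈ Gamma N, ∀ τ : ℍ, f (γ • τ) = f τ) ∧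
    ∀ γ : SL(2, ℤ), HasASeries N A (fun τ => f (γ • τ)) := Iff.rfl

theorem jFn_mem_levelRing : jFn ∈ levelRing N A :=
  ⟨fun γ _ τ => jFn_smul γ τ, fun γ => by
    rw [show (fun τ => jFn (γ • τ)) = jFn from funext (jFn_smul γ)]; exact jFn_hasASeries N A⟩

variable {N A}

/-- The expansion at infinity. -/
theorem exists_series (f : levelRing N A) :
    ∃ t : LaurentSeries A, LExp (N : ℝ) (f : ℍ → ℂ) (ModularCurve.coeffMap A.subtype t) := by
  have := (f.2.2 1).2
  simp only [one_smul] at this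
  exact this

theorem coeffMap_subtype_injective : Function.Injective (ModularCurve.coeffMap A.subtype) :=
  fun _ _ h => HahnSeries.ext (funext fun k =>
    Subtype.ext (congrArg (fun s : LaurentSeries ℂ => s.coeff k) h))

theorem exists_series_eq {f : levelRing N A} {t : LaurentSeries A}
    (ht : LExp (N : ℝ) (f : ℍ → ℂ) (ModularCurve.coeffMap A.subtype t)) :
    (exists_series f).choose = t :=
  coeffMap_subtype_injective ((exists_series f).choose_spec.unique (natCast_pos' N) ht)

variable (N A)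

/-- The expansion at infinity as a ring homomorphism. -/
def aExp : levelRing N A →+* LaurentSeries A where
  toFun f := (exists_series f).choose
  map_one' := exists_series_eq (by
    rw [map_one, ← map_one (HahnSeries.C : ℂ →+* LaurentSeries ℂ)]; exact LExp.C (h := (N : ℝ)) 1)
  map_mul' f g := exists_series_eq (by
    rw [map_mul]; exact (exists_series f).choose_spec.mul (exists_series g).choose_spec)
  map_zero' := exists_series_eq (by
    rw [map_zero, ← map_zero (HahnSeries.C : ℂ →+* LaurentSeries ℂ)]; exact LExp.C (h := (N : ℝ)) 0)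
  map_add' f g := exists_series_eq (by
    rw [map_add]; exact (exists_series f).choose_spec.add (exists_series g).choose_spec)

theorem lExp_aExp (f : levelRing N A) :
    LExp (N : ℝ) (f : ℍ → ℂ) (ModularCurve.coeffMap A.subtype (aExp N A f)) :=
  (exists_series f).choose_spec

/-- Translation. -/
def translate (γ : SL(2, ℤ)) : levelRing N A →+* levelRing N A where
  toFun f := ⟨fun τ => (f : ℍ → ℂ) (γ • τ), fun δ hδ τ => by
      show (f : ℍ → ℂ) (γ • δ • τ) = (f : ℍ → ℂ) (γ • τ)
      have := f.2.1 (γ * δ * γ⁻¹) ((Gamma_normal N).conj_mem δ hδ γ) (γ • τ)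
      rwa [mul_smul, inv_smul_smul, mul_smul] at this,
    fun δ => by simpa only [mul_smul] using f.2.2 (γ * δ)⟩
  map_one' := rfl
  map_mul' _ _ := rfl
  map_zero' := rfl
  map_add' _ _ := rfl

theorem coe_translate (γ : SL(2, ℤ)) (f : levelRing N A) :
    (translate N A γ f : ℍ → ℂ) = fun τ => (f : ℍ → ℂ) (γ • τ) := rfl

theorem translate_mul (γ δ : SL(2, ℤ)) (f : levelRing N A) :
    translate N A (γ * δ) f = translate N A δ (translate N A γ f) :=
  Subtype.ext (funext fun τ => by simp only [coe_translate, mul_smul])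

theorem translate_of_mem_Gamma {γ : SL(2, ℤ)} (hγ : γ ∈ Gamma N) (f : levelRing N A) :
    translate N A γ f = f :=
  Subtype.ext (funext fun τ => f.2.1 γ hγ τ)

theorem translate_one (f : levelRing N A) : translate N A 1 f = f :=
  translate_of_mem_Gamma N A (one_mem _) f

/-- Constants and `j` as a map from polynomials. -/
def jEval : Polynomial A →+* levelRing N A :=
  Polynomial.eval₂RingHom
    ({ toFun := fun a => ⟨fun _ => (a : ℂ), fun _ _ _ => rfl, fun _ => HasASeries.const a⟩
       map_one' := rfl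
       map_mul' := fun _ _ => rfl
       map_zero' := rfl
       map_add' := fun _ _ => rfl } : A →+* levelRing N A)
    ⟨jFn, jFn_mem_levelRing N A⟩

theorem coe_jEval (p : Polynomial A) (τ : ℍ) :
    (jEval N A p : ℍ → ℂ) τ = p.eval₂ A.subtype (jFn τ) := by
  induction p using Polynomial.induction_on' with
  | add p q hp hq => rw [map_add, Polynomial.eval₂_add, ← hp, ← hq]; rfl
  | monomial n a =>
    rw [jEval, Polynomial.coe_eval₂RingHom, Polynomial.eval₂_monomial, Polynomial.eval₂_monomial]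
    rfl

theorem exists_jEval_eq {f : levelRing N A} (hf : ∀ γ : SL(2, ℤ), translate N A γ f = f) :
    ∃ p : Polynomial A, f = jEval N A p := by
  have h1 : HasASeries N A (f : ℍ → ℂ) := by simpa only [one_smul] using f.2.2 1
  obtain ⟨p, hp⟩ := exists_poly_of_invariant h1 fun γ τ =>
    congrFun (congrArg Subtype.val (hf γ)) τ
  exact ⟨p, Subtype.ext (funext fun τ => by rw [hp τ, coe_jEval])⟩

/-- Every element is integral over `A[j]`. -/
theorem isIntegralElem_jEval (f : levelRing N A) : (jEval N A).IsIntegralElem f := by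
  classical
  haveI : Fintype (SL(2, ℤ) ⧸ Gamma N) := Fintype.ofFinite _
  set P : Polynomial (levelRing N A) := ∏ q : SL(2, ℤ) ⧸ Gamma N,
    (Polynomial.X - Polynomial.C (translate N A q.out f)) with hP
  have hmonic : P.Monic := Polynomial.monic_prod_of_monic _ _ fun q _ => Polynomial.monic_X_sub_C _
  have hinv : ∀ γ : SL(2, ℤ), P.map (translate N A γ) = P := by
    intro γ
    have hb : Function.Bijective
        (fun q : SL(2, ℤ) ⧸ Gamma N => ((q.out * γ : SL(2, ℤ)) : SL(2, ℤ) ⧸ Gamma N)) := by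
      haveI := Gamma_normal N
      refine ⟨fun a b hab => ?_, fun q => ⟨((q.out * γ⁻¹ : SL(2, ℤ)) : SL(2, ℤ) ⧸ Gamma N), ?_⟩⟩
      · have h2 : (a.out : SL(2, ℤ) ⧸ Gamma N) * (γ : SL(2, ℤ) ⧸ Gamma N) =
            (b.out : SL(2, ℤ) ⧸ Gamma N) * (γ : SL(2, ℤ) ⧸ Gamma N) := by
          rw [← QuotientGroup.mk_mul, ← QuotientGroup.mk_mul]; exact hab
        simpa using mul_right_cancel h2
      · show ((Quotient.out _ * γ : SL(2, ℤ)) : SL(2, ℤ) ⧸ Gamma N) = q
        rw [QuotientGroup.mk_mul, QuotientGroup.out_eq', ← QuotientGroup.mk_mul,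
          inv_mul_cancel_right, QuotientGroup.out_eq']
    rw [hP, Polynomial.map_prod]
    refine Fintype.prod_bijective _ hb _ _ fun q => ?_
    rw [Polynomial.map_sub, Polynomial.map_X, Polynomial.map_C, ← translate_mul]
    congr 2
    obtain ⟨⟨h, hh⟩, hh'⟩ := QuotientGroup.mk_out_eq_mul (Gamma N) (q.out * γ)
    rw [hh', translate_mul N A (q.out * γ) h, translate_of_mem_Gamma N A hh, translate_mul]
  have hlift : P ∈ Polynomial.lifts (jEval N A) :=
    (Polynomial.lifts_iff_coeff_lifts P).mpr fun i => by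
      obtain ⟨p, hp⟩ := exists_jEval_eq N A (f := P.coeff i) fun γ => by
        rw [← Polynomial.coeff_map, hinv]
      exact ⟨p, hp.symm⟩
  obtain ⟨p, hp, -, hpm⟩ := Polynomial.lifts_and_natDegree_eq_and_monic hlift hmonic
  refine ⟨p, hpm, ?_⟩
  rw [Polynomial.eval₂_eq_eval_map, hp, hP, Polynomial.eval_prod]
  refine Finset.prod_eq_zero (Finset.mem_univ ((1 : SL(2, ℤ)) : SL(2, ℤ) ⧸ Gamma N)) ?_
  obtain ⟨⟨h, hh⟩, hh'⟩ := QuotientGroup.mk_out_eq_mul (Gamma N) (1 : SL(2, ℤ))
  rw [hh', one_mul, translate_of_mem_Gamma N A hh]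
  simp

end Fermat.Agent.MCurve
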