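import Fermat.Agent.MCurve.PointPlace
import Fermat.Agent.MCurve.CuspPlace
import Fermat.Agent.Period.CosetCount

/-!
Number of places of `X₀(N)` over each point of the `j`-line.
-/

noncomputable section

namespace Fermat.Agent.MCurve

open AlgebraicCurve IntermediateField CongruenceSubgroup ModularGroup UpperHalfPlane
open scoped MatrixGroups Pointwise Real

open Fermat.Agent.Period (Coset fixCard ellU)

theorem card_orbits_of_prime {X : Type*} [Finite X] {G : Type*} [Group G] [MulAction G X] (σ : G)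
    {r : ℕ} (hr : r.Prime) (h : ∀ q : X, σ ^ r • q = q) :
    r * Nat.card (MulAction.orbitRel.Quotient (Subgroup.zpowers σ) X) =
      Nat.card X + (r - 1) * Nat.card {q : X // σ • q = q} := by
  classical
  haveI := Fintype.ofFinite X
  set Ω := MulAction.orbitRel.Quotient (Subgroup.zpowers σ) X
  haveI : Fintype Ω := Fintype.ofFinite _
  have hmk : ∀ x : X, Nat.card {y : X // (Quotient.mk'' y : Ω) = Quotient.mk'' x} =
      if σ • x = x then 1 else r := by
    intro x
    haveI : Fintype (MulAction.orbit (Subgroup.zpowers σ) x) := Fintype.ofFinite _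
    have horb : Nat.card {y : X // (Quotient.mk'' y : Ω) = Quotient.mk'' x} =
        Function.minimalPeriod (σ • ·) x := by
      rw [MulAction.minimalPeriod_eq_card, ← Nat.card_eq_fintype_card]
      exact Nat.card_congr (Equiv.subtypeEquivRight fun y => by
        rw [Quotient.eq'', MulAction.orbitRel_apply])
    rw [horb]
    split_ifs with hx
    · exact Function.minimalPeriod_eq_one_iff_isFixedPt.mpr hx
    · have hdvd : Function.minimalPeriod (σ • ·) x ∣ r := by
        apply Function.IsPeriodicPt.minimalPeriod_dvd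
        rw [Function.IsPeriodicPt, Function.IsFixedPt, smul_iterate]
        exact h x
      exact ((Nat.dvd_prime hr).mp hdvd).resolve_left fun h1 =>
        hx (Function.minimalPeriod_eq_one_iff_isFixedPt.mp h1)
  have hsum : Nat.card X = ∑ o : Ω, Nat.card {y : X // (Quotient.mk'' y : Ω) = o} := by
    rw [← Nat.card_sigma, Nat.card_congr (Equiv.sigmaFiberEquiv _)]
  have hfixsum : Nat.card {q : X // σ • q = q} =
      ∑ o : Ω, (if σ • o.out = o.out then 1 else 0) := by
    rw [← Finset.card_filter, Nat.card_eq_fintype_card, Fintype.card_subtype]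
    refine Finset.card_bij (fun x _ => (Quotient.mk'' x : Ω)) (fun x hx => ?_) (fun x hx y hy hxy => ?_)
      (fun o ho => ⟨o.out, by simpa using (Finset.mem_filter.mp ho).2, Quotient.out_eq o⟩)
    · simp only [Finset.mem_filter, Finset.mem_univ, true_and] at hx ⊢
      have hm := hmk x
      rw [if_pos hx, Nat.card_eq_one_iff_unique] at hm
      obtain ⟨hss, -⟩ := hm
      have : (Quotient.mk'' x : Ω).out = x :=
        congrArg Subtype.val (hss.elim ⟨(Quotient.mk'' x : Ω).out, Quotient.out_eq _⟩ ⟨x, rfl⟩)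
      rw [this]; exact hx
    · simp only [Finset.mem_filter, Finset.mem_univ, true_and] at hy
      have hm := hmk y
      rw [if_pos hy, Nat.card_eq_one_iff_unique] at hm
      exact congrArg Subtype.val (hm.1.elim ⟨x, hxy⟩ ⟨y, rfl⟩)
  rw [hsum, hfixsum, Nat.card_eq_fintype_card (α := Ω), Fintype.card_eq_sum_ones, Finset.mul_sum,
    Finset.mul_sum, ← Finset.sum_add_distrib]
  refine Finset.sum_congr rfl fun o _ => ?_
  have := hmk o.out
  rw [show (Quotient.mk'' o.out : Ω) = o from Quotient.out_eq o] at this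
  rw [this]
  have := hr.one_lt
  split_ifs <;> omega

variable (N : ℕ) [NeZero N] (K : Type*) [Field K] [Algebra K ℂ] [IsAlgClosed K] [CharZero K]

omit [CharZero K] in
theorem fldAct_eq_one_mem {γ : SL(2, ℤ)} (h : fldAct N K γ = 1) : ((γ 1 0 : ℤ) : ZMod N) = 0 :=
  Gamma0_mem.mp (ker_fldAct_le N K (MonoidHom.mem_ker.mpr h))

theorem orderOf_S : N = 1 ∨ 2 ≤ orderOf (fldAct N K S) := by
  rcases eq_or_ne N 1 with hN | hN
  · exact Or.inl hN
  refine Or.inr ?_
  haveI : Fact (1 < N) := ⟨by have := NeZero.ne N; omega⟩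
  have hpos : 0 < orderOf (fldAct N K S) := by
    have h := orderOf_pos (⟨fldAct N K S, S, rfl⟩ : fullGp N K)
    rwa [← orderOf_injective (fullGp N K).subtype (fullGp N K).subtype_injective] at h
  have hne : orderOf (fldAct N K S) ≠ 1 := fun h => by
    have := fldAct_eq_one_mem N K (orderOf_eq_one_iff.mp h)
    simp [coe_S] at this
  omega

theorem orderOf_ellU : N = 1 ∨ 3 ≤ orderOf (fldAct N K ellU) := by
  rcases eq_or_ne N 1 with hN | hN
  · exact Or.inl hN
  refine Or.inr ?_
  haveI : Fact (1 < N) := ⟨by have := NeZero.ne N; omega⟩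
  have hpos : 0 < orderOf (fldAct N K ellU) := by
    have h := orderOf_pos (⟨fldAct N K ellU, ellU, rfl⟩ : fullGp N K)
    rwa [← orderOf_injective (fullGp N K).subtype (fullGp N K).subtype_injective] at h
  have hne : orderOf (fldAct N K ellU) ≠ 1 := fun h => by
    have := fldAct_eq_one_mem N K (orderOf_eq_one_iff.mp h)
    simp [Fermat.Agent.Period.coe_ellU] at this
  have hne2 : orderOf (fldAct N K ellU) ≠ 2 := fun h => by
    have h2 := pow_orderOf_eq_one (fldAct N K ellU)
    rw [h, ← map_pow] at h2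
    have := fldAct_eq_one_mem N K h2
    simp [pow_two, Matrix.SpecialLinearGroup.coe_mul, Fermat.Agent.Period.coe_ellU,
      Matrix.mul_apply, Fin.sum_univ_two] at this
  omega

theorem card_fibre_point (τ : ℍ) (c : K) (hτ : jFn τ = algebraMap K ℂ c) (σ : SL(2, ℤ))
    (hσ : σ • τ = τ) (r : ℕ)
    (hr : analyticOrderNatAt ((fun z => jFn z - algebraMap K ℂ c) ∘ ofComplex) (τ : ℂ) ≤ r)
    (hord : N = 1 ∨ r ≤ orderOf (fldAct N K σ)) :
    Nat.card {v : Place K (fixFld N K) // 0 < v.ord ((⟨jL N K, jL_mem_fixFld N K⟩ : fixFld N K) -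
      algebraMap K (fixFld N K) c)} =
      Nat.card (MulAction.orbitRel.Quotient (Subgroup.zpowers σ) (Coset N)) := by
  obtain ⟨P, hP, hle, hstabτ⟩ := exists_point_place (N := N) (K := K) τ c hτ
  refine card_fibre N K (isFinOver_jL N K) (fixedField_fullGp N K) (jL_mem_fixFld N K) c P hP σ
    (hstabτ σ hσ) ?_
  rcases hord with rfl | hord
  · intro γ _ q
    haveI : Subsingleton (Coset 1) := by
      rw [show (Coset 1) = (SL(2, ℤ) ⧸ Gamma0 1) from rfl]
      refine ⟨fun a b => ?_⟩
      induction a using QuotientGroup.induction_on with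
      | _ a =>
      induction b using QuotientGroup.induction_on with
      | _ b => exact QuotientGroup.eq.mpr (Gamma0_mem.mpr (Subsingleton.elim _ _))
    exact ⟨0, Subsingleton.elim _ _⟩
  · refine coset_action_of_card_stab N K (hstabτ σ hσ) (le_trans ?_ hord)
    obtain ⟨-, hstab⟩ :=
      (isFinOver_jL N K).galois_fibre (fullGp N K) (fixedField_fullGp N K) c P hP
    have h1 : (Nat.card (MulAction.stabilizer (fullGp N K) P) : ℤ) ≤ (r : ℤ) :=
      hstab.trans_le (hle.trans (by exact_mod_cast hr))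
    exact_mod_cast h1

theorem deriv_jFn (τ : ℍ) : deriv (jFn ∘ ofComplex) (τ : ℂ) =
    -(2 * π * Complex.I) * (ModularForm.E₄ τ ^ 2 * ModularForm.E₆ τ) / ModularForm.discriminant τ :=
  (Fermat.Agent.Period.hasDerivAt_jFun τ).deriv

theorem analyticOrder_generic {τ : ℍ} {w : ℂ} (hw : jFn τ = w) (h4 : ModularForm.E₄ τ ≠ 0)
    (h6 : ModularForm.E₆ τ ≠ 0) :
    analyticOrderNatAt ((fun z => jFn z - w) ∘ ofComplex) (τ : ℂ) ≤ 1 := by
  have han := analyticAt_of_differentiableOn
    (UpperHalfPlane.mdifferentiable_iff.mp mdifferentiable_jFn) τ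
  have h1 := han.analyticOrderAt_sub_eq_one_of_deriv_ne_zero (by
    rw [deriv_jFn]
    exact div_ne_zero (mul_ne_zero (neg_ne_zero.mpr Complex.two_pi_I_ne_zero)
      (mul_ne_zero (pow_ne_zero _ h4) h6)) (ModularForm.discriminant_ne_zero τ))
  rw [Function.comp_apply, ofComplex_apply, hw] at h1
  rw [analyticOrderNatAt, show ((fun z => jFn z - w) ∘ ofComplex : ℂ → ℂ) =
    fun z => (jFn ∘ ofComplex) z - w from rfl, h1]
  simp

theorem analyticOrder_div_discriminant {F : ℍ → ℂ}
    (hF : MDifferentiable (modelWithCornersSelf ℂ ℂ) (modelWithCornersSelf ℂ ℂ) F) {τ : ℍ}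
    (hF0 : F τ = 0) (hF' : deriv (F ∘ ofComplex) (τ : ℂ) ≠ 0) (r : ℕ) :
    analyticOrderNatAt ((fun z => F z ^ r / ModularForm.discriminant z) ∘ ofComplex) (τ : ℂ) = r := by
  have hFa := analyticAt_of_differentiableOn (UpperHalfPlane.mdifferentiable_iff.mp hF) τ
  have hΔa : AnalyticAt ℂ (ModularForm.discriminant ∘ ofComplex) (τ : ℂ) :=
    analyticAt_of_differentiableOn (UpperHalfPlane.mdifferentiable_iff.mp
    (CuspFormClass.holo CuspForm.discriminant)) τ
  have hΔ0 : ((ModularForm.discriminant) ∘ ofComplex) (τ : ℂ) ≠ 0 := by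
    rw [Function.comp_apply, ofComplex_apply]; exact ModularForm.discriminant_ne_zero τ
  have h1 : analyticOrderAt (F ∘ ofComplex) (τ : ℂ) = 1 :=
    hFa.analyticOrderAt_eq_one_of_zero_deriv_ne_zero
      (by rw [Function.comp_apply, ofComplex_apply]; exact hF0) hF'
  have h2 : analyticOrderAt ((ModularForm.discriminant ∘ ofComplex)⁻¹) (τ : ℂ) = 0 :=
    analyticOrderAt_eq_zero.mpr (Or.inr (by simpa using hΔ0))
  rw [show ((fun z => F z ^ r / ModularForm.discriminant z) ∘ ofComplex : ℂ → ℂ) =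
    (F ∘ ofComplex) ^ r * (ModularForm.discriminant ∘ ofComplex)⁻¹ by
      funext z; simp [div_eq_mul_inv], analyticOrderNatAt,
    analyticOrderAt_mul (hFa.pow r) (hΔa.inv hΔ0), analyticOrderAt_pow hFa, h1, h2, add_zero]
  simp

theorem card_fibre_generic (c : K) (h0 : c ≠ 0) (h1728 : c ≠ 1728) :
    Nat.card {v : Place K (fixFld N K) // 0 < v.ord ((⟨jL N K, jL_mem_fixFld N K⟩ : fixFld N K) -
      algebraMap K (fixFld N K) c)} = Nat.card (Coset N) := by
  obtain ⟨τ, hτ⟩ := exists_jFn_eq (algebraMap K ℂ c)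
  have h4 : ModularForm.E₄ τ ≠ 0 := fun h => h0 ((algebraMap K ℂ).injective (by
    rw [map_zero, ← hτ, jFn, h]; simp))
  have h6 : ModularForm.E₆ τ ≠ 0 := fun h => h1728 ((algebraMap K ℂ).injective (by
    have h' := Fermat.Agent.Period.E4_cube_sub_E6_sq τ
    rw [h] at h'
    rw [map_ofNat, ← hτ, jFn, div_eq_iff (ModularForm.discriminant_ne_zero τ)]
    linear_combination h'))
  rw [card_fibre_point N K τ c hτ 1 (one_smul _ τ) 1 (analyticOrder_generic hτ h4 h6)
    (Or.inr (by rw [map_one, orderOf_one]))]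
  refine (Nat.card_eq_of_bijective
    (fun q : Coset N => (Quotient.mk'' q :
      MulAction.orbitRel.Quotient (Subgroup.zpowers (1 : SL(2, ℤ))) (Coset N)))
    ⟨fun a b hab => ?_, Quotient.mk''_surjective⟩).symm
  obtain ⟨⟨g, hg⟩, rfl⟩ := Quotient.exact' hab
  rw [Subgroup.zpowers_one_eq_bot, Subgroup.mem_bot] at hg
  subst hg
  exact one_smul _ _

theorem card_fibre_rho :
    3 * Nat.card {v : Place K (fixFld N K) // 0 < v.ord ((⟨jL N K, jL_mem_fixFld N K⟩ : fixFld N K) -
      algebraMap K (fixFld N K) 0)} = Nat.card (Coset N) + 2 * fixCard N ellU := by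
  have hE := Fermat.Agent.Period.E4_ρ
  have h6 := Fermat.Agent.Period.not_common_zero _ hE
  have hτ : jFn ρ = algebraMap K ℂ 0 := by rw [map_zero, jFn, hE]; simp
  have hd : deriv ((ModularForm.E₄ : ℍ → ℂ) ∘ ofComplex) (ρ : ℂ) ≠ 0 := by
    rw [(Fermat.Agent.Period.hasDerivAt_of_D (ModularFormClass.holo ModularForm.E₄) ρ).deriv,
      Fermat.Agent.Period.D_E4, hE, mul_zero, zero_sub]
    exact mul_ne_zero Complex.two_pi_I_ne_zero (mul_ne_zero (by norm_num) (neg_ne_zero.mpr h6))
  have hr : analyticOrderNatAt ((fun z => jFn z - algebraMap K ℂ 0) ∘ ofComplex) (ρ : ℂ) ≤ 3 := by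
    rw [show (fun z => jFn z - algebraMap K ℂ 0) =
      fun z => ModularForm.E₄ z ^ 3 / ModularForm.discriminant z by
        funext z; rw [map_zero, sub_zero]; rfl]
    exact (analyticOrder_div_discriminant (ModularFormClass.holo ModularForm.E₄) hE hd 3).le
  rw [card_fibre_point N K ρ 0 hτ ellU Fermat.Agent.Period.ellU_smul_ρ 3 hr (orderOf_ellU N K)]
  exact card_orbits_of_prime ellU Nat.prime_three fun q => by
    rw [pow_succ, pow_two, mul_smul, mul_smul]; exact Fermat.Agent.Period.ellU_smul_cube q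

theorem card_fibre_I :
    2 * Nat.card {v : Place K (fixFld N K) // 0 < v.ord ((⟨jL N K, jL_mem_fixFld N K⟩ : fixFld N K) -
      algebraMap K (fixFld N K) 1728)} = Nat.card (Coset N) + fixCard N S := by
  have hE := Fermat.Agent.Period.E6_I
  have h4 : ModularForm.E₄ UpperHalfPlane.I ≠ 0 := fun h =>
    Fermat.Agent.Period.not_common_zero _ h hE
  have hj : ∀ z, jFn z - 1728 = ModularForm.E₆ z ^ 2 / ModularForm.discriminant z := fun z => by
    have h' := Fermat.Agent.Period.E4_cube_sub_E6_sq z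
    rw [jFn, sub_eq_iff_eq_add, div_add' _ _ _ (ModularForm.discriminant_ne_zero z)]
    congr 1
    linear_combination h'
  have hτ : jFn UpperHalfPlane.I = algebraMap K ℂ 1728 := by
    rw [map_ofNat, ← sub_eq_zero, hj, hE]; simp
  have hd : deriv ((ModularForm.E₆ : ℍ → ℂ) ∘ ofComplex) (UpperHalfPlane.I : ℂ) ≠ 0 := by
    rw [(Fermat.Agent.Period.hasDerivAt_of_D (ModularFormClass.holo ModularForm.E₆)
      UpperHalfPlane.I).deriv, Fermat.Agent.Period.D_E6, hE, mul_zero, zero_sub]
    exact mul_ne_zero Complex.two_pi_I_ne_zero (mul_ne_zero (by norm_num)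
      (neg_ne_zero.mpr (pow_ne_zero _ h4)))
  have hr : analyticOrderNatAt ((fun z => jFn z - algebraMap K ℂ 1728) ∘ ofComplex)
      (UpperHalfPlane.I : ℂ) ≤ 2 := by
    rw [show (fun z => jFn z - algebraMap K ℂ 1728) =
      fun z => ModularForm.E₆ z ^ 2 / ModularForm.discriminant z by
        funext z; rw [map_ofNat]; exact hj z]
    exact (analyticOrder_div_discriminant (ModularFormClass.holo ModularForm.E₆) hE hd 2).le
  have hS : (S : SL(2, ℤ)) • UpperHalfPlane.I = UpperHalfPlane.I := by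
    rw [modular_S_smul]
    apply UpperHalfPlane.ext
    simp [Complex.inv_I]
  rw [card_fibre_point N K UpperHalfPlane.I 1728 hτ S hS 2 hr (orderOf_S N K)]
  exact (card_orbits_of_prime S Nat.prime_two fun q => by
    rw [pow_two, mul_smul]; exact Fermat.Agent.Period.S_smul_S q).trans (by simp [fixCard])

end Fermat.Agent.MCurve
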