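import Fermat.Agent.MCurve.ModField
import Fermat.Agent.MCurve.PlaceFibre
import Fermat.Agent.Period.Coset

/-!
Places of `X₀(N)` over a point of the `j`-line as orbits on `SL(2,ℤ)/Γ₀(N)`.
-/

noncomputable section

namespace Fermat.Agent.MCurve

open AlgebraicCurve IntermediateField CongruenceSubgroup
open scoped MatrixGroups Pointwise

variable (N : ℕ) [NeZero N] (K : Type*) [Field K] [Algebra K ℂ] [IsAlgClosed K] [CharZero K]

open Fermat.Agent.Period (Coset)

theorem card_fibre {x : ModFld N K} (hfin : IsFinOver K x)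
    (hfix : IntermediateField.fixedField (fullGp N K) = K⟮x⟯) (hx : x ∈ fixFld N K) (c : K)
    (P : Place K (ModFld N K)) (hP : 0 < P.ord (x - algebraMap K (ModFld N K) c))
    (σ : SL(2, ℤ)) (hσ : fldAct N K σ • P = P)
    (hstab : ∀ γ : SL(2, ℤ), fldAct N K γ • P = P → ∀ q : Coset N, ∃ k : ℤ, γ • q = σ ^ k • q) :
    Nat.card {v : Place K (fixFld N K) //
        0 < v.ord ((⟨x, hx⟩ : fixFld N K) - algebraMap K (fixFld N K) c)} =
      Nat.card (MulAction.orbitRel.Quotient (Subgroup.zpowers σ) (Coset N)) := by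
  classical
  haveI : FiniteDimensional (fixFld N K) (ModFld N K) := Module.finite_of_finrank_pos (by
    rw [show Module.finrank (fixFld N K) (ModFld N K) = Nat.card (gamma0Gp N K) from
      finrank_fixedField_gp N K _]
    exact Nat.card_pos)
  haveI : Algebra.IsIntegral (fixFld N K) (ModFld N K) := Algebra.IsIntegral.of_finite _ _
  set y : fixFld N K := (⟨x, hx⟩ : fixFld N K) - algebraMap K (fixFld N K) c with hy
  have hyL : (y : ModFld N K) = x - algebraMap K (ModFld N K) c := rfl
  have hsmulmem : ∀ (γ : SL(2, ℤ)) (z : ModFld N K),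
      z ∈ (fldAct N K γ • P).toValuationSubring ↔
        fldAct N K γ⁻¹ z ∈ P.toValuationSubring := fun γ z => by
    rw [mem_smul_toValuationSubring, map_inv]
  have hres : ∀ (Q : Place K (ModFld N K)) (h : SL(2, ℤ)), h ∈ Gamma0 N →
      (fldAct N K h • Q).restrict (fixFld N K) = Q.restrict (fixFld N K) := by
    intro Q h hh
    refine place_eq_of_le fun f hf => ?_
    rw [Place.mem_restrict_iff] at hf ⊢
    rw [mem_smul_toValuationSubring, ← map_inv] at hf
    have hh' : fldAct N K h⁻¹ (algebraMap (fixFld N K) (ModFld N K) f) =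
        algebraMap (fixFld N K) (ModFld N K) f := (mem_fixFld N K).mp f.2 h⁻¹ (inv_mem hh)
    rwa [hh'] at hf
  have hpos : ∀ Q : Place K (ModFld N K),
      0 < (Q.restrict (fixFld N K)).ord y ↔ 0 < Q.ord (y : ModFld N K) := by
    intro Q
    have := Q.ord_restrict y
    have he := Q.ramificationIndex_pos (F := fixFld N K)
    rw [show algebraMap (fixFld N K) (ModFld N K) y = (y : ModFld N K) from rfl] at this
    rw [this]
    exact ⟨fun h => mul_pos (by exact_mod_cast he) h,
      fun h => (pos_iff_pos_of_mul_pos h).mp (by exact_mod_cast he)⟩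
  have hxfix : ∀ γ : SL(2, ℤ), fldAct N K γ x = x := fun γ =>
    (mem_fixedField_iff (fullGp N K) x).mp (hfix.symm ▸ mem_adjoin_simple_self K x) _ ⟨γ, rfl⟩
  have hPγ : ∀ γ : SL(2, ℤ), 0 < (fldAct N K γ • P).ord (x - algebraMap K (ModFld N K) c) := by
    intro γ
    rw [ord_smul_place, ← map_inv, map_sub, AlgEquiv.commutes, hxfix]
    exact hP
  let Φ : SL(2, ℤ) → {v : Place K (fixFld N K) // 0 < v.ord y} := fun g =>
    ⟨(fldAct N K g⁻¹ • P).restrict (fixFld N K), (hpos _).mpr (hPγ g⁻¹)⟩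
  have hcong : ∀ g g' : SL(2, ℤ), (g : Coset N) = (g' : Coset N) → Φ g = Φ g' := by
    intro g g' h
    rw [QuotientGroup.eq] at h
    refine Subtype.ext ?_
    show (fldAct N K g⁻¹ • P).restrict (fixFld N K) = (fldAct N K g'⁻¹ • P).restrict (fixFld N K)
    rw [show g⁻¹ = (g⁻¹ * g') * g'⁻¹ by group, map_mul, mul_smul, hres _ _ h]
  obtain ⟨hconj, -⟩ := hfin.galois_fibre (fullGp N K) hfix c P hP
  let Ψ : Coset N → {v : Place K (fixFld N K) // 0 < v.ord y} := fun q => Φ q.out
  have hΨ : ∀ g : SL(2, ℤ), Ψ (g : Coset N) = Φ g := fun g => hcong _ _ (QuotientGroup.out_eq' _)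
  have hzpow : ∀ k : ℤ, fldAct N K (σ ^ k) • P = P := fun k => by
    rw [map_zpow]
    exact MulAction.mem_stabilizer_iff.mp (zpow_mem (MulAction.mem_stabilizer_iff.mpr hσ) k)
  have hinv : ∀ (k : ℤ) (q : Coset N), Ψ (σ ^ k • q) = Ψ q := by
    intro k q
    induction q using QuotientGroup.induction_on with
    | _ g =>
      rw [MulAction.Quotient.smul_mk, smul_eq_mul, hΨ, hΨ]
      refine Subtype.ext ?_
      show (fldAct N K (σ ^ k * g)⁻¹ • P).restrict (fixFld N K) = _
      rw [mul_inv_rev, ← zpow_neg, map_mul, mul_smul, hzpow]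
  let Ψ' : MulAction.orbitRel.Quotient (Subgroup.zpowers σ) (Coset N) →
      {v : Place K (fixFld N K) // 0 < v.ord y} := Quotient.lift Ψ (by
    rintro a b ⟨⟨_, k, rfl⟩, rfl⟩
    exact hinv k b)
  refine (Nat.card_eq_of_bijective Ψ' ⟨?_, ?_⟩).symm
  · intro a b hab
    induction a using Quotient.inductionOn with
    | _ p =>
    induction b using Quotient.inductionOn with
    | _ q =>
    induction p using QuotientGroup.induction_on with
    | _ g =>
    induction q using QuotientGroup.induction_on with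
    | _ g' =>
      change Ψ (g : Coset N) = Ψ (g' : Coset N) at hab
      rw [hΨ, hΨ] at hab
      have hab' : (fldAct N K g⁻¹ • P).restrict (fixFld N K) =
          (fldAct N K g'⁻¹ • P).restrict (fixFld N K) := congrArg Subtype.val hab
      obtain ⟨_, ⟨h, hh, rfl⟩, heq⟩ := exists_smul_eq_of_fixed hfin (gamma0Gp N K)
        (by rintro _ ⟨γ, -, rfl⟩; exact hxfix γ) (fldAct N K g⁻¹ • P) (fldAct N K g'⁻¹ • P)
        fun f hf => by
          have hfF : f ∈ fixFld N K := (mem_fixedField_iff _ f).mpr hf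
          exact iff_of_eq (congrArg
            (fun v : Place K (fixFld N K) => (⟨f, hfF⟩ : fixFld N K) ∈ v.toValuationSubring) hab')
      have heq' : fldAct N K (g' * h * g⁻¹) • P = P := by
        rw [mul_assoc, map_mul, map_mul, mul_smul, mul_smul, heq, ← mul_smul, ← map_mul,
          mul_inv_cancel, map_one, one_smul]
      obtain ⟨k, hk⟩ := hstab _ heq' (g : Coset N)
      have hgg : (g' : Coset N) = σ ^ k • (g : Coset N) := by
        rw [← hk, MulAction.Quotient.smul_mk, QuotientGroup.eq, smul_eq_mul, inv_mul_cancel_right,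
          inv_mul_cancel_left]
        exact hh
      refine Quotient.sound' ?_
      rw [MulAction.orbitRel_apply]
      refine ⟨⟨σ ^ (-k), ⟨-k, rfl⟩⟩, ?_⟩
      show σ ^ (-k) • (g' : Coset N) = (g : Coset N)
      rw [hgg, zpow_neg, inv_smul_smul]
  · rintro ⟨v, hv⟩
    obtain ⟨Q, hQ⟩ := exists_place_extension hfin (F := fixFld N K) v
    have hQpos : 0 < Q.ord (x - algebraMap K (ModFld N K) c) := by
      rw [← hyL]; exact (hpos Q).mp (hQ.symm ▸ hv)
    obtain ⟨_, ⟨g, rfl⟩, hg⟩ := hconj Q hQpos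
    refine ⟨Quotient.mk'' ((g⁻¹ : SL(2, ℤ)) : Coset N), ?_⟩
    show Ψ ((g⁻¹ : SL(2, ℤ)) : Coset N) = _
    rw [hΨ]
    refine Subtype.ext ?_
    show (fldAct N K g⁻¹⁻¹ • P).restrict (fixFld N K) = v
    rw [inv_inv, hg, hQ]

end Fermat.Agent.MCurve
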