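import Fermat.Agent.MCurve.PlaceBasics
import Mathlib.RingTheory.DedekindDomain.IntegralClosure
import Mathlib.NumberTheory.RamificationInertia.Basic
import Mathlib.FieldTheory.RatFunc.Basic
import Mathlib.Algebra.GCDMonoid.IntegrallyClosed
import Mathlib.RingTheory.Bezout

/-!
The fundamental identity for the fibres of a rational function `x` on a function field `F`:
the orders of `x - c` at its zeros add up to `[F : K(x)]`.
-/

noncomputable section

namespace Fermat.Agent.MCurve

open AlgebraicCurve Polynomial IsDedekindDomain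

variable (K F : Type*) [Field K] [Field F] [Algebra K F] [IsAlgClosed K] [CharZero K]
variable [Algebra K[X] F] [Algebra (RatFunc K) F] [IsScalarTower K K[X] F]
  [IsScalarTower K[X] (RatFunc K) F] [FiniteDimensional (RatFunc K) F]

local notation "S" => integralClosure K[X] F

/-- The image of the variable. -/
abbrev coordX : F := algebraMap K[X] F Polynomial.X

instance : IsDedekindDomain ↥(S) := integralClosure.isDedekindDomain K[X] (RatFunc K) F

instance : Module.Finite K[X] ↥(S) := IsIntegralClosure.finite K[X] (RatFunc K) F _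

instance : IsFractionRing ↥(S) F :=
  integralClosure.isFractionRing_of_finite_extension (RatFunc K) F

theorem isTorsionFree_polynomial : Module.IsTorsionFree K[X] F :=
  haveI : FaithfulSMul K[X] F := (faithfulSMul_iff_algebraMap_injective K[X] F).mpr <| by
    rw [IsScalarTower.algebraMap_eq K[X] (RatFunc K) F]
    exact (algebraMap (RatFunc K) F).injective.comp (IsFractionRing.injective K[X] (RatFunc K))
  inferInstance

instance : Algebra K ↥(S) := ((algebraMap K[X] ↥(S)).comp (algebraMap K K[X])).toAlgebra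

instance : IsScalarTower K K[X] ↥(S) := IsScalarTower.of_algebraMap_eq fun _ => rfl

instance : IsScalarTower K ↥(S) F := IsScalarTower.of_algebraMap_eq fun a => by
  rw [IsScalarTower.algebraMap_apply K K[X] F a]; rfl

variable {K F}

theorem coe_integralClosure_mem_valuationSubring {A : ValuationSubring F}
    (hK : ∀ a : K, algebraMap K F a ∈ A) (hv : coordX K F ∈ A)
    (s : ↥(S)) : (s : F) ∈ A := by
  have hA : ∀ p : K[X], algebraMap K[X] F p ∈ A := by
    intro p
    induction p using Polynomial.induction_on' with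
    | add p q hp hq => rw [map_add]; exact add_mem hp hq
    | monomial n a =>
      rw [← Polynomial.C_mul_X_pow_eq_monomial, map_mul, map_pow, ← Polynomial.algebraMap_eq,
        ← IsScalarTower.algebraMap_apply]
      exact mul_mem (hK a) (pow_mem hv n)
  letI : Algebra K[X] A :=
    ((algebraMap K[X] F).codRestrict A.toSubring hA).toAlgebra
  haveI : IsScalarTower K[X] A F := IsScalarTower.of_algebraMap_eq fun _ => rfl
  have hs : IsIntegral A (s : F) := IsIntegral.tower_top s.2
  obtain ⟨y, hy⟩ := IsIntegrallyClosed.isIntegral_iff.mp hs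
  exact hy ▸ y.2

theorem coe_integralClosure_mem {v : Place K F} (hv : coordX K F ∈ v.toValuationSubring)
    (s : ↥(S)) : (s : F) ∈ v.toValuationSubring :=
  coe_integralClosure_mem_valuationSubring v.algebraMap_mem' hv s

/-- The place attached to a maximal ideal of the integral closure. -/
def placeOfPrime (q : HeightOneSpectrum ↥(S)) : Place K F := Place.ofHeightOneSpectrum q

theorem mem_placeOfPrime {q : HeightOneSpectrum ↥(S)} {f : F} :
    f ∈ (placeOfPrime q).toValuationSubring ↔ q.valuation F f ≤ 1 := Iff.rfl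

theorem ord_placeOfPrime (q : HeightOneSpectrum ↥(S)) {f : F} (hf : f ≠ 0) :
    (placeOfPrime q).ord f = -(WithZero.log (q.valuation F f)) := by
  refine ord_eq_of (placeOfPrime q) (fun g => -(WithZero.log (q.valuation F g))) ?_ ?_ ?_ hf
  · intro a b ha hb
    rw [map_mul, WithZero.log_mul (by simpa using ha) (by simpa using hb)]
    ring
  · intro a ha
    rw [mem_placeOfPrime, ← WithZero.log_le_log (by simpa using ha) one_ne_zero, WithZero.log_one]
    omega
  · obtain ⟨π, hπ⟩ := q.valuation_exists_uniformizer F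
    refine ⟨π, fun h0 => ?_, by rw [hπ]; simp⟩
    rw [h0, map_zero] at hπ
    exact WithZero.exp_ne_zero hπ.symm

theorem coordX_mem_placeOfPrime (q : HeightOneSpectrum ↥(S)) :
    coordX K F ∈ (placeOfPrime q).toValuationSubring :=
  q.valuation_le_one (algebraMap K[X] ↥(S) Polynomial.X)

theorem ord_placeOfPrime_pos_iff (q : HeightOneSpectrum ↥(S)) (s : ↥(S)) (hs : s ≠ 0) :
    0 < (placeOfPrime q).ord (s : F) ↔ s ∈ q.asIdeal := by
  have hs' : (s : F) ≠ 0 := by simpa using hs
  rw [ord_placeOfPrime q hs', ← q.valuation_lt_one_iff_mem (K := F)]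
  change 0 < -(WithZero.log (q.valuation F (s : F))) ↔ q.valuation F (s : F) < 1
  rw [
    ← WithZero.log_lt_log (by simpa using hs') one_ne_zero, WithZero.log_one]
  omega

theorem placeOfPrime_injective : Function.Injective (placeOfPrime (K := K) (F := F)) := by
  intro q q' h
  have key : ∀ s : ↥(S), s ∈ q.asIdeal ↔ s ∈ q'.asIdeal := by
    intro s
    rcases eq_or_ne s 0 with rfl | hs
    · simp
    rw [← ord_placeOfPrime_pos_iff q s hs, ← ord_placeOfPrime_pos_iff q' s hs, h]
  exact HeightOneSpectrum.ext (Ideal.ext key)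

theorem exists_placeOfPrime_eq {v : Place K F} (hv : coordX K F ∈ v.toValuationSubring) :
    ∃ q, placeOfPrime q = v := by
  let ψ : ↥(S) →+* v.toValuationSubring :=
    ((S).val : ↥(S) →+* F).codRestrict v.toValuationSubring.toSubring (coe_integralClosure_mem hv)
  let I : Ideal ↥(S) := (IsLocalRing.maximalIdeal v.toValuationSubring).comap ψ
  have hI : I ≠ ⊥ := by
    intro hbot
    refine v.ne_top' (SetLike.ext fun y => ⟨fun _ => ValuationSubring.mem_top y, fun _ => ?_⟩)
    obtain ⟨a, b, hb, rfl⟩ := IsFractionRing.div_surjective (A := ↥(S)) y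
    have hb0 : b ≠ 0 := nonZeroDivisors.ne_zero hb
    have hunit : IsUnit (ψ b) := by
      by_contra hn
      exact hb0 ((Ideal.mem_bot).mp (hbot ▸ (show b ∈ I from hn)))
    obtain ⟨w, hw⟩ := hunit.exists_right_inv
    have hw' : (b : F) * (w : F) = 1 := congrArg Subtype.val hw
    rw [show algebraMap ↥(S) F a = (a : F) from rfl, show algebraMap ↥(S) F b = (b : F) from rfl,
      div_eq_mul_inv, inv_eq_of_mul_eq_one_right hw']
    exact mul_mem (coe_integralClosure_mem hv a) w.2
  haveI : I.IsPrime := Ideal.comap_isPrime _ _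
  refine ⟨⟨I, inferInstance, hI⟩, place_eq_of_le fun y hy => ?_⟩
  obtain ⟨a, b, hb⟩ := HeightOneSpectrum.exists_primeCompl_mul_eq_of_integer _ y hy
  have hunit : IsUnit (ψ (b : ↥(S))) := by
    by_contra hn
    exact b.2 hn
  obtain ⟨w, hw⟩ := hunit.exists_right_inv
  have hw' : ((b : ↥(S)) : F) * (w : F) = 1 := congrArg Subtype.val hw
  have hy' : y = (a : F) * (w : F) := by
    rw [show (a : F) = y * ((b : ↥(S)) : F) from hb.symm, mul_assoc, hw', mul_one]
  rw [hy']
  exact mul_mem (coe_integralClosure_mem hv a) w.2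


/-- A proper valuation ring containing the constants and `x` is the ring of a place. -/
theorem exists_place_of_valuationSubring {A : ValuationSubring F}
    (hK : ∀ a : K, algebraMap K F a ∈ A) (hx : coordX K F ∈ A) (hA : A ≠ ⊤) :
    ∃ v : Place K F, v.toValuationSubring = A := by
  let ψ : ↥(S) →+* A :=
    ((S).val : ↥(S) →+* F).codRestrict A.toSubring
      (coe_integralClosure_mem_valuationSubring hK hx)
  let I : Ideal ↥(S) := (IsLocalRing.maximalIdeal A).comap ψ
  have hfrac : ∀ a b : ↥(S), b ∉ I → (a : F) / (b : F) ∈ A := by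
    intro a b hb
    have hunit : IsUnit (ψ b) := by
      by_contra hn
      exact hb hn
    obtain ⟨w, hw⟩ := hunit.exists_right_inv
    have hw' : (b : F) * (w : F) = 1 := congrArg Subtype.val hw
    rw [div_eq_mul_inv, inv_eq_of_mul_eq_one_right hw']
    exact mul_mem (coe_integralClosure_mem_valuationSubring hK hx a) w.2
  have hI : I ≠ ⊥ := by
    intro hbot
    refine hA (SetLike.ext fun y => ⟨fun _ => ValuationSubring.mem_top y, fun _ => ?_⟩)
    obtain ⟨a, b, hb, rfl⟩ := IsFractionRing.div_surjective (A := ↥(S)) y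
    exact hfrac a b fun h => nonZeroDivisors.ne_zero hb (Ideal.mem_bot.mp (hbot ▸ h))
  haveI : I.IsPrime := Ideal.comap_isPrime _ _
  let q : HeightOneSpectrum ↥(S) := ⟨I, inferInstance, hI⟩
  refine ⟨placeOfPrime q, toValuationSubring_eq_of_le _ (fun y hy => ?_) hA⟩
  obtain ⟨a, b, hb⟩ := HeightOneSpectrum.exists_primeCompl_mul_eq_of_integer q y hy
  have hb0 : ((b : ↥(S)) : F) ≠ 0 := by
    simpa using (show (b : ↥(S)) ≠ 0 from fun h => b.2 (h ▸ zero_mem _))
  have : y = (a : F) / ((b : ↥(S)) : F) := by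
    rw [show (a : F) = y * ((b : ↥(S)) : F) from hb.symm, mul_div_cancel_right₀ _ hb0]
  exact this ▸ hfrac a b b.2

theorem exists_coord_value (q : HeightOneSpectrum ↥(S)) :
    ∃ c : K, q.asIdeal.comap (algebraMap K[X] ↥(S)) =
      Ideal.span {Polynomial.X - Polynomial.C c} := by
  haveI := q.isMaximal
  haveI : Algebra.IsIntegral K[X] ↥(S) := Algebra.IsIntegral.of_finite _ _
  have hp : (q.asIdeal.comap (algebraMap K[X] ↥(S))).IsMaximal :=
    Ideal.isMaximal_comap_of_isIntegral_of_isMaximal q.asIdeal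
  set p := q.asIdeal.comap (algebraMap K[X] ↥(S)) with hpdef
  obtain ⟨g, hg⟩ := (IsPrincipalIdealRing.principal p).principal
  replace hg : p = Ideal.span {g} := hg
  have hg0 : g ≠ 0 := by
    rintro rfl
    exact Ring.ne_bot_of_isMaximal_of_not_isField hp (Polynomial.not_isField K) (by simpa using hg)
  have hirr : Irreducible g :=
    ((Ideal.span_singleton_prime hg0).mp (hg ▸ hp.isPrime)).irreducible
  obtain ⟨c, hc⟩ := IsAlgClosed.exists_root g (IsAlgClosed.degree_eq_one_of_irreducible K hirr ▸
    one_ne_zero)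
  refine ⟨c, ?_⟩
  rw [hg]
  refine Ideal.span_singleton_eq_span_singleton.mpr ?_
  exact ((Polynomial.irreducible_X_sub_C c).associated_of_dvd hirr
    (Polynomial.dvd_iff_isRoot.mpr hc)).symm

theorem exists_sub_mem (q : HeightOneSpectrum ↥(S)) (s : ↥(S)) :
    ∃ a : K, s - algebraMap K ↥(S) a ∈ q.asIdeal := by
  obtain ⟨c, hc⟩ := exists_coord_value q
  haveI := q.isMaximal
  let π : ↥(S) →+* ↥(S) ⧸ q.asIdeal := Ideal.Quotient.mk _
  have hπ : π.comp (algebraMap K[X] ↥(S)) =
      (π.comp (algebraMap K ↥(S))).comp (Polynomial.evalRingHom c) := by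
    refine Polynomial.ringHom_ext (fun a => ?_) ?_
    · simp only [RingHom.comp_apply, Polynomial.coe_evalRingHom, Polynomial.eval_C]
      rfl
    · have : Polynomial.X - Polynomial.C c ∈ q.asIdeal.comap (algebraMap K[X] ↥(S)) :=
        hc ▸ Ideal.mem_span_singleton_self _
      simp only [RingHom.comp_apply, Polynomial.coe_evalRingHom, Polynomial.eval_X]
      rw [← sub_eq_zero, ← map_sub]
      refine Ideal.Quotient.eq_zero_iff_mem.mpr ?_
      rw [Ideal.mem_comap, map_sub] at this
      exact this
  obtain ⟨P, hP, hroot⟩ := Algebra.IsIntegral.isIntegral (R := K[X]) s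
  have h0 : ((P.map (Polynomial.evalRingHom c)).map (π.comp (algebraMap K ↥(S)))).eval (π s) = 0 := by
    rw [Polynomial.map_map, ← hπ, Polynomial.eval_map, ← Polynomial.hom_eval₂, hroot, map_zero]
  have hs : Polynomial.Splits ((P.map (Polynomial.evalRingHom c))) := IsAlgClosed.splits _
  obtain ⟨a, -, ha⟩ : ∃ a ∈ (P.map (Polynomial.evalRingHom c)).roots,
      π s = π (algebraMap K ↥(S) a) := by
    have he := hs.eq_prod_roots_of_monic (hP.map _)
    rw [he, Polynomial.map_multiset_prod, Multiset.map_map, Polynomial.eval_multiset_prod,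
      Multiset.prod_eq_zero_iff, Multiset.map_map, Multiset.mem_map] at h0
    obtain ⟨a, ha, h⟩ := h0
    exact ⟨a, ha, sub_eq_zero.mp (by simpa using h)⟩
  exact ⟨a, Ideal.Quotient.eq_zero_iff_mem.mp (by rw [map_sub, ha, sub_self])⟩

theorem finite_residueField {v : Place K F} (hv : coordX K F ∈ v.toValuationSubring) :
    Module.Finite K v.ResidueField := by
  obtain ⟨q, rfl⟩ := exists_placeOfPrime_eq hv
  set v := placeOfPrime q with hvdef
  let ψ : ↥(S) →+* v.toValuationSubring :=
    ((S).val : ↥(S) →+* F).codRestrict v.toValuationSubring.toSubring (coe_integralClosure_mem hv)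
  have hval : ∀ s : ↥(S), ∃ a : K,
      IsLocalRing.residue _ (ψ s) = algebraMap K v.ResidueField a := by
    intro s
    obtain ⟨a, ha⟩ := exists_sub_mem q s
    refine ⟨a, ?_⟩
    have hψ : ψ (algebraMap K ↥(S) a) = algebraMap K v.toValuationSubring a :=
      Subtype.ext (IsScalarTower.algebraMap_apply K ↥(S) F a).symm
    rw [show algebraMap K v.ResidueField a = IsLocalRing.residue _ (algebraMap K _ a) from rfl,
      ← sub_eq_zero, ← map_sub, ← hψ, ← map_sub, IsLocalRing.residue_eq_zero_iff,
      IsLocalRing.mem_maximalIdeal, mem_nonunits_iff]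
    intro hu
    rcases eq_or_ne (s - algebraMap K ↥(S) a) 0 with h0 | h0
    · rw [h0, map_zero] at hu; exact not_isUnit_zero hu
    have := (ord_placeOfPrime_pos_iff q _ h0).mpr ha
    have h1 := v.ord_coe_unit hu.unit
    rw [IsUnit.unit_spec] at h1
    exact this.ne' h1
  refine Module.Finite.of_surjective (Algebra.linearMap K v.ResidueField) fun y => ?_
  obtain ⟨⟨f, hf⟩, rfl⟩ := IsLocalRing.residue_surjective y
  obtain ⟨n, d, hnd⟩ := HeightOneSpectrum.exists_primeCompl_mul_eq_of_integer q f hf
  obtain ⟨a, ha⟩ := hval n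
  obtain ⟨b, hb⟩ := hval d
  have hmul : IsLocalRing.residue _ (⟨f, hf⟩ : v.toValuationSubring) *
      algebraMap K v.ResidueField b = algebraMap K v.ResidueField a := by
    rw [← ha, ← hb, ← map_mul]
    exact congrArg _ (Subtype.ext hnd)
  have hb0 : algebraMap K v.ResidueField b ≠ 0 := by
    rw [← hb, Ne, IsLocalRing.residue_eq_zero_iff, IsLocalRing.mem_maximalIdeal, mem_nonunits_iff,
      not_not]
    have hd0 : ((d : ↥(S)) : F) ≠ 0 := by
      simpa using (show (d : ↥(S)) ≠ 0 from fun h => d.2 (h ▸ zero_mem _))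
    have h1 : ¬ 0 < v.ord ((d : ↥(S)) : F) := fun h =>
      d.2 ((ord_placeOfPrime_pos_iff q _ (by simpa using hd0)).mp h)
    have h2 := ord_nonneg_of_mem' v (ψ d).2
    have hinv : ((d : ↥(S)) : F)⁻¹ ∈ v.toValuationSubring :=
      (mem_iff_ord_nonneg v (inv_ne_zero hd0)).mpr (by
        rw [v.ord_inv]
        have : ((ψ d : v.toValuationSubring) : F) = ((d : ↥(S)) : F) := rfl
        rw [this] at h2
        omega)
    exact .of_mul_eq_one ⟨_, hinv⟩ (Subtype.ext (mul_inv_cancel₀ hd0))
  refine ⟨a / b, ?_⟩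
  show algebraMap K v.ResidueField (a / b) = _
  rw [map_div₀, ← hmul, mul_div_cancel_right₀ _ hb0]


set_option linter.deprecated false in
/-- The orders of `x - c` at its zeros add up to `[F : K(x)]`. -/
theorem exists_fibre (c : K) : ∃ T : Finset (Place K F),
    (∀ v, v ∈ T ↔ 0 < v.ord (coordX K F - algebraMap K F c)) ∧
      ∑ v ∈ T, v.ord (coordX K F - algebraMap K F c) = Module.finrank (RatFunc K) F := by
  classical
  set p : Ideal K[X] := Ideal.span {Polynomial.X - Polynomial.C c} with hpdef
  haveI hp : p.IsMaximal :=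
    PrincipalIdealRing.isMaximal_of_irreducible (Polynomial.irreducible_X_sub_C c)
  have hp0 : p ≠ ⊥ := by simp [hpdef, Polynomial.X_sub_C_ne_zero]
  haveI : Algebra.IsIntegral K[X] ↥(S) := Algebra.IsIntegral.of_finite _ _
  haveI htf : Module.IsTorsionFree K[X] F := isTorsionFree_polynomial K F
  haveI : Module.IsTorsionFree K[X] ↥(S) :=
    Subtype.val_injective.moduleIsTorsionFree (fun x : ↥(S) => (x : F)) (fun _ _ => rfl)
  set s₀ : ↥(S) := algebraMap K[X] ↥(S) (Polynomial.X - Polynomial.C c) with hs₀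
  have hs₀F : (s₀ : F) = coordX K F - algebraMap K F c := by
    show algebraMap K[X] F _ = _
    rw [map_sub, ← Polynomial.algebraMap_eq, ← IsScalarTower.algebraMap_apply]
  have hs₀0 : s₀ ≠ 0 := fun h => Polynomial.X_sub_C_ne_zero c <|
    (FaithfulSMul.algebraMap_injective K[X] ↥(S)) (h.trans (map_zero _).symm)
  have hmap : p.map (algebraMap K[X] ↥(S)) = Ideal.span {s₀} := by
    rw [hpdef, Ideal.map_span, Set.image_singleton]
  have hmem : ∀ P : Ideal ↥(S),
      P ∈ IsDedekindDomain.primesOverFinset p ↥(S) ↔ P.IsPrime ∧ s₀ ∈ P := by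
    intro P
    rw [IsDedekindDomain.mem_primesOverFinset_iff hp0]
    refine ⟨fun ⟨h1, h2⟩ => ⟨h1, ?_⟩, fun ⟨h1, h2⟩ => ⟨h1, ⟨?_⟩⟩⟩
    · have : Polynomial.X - Polynomial.C c ∈ P.under K[X] := by
        rw [← h2.over]; exact Ideal.mem_span_singleton_self _
      exact this
    · refine hp.eq_of_le (Ideal.IsPrime.under K[X] P).ne_top ?_
      rw [hpdef, Ideal.span_singleton_le_iff_mem]
      exact h2
  let e : {P // P ∈ IsDedekindDomain.primesOverFinset p ↥(S)} → HeightOneSpectrum ↥(S) :=
    fun P => ⟨P.1, ((hmem P.1).mp P.2).1, fun h0 => hs₀0 (by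
      have := ((hmem P.1).mp P.2).2
      rwa [h0, Ideal.mem_bot] at this)⟩
  have hinj : Function.Injective fun P => placeOfPrime (e P) := fun P Q h =>
    Subtype.ext (congrArg HeightOneSpectrum.asIdeal (placeOfPrime_injective h))
  refine ⟨(IsDedekindDomain.primesOverFinset p ↥(S)).attach.image fun P => placeOfPrime (e P),
    fun v => ?_, ?_⟩
  · simp only [Finset.mem_image, Finset.mem_attach, true_and]
    constructor
    · rintro ⟨P, rfl⟩
      rw [← hs₀F, ord_placeOfPrime_pos_iff _ _ hs₀0]
      exact ((hmem P.1).mp P.2).2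
    · intro h
      have hm : coordX K F - algebraMap K F c ∈ v.toValuationSubring :=
        (mem_iff_ord_nonneg v (fun h0 => by simp [h0] at h)).mpr h.le
      have hx : coordX K F ∈ v.toValuationSubring := by
        simpa using add_mem hm (v.algebraMap_mem' c)
      obtain ⟨q, rfl⟩ := exists_placeOfPrime_eq hx
      rw [← hs₀F, ord_placeOfPrime_pos_iff _ _ hs₀0] at h
      exact ⟨⟨q.asIdeal, (hmem _).mpr ⟨q.isPrime, h⟩⟩, rfl⟩
  · rw [Finset.sum_image fun P _ Q _ h => hinj h]
    haveI : IsScalarTower K[X] ↥(S) F := inferInstance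
    rw [← Ideal.sum_ramification_inertia ↥(S) (RatFunc K) F hp0, Nat.cast_sum,
      ← Finset.sum_attach (IsDedekindDomain.primesOverFinset p ↥(S))]
    refine Finset.sum_congr rfl fun P _ => ?_
    obtain ⟨hPprime, hPmem⟩ := (hmem P.1).mp P.2
    haveI := hPprime
    haveI : P.1.LiesOver p := ((IsDedekindDomain.mem_primesOverFinset_iff hp0 _).mp P.2).2
    haveI : (P.1).IsMaximal := (e P).isMaximal
    have hf : Ideal.inertiaDeg' p P.1 = 1 := by
      refine le_antisymm ?_ (Ideal.inertiaDeg'_pos p P.1)
      rw [Ideal.inertiaDeg'_algebraMap]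
      refine finrank_le_one (Ideal.Quotient.mk P.1 1) fun y => ?_
      obtain ⟨t, rfl⟩ := Ideal.Quotient.mk_surjective y
      obtain ⟨a, ha⟩ := exists_sub_mem (e P) t
      refine ⟨Ideal.Quotient.mk p (Polynomial.C a), ?_⟩
      rw [map_one, Algebra.smul_def, mul_one, Ideal.Quotient.algebraMap_mk_of_liesOver]
      symm
      rw [Ideal.Quotient.mk_eq_mk_iff_sub_mem]
      exact ha
    rw [hf, mul_one, ← hs₀F, ord_placeOfPrime _ (by simpa using hs₀0)]
    change -(WithZero.log ((e P).valuation F (algebraMap ↥(S) F s₀))) = _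
    rw [HeightOneSpectrum.valuation_of_algebraMap,
      HeightOneSpectrum.intValuation_eq_exp_neg_multiplicity _ hs₀0, WithZero.log_exp, neg_neg,
      Ideal.IsDedekindDomain.ramificationIdx'_eq_multiplicity
        (by rw [hmap]; simpa using hs₀0) hPprime, hmap]

end Fermat.Agent.MCurve
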