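import Fermat.Agent.MCurve.IgusaField
import Mathlib.AlgebraicGeometry.Properties
import Mathlib.RingTheory.TensorProduct.Finite

/-!
The fibre of the Igusa model over a field of characteristic `ℓ` is integral.
-/

noncomputable section

namespace Fermat.Agent.MCurve

open AlgebraicGeometry CategoryTheory CategoryTheory.Limits ModularCurve ModularCurve.IgusaScheme
open scoped TensorProduct

section Tensor

variable {R : Type*} [CommRing R] {B : Type*} [CommRing B] [Algebra R B] {K : Type*} [Field K]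
  [Algebra R K]

/-- An algebra with a series expansion which detects divisibility by the kernel stays a domain
after base change to a residue field extension. -/
theorem isDomain_tensor_of_series (T : B →+* LaurentSeries R)
    (hT : ∀ r, T (algebraMap R B r) = HahnSeries.C r)
    (hunit : ∀ r : R, algebraMap R K r = 0 ∨ IsUnit r)
    (hdiv : ∀ b : B, (∀ k, algebraMap R K ((T b).coeff k) = 0) →
      ∃ (π : R) (b' : B), algebraMap R K π = 0 ∧ b = π • b') :
    IsDomain (B ⊗[R] K) := by
  classical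
  letI : Algebra R (LaurentSeries K) :=
    ((HahnSeries.C : K →+* LaurentSeries K).comp (algebraMap R K)).toAlgebra
  have halg : ∀ r : R, algebraMap R (LaurentSeries K) r = HahnSeries.C (algebraMap R K r) :=
    fun r => rfl
  let f : B →ₐ[R] LaurentSeries K :=
    { (coeffMap (algebraMap R K)).comp T with
      commutes' := fun r => by
        show coeffMap (algebraMap R K) (T (algebraMap R B r)) = _
        rw [hT, halg]
        exact coeffMap_single _ _ _ }
  let g : K →ₐ[R] LaurentSeries K :=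
    { (HahnSeries.C : K →+* LaurentSeries K) with commutes' := fun r => (halg r).symm }
  let Φ := Algebra.TensorProduct.productMap f g
  have hΦ : ∀ (n : ℕ) (b : Fin n → B) (c : Fin n → K),
      Φ (∑ i, b i ⊗ₜ c i) = 0 → (∑ i, b i ⊗ₜ[R] c i) = 0 := by
    intro n
    induction n with
    | zero => intros; simp
    | succ n ih =>
      intro b c h
      by_cases hall : ∀ i k, algebraMap R K ((T (b i)).coeff k) = 0
      · refine Finset.sum_eq_zero fun i _ => ?_
        obtain ⟨π, b', hπ, hb⟩ := hdiv (b i) (hall i)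
        rw [hb, TensorProduct.smul_tmul, Algebra.smul_def, hπ, zero_mul, TensorProduct.tmul_zero]
      push Not at hall
      obtain ⟨i₀, k, hik⟩ := hall
      obtain ⟨u, hu⟩ := ((hunit _).resolve_left hik)
      have hk : ∑ i, algebraMap R K ((T (b i)).coeff k) * c i = 0 := by
        have h' := congrArg (fun s : LaurentSeries K => s.coeff k) h
        simp only [map_sum, HahnSeries.coeff_sum, HahnSeries.coeff_zero] at h'
        rw [← h']
        refine Finset.sum_congr rfl fun i _ => ?_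
        show _ = (Φ (b i ⊗ₜ c i)).coeff k
        rw [Algebra.TensorProduct.productMap_apply_tmul]
        show _ = (coeffMap (algebraMap R K) (T (b i)) * HahnSeries.C (c i)).coeff k
        rw [HahnSeries.C_apply, HahnSeries.coeff_mul_single_zero, coeffMap_coeff]
      rw [Fin.sum_univ_succAbove _ i₀] at hk
      set r : Fin n → R := fun i => ↑u⁻¹ * (T (b (i₀.succAbove i))).coeff k with hr
      have hc : c i₀ = -∑ i, r i • c (i₀.succAbove i) := by
        rw [eq_neg_iff_add_eq_zero]
        have hu' : algebraMap R K ↑u⁻¹ * algebraMap R K ((T (b i₀)).coeff k) = 1 := by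
          rw [← map_mul, ← hu, Units.inv_mul, map_one]
        have h2 := congrArg (fun z => algebraMap R K ↑u⁻¹ * z) hk
        simp only [mul_add, ← mul_assoc, hu', one_mul, mul_zero, Finset.mul_sum] at h2
        rw [← h2]
        congr 1
        exact Finset.sum_congr rfl fun i _ => by rw [hr, Algebra.smul_def, map_mul]
      have hsum : (∑ i, b i ⊗ₜ[R] c i) =
          ∑ i, (b (i₀.succAbove i) - r i • b i₀) ⊗ₜ[R] c (i₀.succAbove i) := by
        rw [Fin.sum_univ_succAbove _ i₀, hc, TensorProduct.tmul_neg, TensorProduct.tmul_sum]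
        simp only [TensorProduct.sub_tmul, TensorProduct.smul_tmul, Finset.sum_sub_distrib]
        abel
      rw [hsum] at h ⊢
      exact ih _ _ h
  refine Function.Injective.isDomain Φ.toRingHom ((injective_iff_map_eq_zero _).mpr fun z hz => ?_)
  obtain ⟨S, hS⟩ := TensorProduct.exists_finset z
  have hz' : z = ∑ i : Fin S.card, (S.equivFin.symm i).1.1 ⊗ₜ[R] (S.equivFin.symm i).1.2 := by
    rw [hS, ← S.sum_coe_sort, ← S.equivFin.symm.sum_comp]
  rw [hz'] at hz ⊢
  exact hΦ _ _ _ hz

end Tensor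

section Chart

variable (N : ℕ) [NeZero N] (ℓ : ℕ) [Fact ℓ.Prime]

theorem coeffMap_sub_injective :
    Function.Injective (coeffMap (GaloisRep.ratLocalizedAt ℓ).subtype) := fun _ _ h =>
  HahnSeries.ext (funext fun i =>
    Subtype.ext (congrArg (fun s : LaurentSeries ℚ => s.coeff i) h))

variable {N ℓ}

theorem exists_chartSeries (hℓN : ¬ ℓ ∣ N) {S : Set (modularFunctionFieldFull N)}
    (hS : S = {jFull N} ∨ S = {(jFull N)⁻¹}) (x : chartAlg N ℓ S) :
    ∃ t, coeffMap (GaloisRep.ratLocalizedAt ℓ).subtype t = valHom N (x : modularFunctionFieldFull N) :=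
  let ⟨t, ht, _⟩ := chartAlg_reduction N ℓ hℓN hS x.1 x.2
  ⟨t, ht⟩

/-- The `q`-expansion of the elements of a chart. -/
def chartExp (hℓN : ¬ ℓ ∣ N) {S : Set (modularFunctionFieldFull N)}
    (hS : S = {jFull N} ∨ S = {(jFull N)⁻¹}) :
    chartAlg N ℓ S →+* LaurentSeries (GaloisRep.ratLocalizedAt ℓ) where
  toFun x := (exists_chartSeries hℓN hS x).choose
  map_one' := coeffMap_sub_injective ℓ
    ((exists_chartSeries hℓN hS 1).choose_spec.trans (by simp))
  map_mul' x y := coeffMap_sub_injective ℓ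
    ((exists_chartSeries hℓN hS (x * y)).choose_spec.trans (by
      rw [Subalgebra.coe_mul, map_mul, map_mul, (exists_chartSeries hℓN hS x).choose_spec,
        (exists_chartSeries hℓN hS y).choose_spec]))
  map_zero' := coeffMap_sub_injective ℓ
    ((exists_chartSeries hℓN hS 0).choose_spec.trans (by simp))
  map_add' x y := coeffMap_sub_injective ℓ
    ((exists_chartSeries hℓN hS (x + y)).choose_spec.trans (by
      rw [Subalgebra.coe_add, map_add, map_add, (exists_chartSeries hℓN hS x).choose_spec,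
        (exists_chartSeries hℓN hS y).choose_spec]))

theorem coeffMap_chartExp (hℓN : ¬ ℓ ∣ N) {S : Set (modularFunctionFieldFull N)}
    (hS : S = {jFull N} ∨ S = {(jFull N)⁻¹}) (x : chartAlg N ℓ S) :
    coeffMap (GaloisRep.ratLocalizedAt ℓ).subtype (chartExp hℓN hS x) =
      ((x : modularFunctionFieldFull N) : LaurentSeries ℚ) :=
  (exists_chartSeries hℓN hS x).choose_spec

theorem exists_smul_of_chartExp (hℓN : ¬ ℓ ∣ N) {S : Set (modularFunctionFieldFull N)}
    (hS : S = {jFull N} ∨ S = {(jFull N)⁻¹}) (x : chartAlg N ℓ S)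
    (h : ∀ k, (ℓ : GaloisRep.ratLocalizedAt ℓ) ∣ (chartExp hℓN hS x).coeff k) :
    ∃ y : chartAlg N ℓ S, x = (ℓ : GaloisRep.ratLocalizedAt ℓ) • y := by
  obtain ⟨t, ht, hdiv⟩ := chartAlg_reduction N ℓ hℓN hS x.1 x.2
  obtain ⟨y, hy, hxy⟩ := hdiv
    (coeffMap_sub_injective ℓ (ht.trans (coeffMap_chartExp hℓN hS x).symm) ▸ h)
  refine ⟨⟨y, hy⟩, ?_⟩
  rw [Algebra.smul_def, map_natCast]
  exact Subtype.ext (by simpa using hxy)

variable (K : Type) [Field K] [CharP K ℓ] [Algebra ↥(GaloisRep.ratLocalizedAt ℓ) K]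

theorem algebraMap_ell :
    algebraMap ↥(GaloisRep.ratLocalizedAt ℓ) K ((ℓ : ℕ) : ↥(GaloisRep.ratLocalizedAt ℓ)) = 0 := by
  rw [map_natCast, CharP.cast_eq_zero]

theorem isDomain_chart_tensor (hℓN : ¬ ℓ ∣ N) {S : Set (modularFunctionFieldFull N)}
    (hS : S = {jFull N} ∨ S = {(jFull N)⁻¹}) :
    IsDomain (chartAlg N ℓ S ⊗[↥(GaloisRep.ratLocalizedAt ℓ)] K) := by
  refine isDomain_tensor_of_series (R := ↥(GaloisRep.ratLocalizedAt ℓ)) (chartExp hℓN hS)
    (fun r => coeffMap_sub_injective ℓ ?_)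
    (fun r => ?_) (fun b hb => ?_)
  · rw [coeffMap_chartExp]
    refine (valHom_algebraMap N ℓ r).trans ?_
    rw [algebraMap_laurentSeries_eq_single]
    exact (coeffMap_single (GaloisRep.ratLocalizedAt ℓ).subtype 0 r).symm
  · rcases ratLocalizedAt_cases ℓ r with h | ⟨y, hy⟩
    · exact Or.inr h
    · exact Or.inl (by rw [hy, map_mul, algebraMap_ell K, zero_mul])
  · obtain ⟨y, hy⟩ := exists_smul_of_chartExp hℓN hS b fun k =>
      (red_eq_zero_iff ℓ _ (algebraMap_ell K) _).mp (hb k)
    exact ⟨_, y, algebraMap_ell K, hy⟩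

end Chart

section Scheme

theorem irreducibleSpace_of_two {X : Type*} [TopologicalSpace X] {U V : Set X}
    (hU : IsIrreducible U) (hV : IsPreirreducible V) (hUo : IsOpen U)
    (hne : (V ∩ U).Nonempty) (hcov : U ∪ V = Set.univ) : IrreducibleSpace X := by
  have hsub : V ⊆ closure U :=
    (subset_closure_inter_of_isPreirreducible_of_isOpen hV hUo hne).trans
      (closure_mono Set.inter_subset_right)
  have huniv : closure U = Set.univ := Set.univ_subset_iff.mp (hcov ▸
    Set.union_subset subset_closure hsub)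
  refine (irreducibleSpace_def X).mpr ?_
  rw [Set.top_eq_univ, ← huniv]
  exact hU.closure

variable (N : ℕ) [NeZero N] (ℓ : ℕ) [Fact ℓ.Prime]
  (K : Type) [Field K] [Algebra ↥(GaloisRep.ratLocalizedAt ℓ) K]

set_option quotPrecheck false in
local notation "g₀" => Spec.map (CommRingCat.ofHom (algebraMap ↥(GaloisRep.ratLocalizedAt ℓ) K))

theorem exists_chart_open {A : Type} [CommRing A] [Algebra ↥(GaloisRep.ratLocalizedAt ℓ) A]
    (ι : Spec (CommRingCat.of A) ⟶ ModularCurve.IgusaScheme N ℓ) [IsOpenImmersion ι]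
    (hι : ι ≫ igusaTo N ℓ =
      Spec.map (CommRingCat.ofHom (algebraMap ↥(GaloisRep.ratLocalizedAt ℓ) A)))
    [IsDomain (A ⊗[↥(GaloisRep.ratLocalizedAt ℓ)] K)] :
    ∃ (Y : Scheme.{0}) (u : Y ⟶ pullback (igusaTo N ℓ) g₀), IsOpenImmersion u ∧ IsIntegral Y ∧
      Set.range u.base = (pullback.fst (igusaTo N ℓ) g₀).base ⁻¹' Set.range ι.base := by
  let e : pullback ι (pullback.fst (igusaTo N ℓ) g₀) ≅
      Spec (CommRingCat.of (A ⊗[↥(GaloisRep.ratLocalizedAt ℓ)] K)) :=
    pullbackRightPullbackFstIso (igusaTo N ℓ) g₀ ι ≪≫ pullback.congrHom hι rfl ≪≫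
      pullbackSpecIso _ _ _
  exact ⟨_, pullback.snd ι (pullback.fst (igusaTo N ℓ) g₀), inferInstance,
    IsIntegral.of_isIso e.inv, IsOpenImmersion.range_pullbackSnd _ _⟩

variable [CharP K ℓ]

theorem exists_mem_both (hℓN : ¬ ℓ ∣ N) :
    ∃ x, (pullback.fst (igusaTo N ℓ) g₀).base x ∈
      Set.range (ιInf N ℓ).base ∩ Set.range (ιFin N ℓ).base := by
  have hS : ({jFull N} : Set (modularFunctionFieldFull N)) = {jFull N} ∨
      ({jFull N} : Set (modularFunctionFieldFull N)) = {(jFull N)⁻¹} := Or.inl rfl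
  let f : chartAlgFin N ℓ →+* LaurentSeries K :=
    (coeffMap (algebraMap ↥(GaloisRep.ratLocalizedAt ℓ) K)).comp (chartExp hℓN hS)
  have hf : f (jChartFin N ℓ) = jqModC K := by
    show coeffMap _ (chartExp hℓN hS _) = _
    rw [show chartExp hℓN hS (jChartFin N ℓ) = jqModC ↥(GaloisRep.ratLocalizedAt ℓ) from
      coeffMap_sub_injective ℓ (by
        rw [coeffMap_chartExp, MCurve.coeffMap_jqModC, jqModC_rat]; rfl),
      MCurve.coeffMap_jqModC]
  letI := (inclFin N ℓ).toRingHom.toAlgebra
  haveI := isLocalization_away_inclFin N ℓ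
  have hu : IsUnit (f (jChartFin N ℓ)) := by
    rw [hf]
    refine isUnit_iff_ne_zero.mpr fun h => ?_
    have := jHom_injective (k := K) (a₁ := Polynomial.X) (a₂ := 0) (by simp [jHom, h])
    exact Polynomial.X_ne_zero this
  let φ : chartAlgMid N ℓ →+* LaurentSeries K := IsLocalization.Away.lift (jChartFin N ℓ) hu
  have hφ : φ.comp (algebraMap ↥(GaloisRep.ratLocalizedAt ℓ) (chartAlgMid N ℓ)) =
      (HahnSeries.C : K →+* LaurentSeries K).comp
        (algebraMap ↥(GaloisRep.ratLocalizedAt ℓ) K) := by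
    ext1 r
    show φ (algebraMap _ _ r) = HahnSeries.C (algebraMap _ K r)
    rw [show algebraMap ↥(GaloisRep.ratLocalizedAt ℓ) (chartAlgMid N ℓ) r =
      algebraMap (chartAlgFin N ℓ) (chartAlgMid N ℓ) (algebraMap _ _ r) from
        ((inclFin N ℓ).commutes r).symm, IsLocalization.Away.lift_eq]
    show coeffMap _ (chartExp hℓN hS _) = _
    rw [show chartExp hℓN hS (algebraMap _ _ r) = HahnSeries.C r from
      coeffMap_sub_injective ℓ (by
        rw [coeffMap_chartExp]
        refine (valHom_algebraMap N ℓ r).trans ?_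
        rw [algebraMap_laurentSeries_eq_single]
        exact (coeffMap_single (GaloisRep.ratLocalizedAt ℓ).subtype 0 r).symm)]
    exact coeffMap_single (algebraMap ↥(GaloisRep.ratLocalizedAt ℓ) K) 0 r
  let P : Spec (CommRingCat.of (LaurentSeries K)) ⟶ pullback (igusaTo N ℓ) g₀ :=
    pullback.lift (Spec.map (CommRingCat.ofHom φ) ≫ fFin N ℓ ≫ ιFin N ℓ)
      (Spec.map (CommRingCat.ofHom (HahnSeries.C : K →+* LaurentSeries K))) (by
        simp only [Category.assoc, ιFin_igusaTo]
        rw [← Spec.map_comp, ← Spec.map_comp, ← Spec.map_comp, ← CommRingCat.ofHom_comp,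
          ← CommRingCat.ofHom_comp, ← CommRingCat.ofHom_comp, ← hφ]
        congr 2)
  obtain ⟨p⟩ := (inferInstance : Nonempty (Spec (CommRingCat.of (LaurentSeries K))))
  refine ⟨P.base p, ?_, ?_⟩
  all_goals rw [← Scheme.Hom.comp_apply, pullback.lift_fst]
  · rw [glue_condition]
    exact ⟨(fInf N ℓ).base ((Spec.map (CommRingCat.ofHom φ)).base p), rfl⟩
  · exact ⟨(fFin N ℓ).base ((Spec.map (CommRingCat.ofHom φ)).base p), rfl⟩

theorem isIntegral_igusa_fibre (hℓN : ¬ ℓ ∣ N) : IsIntegral (pullback (igusaTo N ℓ) g₀) := by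
  haveI := isDomain_chart_tensor (N := N) (ℓ := ℓ) K hℓN (S := {jFull N}) (Or.inl rfl)
  haveI := isDomain_chart_tensor (N := N) (ℓ := ℓ) K hℓN (S := {(jFull N)⁻¹}) (Or.inr rfl)
  obtain ⟨Y₁, u₁, hu₁, hY₁, hr₁⟩ := exists_chart_open N ℓ K (ιFin N ℓ) (ιFin_igusaTo N ℓ)
  obtain ⟨Y₂, u₂, hu₂, hY₂, hr₂⟩ := exists_chart_open N ℓ K (ιInf N ℓ) (ιInf_igusaTo N ℓ)
  haveI := hu₁; haveI := hu₂; haveI := hY₁; haveI := hY₂
  have hcov : ∀ x, x ∈ Set.range u₁.base ∨ x ∈ Set.range u₂.base := fun x => by
    rw [hr₁, hr₂]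
    exact mem_range_ιFin_or_mem_range_ιInf N ℓ _
  haveI : AlgebraicGeometry.IsReduced (pullback (igusaTo N ℓ) g₀) := by
    haveI : ∀ x, _root_.IsReduced ((pullback (igusaTo N ℓ) g₀).presheaf.stalk x) := by
      intro x
      rcases hcov x with ⟨y, rfl⟩ | ⟨y, rfl⟩
      · exact isReduced_of_injective (u₁.stalkMap y).hom
          (asIso (u₁.stalkMap y)).commRingCatIsoToRingEquiv.injective
      · exact isReduced_of_injective (u₂.stalkMap y).hom
          (asIso (u₂.stalkMap y)).commRingCatIsoToRingEquiv.injective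
    exact isReduced_of_isReduced_stalk _
  haveI : IrreducibleSpace ↥(pullback (igusaTo N ℓ) g₀) := by
    have hirr : ∀ {Y : Scheme.{0}} (u : Y ⟶ pullback (igusaTo N ℓ) g₀) [IsIntegral Y],
        IsIrreducible (Set.range u.base) := fun u _ => by
      rw [← Set.image_univ]
      exact (IrreducibleSpace.isIrreducible_univ _).image _ u.continuous.continuousOn
    refine irreducibleSpace_of_two (hirr u₁) (hirr u₂).2 u₁.isOpenEmbedding.isOpen_range ?_
      (Set.eq_univ_of_forall hcov)
    obtain ⟨x, hx⟩ := exists_mem_both N ℓ K hℓN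
    exact ⟨x, by rw [hr₁, hr₂]; exact hx⟩
  exact isIntegral_of_irreducibleSpace_of_isReduced _

end Scheme

end Fermat.Agent.MCurve
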