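import Fermat.Agent.MCurve.JFun
import Mathlib.RingTheory.Int.Basic
import Mathlib.RingTheory.Coprime.Lemmas

/-!
Translates of `τ ↦ j (d τ)` under `SL(2,ℤ)`: reduction to `τ ↦ j ((α τ + β) / δ)`, and expansions.
-/

noncomputable section

namespace Fermat.Agent.MCurve

open Complex
open scoped MatrixGroups Real

local notation "𝕢" => Function.Periodic.qParam
local notation "ℍ" => UpperHalfPlane

/-- `τ ↦ d τ` (junk for `d = 0`). -/
def scalePt (d : ℕ) (τ : ℍ) : ℍ :=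
  if hd : 0 < d then ⟨(d : ℂ) * τ, by
    have h : (0 : ℝ) < d := by exact_mod_cast hd
    simpa using mul_pos h τ.im_pos⟩
  else τ

theorem coe_scalePt {d : ℕ} (hd : 0 < d) (τ : ℍ) : (scalePt d τ : ℂ) = (d : ℂ) * τ := by
  simp [scalePt, hd]

/-- `τ ↦ j (d τ)`. -/
def jScale (d : ℕ) (τ : ℍ) : ℂ := jFn (scalePt d τ)

/-- `τ ↦ (α τ + β) / δ` (junk unless `α, δ` are positive). -/
def affPt (α δ : ℕ) (β : ℤ) (τ : ℍ) : ℍ :=
  if h : 0 < α ∧ 0 < δ then ⟨((α : ℂ) * τ + β) / δ, by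
    rw [show ((δ : ℂ)) = ((δ : ℝ) : ℂ) by simp, Complex.div_ofReal_im]
    have hα : (0 : ℝ) < α := by exact_mod_cast h.1
    have hδ : (0 : ℝ) < δ := by exact_mod_cast h.2
    simpa using div_pos (mul_pos hα τ.im_pos) hδ⟩
  else τ

theorem coe_affPt {α δ : ℕ} (hα : 0 < α) (hδ : 0 < δ) (β : ℤ) (τ : ℍ) :
    (affPt α δ β τ : ℂ) = ((α : ℂ) * τ + β) / δ := by
  simp [affPt, hα, hδ]

theorem exists_decomp_denom {d : ℕ} (hd : 0 < d) (γ : SL(2, ℤ)) :
    ∃ (γ' : SL(2, ℤ)) (α δ : ℕ) (β : ℤ), 0 < α ∧ 0 < δ ∧ α * δ = d ∧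
      γ 1 0 = γ' 1 0 * (α : ℤ) ∧ ∀ τ : ℍ, scalePt d (γ • τ) = γ' • affPt α δ β τ ∧
        UpperHalfPlane.denom γ' ((affPt α δ β τ : ℍ) : ℂ) * δ =
          UpperHalfPlane.denom γ (τ : ℂ) := by
  have hdet := γ.det_coe
  rw [Matrix.det_fin_two] at hdet
  set a := (γ : Matrix (Fin 2) (Fin 2) ℤ) 0 0 with ha
  set b := (γ : Matrix (Fin 2) (Fin 2) ℤ) 0 1 with hb
  set c := (γ : Matrix (Fin 2) (Fin 2) ℤ) 1 0 with hc
  set e := (γ : Matrix (Fin 2) (Fin 2) ℤ) 1 1 with he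
  obtain ⟨g, u, w, hg, hda, hcg, x, y, hxy⟩ : ∃ (g : ℕ) (u w : ℤ), 0 < g ∧ (d : ℤ) * a = u * g ∧
      c = w * g ∧ ∃ x y : ℤ, x * u + y * w = 1 := by
    have hne : (d : ℤ) * a ≠ 0 ∨ c ≠ 0 := by
      by_contra hcon
      push Not at hcon
      rcases mul_eq_zero.mp hcon.1 with h1 | h1
      · omega
      · rw [h1, hcon.2] at hdet; simp at hdet
    have hpos : 0 < Int.gcd ((d : ℤ) * a) c := Int.gcd_pos_iff.mpr hne
    obtain ⟨u, hu⟩ := Int.gcd_dvd_left ((d : ℤ) * a) c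
    obtain ⟨w, hw⟩ := Int.gcd_dvd_right ((d : ℤ) * a) c
    refine ⟨Int.gcd ((d : ℤ) * a) c, u, w, hpos, by rw [mul_comm u]; exact hu,
      by rw [mul_comm w]; exact hw, Int.gcdA ((d : ℤ) * a) c, Int.gcdB ((d : ℤ) * a) c, ?_⟩
    have hb := Int.gcd_eq_gcd_ab ((d : ℤ) * a) c
    have hne' : ((Int.gcd ((d : ℤ) * a) c : ℕ) : ℤ) ≠ 0 := by exact_mod_cast hpos.ne'
    apply mul_left_cancel₀ hne'
    linear_combination -hb - Int.gcdA ((d : ℤ) * a) c * hu - Int.gcdB ((d : ℤ) * a) c * hw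
  have hgd : (g : ℤ) ∣ (d : ℤ) := by
    have h1 : IsCoprime (g : ℤ) a := ⟨-b * w, e, by rw [hcg] at hdet; linear_combination hdet⟩
    exact h1.dvd_of_dvd_mul_right ⟨u, by linear_combination hda⟩
  obtain ⟨δ, hδ⟩ := Int.natCast_dvd_natCast.mp hgd
  have hδpos : 0 < δ := Nat.pos_of_ne_zero fun h0 => by rw [h0, mul_zero] at hδ; omega
  let γ' : SL(2, ℤ) := ⟨!![u, -y; w, x], by simp [Matrix.det_fin_two]; linear_combination hxy⟩
  set β : ℤ := x * ((d : ℤ) * b) + y * e with hβ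
  have hδZ : (δ : ℤ) = -w * ((d : ℤ) * b) + u * e := by
    have hg' : (g : ℤ) ≠ 0 := by omega
    have hδ' : (d : ℤ) = (g : ℤ) * δ := by exact_mod_cast hδ
    apply mul_left_cancel₀ hg'
    linear_combination -hδ' - (d : ℤ) * hdet + e * hda - (d : ℤ) * b * hcg
  refine ⟨γ', g, δ, β, hg, hδpos, hδ.symm, hcg, fun τ => ⟨?_, ?_⟩⟩
  swap
  · rw [ModularGroup.denom_apply, ModularGroup.denom_apply, coe_affPt hg hδpos]
    simp only [γ', ← hc, ← he, Matrix.cons_val', Matrix.cons_val_zero, Matrix.cons_val_fin_one,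
      Matrix.cons_val_one, Matrix.of_apply]
    have hδ0 : (δ : ℂ) ≠ 0 := by exact_mod_cast hδpos.ne'
    have hcg' : (c : ℂ) = w * g := by exact_mod_cast hcg
    have hδ' : (δ : ℂ) = -w * ((d : ℂ) * b) + u * e := by exact_mod_cast hδZ
    have hβ' : (β : ℂ) = x * ((d : ℂ) * b) + y * e := by exact_mod_cast hβ
    have hxy' : (x : ℂ) * u + y * w = 1 := by exact_mod_cast hxy
    field_simp
    linear_combination -(τ : ℂ) * hcg' + (w : ℂ) * hβ' + (x : ℂ) * hδ' + (e : ℂ) * hxy'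
  apply UpperHalfPlane.ext
  rw [coe_scalePt hd, UpperHalfPlane.coe_specialLinearGroup_apply,
    UpperHalfPlane.coe_specialLinearGroup_apply, coe_affPt hg hδpos]
  simp only [γ', algebraMap_int_eq, eq_intCast, Complex.ofReal_intCast, ← ha, ← hb, ← hc, ← he,
    Matrix.cons_val', Matrix.cons_val_zero, Matrix.cons_val_fin_one, Matrix.cons_val_one,
    Matrix.of_apply]
  have hδ0 : (δ : ℂ) ≠ 0 := by exact_mod_cast hδpos.ne'
  have hda' : (d : ℂ) * a = u * g := by exact_mod_cast hda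
  have hcg' : (c : ℂ) = w * g := by exact_mod_cast hcg
  have hδ' : (δ : ℂ) = -w * ((d : ℂ) * b) + u * e := by exact_mod_cast hδZ
  have hβ' : (β : ℂ) = x * ((d : ℂ) * b) + y * e := by exact_mod_cast hβ
  have hxy' : (x : ℂ) * u + y * w = 1 := by exact_mod_cast hxy
  have hden : (c : ℂ) * τ + e ≠ 0 := by
    intro h0
    rcases eq_or_ne c 0 with hc0 | hc0
    · rw [hc0] at hdet h0
      simp only [Int.cast_zero, zero_mul, zero_add, Int.cast_eq_zero] at h0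
      rw [h0] at hdet; simp at hdet
    · have := congrArg Complex.im h0
      simp only [Complex.add_im, Complex.mul_im, Complex.intCast_im, Complex.intCast_re,
        zero_mul, add_zero, Complex.zero_im, mul_eq_zero] at this
      rcases this with h | h
      · exact hc0 (by exact_mod_cast h)
      · exact τ.im_pos.ne' h
  have hnum : (u : ℂ) * (((g : ℂ) * τ + β) / δ) + ((-y : ℤ) : ℂ) =
      ((d : ℂ) * ((a : ℂ) * τ + b)) / δ := by
    rw [div_eq_mul_inv, div_eq_mul_inv]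
    field_simp
    push_cast
    linear_combination -τ * hda' + u * hβ' - y * hδ' + (d : ℂ) * b * hxy'
  have hden' : (w : ℂ) * (((g : ℂ) * τ + β) / δ) + (x : ℂ) = ((c : ℂ) * τ + e) / δ := by
    field_simp
    linear_combination -τ * hcg' + w * hβ' + x * hδ' + (e : ℂ) * hxy'
  rw [hnum, hden', div_div_div_cancel_right₀ hδ0, mul_div_assoc]

theorem exists_decomp {d : ℕ} (hd : 0 < d) (γ : SL(2, ℤ)) :
    ∃ (γ' : SL(2, ℤ)) (α δ : ℕ) (β : ℤ), 0 < α ∧ 0 < δ ∧ α * δ = d ∧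
      γ 1 0 = γ' 1 0 * (α : ℤ) ∧ ∀ τ : ℍ, scalePt d (γ • τ) = γ' • affPt α δ β τ := by
  obtain ⟨γ', α, δ, β, h1, h2, h3, h4, h5⟩ := exists_decomp_denom hd γ
  exact ⟨γ', α, δ, β, h1, h2, h3, h4, fun τ => (h5 τ).1⟩

/-- The root of unity `exp(2πiβ/δ)`. -/
def zetaPow (δ : ℕ) (β : ℤ) : ℂ := Complex.exp (2 * π * Complex.I * β / δ)

theorem zetaPow_pow {δ : ℕ} (hδ : 0 < δ) (β : ℤ) : zetaPow δ β ^ δ = 1 := by
  rw [zetaPow, ← Complex.exp_nat_mul,
    show (δ : ℂ) * (2 * π * Complex.I * β / δ) = β * (2 * π * Complex.I) by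
      field_simp [show (δ : ℂ) ≠ 0 by exact_mod_cast hδ.ne'],
    Complex.exp_int_mul_two_pi_mul_I]

theorem qParam_affPt {α δ m n : ℕ} (hα : 0 < α) (hδ : 0 < δ) (hn : 0 < n) (hm : α * n = m * δ)
    (β : ℤ) (τ : ℍ) :
    𝕢 1 (affPt α δ β τ : ℂ) = zetaPow δ β * 𝕢 (n : ℝ) (τ : ℂ) ^ m := by
  rw [coe_affPt hα hδ, Function.Periodic.qParam, Function.Periodic.qParam, zetaPow,
    ← Complex.exp_nat_mul, ← Complex.exp_add]
  congr 1
  have hδ0 : (δ : ℂ) ≠ 0 := by exact_mod_cast hδ.ne'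
  have hn0 : (n : ℂ) ≠ 0 := by exact_mod_cast hn.ne'
  have hm' : (α : ℂ) * n = m * δ := by exact_mod_cast hm
  push_cast
  field_simp
  linear_combination (τ : ℂ) * hm'

/-- The Laurent series of `j` in `X` after substituting `q ↦ c X ^ m`. -/
def jSubst (c : ℂ) (m : ℕ) : LaurentSeries ℂ :=
  HahnSeries.single (-(m : ℤ)) (1 : ℂ) * HahnSeries.ofPowerSeries ℤ ℂ (PowerSeries.C c⁻¹ *
    PowerSeries.mk fun k => if m ∣ k then
      PowerSeries.coeff (k / m) (ModularCurve.jNum.map (Int.castRingHom ℂ)) * c ^ (k / m) else 0)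

theorem lExp_jFn_affPt {α δ m n : ℕ} (hα : 0 < α) (hδ : 0 < δ) (hn : 0 < n)
    (hm : α * n = m * δ) (β : ℤ) :
    LExp (n : ℝ) (fun τ => jFn (affPt α δ β τ)) (jSubst (zetaPow δ β) m) := by
  have hm0 : 0 < m := Nat.pos_of_ne_zero fun h0 => by
    rw [h0, zero_mul] at hm; exact (Nat.mul_pos hα hn).ne' hm
  have hc : zetaPow δ β ≠ 0 := Complex.exp_ne_zero _
  refine ⟨m, _, ((qExp_qParam_mul_jFn.comp hm0 (qParam_affPt hα hδ hn hm β)).const_mul
    (zetaPow δ β)⁻¹).congr fun τ => ?_, rfl⟩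
  rw [qParam_affPt hα hδ hn hm β, ← mul_assoc, ← mul_assoc, inv_mul_cancel₀ hc, one_mul]

theorem jSubst_coeff_self (c : ℂ) (m : ℕ) : (jSubst c m).coeff (-(m : ℤ)) = c⁻¹ := by
  rw [jSubst, HahnSeries.coeff_single_mul, sub_self, one_mul,
    show (0 : ℤ) = ((0 : ℕ) : ℤ) from rfl, HahnSeries.ofPowerSeries_apply_coeff]
  simp

theorem jSubst_coeff_of_lt (c : ℂ) (m : ℕ) {k : ℤ} (hk : k < -(m : ℤ)) :
    (jSubst c m).coeff k = 0 := by
  rw [jSubst, HahnSeries.coeff_single_mul, one_mul]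
  exact ModularCurve.ofPowerSeries_coeff_of_neg _ (by omega)

theorem jSubst_one_eq_qExpand {m : ℕ} [NeZero m] :
    jSubst 1 m = ModularCurve.qExpand ℂ m (ModularCurve.jqModC ℂ) := by
  rw [ModularCurve.jqModC, map_mul, ModularCurve.qExpand_single, mul_neg, mul_one, jSubst]
  congr 1
  ext k
  rw [inv_one, map_one, one_mul]
  by_cases hk : (m : ℤ) ∣ k
  · obtain ⟨i, rfl⟩ := hk
    rw [ModularCurve.qExpand_coeff_mul]
    rcases le_or_gt 0 i with hi | hi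
    · lift i to ℕ using hi
      rw [show (m : ℤ) * (i : ℤ) = ((m * i : ℕ) : ℤ) by push_cast; ring,
        HahnSeries.ofPowerSeries_apply_coeff, HahnSeries.ofPowerSeries_apply_coeff]
      simp [Nat.mul_div_cancel_left _ (Nat.pos_of_ne_zero (NeZero.ne m))]
    · rw [ModularCurve.ofPowerSeries_coeff_of_neg _ hi, ModularCurve.ofPowerSeries_coeff_of_neg]
      exact mul_neg_of_pos_of_neg (by exact_mod_cast Nat.pos_of_ne_zero (NeZero.ne m)) hi
  · rw [ModularCurve.qExpand_coeff_of_not_dvd m _ hk]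
    rcases le_or_gt 0 k with hk' | hk'
    · lift k to ℕ using hk'
      rw [HahnSeries.ofPowerSeries_apply_coeff, PowerSeries.coeff_mk,
        if_neg (fun h => hk (Int.natCast_dvd_natCast.mpr h))]
    · exact ModularCurve.ofPowerSeries_coeff_of_neg _ hk'

end Fermat.Agent.MCurve
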