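import Fermat.Agent.MCurve.ASeries

/-!
`j (d τ)` and `Δ (d τ) / Δ (τ)` as elements of the level ring, with expansions of their translates.
-/

noncomputable section

namespace Fermat.Agent.MCurve

open CongruenceSubgroup
open scoped MatrixGroups Real ModularForm Manifold

local notation "ℍ" => UpperHalfPlane
local notation "𝕢" => Function.Periodic.qParam

variable (N : ℕ) [NeZero N] (A : Subring ℂ)

/-- `A` contains the roots of unity of order dividing `N` and the inverse of `N`. -/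
structure IsGoodRing : Prop where
  root_mem : ∀ ζ : ℂ, ζ ^ N = 1 → ζ ∈ A
  inv_mem : ((N : ℂ))⁻¹ ∈ A

variable {N A}

theorem Gamma_le_Gamma0' {M : ℕ} : Gamma M ≤ Gamma0 M := fun γ hγ => by
  rw [Gamma0_mem]
  exact (Gamma_mem.mp hγ).2.2.1

theorem IsGoodRing.inv_natCast_mem (hA : IsGoodRing N A) {δ : ℕ} (hδ : δ ∣ N) :
    ((δ : ℂ))⁻¹ ∈ A := by
  obtain ⟨e, he⟩ := hδ
  have hN : (N : ℂ) ≠ 0 := Nat.cast_ne_zero.mpr (NeZero.ne N)
  have : ((δ : ℂ))⁻¹ = (e : ℂ) * (N : ℂ)⁻¹ := by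
    have he' : (N : ℂ) = (δ : ℂ) * e := by exact_mod_cast he
    rw [he'] at hN ⊢
    field_simp [(mul_ne_zero_iff.mp hN).1, (mul_ne_zero_iff.mp hN).2]
  rw [this]
  exact mul_mem (natCast_mem A e) hA.inv_mem

theorem IsGoodRing.zetaPow_mem (hA : IsGoodRing N A) {δ : ℕ} (hδ0 : 0 < δ) (hδ : δ ∣ N) (β : ℤ) :
    zetaPow δ β ∈ A ∧ (zetaPow δ β)⁻¹ ∈ A := by
  have h : zetaPow δ β ^ N = 1 := by
    obtain ⟨e, rfl⟩ := hδ
    rw [pow_mul, zetaPow_pow hδ0, one_pow]
  exact ⟨hA.root_mem _ h, hA.root_mem _ (by rw [inv_pow, h, inv_one])⟩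

theorem jSubst_coeff_mem_subring {c : ℂ} (hc : c ∈ A) (hc' : c⁻¹ ∈ A) (m : ℕ) (k : ℤ) :
    (jSubst c m).coeff k ∈ A := by
  rw [jSubst, HahnSeries.coeff_single_mul, one_mul]
  rcases le_or_gt 0 (k - -(m : ℤ)) with hk | hk
  · obtain ⟨i, hi⟩ := Int.eq_ofNat_of_zero_le hk
    rw [hi, HahnSeries.ofPowerSeries_apply_coeff, PowerSeries.coeff_C_mul, PowerSeries.coeff_mk]
    refine mul_mem hc' ?_
    split_ifs
    · rw [PowerSeries.coeff_map]
      exact mul_mem (intCast_mem A _) (pow_mem hc _)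
    · exact zero_mem A
  · rw [ModularCurve.ofPowerSeries_coeff_of_neg _ hk]
    exact zero_mem A

theorem discriminant_smul (γ : SL(2, ℤ)) (τ : ℍ) :
    ModularForm.discriminant (γ • τ) =
      UpperHalfPlane.denom γ (τ : ℂ) ^ (12 : ℤ) * ModularForm.discriminant τ :=
  SlashInvariantForm.slash_action_eqn'' CuspForm.discriminant
    (show Matrix.SpecialLinearGroup.mapGL ℝ γ ∈ (Matrix.SpecialLinearGroup.mapGL ℝ).range
      from ⟨γ, rfl⟩) τ

/-- `Δ(d τ) / Δ(τ)`. -/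
def deltaRatio (d : ℕ) (τ : ℍ) : ℂ :=
  ModularForm.discriminant (scalePt d τ) / ModularForm.discriminant τ

theorem differentiableOn_comp_scalePt {F : ℍ → ℂ}
    (hF : DifferentiableOn ℂ (F ∘ UpperHalfPlane.ofComplex) {z : ℂ | 0 < z.im}) {α δ : ℕ}
    (hα : 0 < α) (hδ : 0 < δ) (β : ℤ) :
    DifferentiableOn ℂ ((fun τ => F (affPt α δ β τ)) ∘ UpperHalfPlane.ofComplex)
      {z : ℂ | 0 < z.im} := by
  have hmaps : Set.MapsTo (fun z : ℂ => ((α : ℂ) * z + β) / δ) {z : ℂ | 0 < z.im}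
      {z : ℂ | 0 < z.im} := by
    intro z (hz : 0 < z.im)
    have := (affPt α δ β ⟨z, hz⟩).im_pos
    rwa [← UpperHalfPlane.coe_im, coe_affPt hα hδ] at this
  refine (hF.comp (f := fun z : ℂ => ((α : ℂ) * z + β) / δ) (by fun_prop) hmaps).congr
    fun z (hz : 0 < z.im) => ?_
  simp only [Function.comp_apply]
  rw [UpperHalfPlane.ofComplex_apply_of_im_pos hz,
    UpperHalfPlane.ofComplex_apply_of_im_pos (hmaps hz)]
  congr 1
  apply UpperHalfPlane.ext
  rw [coe_affPt hα hδ]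

/-- Translates of `j(dτ)` are `j((ατ+β)/δ)`. -/
theorem jScale_translate {d : ℕ} (hd : d ∣ N) (γ : SL(2, ℤ)) :
    ∃ (α δ : ℕ) (β : ℤ), 0 < α ∧ 0 < δ ∧ α * δ = d ∧
      ((d : ℤ) ∣ γ 1 0 ↔ α = d) ∧
      (fun τ => jScale d (γ • τ)) = fun τ => jFn (affPt α δ β τ) := by
  have hd0 : 0 < d := Nat.pos_of_dvd_of_pos hd (Nat.pos_of_ne_zero (NeZero.ne N))
  obtain ⟨γ', α, δ, β, hα, hδ, hαδ, hc, heq⟩ := exists_decomp hd0 γ
  refine ⟨α, δ, β, hα, hδ, hαδ, ⟨fun hdvd => ?_, fun h => ?_⟩,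
    funext fun τ => by rw [jScale, heq, jFn_smul]⟩
  · have hL : LExp (d : ℝ) (fun τ => jScale d (γ • τ)) (jSubst (zetaPow δ β) (α * α)) := by
      have := lExp_jFn_affPt hα hδ hd0 (show α * d = α * α * δ by rw [← hαδ]; ring) β
      refine (congrArg (fun F => LExp (d : ℝ) F _) (funext fun τ => ?_)).mp this
      rw [jScale, heq, jFn_smul]
    haveI : NeZero d := ⟨hd0.ne'⟩
    have hR : LExp (d : ℝ) (fun τ => jScale d (γ • τ)) (jSubst (zetaPow 1 0) (d * d)) := by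
      have := lExp_jFn_affPt hd0 Nat.one_pos hd0 (show d * d = d * d * 1 by ring) 0
      refine (congrArg (fun F => LExp (d : ℝ) F _) (funext fun τ => ?_)).mp this
      rw [jScale_smul_of_mem d dvd_rfl (Gamma0_mem.mpr
        ((ZMod.intCast_zmod_eq_zero_iff_dvd _ _).mpr hdvd)), jScale]
      congr 1
      apply UpperHalfPlane.ext
      rw [coe_affPt hd0 Nat.one_pos, coe_scalePt hd0]
      simp
    have hu := congrArg (fun s : LaurentSeries ℂ => s.coeff (-((d * d : ℕ) : ℤ)))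
      (hL.unique (natCast_pos' d) hR)
    simp only [jSubst_coeff_self] at hu
    have hle : α ≤ d := Nat.le_of_dvd hd0 ⟨δ, hαδ.symm⟩
    refine hle.lt_or_eq.resolve_left fun hlt => ?_
    rw [jSubst_coeff_of_lt _ _ (by
      have := Nat.mul_self_lt_mul_self hlt
      omega)] at hu
    exact inv_ne_zero (Complex.exp_ne_zero _) hu.symm
  · rw [hc, h]
    exact dvd_mul_left _ _

theorem jFn_affPt_hasASeries (hA : IsGoodRing N A) {α δ : ℕ} (hα : 0 < α) (hδ : 0 < δ)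
    (hd : α * δ ∣ N) (β : ℤ) :
    HasASeries N A (fun τ => jFn (affPt α δ β τ)) ∧
      ∃ m : ℕ, α * N = m * δ ∧
        LExp (N : ℝ) (fun τ => jFn (affPt α δ β τ)) (jSubst (zetaPow δ β) m) := by
  obtain ⟨r, hr⟩ := hd
  have hδN : δ ∣ N := ⟨α * r, by rw [hr]; ring⟩
  have hm : α * N = α * (α * r) * δ := by rw [hr]; ring
  have h := lExp_jFn_affPt hα hδ (Nat.pos_of_ne_zero (NeZero.ne N)) hm β
  obtain ⟨t, ht⟩ := exists_coeffMap_subtype_eq (A := A) (fun k =>
    jSubst_coeff_mem_subring (hA.zetaPow_mem hδ hδN β).1 (hA.zetaPow_mem hδ hδN β).2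
      (α * (α * r)) k)
  exact ⟨⟨differentiableOn_comp_scalePt (UpperHalfPlane.mdifferentiable_iff.mp mdifferentiable_jFn)
    hα hδ β, t, ht.symm ▸ h⟩, _, hm, h⟩

theorem jScale_mem_levelRing (hA : IsGoodRing N A) {d : ℕ} (hd : d ∣ N) :
    jScale d ∈ levelRing N A := by
  refine ⟨fun γ hγ τ => jScale_smul_of_mem N hd (Gamma_le_Gamma0' hγ) τ, fun γ => ?_⟩
  obtain ⟨α, δ, β, hα, hδ, hαδ, -, heq⟩ := jScale_translate hd γ
  rw [heq]
  exact (jFn_affPt_hasASeries hA hα hδ (hαδ ▸ hd) β).1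

theorem deltaRatio_smul_of_mem {d : ℕ} (hd : d ∣ N) {γ : SL(2, ℤ)} (hγ : γ ∈ Gamma0 N) (τ : ℍ) :
    deltaRatio d (γ • τ) = deltaRatio d τ := by
  have hd0 : 0 < d := Nat.pos_of_dvd_of_pos hd (Nat.pos_of_ne_zero (NeZero.ne N))
  have hdet := γ.det_coe
  rw [Matrix.det_fin_two] at hdet
  obtain ⟨k, hk⟩ : (d : ℤ) ∣ γ 1 0 := by
    rw [Gamma0_mem, ZMod.intCast_zmod_eq_zero_iff_dvd] at hγ
    exact (Int.natCast_dvd_natCast.mpr hd).trans hγ
  let γ' : SL(2, ℤ) := ⟨!![γ 0 0, (d : ℤ) * γ 0 1; k, γ 1 1], by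
    simp [Matrix.det_fin_two]
    linear_combination hdet + (γ 0 1) * hk⟩
  have hs : scalePt d (γ • τ) = γ' • scalePt d τ := by
    apply UpperHalfPlane.ext
    rw [coe_scalePt hd0, UpperHalfPlane.coe_specialLinearGroup_apply,
      UpperHalfPlane.coe_specialLinearGroup_apply, coe_scalePt hd0]
    simp only [γ', algebraMap_int_eq, eq_intCast, Complex.ofReal_intCast, hk,
      Matrix.cons_val', Matrix.cons_val_zero, Matrix.cons_val_fin_one, Matrix.cons_val_one,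
      Matrix.of_apply]
    push_cast
    rw [← mul_div_assoc]
    congr 1 <;> ring
  have hden : UpperHalfPlane.denom γ' ((scalePt d τ : ℍ) : ℂ) = UpperHalfPlane.denom γ (τ : ℂ) := by
    rw [ModularGroup.denom_apply, ModularGroup.denom_apply, coe_scalePt hd0]
    simp only [γ', hk, Matrix.cons_val', Matrix.cons_val_zero, Matrix.cons_val_fin_one,
      Matrix.cons_val_one, Matrix.of_apply]
    push_cast
    ring
  rw [deltaRatio, deltaRatio, hs, discriminant_smul, discriminant_smul, hden,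
    mul_div_mul_left _ _ (zpow_ne_zero _ (UpperHalfPlane.denom_ne_zero _ _))]

theorem deltaRatio_translate {d : ℕ} (hd0 : 0 < d) (γ : SL(2, ℤ)) :
    ∃ (α δ : ℕ) (β : ℤ), 0 < α ∧ 0 < δ ∧ α * δ = d ∧ (fun τ => deltaRatio d (γ • τ)) =
      fun τ => ((δ : ℂ)⁻¹) ^ 12 *
        (ModularForm.discriminant (affPt α δ β τ) * (ModularForm.discriminant τ)⁻¹) := by
  obtain ⟨γ', α, δ, β, hα, hδ, hαδ, hc, heq⟩ := exists_decomp_denom hd0 γ
  refine ⟨α, δ, β, hα, hδ, hαδ, funext fun τ => ?_⟩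
  have hδ0 : (δ : ℂ) ≠ 0 := Nat.cast_ne_zero.mpr hδ.ne'
  obtain ⟨heq, hden⟩ := heq τ
  rw [deltaRatio, heq, discriminant_smul, discriminant_smul, ← hden, mul_zpow,
    show ((δ : ℂ)) ^ (12 : ℤ) = (δ : ℂ) ^ (12 : ℕ) by norm_cast]
  have := zpow_ne_zero (12 : ℤ) (UpperHalfPlane.denom_ne_zero γ' (affPt α δ β τ))
  field_simp

theorem discriminant_inv_hasASeries :
    HasASeries N A (fun τ => (ModularForm.discriminant τ)⁻¹) := by
  refine ⟨(UpperHalfPlane.mdifferentiable_iff.mp (CuspFormClass.holo CuspForm.discriminant)).inv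
    fun z _ => ModularForm.discriminant_ne_zero _, ?_⟩
  have h1 := qExp_etaInv.comp (h := (N : ℝ)) (φ := id) (c := 1) (m := N)
    (Nat.pos_of_ne_zero (NeZero.ne N)) (qParam_id N)
  have h2 : LExp (N : ℝ) (fun τ => (ModularForm.discriminant τ)⁻¹) _ := ⟨N, _, h1.congr fun τ => by
    have hq := qParam_id N τ
    rw [one_mul] at hq
    simp only [id] at hq ⊢
    rw [discriminant_eq_qParam_mul, ← hq, mul_inv, ← mul_assoc,
      mul_inv_cancel₀ (Function.Periodic.qParam_ne_zero _), one_mul], rfl⟩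
  obtain ⟨t, ht⟩ := exists_coeffMap_subtype_eq (A := A) (s := HahnSeries.single (-(N : ℤ)) (1 : ℂ) *
      HahnSeries.ofPowerSeries ℤ ℂ (PowerSeries.mk fun n => if N ∣ n then PowerSeries.coeff (n / N)
        (ModularCurve.dedekindEtaUnitInv.map (Int.castRingHom ℂ)) * (1 : ℂ) ^ (n / N) else 0))
      (fun k => by
    rw [HahnSeries.coeff_single_mul, one_mul]
    rcases le_or_gt 0 (k - -(N : ℤ)) with hk | hk
    · obtain ⟨i, hi⟩ := Int.eq_ofNat_of_zero_le hk
      rw [hi, HahnSeries.ofPowerSeries_apply_coeff, PowerSeries.coeff_mk]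
      split_ifs
      · rw [PowerSeries.coeff_map, one_pow, mul_one]
        exact intCast_mem A _
      · exact zero_mem A
    · rw [ModularCurve.ofPowerSeries_coeff_of_neg _ hk]; exact zero_mem A)
  exact ⟨t, ht.symm ▸ h2⟩

theorem discriminant_affPt_hasASeries (hA : IsGoodRing N A) {α δ : ℕ} (hα : 0 < α) (hδ : 0 < δ)
    (hd : α * δ ∣ N) (β : ℤ) :
    HasASeries N A (fun τ => ModularForm.discriminant (affPt α δ β τ)) := by
  obtain ⟨r, hr⟩ := hd
  have hδN : δ ∣ N := ⟨α * r, by rw [hr]; ring⟩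
  have hm : α * N = α * (α * r) * δ := by rw [hr]; ring
  have hN : 0 < N := Nat.pos_of_ne_zero (NeZero.ne N)
  have hm0 : 0 < α * (α * r) := Nat.pos_of_ne_zero fun h0 => by
    rw [h0, zero_mul] at hm; exact (Nat.mul_pos hα hN).ne' hm
  refine ⟨differentiableOn_comp_scalePt (UpperHalfPlane.mdifferentiable_iff.mp
    (CuspFormClass.holo CuspForm.discriminant)) hα hδ β, ?_⟩
  have h1 : QExp 1 ModularForm.discriminant
      ((PowerSeries.X ^ 1 * ModularCurve.etaProd ^ 24).map (Int.castRingHom ℂ)) := by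
    rw [map_mul, map_pow, map_pow, PowerSeries.map_X]
    exact ((QExp.qParam_pow 1).mul (qExp_etaFn.pow 24)).congr fun τ => by
      simp [discriminant_eq_qParam_mul]
  have h2 := LExp.of_qExp (h1.comp hm0 (qParam_affPt hα hδ hN hm β))
  obtain ⟨t, ht⟩ := exists_coeffMap_subtype_eq (A := A) (s := HahnSeries.ofPowerSeries ℤ ℂ
      (PowerSeries.mk fun n => if α * (α * r) ∣ n then PowerSeries.coeff (n / (α * (α * r)))
        ((PowerSeries.X ^ 1 * ModularCurve.etaProd ^ 24).map (Int.castRingHom ℂ)) *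
          zetaPow δ β ^ (n / (α * (α * r))) else 0)) (fun k => by
    rcases le_or_gt 0 k with hk | hk
    · lift k to ℕ using hk
      rw [HahnSeries.ofPowerSeries_apply_coeff, PowerSeries.coeff_mk]
      split_ifs
      · rw [PowerSeries.coeff_map]
        exact mul_mem (intCast_mem A _) (pow_mem (hA.zetaPow_mem hδ hδN β).1 _)
      · exact zero_mem A
    · rw [ModularCurve.ofPowerSeries_coeff_of_neg _ hk]; exact zero_mem A)
  exact ⟨t, ht.symm ▸ h2⟩

theorem deltaRatio_mem_levelRing (hA : IsGoodRing N A) {d : ℕ} (hd : d ∣ N) :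
    deltaRatio d ∈ levelRing N A := by
  have hd0 : 0 < d := Nat.pos_of_dvd_of_pos hd (Nat.pos_of_ne_zero (NeZero.ne N))
  refine ⟨fun γ hγ τ => deltaRatio_smul_of_mem hd (Gamma_le_Gamma0' hγ) τ, fun γ => ?_⟩
  obtain ⟨α, δ, β, hα, hδ, hαδ, heq⟩ := deltaRatio_translate hd0 γ
  rw [heq]
  refine HasASeries.mul (HasASeries.const (⟨_, pow_mem (hA.inv_natCast_mem ?_) 12⟩ : A))
    ((discriminant_affPt_hasASeries hA hα hδ (hαδ ▸ hd) β).mul discriminant_inv_hasASeries)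
  exact (hαδ ▸ Dvd.intro_left α rfl : δ ∣ d).trans hd

end Fermat.Agent.MCurve
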