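import Fermat.Agent.MCurve.JDecomp
import Mathlib.NumberTheory.ModularForms.CongruenceSubgroups
import Mathlib.NumberTheory.ModularForms.CuspFormSubmodule
import Mathlib.FieldTheory.IsAlgClosed.Basic

/-!
The ring of modular functions generated by the conjugates of `j (d τ)`, `d ∣ N`, over a
subfield of `ℂ`; its expansion at infinity and its level one invariants.
-/

noncomputable section

namespace Fermat.Agent.MCurve

open Complex CongruenceSubgroup
open scoped MatrixGroups Real ModularForm Manifold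

local notation "ℍ" => UpperHalfPlane
local notation "𝕢" => Function.Periodic.qParam

variable (N : ℕ)

/-- All translates of the functions `j (d τ)`, `d ∣ N`. -/
def genSet : Set (ℍ → ℂ) :=
  {f | ∃ d, d ∣ N ∧ ∃ γ : SL(2, ℤ), f = fun τ => jScale d (γ • τ)}

theorem scalePt_one (τ : ℍ) : scalePt 1 τ = τ := by
  apply UpperHalfPlane.ext
  simp [coe_scalePt Nat.one_pos]

theorem jScale_one : jScale 1 = jFn := funext fun τ => by rw [jScale, scalePt_one]

variable [NeZero N]

theorem jScale_smul_of_mem {d : ℕ} (hd : d ∣ N) {γ : SL(2, ℤ)} (hγ : γ ∈ Gamma0 N) (τ : ℍ) :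
    jScale d (γ • τ) = jScale d τ := by
  have hd0 : 0 < d := Nat.pos_of_dvd_of_pos hd (Nat.pos_of_ne_zero (NeZero.ne N))
  have hdet := γ.det_coe
  rw [Matrix.det_fin_two] at hdet
  obtain ⟨k, hk⟩ : (d : ℤ) ∣ γ 1 0 := by
    rw [Gamma0_mem, ZMod.intCast_zmod_eq_zero_iff_dvd] at hγ
    exact (Int.natCast_dvd_natCast.mpr hd).trans hγ
  let γ' : SL(2, ℤ) := ⟨!![γ 0 0, (d : ℤ) * γ 0 1; k, γ 1 1], by
    simp [Matrix.det_fin_two]
    linear_combination hdet + (γ 0 1) * hk⟩
  have : scalePt d (γ • τ) = γ' • scalePt d τ := by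
    apply UpperHalfPlane.ext
    rw [coe_scalePt hd0, UpperHalfPlane.coe_specialLinearGroup_apply,
      UpperHalfPlane.coe_specialLinearGroup_apply, coe_scalePt hd0]
    simp only [γ', algebraMap_int_eq, eq_intCast, Complex.ofReal_intCast, hk,
      Matrix.cons_val', Matrix.cons_val_zero, Matrix.cons_val_fin_one, Matrix.cons_val_one,
      Matrix.of_apply]
    push_cast
    rw [← mul_div_assoc]
    congr 1 <;> ring
  rw [jScale, jScale, this, jFn_smul]

theorem genSet_finite : (genSet N).Finite := by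
  classical
  refine Set.Finite.subset (Set.finite_range fun p : {d // d ∈ N.divisors} × (SL(2, ℤ) ⧸ Gamma0 N) =>
    (fun τ => jScale p.1.1 ((Quotient.out p.2)⁻¹ • τ) : ℍ → ℂ)) ?_
  rintro f ⟨d, hd, γ, rfl⟩
  refine ⟨(⟨d, Nat.mem_divisors.mpr ⟨hd, NeZero.ne N⟩⟩, ((γ⁻¹ : SL(2, ℤ)) : SL(2, ℤ) ⧸ Gamma0 N)), ?_⟩
  obtain ⟨h, hh⟩ := QuotientGroup.mk_out_eq_mul (Gamma0 N) γ⁻¹
  funext τ
  show jScale d ((Quotient.out _)⁻¹ • τ) = _
  rw [hh, mul_inv_rev, inv_inv, mul_smul, jScale_smul_of_mem N hd (inv_mem h.2)]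

theorem comp_smul_mem_genSet {f : ℍ → ℂ} (hf : f ∈ genSet N) (γ : SL(2, ℤ)) :
    (fun τ => f (γ • τ)) ∈ genSet N := by
  obtain ⟨d, hd, δ, rfl⟩ := hf
  exact ⟨d, hd, δ * γ, funext fun τ => by rw [mul_smul]⟩

theorem jFn_mem_genSet : jFn ∈ genSet N :=
  ⟨1, one_dvd N, 1, funext fun τ => by rw [one_smul, jScale_one]⟩

theorem jScale_mem_genSet {d : ℕ} (hd : d ∣ N) : jScale d ∈ genSet N :=
  ⟨d, hd, 1, funext fun τ => by rw [one_smul]⟩

variable (K : Type*) [Field K] [Algebra K ℂ]

/-- The ring of modular functions of level `N` over `K`. -/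
abbrev modRing : Subalgebra K (ℍ → ℂ) := Algebra.adjoin K (genSet N)

/-- Coefficientwise embedding. -/
abbrev iotaC : LaurentSeries K →+* LaurentSeries ℂ := ModularCurve.coeffMap (algebraMap K ℂ)

theorem iotaC_injective : Function.Injective (iotaC K) := fun x y h => by
  ext k
  exact (algebraMap K ℂ).injective (congrArg (fun s : LaurentSeries ℂ => s.coeff k) h)

theorem exists_iotaC_eq {s : LaurentSeries ℂ} (h : ∀ k, s.coeff k ∈ Set.range (algebraMap K ℂ)) :
    ∃ t, iotaC K t = s := by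
  classical
  refine ⟨s.map (⟨Function.invFun (algebraMap K ℂ), ?_⟩ : ZeroHom ℂ K), ?_⟩
  · rw [← map_zero (algebraMap K ℂ), Function.leftInverse_invFun (algebraMap K ℂ).injective 0]
  · ext k
    obtain ⟨y, hy⟩ := h k
    rw [ModularCurve.coeffMap_coeff, HahnSeries.map_coeff]
    show algebraMap K ℂ (Function.invFun (algebraMap K ℂ) (s.coeff k)) = _
    rw [← hy, Function.leftInverse_invFun (algebraMap K ℂ).injective y]

variable [IsAlgClosed K]

theorem mem_range_of_pow_eq_one {z : ℂ} {n : ℕ} (hn : 0 < n) (h : z ^ n = 1) :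
    z ∈ Set.range (algebraMap K ℂ) := by
  have hi : IsIntegral K z :=
    ⟨Polynomial.X ^ n - Polynomial.C 1, Polynomial.monic_X_pow_sub_C _ hn.ne', by simp [h]⟩
  have hd := IsAlgClosed.degree_eq_one_of_irreducible K (minpoly.irreducible hi)
  have hev := minpoly.aeval K z
  rw [Polynomial.eq_X_add_C_of_degree_eq_one hd, (minpoly.monic hi).leadingCoeff, map_one, one_mul,
    map_add, Polynomial.aeval_X, Polynomial.aeval_C] at hev
  exact ⟨-(minpoly K z).coeff 0, by rw [map_neg]; linear_combination -hev⟩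

theorem jSubst_coeff_mem {c : ℂ} (hc : c ∈ Set.range (algebraMap K ℂ)) (m : ℕ) (k : ℤ) :
    (jSubst c m).coeff k ∈ Set.range (algebraMap K ℂ) := by
  obtain ⟨c', rfl⟩ := hc
  rw [jSubst, HahnSeries.coeff_single_mul, one_mul]
  rcases le_or_gt 0 (k - -(m : ℤ)) with hk | hk
  · obtain ⟨i, hi⟩ := Int.eq_ofNat_of_zero_le hk
    rw [hi, HahnSeries.ofPowerSeries_apply_coeff, PowerSeries.coeff_C_mul, PowerSeries.coeff_mk]
    split_ifs
    · refine ⟨c'⁻¹ * (((PowerSeries.coeff (i / m) ModularCurve.jNum : ℤ) : K) * c' ^ (i / m)), ?_⟩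
      simp [PowerSeries.coeff_map]
    · exact ⟨0, by simp⟩
  · rw [ModularCurve.ofPowerSeries_coeff_of_neg _ hk]
    exact ⟨0, map_zero _⟩

theorem lExp_generator {f : ℍ → ℂ} (hf : f ∈ genSet N) :
    ∃ t : LaurentSeries K, LExp (N : ℝ) f (iotaC K t) := by
  obtain ⟨d, hd, γ, rfl⟩ := hf
  have hN : 0 < N := Nat.pos_of_ne_zero (NeZero.ne N)
  have hd0 : 0 < d := Nat.pos_of_dvd_of_pos hd hN
  obtain ⟨γ', α, δ, β, hα, hδ, hαδ, -, heq⟩ := exists_decomp hd0 γ
  obtain ⟨r, hr⟩ := hd
  have hm : α * N = α * (α * r) * δ := by rw [hr, ← hαδ]; ring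
  obtain ⟨t, ht⟩ := exists_iotaC_eq K
    (jSubst_coeff_mem K (mem_range_of_pow_eq_one K hδ (zetaPow_pow hδ β)) (α * (α * r)))
  refine ⟨t, ht.symm ▸ ?_⟩
  have := lExp_jFn_affPt hα hδ hN hm β
  refine (congrArg (fun F => LExp (N : ℝ) F _) (funext fun τ => ?_)).mp this
  rw [jScale, heq, jFn_smul]

theorem lExp_of_mem {f : ℍ → ℂ} (hf : f ∈ modRing N K) :
    ∃ t : LaurentSeries K, LExp (N : ℝ) f (iotaC K t) := by
  induction hf using Algebra.adjoin_induction with
  | mem x hx => exact lExp_generator N K hx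
  | algebraMap c =>
    refine ⟨HahnSeries.C c, ?_⟩
    have h := LExp.C (h := (N : ℝ)) (algebraMap K ℂ c)
    rwa [show HahnSeries.C (algebraMap K ℂ c) = iotaC K (HahnSeries.C c) from
      (ModularCurve.coeffMap_single _ 0 c).symm] at h
  | add x y _ _ hx hy =>
    obtain ⟨s, hs⟩ := hx; obtain ⟨t, ht⟩ := hy
    exact ⟨s + t, by rw [map_add]; exact hs.add ht⟩
  | mul x y _ _ hx hy =>
    obtain ⟨s, hs⟩ := hx; obtain ⟨t, ht⟩ := hy
    exact ⟨s * t, by rw [map_mul]; exact hs.mul ht⟩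

theorem natCast_pos' : (0 : ℝ) < N := by exact_mod_cast Nat.pos_of_ne_zero (NeZero.ne N)

theorem expansion_eq {f : ℍ → ℂ} (hf : f ∈ modRing N K) {t : LaurentSeries K}
    (ht : LExp (N : ℝ) f (iotaC K t)) : (lExp_of_mem N K hf).choose = t :=
  iotaC_injective K ((lExp_of_mem N K hf).choose_spec.unique (natCast_pos' N) ht)

/-- The expansion at infinity in `exp (2 π i τ / N)`. -/
def expansion : modRing N K →ₐ[K] LaurentSeries K where
  toFun f := (lExp_of_mem N K f.2).choose
  map_one' := expansion_eq N K (one_mem _) (by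
    rw [map_one, ← map_one (HahnSeries.C : ℂ →+* LaurentSeries ℂ)]; exact LExp.C (h := (N : ℝ)) 1)
  map_mul' f g := expansion_eq N K (f * g).2 (by
    rw [map_mul]
    exact (lExp_of_mem N K f.2).choose_spec.mul (lExp_of_mem N K g.2).choose_spec)
  map_zero' := expansion_eq N K (zero_mem _) (by
    rw [map_zero, ← map_zero (HahnSeries.C : ℂ →+* LaurentSeries ℂ)]; exact LExp.C (h := (N : ℝ)) 0)
  map_add' f g := expansion_eq N K (f + g).2 (by
    rw [map_add]
    exact (lExp_of_mem N K f.2).choose_spec.add (lExp_of_mem N K g.2).choose_spec)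
  commutes' c := expansion_eq N K (algebraMap_mem _ c) (by
    rw [ModularCurve.algebraMap_laurentSeries_eq_single, iotaC, ModularCurve.coeffMap_single]
    exact LExp.C (h := (N : ℝ)) (algebraMap K ℂ c))

theorem lExp_expansion (f : modRing N K) : LExp (N : ℝ) (f : ℍ → ℂ) (iotaC K (expansion N K f)) :=
  (lExp_of_mem N K f.2).choose_spec

theorem expansion_injective : Function.Injective (expansion N K) := fun f g h =>
  Subtype.ext ((lExp_expansion N K f).eq_of_eq (h ▸ lExp_expansion N K g))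

instance : IsDomain (modRing N K) :=
  Function.Injective.isDomain (expansion N K).toRingHom (expansion_injective N K)

variable {N K}

theorem mdifferentiable_of_mem {f : ℍ → ℂ} (hf : f ∈ modRing N K) :
    DifferentiableOn ℂ (f ∘ UpperHalfPlane.ofComplex) {z : ℂ | 0 < z.im} := by
  induction hf using Algebra.adjoin_induction with
  | mem x hx =>
    obtain ⟨d, hd, γ, rfl⟩ := hx
    have hd0 : 0 < d := Nat.pos_of_dvd_of_pos hd (Nat.pos_of_ne_zero (NeZero.ne N))
    obtain ⟨γ', α, δ, β, hα, hδ, -, -, heq⟩ := exists_decomp hd0 γ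
    have hj := UpperHalfPlane.mdifferentiable_iff.mp mdifferentiable_jFn
    have hmaps : Set.MapsTo (fun z : ℂ => ((α : ℂ) * z + β) / δ) {z : ℂ | 0 < z.im} {z : ℂ | 0 < z.im} := by
      intro z (hz : 0 < z.im)
      have := (affPt α δ β ⟨z, hz⟩).im_pos
      rwa [← UpperHalfPlane.coe_im, coe_affPt hα hδ] at this
    refine (hj.comp (f := fun z : ℂ => ((α : ℂ) * z + β) / δ) (by fun_prop) hmaps).congr
      fun z (hz : 0 < z.im) => ?_
    simp only [Function.comp_apply]
    rw [jScale, heq, jFn_smul, UpperHalfPlane.ofComplex_apply_of_im_pos hz,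
      UpperHalfPlane.ofComplex_apply_of_im_pos (hmaps hz)]
    congr 1
    apply UpperHalfPlane.ext
    rw [coe_affPt hα hδ]
  | algebraMap c => exact differentiableOn_const (algebraMap K ℂ c)
  | add x y _ _ hx hy => exact hx.add hy
  | mul x y _ _ hx hy => exact hx.mul hy

/-- Package a function as a level one modular form. -/
def levelOneForm {k : ℤ} (F : ℍ → ℂ)
    (hol : DifferentiableOn ℂ (F ∘ UpperHalfPlane.ofComplex) {z : ℂ | 0 < z.im})
    (hF : ∀ (γ : SL(2, ℤ)) (τ : ℍ), F (γ • τ) = UpperHalfPlane.denom γ (τ : ℂ) ^ k * F τ)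
    (hb : UpperHalfPlane.IsBoundedAtImInfty F) : ModularForm 𝒮ℒ k where
  toFun := F
  slash_action_eq' A hA := by
    obtain ⟨γ, rfl⟩ := hA
    show F ∣[k] γ = F
    funext τ
    rw [ModularForm.SL_slash_apply, hF, mul_comm, ← mul_assoc, ← zpow_add₀
      (UpperHalfPlane.denom_ne_zero _ _), neg_add_cancel, zpow_zero, one_mul]
  holo' := UpperHalfPlane.mdifferentiable_iff.mpr hol
  bdd_at_cusps' hc := by
    rw [Subgroup.IsArithmetic.isCusp_iff_isCusp_SL2Z] at hc
    rw [OnePoint.isBoundedAt_iff_forall_SL2Z hc]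
    intro γ _
    have : F ∣[k] γ = F := by
      funext τ
      rw [ModularForm.SL_slash_apply, hF, mul_comm, ← mul_assoc, ← zpow_add₀
        (UpperHalfPlane.denom_ne_zero _ _), neg_add_cancel, zpow_zero, one_mul]
    rw [this]; exact hb

theorem lExp_discriminant : ∃ t : LaurentSeries K,
    LExp (N : ℝ) ModularForm.discriminant (iotaC K t) := by
  have h1 : QExp 1 ModularForm.discriminant
      (PowerSeries.X ^ 1 * (ModularCurve.etaProd.map (Int.castRingHom ℂ)) ^ 24) :=
    ((QExp.qParam_pow 1).mul (qExp_etaFn.pow 24)).congr fun τ => by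
      simp [discriminant_eq_qParam_mul]
  have h2 := h1.comp (h := (N : ℝ)) (φ := id) (c := 1) (m := N)
    (Nat.pos_of_ne_zero (NeZero.ne N)) (fun τ => by
      rw [one_mul, Function.Periodic.qParam, Function.Periodic.qParam, ← Complex.exp_nat_mul]
      congr 1
      have : (N : ℂ) ≠ 0 := Nat.cast_ne_zero.mpr (NeZero.ne N)
      push_cast [id]
      field_simp)
  set p : PowerSeries ℤ := PowerSeries.X ^ 1 * ModularCurve.etaProd ^ 24 with hp
  obtain ⟨t, ht⟩ := exists_iotaC_eq K (s := HahnSeries.ofPowerSeries ℤ ℂ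
      (PowerSeries.mk fun n => if N ∣ n then PowerSeries.coeff (n / N)
        (p.map (Int.castRingHom ℂ)) * (1 : ℂ) ^ (n / N) else 0)) (fun k => by
    rcases le_or_gt 0 k with hk | hk
    · lift k to ℕ using hk
      rw [HahnSeries.ofPowerSeries_apply_coeff, PowerSeries.coeff_mk]
      split_ifs
      · exact ⟨((PowerSeries.coeff (k / N) p : ℤ) : K), by simp [PowerSeries.coeff_map]⟩
      · exact ⟨0, map_zero _⟩
    · rw [ModularCurve.ofPowerSeries_coeff_of_neg _ hk]; exact ⟨0, map_zero _⟩)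
  refine ⟨t, ht.symm ▸ ?_⟩
  have hp' : p.map (Int.castRingHom ℂ) =
      PowerSeries.X ^ 1 * (ModularCurve.etaProd.map (Int.castRingHom ℂ)) ^ 24 := by
    simp [hp]
  rw [hp']
  exact LExp.of_qExp h2

/-- Invariant functions of the ring are polynomials in `j`. -/
theorem mem_adjoin_jFn_of_invariant {r : ℍ → ℂ} (hr : r ∈ modRing N K)
    (hinv : ∀ (γ : SL(2, ℤ)) (τ : ℍ), r (γ • τ) = r τ) :
    r ∈ Algebra.adjoin K {jFn} := by
  obtain ⟨tΔ, htΔ⟩ := lExp_discriminant (N := N) (K := K)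
  have hform : ∀ (a : ℕ) (s : ℍ → ℂ), s ∈ modRing N K →
      (∀ (γ : SL(2, ℤ)) (τ : ℍ), s (γ • τ) = s τ) →
      UpperHalfPlane.IsBoundedAtImInfty (fun τ => s τ * ModularForm.discriminant τ ^ a) →
      ∃ f : ModularForm 𝒮ℒ ((12 * a : ℕ) : ℤ), (⇑f = fun τ => s τ * ModularForm.discriminant τ ^ a) ∧
        (UpperHalfPlane.qExpansion 1 ⇑f).coeff 0 ∈ Set.range (algebraMap K ℂ) := by
    intro a s hs hsinv hb
    have hol : DifferentiableOn ℂ ((fun τ => s τ * ModularForm.discriminant τ ^ a) ∘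
        UpperHalfPlane.ofComplex) {z : ℂ | 0 < z.im} :=
      (mdifferentiable_of_mem hs).mul
        ((UpperHalfPlane.mdifferentiable_iff.mp (CuspFormClass.holo CuspForm.discriminant)).pow a)
    let f : ModularForm 𝒮ℒ ((12 * a : ℕ) : ℤ) := levelOneForm _ hol (fun γ τ => by
      have hd := SlashInvariantForm.slash_action_eqn'' CuspForm.discriminant
        (show Matrix.SpecialLinearGroup.mapGL ℝ γ ∈ (Matrix.SpecialLinearGroup.mapGL ℝ).range
          from ⟨γ, rfl⟩) τ
      have hd' : ModularForm.discriminant (γ • τ) =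
        UpperHalfPlane.denom γ (τ : ℂ) ^ (12 : ℤ) * ModularForm.discriminant τ := hd
      rw [hsinv, hd', mul_pow, ← zpow_natCast (UpperHalfPlane.denom _ _ ^ (12 : ℤ)) a, ← zpow_mul]
      push_cast; ring) hb
    refine ⟨f, rfl, ?_⟩
    obtain ⟨t, ht⟩ := lExp_of_mem N K hs
    have hl : LExp (N : ℝ) ⇑f (iotaC K (t * tΔ ^ a)) := by
      rw [map_mul, map_pow]
      exact ht.mul (htΔ.pow a)
    have hf1 : QExp 1 ⇑f (UpperHalfPlane.qExpansion 1 ⇑f) :=
      fun τ => ModularForm.hasSum_qExpansion f one_pos one_mem_strictPeriods_SL τ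
    have hf2 := LExp.of_qExp (hf1.comp (h := (N : ℝ)) (φ := id) (c := 1) (m := N)
      (Nat.pos_of_ne_zero (NeZero.ne N)) (fun τ => by
        rw [one_mul, Function.Periodic.qParam, Function.Periodic.qParam, ← Complex.exp_nat_mul]
        congr 1
        have : (N : ℂ) ≠ 0 := Nat.cast_ne_zero.mpr (NeZero.ne N)
        push_cast [id]
        field_simp))
    have h0 := congrArg (fun x : LaurentSeries ℂ => x.coeff ((0 : ℕ) : ℤ))
      (hl.unique (natCast_pos' N) hf2)
    simp only [ModularCurve.coeffMap_coeff, HahnSeries.ofPowerSeries_apply_coeff,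
      PowerSeries.coeff_mk, dvd_zero, if_true, Nat.zero_div, pow_zero, mul_one] at h0
    exact ⟨_, h0⟩
  suffices key : ∀ (a : ℕ) (s : ℍ → ℂ), s ∈ modRing N K →
      (∀ (γ : SL(2, ℤ)) (τ : ℍ), s (γ • τ) = s τ) →
      UpperHalfPlane.IsBoundedAtImInfty (fun τ => s τ * ModularForm.discriminant τ ^ a) →
      s ∈ Algebra.adjoin K {jFn} by
    obtain ⟨t, n, p, hp, -⟩ := lExp_of_mem N K hr
    refine key n r hr hinv ?_
    have hbd : UpperHalfPlane.IsBoundedAtImInfty (fun τ : ℍ => 𝕢 (N : ℝ) (τ : ℂ) ^ n * r τ) :=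
      UpperHalfPlane.isBoundedAtImInfty_of_hasSum_qExpansion (natCast_pos' N) hp
    have hq : (fun τ : ℍ => ModularForm.discriminant τ) =O[UpperHalfPlane.atImInfty]
        (fun τ : ℍ => 𝕢 (N : ℝ) (τ : ℂ)) := by
      have h1 : UpperHalfPlane.IsBoundedAtImInfty (fun τ : ℍ => etaFn (𝕢 1 (τ : ℂ)) ^ 24) :=
        UpperHalfPlane.isBoundedAtImInfty_of_hasSum_qExpansion one_pos (qExp_etaFn.pow 24)
      have h2 : UpperHalfPlane.IsBoundedAtImInfty (fun τ : ℍ => 𝕢 (N : ℝ) (τ : ℂ) ^ (N - 1)) :=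
        UpperHalfPlane.isBoundedAtImInfty_of_hasSum_qExpansion (natCast_pos' N) (QExp.qParam_pow _)
      have h1' := h1.trans (Asymptotics.isBigO_of_le _ (g := fun _ : ℍ => (1 : ℂ))
        fun τ => by simp)
      have h2' := h2.trans (Asymptotics.isBigO_of_le _ (g := fun _ : ℍ => (1 : ℂ))
        fun τ => by simp)
      have h3 := ((Asymptotics.isBigO_refl (fun τ : ℍ => 𝕢 (N : ℝ) (τ : ℂ))
        UpperHalfPlane.atImInfty).mul h2').mul h1'
      refine (h3.congr (fun τ => ?_) (fun τ => by simp)).trans (Asymptotics.isBigO_refl _ _)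
      rw [← pow_succ', Nat.sub_add_cancel (Nat.pos_of_ne_zero (NeZero.ne N)),
        discriminant_eq_qParam_mul]
      congr 1
      rw [Function.Periodic.qParam, Function.Periodic.qParam, ← Complex.exp_nat_mul]
      congr 1
      have : (N : ℂ) ≠ 0 := Nat.cast_ne_zero.mpr (NeZero.ne N)
      push_cast
      field_simp
    have h4 := ((Asymptotics.isBigO_refl r UpperHalfPlane.atImInfty).mul (hq.pow n))
    refine h4.trans (hbd.congr_left fun τ => ?_)
    ring
  intro a
  induction a with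
  | zero =>
    intro s hs hsinv hb
    obtain ⟨f, hf, ⟨c₀, hc₀⟩⟩ := hform 0 s hs hsinv hb
    obtain ⟨c, hc⟩ := ModularFormClass.levelOne_weight_zero_const (F := ModularForm 𝒮ℒ 0)
      (show ModularForm 𝒮ℒ 0 from f)
    have hsc : s = fun _ => c := by
      funext τ
      have := congrFun (hf.symm.trans hc) τ
      simpa using this
    have hc' : c = algebraMap K ℂ c₀ := by
      rw [hc₀]
      have h1 : QExp 1 ⇑f (PowerSeries.C c) := (QExp.C (h := 1) c).congr fun τ => by
        exact (congrFun hc τ).symm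
      have h2 : QExp 1 ⇑f (UpperHalfPlane.qExpansion 1 ⇑f) :=
        fun τ => ModularForm.hasSum_qExpansion f one_pos one_mem_strictPeriods_SL τ
      rw [← h1.unique one_pos h2]
      simp
    rw [hsc, hc']
    exact Subalgebra.algebraMap_mem _ c₀
  | succ a ih =>
    intro s hs hsinv hb
    obtain ⟨f, hf, ⟨c₀, hc₀⟩⟩ := hform (a + 1) s hs hsinv hb
    let s' : ℍ → ℂ := s - algebraMap K (ℍ → ℂ) c₀ * jFn ^ (a + 1)
    have hs' : s' ∈ modRing N K :=
      sub_mem hs (mul_mem (Subalgebra.algebraMap_mem _ _)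
        (pow_mem (Algebra.subset_adjoin (jFn_mem_genSet N)) _))
    have hs'inv : ∀ (γ : SL(2, ℤ)) (τ : ℍ), s' (γ • τ) = s' τ := fun γ τ => by
      simp only [s', Pi.sub_apply, Pi.mul_apply, Pi.pow_apply, Pi.algebraMap_apply, hsinv, jFn_smul]
    have hE : ∀ τ : ℍ, algebraMap K ℂ c₀ * jFn τ ^ (a + 1) * ModularForm.discriminant τ ^ (a + 1) =
        algebraMap K ℂ c₀ * ModularForm.E₄ τ ^ (3 * (a + 1)) := fun τ => by
      rw [mul_assoc, ← mul_pow, jFn, div_mul_cancel₀ _ (ModularForm.discriminant_ne_zero τ),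
        ← pow_mul]
    let F : ℍ → ℂ := fun τ => s' τ * ModularForm.discriminant τ ^ (a + 1)
    have hE4b : UpperHalfPlane.IsBoundedAtImInfty (fun τ : ℍ => ModularForm.E₄ τ ^ (3 * (a + 1))) :=
      UpperHalfPlane.isBoundedAtImInfty_of_hasSum_qExpansion one_pos (qExp_E₄.pow _)
    have hFb : UpperHalfPlane.IsBoundedAtImInfty F := by
      refine (hb.sub (hE4b.const_mul_left (algebraMap K ℂ c₀))).congr_left fun τ => ?_
      rw [← hE τ]
      simp only [F, s', Pi.sub_apply, Pi.mul_apply, Pi.pow_apply, Pi.algebraMap_apply]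
      ring
    obtain ⟨g, hg, -⟩ := hform (a + 1) s' hs' hs'inv hFb
    have hg0 : (UpperHalfPlane.qExpansion 1 ⇑g).coeff 0 = 0 := by
      have h1 : QExp 1 ⇑g (UpperHalfPlane.qExpansion 1 ⇑f +
          (- (PowerSeries.C (algebraMap K ℂ c₀) *
            (ModularCurve.eisenstein4.map (Int.castRingHom ℂ)) ^ (3 * (a + 1))))) := by
        refine (QExp.add (fun τ => ModularForm.hasSum_qExpansion f one_pos one_mem_strictPeriods_SL τ)
          (((qExp_E₄.pow (3 * (a + 1))).const_mul (algebraMap K ℂ c₀)).neg)).congr fun τ => ?_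
        simp only [Pi.add_apply, Pi.neg_apply, Pi.pow_apply, ← hE τ, hf, hg, s', Pi.sub_apply,
          Pi.mul_apply, Pi.algebraMap_apply]
        ring
      have h2 : QExp 1 ⇑g (UpperHalfPlane.qExpansion 1 ⇑g) :=
        fun τ => ModularForm.hasSum_qExpansion g one_pos one_mem_strictPeriods_SL τ
      rw [h2.unique one_pos h1, map_add, map_neg, hc₀,
        ← hc₀, PowerSeries.coeff_C_mul]
      rw [← map_pow (PowerSeries.map (Int.castRingHom ℂ)), PowerSeries.coeff_map,
        PowerSeries.coeff_zero_eq_constantCoeff, map_pow, ModularCurve.constantCoeff_eisenstein4]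
      simp
    have hdecay := CuspForm.exp_decay_isBigO_discriminant (ModularForm.toCuspForm g hg0)
    have hs'b : UpperHalfPlane.IsBoundedAtImInfty
        (fun τ => s' τ * ModularForm.discriminant τ ^ a) := by
      have := hdecay.mul (Asymptotics.isBigO_refl (fun τ => (ModularForm.discriminant τ)⁻¹)
        UpperHalfPlane.atImInfty)
      refine (this.congr (fun τ => ?_) fun τ => mul_inv_cancel₀
        (ModularForm.discriminant_ne_zero τ)).trans
        (Asymptotics.isBigO_of_le _ fun τ => by simp)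
      show (⇑g) τ * _ = _
      rw [hg]
      simp only [pow_succ, ← mul_assoc]
      rw [mul_assoc _ (ModularForm.discriminant τ),
        mul_inv_cancel₀ (ModularForm.discriminant_ne_zero τ), mul_one]
    have := ih s' hs' hs'inv hs'b
    have hs_eq : s = s' + algebraMap K (ℍ → ℂ) c₀ * jFn ^ (a + 1) := (sub_add_cancel _ _).symm
    rw [hs_eq]
    exact add_mem this (mul_mem (Subalgebra.algebraMap_mem _ _)
      (pow_mem (Algebra.subset_adjoin (Set.mem_singleton _)) _))

end Fermat.Agent.MCurve
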