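import Fermat.Agent.MCurve.FibreCount
import Fermat.Agent.Period.JInjective
import Mathlib.Analysis.Analytic.IsolatedZeros
import Mathlib.Analysis.Complex.CauchyIntegral

/-!
Places of the field of modular functions attached to points of the upper half plane.
-/

noncomputable section

namespace Fermat.Agent.MCurve

open AlgebraicCurve IntermediateField CongruenceSubgroup UpperHalfPlane Filter Topology
open scoped MatrixGroups Pointwise Real

local notation "𝕢" => Function.Periodic.qParam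

theorem analyticAt_of_differentiableOn {F : ℍ → ℂ}
    (h : DifferentiableOn ℂ (F ∘ ofComplex) {z : ℂ | 0 < z.im}) (τ : ℍ) :
    AnalyticAt ℂ (F ∘ ofComplex) (τ : ℂ) :=
  h.analyticAt (isOpen_upperHalfPlaneSet.mem_nhds τ.im_pos)

/-- Surjectivity of `j`. -/
theorem exists_jFn_eq (c : ℂ) : ∃ τ : ℍ, jFn τ = c := by
  by_contra hne
  push Not at hne
  set s : ℍ → ℂ := fun τ => (jFn τ - c)⁻¹ with hs
  have hol : DifferentiableOn ℂ (s ∘ ofComplex) {z : ℂ | 0 < z.im} :=
    ((UpperHalfPlane.mdifferentiable_iff.mp mdifferentiable_jFn).sub_const c).inv fun z _ =>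
      sub_ne_zero.mpr (hne _)
  have hinv : ∀ (γ : SL(2, ℤ)) (τ : ℍ), s (γ • τ) = denom γ (τ : ℂ) ^ (0 : ℤ) * s τ :=
    fun γ τ => by simp only [hs, jFn_smul, zpow_zero, one_mul]
  have hq0 : Tendsto (fun τ : ℍ => 𝕢 1 (τ : ℂ)) atImInfty (𝓝 0) :=
    qParam_tendsto_atImInfty one_pos
  have hqj : Tendsto (fun τ : ℍ => 𝕢 1 (τ : ℂ) * (jFn τ - c)) atImInfty (𝓝 (1 - 0 * c)) := by
    have h1 : Tendsto (fun τ : ℍ => 𝕢 1 (τ : ℂ) * jFn τ) atImInfty (𝓝 1) := by
      have hE : Tendsto (fun τ : ℍ => ModularForm.E₄ τ ^ 3) atImInfty (𝓝 1) := by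
        simpa using Fermat.Agent.Period.tendsto_E4.pow 3
      have hη : Tendsto (fun τ : ℍ => etaFn (𝕢 1 (τ : ℂ)) ^ 24) atImInfty (𝓝 1) := by
        have hd : Tendsto (fun τ : ℍ => ModularForm.discriminant τ / 𝕢 1 (τ : ℂ)) atImInfty
            (𝓝 1) := ModularForm.tendsto_atImInfty_tprod_one_sub_eta_q_pow.congr fun τ => by
          rw [ModularForm.discriminant_eq_q_prod]
          field_simp [Function.Periodic.qParam_ne_zero]
        refine hd.congr fun τ => ?_
        rw [discriminant_eq_qParam_mul]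
        field_simp [Function.Periodic.qParam_ne_zero]
      have hdiv := hE.div hη one_ne_zero
      rw [div_one] at hdiv
      refine hdiv.congr fun τ => ?_
      rw [jFn, discriminant_eq_qParam_mul]
      have := etaFn_ne_zero τ
      show ModularForm.E₄ τ ^ 3 / etaFn (𝕢 1 (τ : ℂ)) ^ 24 = _
      field_simp [Function.Periodic.qParam_ne_zero]
    exact (h1.sub (hq0.mul_const c)).congr fun τ => by ring
  have hs0 : Tendsto s atImInfty (𝓝 0) := by
    have := hq0.div hqj (by simp)
    rw [zero_div] at this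
    refine this.congr fun τ => ?_
    simp only [hs, Pi.div_apply]
    field_simp [Function.Periodic.qParam_ne_zero]
  have hb : IsBoundedAtImInfty s :=
    IsZeroAtImInfty.isBoundedAtImInfty hs0
  obtain ⟨a, ha⟩ := ModularFormClass.levelOne_weight_zero_const (levelOneForm s hol hinv hb)
  refine jFn_ne_const (a⁻¹ + c) (funext fun τ => ?_)
  have h2 := congrFun ha τ
  change s τ = a at h2
  rw [← h2, hs]
  simp only [inv_inv, sub_add_cancel]

variable (N : ℕ) [NeZero N] (K : Type*) [Field K] [Algebra K ℂ] [IsAlgClosed K] [CharZero K]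

/-- The vanishing order at `τ` of an element of the ring. -/
def ordAt (τ : ℍ) (a : modRing N K) : ℤ :=
  (analyticOrderNatAt ((a : ℍ → ℂ) ∘ ofComplex) (τ : ℂ) : ℤ)

variable {N K}

theorem analyticAt_modRing (a : modRing N K) (τ : ℍ) :
    AnalyticAt ℂ ((a : ℍ → ℂ) ∘ ofComplex) (τ : ℂ) :=
  analyticAt_of_differentiableOn (mdifferentiable_of_mem a.2) τ

theorem analyticOrderAt_ne_top' {a : modRing N K} (ha : a ≠ 0) (τ : ℍ) :
    analyticOrderAt ((a : ℍ → ℂ) ∘ ofComplex) (τ : ℂ) ≠ ⊤ := by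
  intro htop
  rw [analyticOrderAt_eq_top] at htop
  refine ha (Subtype.ext (funext fun z => ?_))
  have hEq : Set.EqOn ((a : ℍ → ℂ) ∘ ofComplex) 0 {w : ℂ | 0 < w.im} :=
    AnalyticOnNhd.eqOn_zero_of_preconnected_of_eventuallyEq_zero
      (fun w hw => by simpa using analyticAt_modRing a ⟨w, hw⟩)
      (convex_halfSpace_im_gt 0).isPreconnected τ.im_pos htop
  have := hEq z.im_pos
  simpa using this

/-- The place attached to a point, with its order function. -/
theorem exists_point_place_order (τ : ℍ) (c : K) (hτ : jFn τ = algebraMap K ℂ c) :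
    ∃ (P : Place K (ModFld N K)) (k : ℤ), 0 < k ∧
      (∀ a : modRing N K, a ≠ 0 →
        ordAt N K τ a = P.ord (algebraMap (modRing N K) (ModFld N K) a) * k) ∧
      0 < P.ord (jL N K - algebraMap K (ModFld N K) c) ∧
      P.ord (jL N K - algebraMap K (ModFld N K) c) ≤
        analyticOrderNatAt ((fun z => jFn z - algebraMap K ℂ c) ∘ ofComplex) (τ : ℂ) ∧
      ∀ γ : SL(2, ℤ), γ • τ = τ → fldAct N K γ • P = P := by
  set b : modRing N K :=
    ⟨jFn, Algebra.subset_adjoin (jFn_mem_genSet N)⟩ - algebraMap K (modRing N K) c with hb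
  have hbfun : (b : ℍ → ℂ) = fun z => jFn z - algebraMap K ℂ c := rfl
  have hbL : algebraMap (modRing N K) (ModFld N K) b = jL N K - algebraMap K (ModFld N K) c := by
    rw [hb, map_sub, ← IsScalarTower.algebraMap_apply]; rfl
  have hb0 : b ≠ 0 := fun h => transcendental_jL N K (by
    have h2 := congrArg (algebraMap (modRing N K) (ModFld N K)) h
    rw [hbL, map_zero, sub_eq_zero] at h2
    rw [h2]; exact isAlgebraic_algebraMap c)
  have hmul : ∀ {x y : modRing N K}, x ≠ 0 → y ≠ 0 →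
      ordAt N K τ (x * y) = ordAt N K τ x + ordAt N K τ y := fun {x y} hx hy => by
    simp only [ordAt]
    exact_mod_cast analyticOrderNatAt_mul (analyticAt_modRing x τ) (analyticAt_modRing y τ)
      (analyticOrderAt_ne_top' hx τ) (analyticOrderAt_ne_top' hy τ)
  have hadd : ∀ {x y : modRing N K}, x ≠ 0 → y ≠ 0 → x + y ≠ 0 →
      min (ordAt N K τ x) (ordAt N K τ y) ≤ ordAt N K τ (x + y) := fun {x y} hx hy hxy => by
    have h := le_analyticOrderAt_add (f := (x : ℍ → ℂ) ∘ ofComplex)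
      (g := (y : ℍ → ℂ) ∘ ofComplex) (z₀ := (τ : ℂ))
    rw [← Nat.cast_analyticOrderNatAt (analyticOrderAt_ne_top' hx τ),
      ← Nat.cast_analyticOrderNatAt (analyticOrderAt_ne_top' hy τ),
      show (x : ℍ → ℂ) ∘ ofComplex + (y : ℍ → ℂ) ∘ ofComplex =
        ((x + y : modRing N K) : ℍ → ℂ) ∘ ofComplex from rfl,
      ← Nat.cast_analyticOrderNatAt (analyticOrderAt_ne_top' hxy τ)] at h
    simp only [ordAt]
    have h' : min (analyticOrderNatAt ((x : ℍ → ℂ) ∘ ofComplex) (τ : ℂ))
        (analyticOrderNatAt ((y : ℍ → ℂ) ∘ ofComplex) (τ : ℂ)) ≤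
        analyticOrderNatAt (((x + y : modRing N K) : ℍ → ℂ) ∘ ofComplex) (τ : ℂ) := by
      rcases min_le_iff.mp h with h1 | h1
      · exact (min_le_left _ _).trans (by exact_mod_cast h1)
      · exact (min_le_right _ _).trans (by exact_mod_cast h1)
    omega
  have hK : ∀ k : K, k ≠ 0 → ordAt N K τ (algebraMap K (modRing N K) k) = 0 := fun k hk => by
    simp only [ordAt, analyticOrderNatAt]
    rw [show ((algebraMap K (modRing N K) k : modRing N K) : ℍ → ℂ) ∘ ofComplex =
      fun _ : ℂ => algebraMap K ℂ k from rfl, analyticOrderAt_eq_zero.mpr (Or.inr (by simpa using hk))]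
    rfl
  have hbpos : 0 < ordAt N K τ b := by
    simp only [ordAt, Nat.cast_pos]
    refine Nat.pos_of_ne_zero fun h0 => ?_
    have h1 := Nat.cast_analyticOrderNatAt (analyticOrderAt_ne_top' hb0 τ)
    rw [h0, Nat.cast_zero, eq_comm, analyticOrderAt_eq_zero] at h1
    rcases h1 with h1 | h1
    · exact h1 (analyticAt_modRing b τ)
    · exact h1 (by simp [hbfun, hτ])
  obtain ⟨P, hP1, hP2⟩ := (isFinOver_jL N K).exists_place_of_order (R := modRing N K) (ordAt N K τ)
    hmul hadd hK ⟨b, hb0, hbpos.ne'⟩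
  obtain ⟨k, hk, hkey⟩ := hP2
  have hb' := hkey b hb0
  have hp : 0 < P.ord (algebraMap (modRing N K) (ModFld N K) b) :=
    pos_of_mul_pos_left (hb' ▸ hbpos) hk.le
  have hle : P.ord (algebraMap (modRing N K) (ModFld N K) b) ≤ ordAt N K τ b := by nlinarith
  rw [hbL] at hp hle
  refine ⟨P, k, hk, hkey, hp, ?_, fun γ hγ => ?_⟩
  · simpa [ordAt, hbfun] using hle
  · have hle' : ∀ δ : SL(2, ℤ), δ • τ = τ → ∀ x : modRing N K, x ≠ 0 →
        ordAt N K τ x ≤ ordAt N K τ (ringAct N K δ⁻¹ x) := by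
      intro δ hδ x hx
      set g : ℂ → ℂ := fun z => ((δ • ofComplex z : ℍ) : ℂ) with hg
      have hga : AnalyticAt ℂ g (τ : ℂ) := by
        refine DifferentiableOn.analyticAt (fun z (hz : 0 < z.im) => ?_)
          (isOpen_upperHalfPlaneSet.mem_nhds τ.im_pos)
        have hd : (δ 1 0 : ℂ) * z + (δ 1 1 : ℂ) ≠ 0 := by
          have := denom_ne_zero (δ : GL (Fin 2) ℝ) (⟨z, hz⟩ : ℍ)
          rwa [ModularGroup.denom_apply] at this
        refine DifferentiableWithinAt.congr (f := fun w : ℂ =>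
          ((δ 0 0 : ℂ) * w + (δ 0 1 : ℂ)) / ((δ 1 0 : ℂ) * w + (δ 1 1 : ℂ))) ?_ (fun w hw => ?_) ?_
        · refine DifferentiableAt.differentiableWithinAt (DifferentiableAt.div ?_ ?_ hd) <;> fun_prop
        · simp only [hg, ofComplex_apply_of_im_pos (show 0 < w.im from hw),
            UpperHalfPlane.coe_specialLinearGroup_apply]
          simp
        · simp only [hg, ofComplex_apply_of_im_pos hz,
            UpperHalfPlane.coe_specialLinearGroup_apply]
          simp
      have hgτ : g (τ : ℂ) = (τ : ℂ) := by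
        show ((δ • ofComplex (τ : ℂ) : ℍ) : ℂ) = _
        rw [ofComplex_apply, hδ]
      have hcomp : ((ringAct N K δ⁻¹ x : modRing N K) : ℍ → ℂ) ∘ ofComplex =
          ((x : ℍ → ℂ) ∘ ofComplex) ∘ g := by
        funext z
        simp only [Function.comp_apply, coe_ringAct, inv_inv, hg, ofComplex_apply]
      have hxa := analyticAt_modRing x τ
      have hne : ringAct N K δ⁻¹ x ≠ 0 := by simpa using hx
      have h1 := AnalyticAt.analyticOrderAt_comp (f := (x : ℍ → ℂ) ∘ ofComplex) (g := g)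
        (z₀ := (τ : ℂ)) (by rw [hgτ]; exact hxa) hga
      rw [← hcomp, hgτ] at h1
      have h2 : (1 : ℕ∞) ≤ analyticOrderAt (fun z => g z - (τ : ℂ)) (τ : ℂ) := by
        rw [ENat.one_le_iff_ne_zero, analyticOrderAt_ne_zero]
        exact ⟨hga.sub analyticAt_const, by simp [hgτ]⟩
      have h3 : analyticOrderAt ((x : ℍ → ℂ) ∘ ofComplex) (τ : ℂ) ≤
          analyticOrderAt (((ringAct N K δ⁻¹ x : modRing N K) : ℍ → ℂ) ∘ ofComplex) (τ : ℂ) := by
        rw [h1]; exact le_mul_of_one_le_right zero_le h2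
      rw [← Nat.cast_analyticOrderNatAt (analyticOrderAt_ne_top' hx τ),
        ← Nat.cast_analyticOrderNatAt (analyticOrderAt_ne_top' hne τ)] at h3
      simp only [ordAt]
      exact_mod_cast h3
    have hinv : ∀ x : modRing N K, x ≠ 0 → ordAt N K τ (ringAct N K γ⁻¹ x) = ordAt N K τ x := by
      intro x hx
      refine le_antisymm ?_ (hle' γ hγ x hx)
      have := hle' γ⁻¹ (by rw [inv_smul_eq_iff, hγ]) (ringAct N K γ⁻¹ x) (by simpa using hx)
      rwa [inv_inv, ← AlgEquiv.mul_apply, ← map_mul, mul_inv_cancel, map_one,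
        AlgEquiv.one_apply] at this
    refine place_eq_of_le fun z hz => ?_
    rcases eq_or_ne z 0 with rfl | hz0
    · exact zero_mem _
    obtain ⟨x, y, hx, hy, rfl⟩ := exists_frac_ne_zero (R := modRing N K) hz0
    rw [mem_smul_toValuationSubring, ← map_inv, map_div₀, fldAct_algebraMap, fldAct_algebraMap,
      hP1 _ _ (by simpa using hx) (by simpa using hy), hinv x hx, hinv y hy] at hz
    exact (hP1 x y hx hy).mpr hz

/-- The place attached to a point. -/
theorem exists_point_place (τ : ℍ) (c : K) (hτ : jFn τ = algebraMap K ℂ c) :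
    ∃ P : Place K (ModFld N K),
      0 < P.ord (jL N K - algebraMap K (ModFld N K) c) ∧
      P.ord (jL N K - algebraMap K (ModFld N K) c) ≤
        analyticOrderNatAt ((fun z => jFn z - algebraMap K ℂ c) ∘ ofComplex) (τ : ℂ) ∧
      ∀ γ : SL(2, ℤ), γ • τ = τ → fldAct N K γ • P = P := by
  obtain ⟨P, -, -, -, h⟩ := exists_point_place_order (N := N) τ c hτ
  exact ⟨P, h⟩

end Fermat.Agent.MCurve
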